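/-
S55/E4 island LOC, package LOC-5 (= `Top.Stmt_I1` of `Top/Defs_PT.lean`, helper48): the local
inputs of the `K`-level counting argument at the prelude's local groups.
Sub-coordinator: helper68.  Plan: NOTES/plan/S55_LOC.md, section "LOC-5".

Setting: `Ω = PadicAlgCl q`, `G = Ω ≃ₐ[ℚ_[q]] Ω` (`= Gl q` of the prelude, up to unfolding),
`F` a finite intermediate field of `Ω/ℚ_q` containing a primitive `p`-th root of unity,
`Γ = F.fixingSubgroup = Gal(Ω/F)`.  Cochains on `Γ` with values in `ZMod p` (trivial action,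
`Top.tOne`, `Top.tTwo`), *locally level constant* = constant modulo the fixing subgroup of a
finite extension of `ℚ_q` (`IsLoc₁`, `IsLoc₂`).

Packages (each a standalone statement):
* `Stmt_L5_Krasner`  : level constancy in the prelude's sense (number fields) = `IsLoc`.
* `Stmt_L5_Places`   : the local groups `Γ_w` of a place system are `F_w.fixingSubgroup`,
                       `Σ_{w | q} [F_w : ℚ_q] = [K : ℚ]`.
* `Stmt_L5_Kummer`   : `#Hom_loc(Γ, 𝔽_p) = [Fˣ : Fˣᵖ]`.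
* `Stmt_L5_CupND`    : the cup product `H¹ × H¹ → H²` is nondegenerate.
* `Stmt_L5_H2Dim`    : `dim H² ≤ 1`.
Assembly: all of them + `CFT.Stmt_LocalPowIndex` ⟹ `Top.Stmt_I1`.
-/
import Fermat.Agent.S55.Top.Defs_PT
import Fermat.Agent.S55.CFT.Defs_LOC

set_option autoImplicit false

open CategoryTheory Module groupCohomology ExtCitation

noncomputable section

namespace Fermat.Agent.S55.CFT.LOC

open Fermat.Agent.S55 Fermat.Agent.S55.Top

section loc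

variable {q : ℕ} [Fact q.Prime]

/-- `f` is constant modulo the fixing subgroup of a finite extension of `ℚ_q`. -/
def IsLoc₁ (Γ : Subgroup (PadicAlgCl q ≃ₐ[ℚ_[q]] PadicAlgCl q)) {X : Type*} (f : ↥Γ → X) : Prop :=
  ∃ E : IntermediateField ℚ_[q] (PadicAlgCl q), FiniteDimensional ℚ_[q] E ∧
    ∀ g s : ↥Γ, (s : PadicAlgCl q ≃ₐ[ℚ_[q]] PadicAlgCl q) ∈ E.fixingSubgroup → f (g * s) = f g

/-- `f` is constant modulo the fixing subgroup of a finite extension of `ℚ_q`. -/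
def IsLoc₂ (Γ : Subgroup (PadicAlgCl q ≃ₐ[ℚ_[q]] PadicAlgCl q)) {X : Type*}
    (f : ↥Γ × ↥Γ → X) : Prop :=
  ∃ E : IntermediateField ℚ_[q] (PadicAlgCl q), FiniteDimensional ℚ_[q] E ∧
    ∀ g g' s s' : ↥Γ, (s : PadicAlgCl q ≃ₐ[ℚ_[q]] PadicAlgCl q) ∈ E.fixingSubgroup →
      (s' : PadicAlgCl q ≃ₐ[ℚ_[q]] PadicAlgCl q) ∈ E.fixingSubgroup →
      f (g * s, g' * s') = f (g, g')

end loc

/-- **L5-KR** (Krasner bridge).  (a) Every finite extension of `ℚ_q` inside `PadicAlgCl q` is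
contained in `ℚ_q(ι N)` for a number field `N` (Krasner's lemma, Mathlib `IsKrasner`, +
approximation of the minimal polynomial by a rational polynomial); in terms of fixing subgroups.
(b) The easy converse. -/
def Stmt_L5_Krasner : Prop :=
  ∀ (q : ℕ) [Fact q.Prime],
    (∀ E : IntermediateField ℚ_[q] (PadicAlgCl q), FiniteDimensional ℚ_[q] E →
      ∃ N : IntermediateField ℚ (AlgebraicClosure ℚ), FiniteDimensional ℚ N ∧
        ∀ s : PadicAlgCl q ≃ₐ[ℚ_[q]] PadicAlgCl q,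
          localGaloisToGlobal q s ∈ N.fixingSubgroup → s ∈ E.fixingSubgroup) ∧
    (∀ N : IntermediateField ℚ (AlgebraicClosure ℚ), FiniteDimensional ℚ N →
      ∃ E : IntermediateField ℚ_[q] (PadicAlgCl q), FiniteDimensional ℚ_[q] E ∧
        ∀ s : PadicAlgCl q ≃ₐ[ℚ_[q]] PadicAlgCl q,
          s ∈ E.fixingSubgroup → localGaloisToGlobal q s ∈ N.fixingSubgroup)

/-- **L5-PL** (places).  For a base field `K` and a place system: the local group `Γ_w` is the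
fixing subgroup of a finite extension `F_w` of `ℚ_q` (`= ℚ_q(ι_q(σ_w K))`), which contains a
primitive `p`-th root of unity, and `Σ_{w | q} [F_w : ℚ_q] = [K : ℚ]`
(orbit–stabiliser: `[F_w : ℚ_q] = [Gl q : Γ_w]` is the size of the orbit of `w`). -/
def Stmt_L5_Places : Prop :=
  ∀ (p : ℕ) [Fact p.Prime] (S : Finset Nat.Primes)
    (K : IntermediateField ℚ (AlgebraicClosure ℚ)), IsBaseField S p K →
    ∀ 𝔓 : PlaceSys S K, ∀ q : ↥S,
      haveI : Fact ((q.1 : ℕ)).Prime := ⟨q.1.2⟩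
      ∃ F : 𝔓.W q → IntermediateField ℚ_[(q.1 : ℕ)] (PadicAlgCl (q.1 : ℕ)),
        (∀ w, FiniteDimensional ℚ_[(q.1 : ℕ)] ↥(F w)) ∧
        (∀ w, ∀ h : PadicAlgCl (q.1 : ℕ) ≃ₐ[ℚ_[(q.1 : ℕ)]] PadicAlgCl (q.1 : ℕ),
          h ∈ (F w).fixingSubgroup ↔ (show Gl q.1 from h) ∈ 𝔓.Γw q w) ∧
        (∀ w, ∃ ζ : PadicAlgCl (q.1 : ℕ), ζ ∈ F w ∧ IsPrimitiveRoot ζ p) ∧
        @Finset.sum (𝔓.W q) ℕ _ (@Finset.univ _ (𝔓.fin q))
          (fun w => Module.finrank ℚ_[(q.1 : ℕ)] ↥(F w)) = Module.finrank ℚ ↥K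

/-- **L5-KUM** (Kummer theory): the locally level constant homomorphisms `Gal(Ω/F) → 𝔽_p` are
in bijection with `Fˣ/Fˣᵖ` (`a ↦ (σ ↦ σ(α)/α)`, `α^p = a`, `μ_p ≅ 𝔽_p`); here only the count. -/
def Stmt_L5_Kummer : Prop :=
  ∀ (q : ℕ) [Fact q.Prime] (p : ℕ) [Fact p.Prime] (F : IntermediateField ℚ_[q] (PadicAlgCl q)),
    FiniteDimensional ℚ_[q] ↥F → (∃ ζ : PadicAlgCl q, ζ ∈ F ∧ IsPrimitiveRoot ζ p) →
    Nat.card {χ : ↥F.fixingSubgroup → ZMod p //
        tOne χ = 0 ∧ IsLoc₁ F.fixingSubgroup χ} =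
      (powMonoidHom p : (↥F)ˣ →* (↥F)ˣ).range.index

/-- **L5-ND** (nondegeneracy of the local cup product = of the Hilbert symbol): for a nonzero
`g ∈ H¹(F, 𝔽_p)` there is `b ∈ H¹(F, 𝔽_p)` with `g ∪ b ≠ 0` in `H²(F, 𝔽_p)`.
(`E_g` = the cyclic extension cut out by `g`; `β ∈ Fˣ` not a norm from `E_g` (LOC-3);
`b` = the Kummer character of `β`; `b ∪ g ~ −(cyclic cocycle of (g, β))`, which is not a
coboundary in `Ωˣ` by inflation injectivity + `H68.exists_norm_of_isCoboundary₂`;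
`g ∪ b + b ∪ g = −d(g·b)`.) -/
def Stmt_L5_CupND : Prop :=
  ∀ (q : ℕ) [Fact q.Prime] (p : ℕ) [Fact p.Prime] (F : IntermediateField ℚ_[q] (PadicAlgCl q)),
    FiniteDimensional ℚ_[q] ↥F → (∃ ζ : PadicAlgCl q, ζ ∈ F ∧ IsPrimitiveRoot ζ p) →
    ∀ g : ↥F.fixingSubgroup → ZMod p, tOne g = 0 → IsLoc₁ F.fixingSubgroup g → g ≠ 0 →
      ∃ b : ↥F.fixingSubgroup → ZMod p, tOne b = 0 ∧ IsLoc₁ F.fixingSubgroup b ∧
        ¬ ∃ f : ↥F.fixingSubgroup → ZMod p, IsLoc₁ F.fixingSubgroup f ∧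
          tOne f = fun t : ↥F.fixingSubgroup × ↥F.fixingSubgroup => g t.1 * b t.2

/-- **L5-H2** (`dim H²(F, 𝔽_p) ≤ 1`): two locally level constant 2-cocycles are linearly
dependent modulo coboundaries.  (`H²(F, μ_p) ↪ Br(F)[p]` by Hilbert 90 + Kummer sequence;
`H²(Gal(E/F), Eˣ)[p]` is cyclic: Sylow + `cor ∘ res` + LOC-4f'.) -/
def Stmt_L5_H2Dim : Prop :=
  ∀ (q : ℕ) [Fact q.Prime] (p : ℕ) [Fact p.Prime] (F : IntermediateField ℚ_[q] (PadicAlgCl q)),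
    FiniteDimensional ℚ_[q] ↥F → (∃ ζ : PadicAlgCl q, ζ ∈ F ∧ IsPrimitiveRoot ζ p) →
    ∀ c c' : ↥F.fixingSubgroup × ↥F.fixingSubgroup → ZMod p,
      tTwo c = 0 → IsLoc₂ F.fixingSubgroup c → tTwo c' = 0 → IsLoc₂ F.fixingSubgroup c' →
      ∃ α β : ZMod p, (α ≠ 0 ∨ β ≠ 0) ∧
        ∃ f : ↥F.fixingSubgroup → ZMod p, IsLoc₁ F.fixingSubgroup f ∧
          tOne f = α • c + β • c'

/-- **L5-H2a** (finite level input of L5-H2): for every finite Galois extension `E/F` of local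
fields (ANY Galois group), the `p`-torsion of `H²(Gal(E/F), Eˣ)` is cyclic (of order `≤ p`):
two `p`-torsion classes are linearly dependent modulo `p`.
(Sylow `p`-subgroup `P`; `res_P` is injective on `p`-torsion by `H58.stmt_CorRes`;
`H²(P, Eˣ) ≅ H²(Gal(E/E^P), Eˣ)` is cyclic by `Stmt_LocalH2CyclicP`.) -/
def Stmt_BrauerPTors : Prop :=
  ∀ (q : ℕ) [Fact q.Prime] (p : ℕ) [Fact p.Prime] (F E : Type) [Field F] [Field E]
    [Algebra ℚ_[q] F] [FiniteDimensional ℚ_[q] F] [Algebra F E] [FiniteDimensional F E]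
    [IsGalois F E],
    ∀ x y : groupCohomology (unitsRep F E) 2, (p : ℤ) • x = 0 → (p : ℤ) • y = 0 →
      ∃ a b : ℤ, (¬ (p : ℤ) ∣ a ∨ ¬ (p : ℤ) ∣ b) ∧ a • x + b • y = 0

end Fermat.Agent.S55.CFT.LOC

end
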