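/-
S55/E4 island LOC, package L5-PL (helper45): the local groups of a place system are fixing
subgroups of finite extensions `F_w` of `ℚ_q`, and `Σ_w [F_w : ℚ_q] = [K : ℚ]`.
-/
import Fermat.Agent.S55.CFT.LOC.Defs_L5
import Fermat.Agent.S55.Top.PlaceEx

set_option autoImplicit false
set_option linter.style.haveILetI false

open Module

noncomputable section

namespace Fermat.Agent.S55.CFT.LOC.H45P

open Fermat.Agent.S55 Fermat.Agent.S55.Top

/-! ### Orbit counting -/

section orbit

variable {Γ : Type} [Group Γ] {X : Type} [MulAction Γ X] {R : Type}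

/-- A point lies in the orbit of the representative of its orbit. -/
theorem mem_orbit_rep (D : OrbitData Γ X R) (x : X) : x ∈ MulAction.orbit Γ (D.rep (D.o x)) :=
  ⟨D.t x, D.t_smul x⟩

theorem o_eq_of_mem_orbit (D : OrbitData Γ X R) {x : X} {r : R}
    (h : x ∈ MulAction.orbit Γ (D.rep r)) : D.o x = r := by
  obtain ⟨γ, rfl⟩ := h
  rw [D.o_smul, D.o_rep]

/-- `X` is the disjoint union of the orbits of the representatives. -/
def sigmaOrbit (D : OrbitData Γ X R) : X ≃ Σ r : R, MulAction.orbit Γ (D.rep r) where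
  toFun x := ⟨D.o x, x, mem_orbit_rep D x⟩
  invFun s := s.2.1
  left_inv _ := rfl
  right_inv s := by
    obtain ⟨r, x, hx⟩ := s
    have h := o_eq_of_mem_orbit D hx
    subst h
    rfl

theorem card_eq_sum_index [Finite X] [Fintype R] (D : OrbitData Γ X R) :
    Nat.card X = ∑ r : R, (MulAction.stabilizer Γ (D.rep r)).index := by
  rw [Nat.card_congr (sigmaOrbit D), Nat.card_sigma]
  refine Finset.sum_congr rfl fun r _ => ?_
  rw [MulAction.index_stabilizer]
  exact (Nat.card_coe_set_eq _)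

end orbit


/-! ### The local field `ℚ_q(ι_q(σ K))` -/

section locfield

variable (q : ℕ) [Fact q.Prime] (K : IntermediateField ℚ (AlgebraicClosure ℚ)) (σ : GQ)

/-- `ℚ_q(ι_q(σ K))`. -/
def Floc : IntermediateField ℚ_[q] (PadicAlgCl q) :=
  IntermediateField.adjoin ℚ_[q]
    ((fun x : AlgebraicClosure ℚ => padicEmbedding q (σ x)) '' (K : Set (AlgebraicClosure ℚ)))

theorem mem_Floc {x : AlgebraicClosure ℚ} (hx : x ∈ K) : padicEmbedding q (σ x) ∈ Floc q K σ :=
  IntermediateField.subset_adjoin _ _ ⟨x, hx, rfl⟩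

theorem mem_fixingSubgroup_Floc (h : PadicAlgCl q ≃ₐ[ℚ_[q]] PadicAlgCl q) :
    h ∈ (Floc q K σ).fixingSubgroup ↔
      σ⁻¹ * localGaloisToGlobal q h * σ ∈ K.fixingSubgroup := by
  rw [IntermediateField.mem_fixingSubgroup_iff, IntermediateField.mem_fixingSubgroup_iff]
  constructor
  · intro hh x hx
    have h1 := hh _ (mem_Floc q K σ hx)
    rw [← padicEmbedding_localGaloisToGlobal] at h1
    have h2 : localGaloisToGlobal q h (σ x) = σ x := (padicEmbedding q).injective h1
    show σ⁻¹ (localGaloisToGlobal q h (σ x)) = x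
    rw [h2]
    exact σ.symm_apply_apply x
  · intro hh
    have hle : Floc q K σ ≤ IntermediateField.fixedField (Subgroup.zpowers h) := by
      refine IntermediateField.adjoin_le_iff.2 ?_
      rintro _ ⟨x, hx, rfl⟩
      rintro ⟨g, hg⟩
      obtain ⟨n, rfl⟩ := Subgroup.mem_zpowers_iff.1 hg
      have h1 : σ⁻¹ (localGaloisToGlobal q h (σ x)) = x := hh x hx
      have h2 : localGaloisToGlobal q h (σ x) = σ x := by
        have := congrArg σ h1
        rwa [show σ (σ⁻¹ (localGaloisToGlobal q h (σ x))) = localGaloisToGlobal q h (σ x) from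
          σ.apply_symm_apply _] at this
      have h3 : h (padicEmbedding q (σ x)) = padicEmbedding q (σ x) := by
        rw [← padicEmbedding_localGaloisToGlobal, h2]
      have h4 : h • (padicEmbedding q (σ x)) = padicEmbedding q (σ x) := h3
      show (h ^ n) • (padicEmbedding q (σ x)) = padicEmbedding q (σ x)
      exact (MulAction.mem_stabilizer_iff.1
        ((MulAction.stabilizer _ (padicEmbedding q (σ x))).zpow_mem
          (MulAction.mem_stabilizer_iff.2 h4) n))
    intro y hy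
    exact hle hy ⟨h, Subgroup.mem_zpowers h⟩

theorem finiteDimensional_Floc [FiniteDimensional ℚ K] :
    FiniteDimensional ℚ_[q] (Floc q K σ) := by
  classical
  let b := Module.finBasis ℚ K
  let T : Set (PadicAlgCl q) :=
    Set.range (fun i => padicEmbedding q (σ ((b i : K) : AlgebraicClosure ℚ)))
  have : Finite T := Set.finite_coe_iff.2 (Set.finite_range _)
  have hT : FiniteDimensional ℚ_[q] (IntermediateField.adjoin ℚ_[q] T) :=
    IntermediateField.finiteDimensional_adjoin (fun x _ => Algebra.IsIntegral.isIntegral x)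
  have hle : Floc q K σ ≤ IntermediateField.adjoin ℚ_[q] T := by
    refine IntermediateField.adjoin_le_iff.2 ?_
    rintro _ ⟨x, hx, rfl⟩
    have hx' : x = ∑ i, (b.repr ⟨x, hx⟩ i) • ((b i : K) : AlgebraicClosure ℚ) := by
      have h1 := b.sum_repr ⟨x, hx⟩
      have h2 := congrArg (fun y : K => (y : AlgebraicClosure ℚ)) h1
      simp only [IntermediateField.coe_sum, IntermediateField.coe_smul] at h2
      exact h2.symm
    show padicEmbedding q (σ x) ∈ IntermediateField.adjoin ℚ_[q] T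
    rw [hx']
    simp only [map_sum]
    refine sum_mem fun i _ => ?_
    rw [Algebra.smul_def, map_mul, map_mul]
    refine mul_mem ?_ (IntermediateField.subset_adjoin _ _ ⟨i, rfl⟩)
    rw [eq_ratCast, map_ratCast, map_ratCast]
    exact SubfieldClass.ratCast_mem _ _
  exact Module.Finite.of_injective (IntermediateField.inclusion hle).toLinearMap
    (IntermediateField.inclusion_injective hle)

end locfield

/-! ### The statement -/

section main

attribute [local instance] locAct

variable {S : Finset Nat.Primes} {K : IntermediateField ℚ (AlgebraicClosure ℚ)}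

theorem Γw_eq_stabilizer (𝔓 : PlaceSys S K) (q : ↥S) (w : 𝔓.W q) :
    𝔓.Γw q w = MulAction.stabilizer (Gl q.1) ((𝔓.loc q).rep w) := by
  ext h
  exact Iff.rfl

theorem card_XK [FiniteDimensional ℚ K] : Nat.card (XK K) = Module.finrank ℚ K := by
  haveI := h49_qbar_isGalois
  rw [IntermediateField.finrank_eq_fixingSubgroup_index]
  rfl

theorem mem_Γw_iff (𝔓 : PlaceSys S K) (q : ↥S) (w : 𝔓.W q) (h : Gl q.1) :
    h ∈ 𝔓.Γw q w ↔ (𝔓.σ q w)⁻¹ * rl q.1 h * 𝔓.σ q w ∈ K.fixingSubgroup := by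
  constructor
  · intro hh
    exact 𝔓.conj_mem q w ⟨h, hh⟩
  · intro hh
    have h1 := smul_x0_of_mem_fix hh
    rw [mul_smul, mul_smul, 𝔓.σ_smul, inv_smul_eq_iff, 𝔓.σ_smul] at h1
    exact h1

/-- **L5-PL**. -/
theorem stmt_L5_Places : Stmt_L5_Places := by
  intro p _ S K hK 𝔓 q
  haveI : Fact ((q.1 : ℕ)).Prime := ⟨q.1.2⟩
  haveI : FiniteDimensional ℚ K := hK.1.1
  have hmem : ∀ w, ∀ h : PadicAlgCl (q.1 : ℕ) ≃ₐ[ℚ_[(q.1 : ℕ)]] PadicAlgCl (q.1 : ℕ),
      h ∈ (Floc (q.1 : ℕ) K (𝔓.σ q w)).fixingSubgroup ↔ (show Gl q.1 from h) ∈ 𝔓.Γw q w := by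
    intro w h
    rw [mem_fixingSubgroup_Floc, mem_Γw_iff]
    exact Iff.rfl
  refine ⟨fun w => Floc (q.1 : ℕ) K (𝔓.σ q w), fun w => finiteDimensional_Floc _ _ _, hmem,
    ?_, ?_⟩
  · intro w
    obtain ⟨ζ, hζK, hζ⟩ := hK.2
    refine ⟨_, mem_Floc (q.1 : ℕ) K (𝔓.σ q w) hζK, ?_⟩
    exact (hζ.map_of_injective (f := (𝔓.σ q w)) (𝔓.σ q w).injective).map_of_injective
      (f := padicEmbedding (q.1 : ℕ)) (padicEmbedding (q.1 : ℕ)).injective
  · letI : Fintype (𝔓.W q) := 𝔓.fin q
    haveI : Finite (XK K) := finite_XK hK.1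
    rw [← card_XK, card_eq_sum_index (𝔓.loc q)]
    refine Finset.sum_congr rfl fun w _ => ?_
    rw [IntermediateField.finrank_eq_fixingSubgroup_index, ← Γw_eq_stabilizer]
    have h1 : (Floc (q.1 : ℕ) K (𝔓.σ q w)).fixingSubgroup =
        (show Subgroup (PadicAlgCl (q.1 : ℕ) ≃ₐ[ℚ_[(q.1 : ℕ)]] PadicAlgCl (q.1 : ℕ)) from
          𝔓.Γw q w) := Subgroup.ext (hmem w)
    rw [h1]
    rfl

end main

end Fermat.Agent.S55.CFT.LOC.H45P
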