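/-
S55/E4 island LOC, package L5-KUM (helper45): Kummer theory at the local groups,
`#Hom_loc(Gal(Ω/F), 𝔽_p) = [Fˣ : Fˣᵖ]`.
-/
import Fermat.Agent.S55.CFT.LOC.Defs_L5

set_option autoImplicit false

open Module

noncomputable section

namespace Fermat.Agent.S55.CFT.LOC.H45

open Fermat.Agent.S55 Fermat.Agent.S55.Top

/-! ### Powers of a primitive root indexed by `ZMod p` -/

section ze

set_option linter.unusedSectionVars false
set_option linter.style.haveILetI false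

variable {Ω : Type*} [Field Ω] {p : ℕ} [Fact p.Prime]

/-- `ze ζ j = ζ ^ j`, `j ∈ ZMod p`. -/
def ze (ζ : Ω) (j : ZMod p) : Ω := ζ ^ j.val

theorem ze_zero (ζ : Ω) : ze ζ (0 : ZMod p) = 1 := by
  simp [ze]

theorem ze_add {ζ : Ω} (hζ : IsPrimitiveRoot ζ p) (i j : ZMod p) :
    ze ζ (i + j) = ze ζ i * ze ζ j := by
  unfold ze
  rw [← pow_add, ZMod.val_add]
  have h : ζ ^ ((i.val + j.val) % p) = ζ ^ ((i.val + j.val) % orderOf ζ) := by
    rw [← hζ.eq_orderOf]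
  rw [h, pow_mod_orderOf]

theorem ze_ne_zero {ζ : Ω} (hζ : IsPrimitiveRoot ζ p) (j : ZMod p) : ze ζ j ≠ 0 :=
  pow_ne_zero _ (hζ.ne_zero (Fact.out : p.Prime).ne_zero)

theorem ze_pow {ζ : Ω} (hζ : IsPrimitiveRoot ζ p) (j : ZMod p) : ze ζ j ^ p = 1 := by
  unfold ze
  rw [← pow_mul, mul_comm, pow_mul, hζ.pow_eq_one, one_pow]

theorem ze_injective {ζ : Ω} (hζ : IsPrimitiveRoot ζ p) :
    Function.Injective (ze (p := p) ζ) := by
  intro i j h
  have := hζ.pow_inj (ZMod.val_lt i) (ZMod.val_lt j) h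
  exact ZMod.val_injective p this

theorem exists_ze_eq {ζ : Ω} (hζ : IsPrimitiveRoot ζ p) {ξ : Ω} (hξ : ξ ^ p = 1) :
    ∃ j : ZMod p, ze ζ j = ξ := by
  haveI : NeZero p := ⟨(Fact.out : p.Prime).ne_zero⟩
  obtain ⟨i, hi, h⟩ := hζ.eq_pow_of_pow_eq_one hξ
  refine ⟨(i : ZMod p), ?_⟩
  unfold ze
  rw [ZMod.val_natCast_of_lt hi, h]

theorem ze_eq_one_iff {ζ : Ω} (hζ : IsPrimitiveRoot ζ p) (j : ZMod p) : ze ζ j = 1 ↔ j = 0 := by
  constructor
  · intro h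
    exact ze_injective hζ (h.trans (ze_zero ζ).symm)
  · rintro rfl
    exact ze_zero ζ

end ze

/-! ### The Kummer character -/

section kum

set_option linter.unusedSectionVars false

variable {k Ω : Type*} [Field k] [Field Ω] [Algebra k Ω] [IsAlgClosed Ω]
variable {p : ℕ} [Fact p.Prime]

/-- A chosen `p`-th root. -/
def root (p : ℕ) [Fact p.Prime] (a : Ω) : Ω :=
  Classical.choose (IsAlgClosed.exists_pow_nat_eq a (Fact.out : p.Prime).pos)

theorem root_pow (a : Ω) : root p a ^ p = a :=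
  Classical.choose_spec (IsAlgClosed.exists_pow_nat_eq a (Fact.out : p.Prime).pos)

/-- The Kummer character of `a` (with respect to `ζ`), on all automorphisms. -/
def kum (ζ : Ω) (a : Ω) (σ : Ω ≃ₐ[k] Ω) : ZMod p :=
  Function.invFun (ze (p := p) ζ) (σ (root p a) / root p a)

theorem map_ze {ζ : Ω} {σ : Ω ≃ₐ[k] Ω} (hσζ : σ ζ = ζ) (j : ZMod p) : σ (ze ζ j) = ze ζ j := by
  unfold ze
  rw [map_pow, hσζ]

theorem kum_spec {ζ : Ω} (hζ : IsPrimitiveRoot ζ p) {a : Ω} (ha : a ≠ 0) {σ : Ω ≃ₐ[k] Ω}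
    (hσζ : σ ζ = ζ) (hσa : σ a = a) {α : Ω} (hα : α ^ p = a) :
    σ α = ze ζ (kum (p := p) ζ a σ) * α := by
  have hp : p ≠ 0 := (Fact.out : p.Prime).ne_zero
  have h0 : root p a ≠ 0 := by
    intro h
    apply ha
    rw [← root_pow (p := p) a, h, zero_pow hp]
  have h1 : (σ (root p a) / root p a) ^ p = 1 := by
    rw [div_pow, ← map_pow, root_pow, hσa, div_self ha]
  have h2 : ze ζ (kum (p := p) ζ a σ) = σ (root p a) / root p a :=
    Function.invFun_eq (exists_ze_eq hζ h1)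
  have h3 : (α / root p a) ^ p = 1 := by
    rw [div_pow, root_pow, hα, div_self ha]
  obtain ⟨i, hi⟩ := exists_ze_eq hζ h3
  have h4 : α = ze ζ i * root p a := by
    rw [hi]
    field_simp
  rw [h2, h4, map_mul, map_ze hσζ]
  field_simp

theorem kum_unique {ζ : Ω} (hζ : IsPrimitiveRoot ζ p) {a : Ω} (ha : a ≠ 0) {σ : Ω ≃ₐ[k] Ω}
    (hσζ : σ ζ = ζ) (hσa : σ a = a) {α : Ω} (hα : α ^ p = a) {j : ZMod p}
    (h : σ α = ze ζ j * α) : kum (p := p) ζ a σ = j := by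
  have hp : p ≠ 0 := (Fact.out : p.Prime).ne_zero
  have h0 : α ≠ 0 := by
    intro h
    apply ha
    rw [← hα, h, zero_pow hp]
  have := kum_spec hζ ha hσζ hσa hα
  rw [h] at this
  exact (ze_injective hζ (mul_right_cancel₀ h0 this)).symm

end kum

/-! ### The Kummer homomorphism on `Gal(Ω/F)` -/

section main

set_option linter.unusedSectionVars false
set_option linter.style.haveILetI false

variable {k Ω : Type} [Field k] [Field Ω] [Algebra k Ω] [IsAlgClosed Ω]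
variable {p : ℕ} [Fact p.Prime] (F : IntermediateField k Ω)

theorem fix_of_mem (σ : ↥F.fixingSubgroup) {x : Ω} (hx : x ∈ F) :
    (σ : Ω ≃ₐ[k] Ω) x = x :=
  (IntermediateField.mem_fixingSubgroup_iff F _).mp σ.2 x hx

/-- The Kummer character of `a ∈ Fˣ` on `Gal(Ω/F)`. -/
def kumΓ (ζ : Ω) (a : (↥F)ˣ) : ↥F.fixingSubgroup → ZMod p :=
  fun σ => kum (p := p) ζ ((a : ↥F) : Ω) (σ : Ω ≃ₐ[k] Ω)

variable {F}

theorem unit_ne_zero (a : (↥F)ˣ) : ((a : ↥F) : Ω) ≠ 0 := by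
  have := a.ne_zero
  exact fun h => this (Subtype.ext h)

theorem kumΓ_spec {ζ : Ω} (hζ : IsPrimitiveRoot ζ p) (hζF : ζ ∈ F) (a : (↥F)ˣ)
    (σ : ↥F.fixingSubgroup) {α : Ω} (hα : α ^ p = ((a : ↥F) : Ω)) :
    (σ : Ω ≃ₐ[k] Ω) α = ze ζ (kumΓ (p := p) F ζ a σ) * α :=
  kum_spec hζ (unit_ne_zero a) (fix_of_mem F σ hζF) (fix_of_mem F σ (a : ↥F).2) hα

theorem kumΓ_unique {ζ : Ω} (hζ : IsPrimitiveRoot ζ p) (hζF : ζ ∈ F) (a : (↥F)ˣ)
    (σ : ↥F.fixingSubgroup) {α : Ω} (hα : α ^ p = ((a : ↥F) : Ω)) {j : ZMod p}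
    (h : (σ : Ω ≃ₐ[k] Ω) α = ze ζ j * α) : kumΓ (p := p) F ζ a σ = j :=
  kum_unique hζ (unit_ne_zero a) (fix_of_mem F σ hζF) (fix_of_mem F σ (a : ↥F).2) hα h

theorem kumΓ_mul_apply {ζ : Ω} (hζ : IsPrimitiveRoot ζ p) (hζF : ζ ∈ F) (a : (↥F)ˣ)
    (σ τ : ↥F.fixingSubgroup) :
    kumΓ (p := p) F ζ a (σ * τ) = kumΓ (p := p) F ζ a σ + kumΓ (p := p) F ζ a τ := by
  have hα := root_pow (p := p) ((a : ↥F) : Ω)
  refine kumΓ_unique hζ hζF a (σ * τ) hα ?_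
  have h1 := kumΓ_spec hζ hζF a τ hα
  have h2 := kumΓ_spec hζ hζF a σ hα
  rw [Subgroup.coe_mul, AlgEquiv.mul_apply, h1, map_mul, map_ze (fix_of_mem F σ hζF), h2,
    ze_add hζ]
  ring

theorem tOne_kumΓ {ζ : Ω} (hζ : IsPrimitiveRoot ζ p) (hζF : ζ ∈ F) (a : (↥F)ˣ) :
    tOne (kumΓ (p := p) F ζ a) = 0 := by
  funext t
  simp only [tOne, kumΓ_mul_apply hζ hζF, Pi.zero_apply]
  ring

theorem kumΓ_mul {ζ : Ω} (hζ : IsPrimitiveRoot ζ p) (hζF : ζ ∈ F) (a b : (↥F)ˣ) :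
    kumΓ (p := p) F ζ (a * b) = kumΓ (p := p) F ζ a + kumΓ (p := p) F ζ b := by
  funext σ
  have hα := root_pow (p := p) ((a : ↥F) : Ω)
  have hβ := root_pow (p := p) ((b : ↥F) : Ω)
  have hαβ : (root p ((a : ↥F) : Ω) * root p ((b : ↥F) : Ω)) ^ p =
      (((a * b : (↥F)ˣ) : ↥F) : Ω) := by
    rw [mul_pow, hα, hβ]
    simp
  refine kumΓ_unique hζ hζF (a * b) σ hαβ ?_
  rw [map_mul, kumΓ_spec hζ hζF a σ hα, kumΓ_spec hζ hζF b σ hβ, Pi.add_apply, ze_add hζ]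
  ring

theorem kumΓ_eq_zero_iff [IsGalois k Ω] {ζ : Ω} (hζ : IsPrimitiveRoot ζ p) (hζF : ζ ∈ F)
    (a : (↥F)ˣ) :
    kumΓ (p := p) F ζ a = 0 ↔ a ∈ (powMonoidHom p : (↥F)ˣ →* (↥F)ˣ).range := by
  have hp : p ≠ 0 := (Fact.out : p.Prime).ne_zero
  constructor
  · intro h
    have hα := root_pow (p := p) ((a : ↥F) : Ω)
    have hfix : root p ((a : ↥F) : Ω) ∈ IntermediateField.fixedField F.fixingSubgroup := by
      rw [IntermediateField.mem_fixedField_iff]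
      intro σ hσ
      have := kumΓ_spec hζ hζF a ⟨σ, hσ⟩ hα
      rw [h, Pi.zero_apply, ze_zero, one_mul] at this
      exact this
    rw [InfiniteGalois.fixedField_fixingSubgroup] at hfix
    have hne : (⟨root p ((a : ↥F) : Ω), hfix⟩ : ↥F) ≠ 0 := by
      intro h0
      have h1 : root p ((a : ↥F) : Ω) = 0 := congrArg Subtype.val h0
      apply unit_ne_zero a
      rw [← hα, h1, zero_pow hp]
    refine ⟨Units.mk0 _ hne, ?_⟩
    apply Units.ext
    apply Subtype.ext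
    simp only [powMonoidHom_apply, Units.val_pow_eq_pow_val, Units.val_mk0,
      SubmonoidClass.coe_pow]
    exact hα
  · rintro ⟨b, rfl⟩
    funext σ
    have hb : (((b : ↥F) : Ω)) ^ p = (((powMonoidHom p b : (↥F)ˣ) : ↥F) : Ω) := by
      simp
    refine kumΓ_unique hζ hζF _ σ hb ?_
    rw [Pi.zero_apply, ze_zero, one_mul]
    exact fix_of_mem F σ (b : ↥F).2

/-- `f` is constant modulo the fixing subgroup of a finite extension of `k`. -/
def IsLocA (F : IntermediateField k Ω) {X : Type*} (f : ↥F.fixingSubgroup → X) : Prop :=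
  ∃ E : IntermediateField k Ω, FiniteDimensional k E ∧
    ∀ g s : ↥F.fixingSubgroup, (s : Ω ≃ₐ[k] Ω) ∈ E.fixingSubgroup → f (g * s) = f g

theorem isLocA_kumΓ [Algebra.IsAlgebraic k Ω] {ζ : Ω} (hζ : IsPrimitiveRoot ζ p) (hζF : ζ ∈ F)
    (a : (↥F)ˣ) : IsLocA F (kumΓ (p := p) F ζ a) := by
  have hα := root_pow (p := p) ((a : ↥F) : Ω)
  refine ⟨IntermediateField.adjoin k {root p ((a : ↥F) : Ω)},
    IntermediateField.adjoin.finiteDimensional
      (Algebra.IsIntegral.isIntegral (R := k) (root p ((a : ↥F) : Ω))), ?_⟩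
  intro g s hs
  rw [kumΓ_mul_apply hζ hζF]
  have h0 : kumΓ (p := p) F ζ a s = 0 := by
    refine kumΓ_unique hζ hζF a s hα ?_
    rw [ze_zero, one_mul]
    exact (IntermediateField.mem_fixingSubgroup_iff _ _).mp hs _
      (IntermediateField.mem_adjoin_simple_self k _)
  rw [h0, add_zero]

/-! ### Hilbert 90 by the Lagrange resolvent -/

section resolvent

variable {ζ : Ω} (χ : ↥F.fixingSubgroup → ZMod p) (E : IntermediateField k Ω)

/-- The open subgroup `Gal(Ω/E) ∩ Gal(Ω/F)` of `Gal(Ω/F)`. -/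
def subU (F E : IntermediateField k Ω) : Subgroup ↥F.fixingSubgroup :=
  E.fixingSubgroup.subgroupOf F.fixingSubgroup

theorem mem_subU {s : ↥F.fixingSubgroup} :
    s ∈ subU F E ↔ (s : Ω ≃ₐ[k] Ω) ∈ E.fixingSubgroup :=
  Subgroup.mem_subgroupOf

/-- Restriction to `E`. -/
def resE (g : ↥F.fixingSubgroup) : ↥E →ₐ[k] Ω :=
  ((g : Ω ≃ₐ[k] Ω) : Ω →ₐ[k] Ω).comp E.val

theorem resE_apply (g : ↥F.fixingSubgroup) (x : ↥E) :
    resE E g x = (g : Ω ≃ₐ[k] Ω) (x : Ω) := rfl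

theorem resE_eq_iff (g g' : ↥F.fixingSubgroup) :
    resE E g = resE E g' ↔ g⁻¹ * g' ∈ subU F E := by
  rw [mem_subU, IntermediateField.mem_fixingSubgroup_iff]
  constructor
  · intro h x hx
    have := congrArg (fun f : ↥E →ₐ[k] Ω => f ⟨x, hx⟩) h
    simp only [resE_apply] at this
    rw [Subgroup.coe_mul, Subgroup.coe_inv, AlgEquiv.mul_apply, ← this]
    exact (AlgEquiv.symm_apply_apply (g : Ω ≃ₐ[k] Ω) x)
  · intro h
    ext x
    have := h x x.2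
    rw [Subgroup.coe_mul, Subgroup.coe_inv, AlgEquiv.mul_apply] at this
    rw [resE_apply, resE_apply]
    have h2 := congrArg (g : Ω ≃ₐ[k] Ω) this
    rw [← h2]
    exact AlgEquiv.apply_symm_apply (g : Ω ≃ₐ[k] Ω) _

/-- Restriction to `E`, on cosets. -/
def resQ : (↥F.fixingSubgroup ⧸ subU F E) → (↥E →ₐ[k] Ω) :=
  Quotient.lift (s := QuotientGroup.leftRel (subU F E)) (resE E) (fun g g' h =>
    (resE_eq_iff E g g').mpr (QuotientGroup.leftRel_apply.mp h))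

theorem resQ_mk (g : ↥F.fixingSubgroup) :
    resQ E (QuotientGroup.mk g : ↥F.fixingSubgroup ⧸ subU F E) = resE E g := rfl

theorem resQ_injective : Function.Injective (resQ (F := F) E) := by
  intro c c'
  induction c using QuotientGroup.induction_on with
  | H g =>
    induction c' using QuotientGroup.induction_on with
    | H g' =>
      intro h
      rw [resQ_mk, resQ_mk, resE_eq_iff] at h
      exact QuotientGroup.eq.mpr h

theorem finite_quot [FiniteDimensional k ↥E] : Finite (↥F.fixingSubgroup ⧸ subU F E) :=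
  Finite.of_injective _ (resQ_injective (F := F) E)

variable {χ} {E}

/-- The weight `ζ^{χ(g)}`, on cosets. -/
def wQ (ζ : Ω) (hE : ∀ g s : ↥F.fixingSubgroup, (s : Ω ≃ₐ[k] Ω) ∈ E.fixingSubgroup →
    χ (g * s) = χ g) : (↥F.fixingSubgroup ⧸ subU F E) → Ω :=
  Quotient.lift (s := QuotientGroup.leftRel (subU F E)) (fun g => ze ζ (χ g)) (fun g g' h => by
    have h1 := (mem_subU E).mp (QuotientGroup.leftRel_apply.mp h)
    have h2 := hE g (g⁻¹ * g') h1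
    rw [mul_inv_cancel_left] at h2
    simp only [h2])

theorem wQ_mk (hE : ∀ g s : ↥F.fixingSubgroup, (s : Ω ≃ₐ[k] Ω) ∈ E.fixingSubgroup →
    χ (g * s) = χ g) (g : ↥F.fixingSubgroup) :
    wQ ζ hE (QuotientGroup.mk g : ↥F.fixingSubgroup ⧸ subU F E) = ze ζ (χ g) := rfl

theorem smul_term (hζ : IsPrimitiveRoot ζ p) (hζF : ζ ∈ F)
    (hχ : ∀ σ τ : ↥F.fixingSubgroup, χ (σ * τ) = χ σ + χ τ)
    (hE : ∀ g s : ↥F.fixingSubgroup, (s : Ω ≃ₐ[k] Ω) ∈ E.fixingSubgroup → χ (g * s) = χ g)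
    (h : ↥F.fixingSubgroup) (x : ↥E) (c : ↥F.fixingSubgroup ⧸ subU F E) :
    (h : Ω ≃ₐ[k] Ω) (wQ ζ hE c * resQ E c x) =
      ze ζ (-(χ h)) * (wQ ζ hE (h • c) * resQ E (h • c) x) := by
  induction c using QuotientGroup.induction_on with
  | H g =>
    rw [MulAction.Quotient.smul_mk, wQ_mk, wQ_mk, resQ_mk, resQ_mk, resE_apply, resE_apply,
      smul_eq_mul, hχ, map_mul, map_ze (fix_of_mem F h hζF), Subgroup.coe_mul,
      AlgEquiv.mul_apply, ← mul_assoc, ← ze_add hζ, neg_add_cancel_left]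

theorem exists_resolvent [FiniteDimensional k ↥E] (hζ : IsPrimitiveRoot ζ p) (hζF : ζ ∈ F)
    (hχ : ∀ σ τ : ↥F.fixingSubgroup, χ (σ * τ) = χ σ + χ τ)
    (hE : ∀ g s : ↥F.fixingSubgroup, (s : Ω ≃ₐ[k] Ω) ∈ E.fixingSubgroup → χ (g * s) = χ g) :
    ∃ β : Ω, β ≠ 0 ∧ ∀ h : ↥F.fixingSubgroup, (h : Ω ≃ₐ[k] Ω) β = ze ζ (-(χ h)) * β := by
  classical
  haveI : Finite (↥F.fixingSubgroup ⧸ subU F E) := finite_quot (F := F) E
  letI : Fintype (↥F.fixingSubgroup ⧸ subU F E) := Fintype.ofFinite _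
  -- the resolvent
  have key : ∀ x : ↥E, ∀ h : ↥F.fixingSubgroup,
      (h : Ω ≃ₐ[k] Ω) (∑ c, wQ ζ hE c * resQ E c x) =
        ze ζ (-(χ h)) * ∑ c, wQ ζ hE c * resQ E c x := by
    intro x h
    rw [map_sum, Finset.mul_sum]
    rw [← Equiv.sum_comp (MulAction.toPerm h : Equiv.Perm (↥F.fixingSubgroup ⧸ subU F E))
      (fun c => ze ζ (-(χ h)) * (wQ ζ hE c * resQ E c x))]
    refine Finset.sum_congr rfl fun c _ => ?_
    exact smul_term hζ hζF hχ hE h x c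
  by_cases hex : ∃ x : ↥E, (∑ c, wQ ζ hE c * resQ E c x) ≠ 0
  · obtain ⟨x, hx⟩ := hex
    exact ⟨_, hx, key x⟩
  · exfalso
    simp only [not_exists, not_not] at hex
    -- Dedekind
    have hli : LinearIndependent Ω
        (fun c : ↥F.fixingSubgroup ⧸ subU F E => ((resQ E c : ↥E →* Ω) : ↥E → Ω)) := by
      have := (linearIndependent_monoidHom (↥E) Ω).comp
        (fun c : ↥F.fixingSubgroup ⧸ subU F E => (resQ E c : ↥E →* Ω)) (by
          intro c c' hcc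
          apply resQ_injective (F := F) E
          ext x
          exact congrArg (fun f : ↥E →* Ω => f x) hcc)
      exact this
    have hsum : ∑ c, wQ ζ hE c • ((resQ E c : ↥E →* Ω) : ↥E → Ω) = 0 := by
      funext x
      rw [Finset.sum_apply]
      simpa using hex x
    have := (Fintype.linearIndependent_iff.mp hli) (wQ ζ hE) hsum
      (QuotientGroup.mk 1)
    rw [wQ_mk] at this
    exact ze_ne_zero hζ _ this

end resolvent

/-! ### Surjectivity and the count -/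

theorem exists_kumΓ_eq [IsGalois k Ω] {ζ : Ω} (hζ : IsPrimitiveRoot ζ p) (hζF : ζ ∈ F)
    (χ : ↥F.fixingSubgroup → ZMod p) (hχ : tOne χ = 0) (hloc : IsLocA F χ) :
    ∃ a : (↥F)ˣ, kumΓ (p := p) F ζ a = χ := by
  have hp : p ≠ 0 := (Fact.out : p.Prime).ne_zero
  have hχ' : ∀ σ τ : ↥F.fixingSubgroup, χ (σ * τ) = χ σ + χ τ := by
    intro σ τ
    have := congrFun hχ (σ, τ)
    simp only [tOne, Pi.zero_apply] at this
    linear_combination -this
  obtain ⟨E, hfin, hE⟩ := hloc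
  haveI := hfin
  obtain ⟨β, hβ0, hβ⟩ := exists_resolvent (χ := χ) (E := E) hζ hζF hχ' hE
  have hα : ∀ h : ↥F.fixingSubgroup, (h : Ω ≃ₐ[k] Ω) β⁻¹ = ze ζ (χ h) * β⁻¹ := by
    intro h
    rw [map_inv₀, hβ h, mul_inv]
    congr 1
    have h1 : ze ζ (-(χ h)) * ze ζ (χ h) = 1 := by
      rw [← ze_add hζ, neg_add_cancel, ze_zero]
    exact (eq_inv_of_mul_eq_one_right h1).symm
  have hfix : β⁻¹ ^ p ∈ IntermediateField.fixedField F.fixingSubgroup := by
    rw [IntermediateField.mem_fixedField_iff]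
    intro σ hσ
    rw [map_pow, hα ⟨σ, hσ⟩, mul_pow, ze_pow hζ, one_mul]
  rw [InfiniteGalois.fixedField_fixingSubgroup] at hfix
  have hne : (⟨β⁻¹ ^ p, hfix⟩ : ↥F) ≠ 0 := by
    intro h0
    have h1 : β⁻¹ ^ p = 0 := congrArg Subtype.val h0
    exact pow_ne_zero p (inv_ne_zero hβ0) h1
  refine ⟨Units.mk0 _ hne, ?_⟩
  funext σ
  exact kumΓ_unique hζ hζF (Units.mk0 _ hne) σ (α := β⁻¹) rfl (hα σ)

/-- The Kummer homomorphism. -/
def kumHom {ζ : Ω} (hζ : IsPrimitiveRoot ζ p) (hζF : ζ ∈ F) :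
    (↥F)ˣ →* Multiplicative (↥F.fixingSubgroup → ZMod p) where
  toFun a := Multiplicative.ofAdd (kumΓ (p := p) F ζ a)
  map_one' := by
    have h := kumΓ_mul (p := p) hζ hζF (1 : (↥F)ˣ) 1
    rw [mul_one] at h
    have h2 : kumΓ (p := p) F ζ (1 : (↥F)ˣ) = 0 := by
      have := congrArg (fun f => f - kumΓ (p := p) F ζ (1 : (↥F)ˣ)) h
      simpa using this.symm
    rw [h2]
    rfl
  map_mul' a b := by
    rw [kumΓ_mul hζ hζF]
    rfl

theorem kumHom_ker [IsGalois k Ω] {ζ : Ω} (hζ : IsPrimitiveRoot ζ p) (hζF : ζ ∈ F) :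
    (kumHom (p := p) hζ hζF).ker = (powMonoidHom p : (↥F)ˣ →* (↥F)ˣ).range := by
  ext a
  rw [MonoidHom.mem_ker, ← kumΓ_eq_zero_iff hζ hζF]
  exact Iff.rfl

theorem mem_kumHom_range [IsGalois k Ω] {ζ : Ω} (hζ : IsPrimitiveRoot ζ p) (hζF : ζ ∈ F)
    (x : Multiplicative (↥F.fixingSubgroup → ZMod p)) :
    x ∈ (kumHom (p := p) hζ hζF).range ↔
      (tOne (Multiplicative.toAdd x) = 0 ∧ IsLocA F (Multiplicative.toAdd x)) := by
  constructor
  · rintro ⟨a, rfl⟩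
    exact ⟨tOne_kumΓ hζ hζF a, isLocA_kumΓ hζ hζF a⟩
  · rintro ⟨h1, h2⟩
    obtain ⟨a, ha⟩ := exists_kumΓ_eq hζ hζF _ h1 h2
    exact ⟨a, congrArg Multiplicative.ofAdd ha⟩

/-- Kummer count, abstract form. -/
theorem card_hom_eq_index [IsGalois k Ω] {ζ : Ω} (hζ : IsPrimitiveRoot ζ p) (hζF : ζ ∈ F) :
    Nat.card {χ : ↥F.fixingSubgroup → ZMod p // tOne χ = 0 ∧ IsLocA F χ} =
      (powMonoidHom p : (↥F)ˣ →* (↥F)ˣ).range.index := by
  rw [← kumHom_ker hζ hζF, Subgroup.index_ker]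
  refine Nat.card_congr ?_
  exact (Equiv.subtypeEquiv Multiplicative.ofAdd (fun χ => by
    rw [mem_kumHom_range hζ hζF]
    exact Iff.rfl))

end main

/-- **L5-KUM**. -/
theorem stmt_L5_Kummer : Stmt_L5_Kummer := by
  intro q _ p _ F _ hζ
  obtain ⟨ζ, hζF, hζ⟩ := hζ
  exact card_hom_eq_index (k := ℚ_[q]) (Ω := PadicAlgCl q) (F := F) hζ hζF

end Fermat.Agent.S55.CFT.LOC.H45
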