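/-
S55/E4 island LOC, package LOC-5, leaf **L5-KR** (helper5): the Krasner bridge
`Stmt_L5_Krasner` of `Defs_L5.lean`.

(a) Every finite extension `E` of `ℚ_q` inside `Ω = PadicAlgCl q` is contained in `ℚ_q(ι α₀)` for
    an `α₀ ∈ ℚ̄` (primitive element `θ` of `E`; approximate `minpoly θ` by a monic rational
    polynomial; continuity of roots; Krasner's lemma; roots of rational polynomials in `Ω` come
    from `ℚ̄`).  In terms of fixing subgroups, with `N = ℚ(α₀)`.
(b) The easy converse: `N = ℚ(α₀)`, `E = ℚ_q(ι α₀)`.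
-/
import Fermat.Agent.S55.CFT.LOC.Defs_L5

set_option autoImplicit false

open Polynomial IntermediateField

noncomputable section

namespace Fermat.Agent.S55.CFT.LOC.H5

/-- An automorphism fixing `b` fixes `K(b)` pointwise. -/
theorem fix_adjoin_simple {K L : Type*} [Field K] [Field L] [Algebra K L] (s : L ≃ₐ[K] L)
    (b : L) (h : s b = b) : ∀ x ∈ K⟮b⟯, s x = x := by
  intro x hx
  induction hx using IntermediateField.adjoin_induction with
  | mem y hy =>
    rw [Set.mem_singleton_iff] at hy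
    rw [hy, h]
  | algebraMap y => exact s.commutes y
  | add y z _ _ hy hz => rw [map_add, hy, hz]
  | inv y _ hy => rw [map_inv₀, hy]
  | mul y z _ _ hy hz => rw [map_mul, hy, hz]

/-- Every element of `Ω` integral over `ℚ` is in the image of `ℚ̄`. -/
theorem exists_padicEmbedding_eq (q : ℕ) [Fact q.Prime] (y : PadicAlgCl q)
    (hy : IsIntegral ℚ y) : ∃ x : AlgebraicClosure ℚ, padicEmbedding q x = y := by
  have hsp : ((minpoly ℚ y).map (algebraMap ℚ (AlgebraicClosure ℚ))).Splits :=
    IsAlgClosed.splits _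
  have hroot : y ∈ ((minpoly ℚ y).map (algebraMap ℚ (PadicAlgCl q))).roots := by
    rw [Polynomial.mem_roots (Polynomial.map_ne_zero (minpoly.ne_zero hy))]
    simp [Polynomial.IsRoot.def, Polynomial.eval_map_algebraMap]
  have hmap : (minpoly ℚ y).map (algebraMap ℚ (PadicAlgCl q)) =
      ((minpoly ℚ y).map (algebraMap ℚ (AlgebraicClosure ℚ))).map
        (padicEmbedding q).toRingHom := by
    rw [Polynomial.map_map]
    congr 1
    exact Subsingleton.elim _ _
  rw [hmap, Polynomial.Splits.roots_map hsp, Multiset.mem_map] at hroot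
  obtain ⟨x, -, hx⟩ := hroot
  exact ⟨x, hx⟩

/-- **Krasner approximation**: every `β ∈ Ω` lies in `ℚ_q(ι α₀)` for some `α₀ ∈ ℚ̄`. -/
theorem exists_mem_adjoin_padicEmbedding (q : ℕ) [Fact q.Prime] (β : PadicAlgCl q) :
    ∃ α₀ : AlgebraicClosure ℚ, β ∈ ℚ_[q]⟮padicEmbedding q α₀⟯ := by
  have hβint : IsIntegral ℚ_[q] β := (Algebra.IsAlgebraic.isAlgebraic β).isIntegral
  set f : Polynomial ℚ_[q] := minpoly ℚ_[q] β with hf
  have fmon : f.Monic := minpoly.monic hβint
  have firr : Irreducible f := minpoly.irreducible hβint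
  have fa0 : f.aeval β = 0 := minpoly.aeval _ _
  have fnatdeg0 : f.natDegree ≠ 0 := (Irreducible.natDegree_pos firr).ne'
  classical
  let S : Finset (PadicAlgCl q) := {x ∈ (f.rootSet (PadicAlgCl q)).toFinset | x ≠ β}
  let δ : ℝ := if hS : S.Nonempty then Finset.min' (S.image fun x => ‖β - x‖)
      (Finset.image_nonempty.mpr hS) else 1
  have norm_sub_le : ∀ a' : PadicAlgCl q, IsConjRoot ℚ_[q] β a' → β ≠ a' → δ ≤ ‖β - a'‖ := by
    intro a' conj ne
    by_cases hS : S.Nonempty <;> simp only [hS, ↓reduceDIte, δ]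
    · apply Finset.min'_le (S.image fun x => ‖β - x‖) (‖β - a'‖)
      apply Finset.mem_image_of_mem
      simp only [Finset.mem_filter, Set.mem_toFinset, S]
      rw [hf, ← (isConjRoot_iff_mem_minpoly_rootSet hβint)]
      exact ⟨conj, ne.symm⟩
    · simp only [ne_eq, Finset.not_nonempty_iff_eq_empty, Finset.filter_eq_empty_iff,
        Set.mem_toFinset, not_not, S] at hS
      rw [isConjRoot_iff_mem_minpoly_rootSet hβint] at conj
      exact (ne (hS conj).symm).elim
  have δpos : δ > 0 := by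
    by_cases hS : S.Nonempty <;> simp only [hS, ↓reduceDIte, δ]
    · simp only [gt_iff_lt, Finset.lt_min'_iff, Finset.mem_image, forall_exists_index, and_imp,
        forall_apply_eq_imp_iff₂]
      rintro a' ha'
      simp only [Finset.mem_filter, Set.mem_toFinset, S] at ha'
      rw [norm_pos_iff, sub_ne_zero]
      exact ha'.2.symm
    · linarith
  have hε : (δ / (max ‖β‖ 1)) ^ f.natDegree / (f.natDegree + 1) > 0 := by positivity
  have hi : DenseRange (algebraMap ℚ ℚ_[q]) := by
    have := Padic.denseRange_ratCast q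
    convert this using 1
    ext x
    simp
  obtain ⟨g, gmon, gdeg, gcoeff⟩ :=
    exists_monic_and_natDegree_eq_and_norm_map_algebraMap_coeff_sub_lt hi fmon hε
  obtain ⟨b, hb, hab⟩ := exists_aroots_norm_sub_lt_of_norm_coeff_sub_lt (L := PadicAlgCl q)
      hε fa0 fmon (gmon.map _) (gdeg ▸ (g.natDegree_map _)) gcoeff (IsAlgClosed.splits _)
  have hab : ‖β - b‖ < δ := by
    rw [← Real.rpow_natCast, ← mul_comm_div, div_self, one_mul,
        ← Real.rpow_mul (div_pos δpos (by positivity)).le, mul_inv_cancel₀] at hab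
    · simpa [mul_assoc, div_mul_cancel₀ _ (by positivity : (max ‖β‖ 1) > 0).ne'] using hab
    · simp [fnatdeg0]
    · positivity
  simp only [Polynomial.mem_roots', ne_eq, Polynomial.map_eq_zero, Polynomial.IsRoot.def,
    Polynomial.eval_map_algebraMap, Polynomial.aroots_def] at hb
  have hbint : IsIntegral ℚ b := by
    refine ⟨g, gmon, ?_⟩
    have h2 := hb.2
    rw [Polynomial.aeval_map_algebraMap] at h2
    exact h2
  obtain ⟨α₀, hα₀⟩ := exists_padicEmbedding_eq q b hbint
  refine ⟨α₀, ?_⟩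
  rw [hα₀]
  have : IsKrasner ℚ_[q] (PadicAlgCl q) := IsKrasner.of_completeSpace ℚ_[q] (PadicAlgCl q)
  exact IsKrasner.krasner firr.separable (IsAlgClosed.splits _)
    ⟨(g.map _), gmon.map _, hb.2⟩ fun a' h1 h2 ↦ lt_of_lt_of_le hab (norm_sub_le a' h1 h2)

/-- Every finite extension of `ℚ_q` in `Ω` is contained in `ℚ_q(ι α₀)` for some `α₀ ∈ ℚ̄`. -/
theorem exists_le_adjoin_padicEmbedding (q : ℕ) [Fact q.Prime]
    (E : IntermediateField ℚ_[q] (PadicAlgCl q)) [FiniteDimensional ℚ_[q] E] :
    ∃ α₀ : AlgebraicClosure ℚ, E ≤ ℚ_[q]⟮padicEmbedding q α₀⟯ := by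
  obtain ⟨θ, hθ⟩ := Field.exists_primitive_element ℚ_[q] E
  obtain ⟨α₀, hα₀⟩ := exists_mem_adjoin_padicEmbedding q (θ : PadicAlgCl q)
  refine ⟨α₀, ?_⟩
  intro x hx
  have hx' : (⟨x, hx⟩ : E) ∈ ℚ_[q]⟮θ⟯ := by rw [hθ]; trivial
  have key : ∀ y : E, y ∈ ℚ_[q]⟮θ⟯ → (y : PadicAlgCl q) ∈ ℚ_[q]⟮padicEmbedding q α₀⟯ := by
    intro y hy
    induction hy using IntermediateField.adjoin_induction with
    | mem y hy =>
      rw [Set.mem_singleton_iff] at hy
      rw [hy]
      exact hα₀
    | algebraMap y => exact (ℚ_[q]⟮padicEmbedding q α₀⟯).algebraMap_mem y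
    | add y z _ _ hy hz => exact add_mem hy hz
    | inv y _ hy => exact inv_mem hy
    | mul y z _ _ hy hz => exact mul_mem hy hz
  exact key ⟨x, hx⟩ hx'

/-- **L5-KR**, the Krasner bridge. -/
theorem stmt_L5_Krasner : Stmt_L5_Krasner := by
  intro q _
  refine ⟨?_, ?_⟩
  · intro E hE
    obtain ⟨α₀, hα₀⟩ := exists_le_adjoin_padicEmbedding q E
    refine ⟨ℚ⟮α₀⟯, IntermediateField.adjoin.finiteDimensional
      ((AlgebraicClosure.isAlgebraic ℚ).isAlgebraic α₀).isIntegral, ?_⟩
    intro s hs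
    rw [IntermediateField.mem_fixingSubgroup_iff] at hs ⊢
    have h1 : localGaloisToGlobal q s α₀ = α₀ :=
      hs α₀ (IntermediateField.mem_adjoin_simple_self ℚ α₀)
    have h2 : s (padicEmbedding q α₀) = padicEmbedding q α₀ := by
      rw [← padicEmbedding_localGaloisToGlobal, h1]
    intro x hx
    exact fix_adjoin_simple s _ h2 x (hα₀ hx)
  · intro N hN
    obtain ⟨θ, hθ⟩ := Field.exists_primitive_element ℚ N
    refine ⟨ℚ_[q]⟮padicEmbedding q (θ : AlgebraicClosure ℚ)⟯,
      IntermediateField.adjoin.finiteDimensional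
        (Algebra.IsAlgebraic.isAlgebraic _).isIntegral, ?_⟩
    intro s hs
    rw [IntermediateField.mem_fixingSubgroup_iff] at hs ⊢
    have h1 : s (padicEmbedding q (θ : AlgebraicClosure ℚ)) =
        padicEmbedding q (θ : AlgebraicClosure ℚ) :=
      hs _ (IntermediateField.mem_adjoin_simple_self ℚ_[q] _)
    have h2 : localGaloisToGlobal q s (θ : AlgebraicClosure ℚ) = (θ : AlgebraicClosure ℚ) := by
      apply (padicEmbedding q).injective
      show padicEmbedding q _ = padicEmbedding q _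
      rw [padicEmbedding_localGaloisToGlobal, h1]
    intro x hx
    have hx' : (⟨x, hx⟩ : N) ∈ ℚ⟮θ⟯ := by rw [hθ]; trivial
    have key : ∀ y : N, y ∈ ℚ⟮θ⟯ →
        localGaloisToGlobal q s (y : AlgebraicClosure ℚ) = (y : AlgebraicClosure ℚ) := by
      intro y hy
      induction hy using IntermediateField.adjoin_induction with
      | mem y hy =>
        rw [Set.mem_singleton_iff] at hy
        rw [hy]
        exact h2
      | algebraMap y => exact (localGaloisToGlobal q s).commutes y
      | add y z _ _ hy hz =>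
        rw [AddMemClass.coe_add, map_add, hy, hz]
      | inv y _ hy =>
        have : ((y⁻¹ : N) : AlgebraicClosure ℚ) = (y : AlgebraicClosure ℚ)⁻¹ := rfl
        rw [this, map_inv₀, hy]
      | mul y z _ _ hy hz =>
        rw [MulMemClass.coe_mul, map_mul, hy, hz]
    exact key ⟨x, hx⟩ hx'

end Fermat.Agent.S55.CFT.LOC.H5
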