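/-
S55/E4 island LOC, package LOC-5, **L5-ASM** (helper5): the assembly
  `Stmt_L5_Krasner → Stmt_L5_Places → Stmt_L5_Kummer → Stmt_L5_CupND → Stmt_L5_H2Dim →
    CFT.Stmt_LocalPowIndex → Top.Stmt_I1`.

Steps:
* `lev₁_iff_loc₁`, `lev₂_iff_loc₂`: level constancy in the prelude's sense (number fields) is
  local level constancy (finite extensions of `ℚ_q`), by the Krasner bridge.
* `LocPk p Γ d`: the local package at a subgroup `Γ` of the local Galois group, in the prelude's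
  terms: `#Hom(Γ, 𝔽_p) = p ^ d`, nondegeneracy of the cup product, `dim H² ≤ 1`.
* `locPk_fixingSubgroup`: the package at `Γ = F.fixingSubgroup`.
* `bundle`: the package at `Γ = Γ_w` gives the bundled statements on `Z1w`, `H2w`.
* `stmt_I1_of`: the sum formula.
-/
import Fermat.Agent.S55.CFT.LOC.Defs_L5
import Fermat.Agent.S55.Top.H48_PTCone

set_option autoImplicit false
set_option linter.unusedSectionVars false
set_option linter.unusedVariables false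
set_option linter.style.haveILetI false

open CategoryTheory Module groupCohomology ExtCitation

noncomputable section

namespace Fermat.Agent.S55.CFT.LOC.H5

open Fermat.Agent.S55 Fermat.Agent.S55.Top

section gen

variable {q : ℕ} [Fact q.Prime]

/-- The map `Γ → G_ℚ` for a subgroup of the local Galois group. -/
def rG (Γ : Subgroup (PadicAlgCl q ≃ₐ[ℚ_[q]] PadicAlgCl q)) : ↥Γ →* GQ :=
  (localGaloisToGlobal q).comp Γ.subtype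

theorem lev₁_iff_loc₁ (hKR : Stmt_L5_Krasner)
    (Γ : Subgroup (PadicAlgCl q ≃ₐ[ℚ_[q]] PadicAlgCl q)) {X : Type*} (f : ↥Γ → X) :
    IsLevelConstant₁ (rG Γ) f ↔ IsLoc₁ Γ f := by
  constructor
  · rintro ⟨N, hN, h⟩
    obtain ⟨E, hE, hEN⟩ := (hKR q).2 N hN
    exact ⟨E, hE, fun g s hs => h g s (hEN s.1 hs)⟩
  · rintro ⟨E, hE, h⟩
    obtain ⟨N, hN, hNE⟩ := (hKR q).1 E hE
    exact ⟨N, hN, fun g s hs => h g s (hNE s.1 hs)⟩

theorem lev₂_iff_loc₂ (hKR : Stmt_L5_Krasner)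
    (Γ : Subgroup (PadicAlgCl q ≃ₐ[ℚ_[q]] PadicAlgCl q)) {X : Type*} (f : ↥Γ × ↥Γ → X) :
    IsLevelConstant₂ (rG Γ) f ↔ IsLoc₂ Γ f := by
  constructor
  · rintro ⟨N, hN, h⟩
    obtain ⟨E, hE, hEN⟩ := (hKR q).2 N hN
    exact ⟨E, hE, fun g g' s s' hs hs' => h g g' s s' (hEN s.1 hs) (hEN s'.1 hs')⟩
  · rintro ⟨E, hE, h⟩
    obtain ⟨N, hN, hNE⟩ := (hKR q).1 E hE
    exact ⟨N, hN, fun g g' s s' hs hs' => h g g' s s' (hNE s.1 hs) (hNE s'.1 hs')⟩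

/-- The local package at a subgroup `Γ` of the local Galois group, in the prelude's terms. -/
def LocPk (p : ℕ) [Fact p.Prime] (Γ : Subgroup (PadicAlgCl q ≃ₐ[ℚ_[q]] PadicAlgCl q))
    (d : ℕ) : Prop :=
  Nat.card {χ : ↥Γ → ZMod p // tOne χ = 0 ∧ IsLevelConstant₁ (rG Γ) χ} = p ^ d ∧
  (∀ g : ↥Γ → ZMod p, tOne g = 0 → IsLevelConstant₁ (rG Γ) g → g ≠ 0 →
      ∃ b : ↥Γ → ZMod p, tOne b = 0 ∧ IsLevelConstant₁ (rG Γ) b ∧
        ¬ ∃ f : ↥Γ → ZMod p, IsLevelConstant₁ (rG Γ) f ∧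
          tOne f = fun t : ↥Γ × ↥Γ => g t.1 * b t.2) ∧
  (∀ c c' : ↥Γ × ↥Γ → ZMod p,
      tTwo c = 0 → IsLevelConstant₂ (rG Γ) c → tTwo c' = 0 → IsLevelConstant₂ (rG Γ) c' →
      ∃ α β : ZMod p, (α ≠ 0 ∨ β ≠ 0) ∧
        ∃ f : ↥Γ → ZMod p, IsLevelConstant₁ (rG Γ) f ∧ tOne f = α • c + β • c')

/-- The local package at `Γ = F.fixingSubgroup`. -/
theorem locPk_fixingSubgroup (hKR : Stmt_L5_Krasner) (hKUM : Stmt_L5_Kummer)
    (hND : Stmt_L5_CupND) (hH2 : Stmt_L5_H2Dim) (hPI : CFT.Stmt_LocalPowIndex)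
    (p : ℕ) [Fact p.Prime] (F : IntermediateField ℚ_[q] (PadicAlgCl q))
    (hF : FiniteDimensional ℚ_[q] ↥F) (hζ : ∃ ζ : PadicAlgCl q, ζ ∈ F ∧ IsPrimitiveRoot ζ p) :
    LocPk p F.fixingSubgroup (if q = p then 2 + Module.finrank ℚ_[q] ↥F else 2) := by
  refine ⟨?_, ?_, ?_⟩
  · have h1 : Nat.card {χ : ↥F.fixingSubgroup → ZMod p //
          tOne χ = 0 ∧ IsLevelConstant₁ (rG F.fixingSubgroup) χ} =
        Nat.card {χ : ↥F.fixingSubgroup → ZMod p // tOne χ = 0 ∧ IsLoc₁ F.fixingSubgroup χ} :=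
      Nat.card_congr (Equiv.subtypeEquivRight fun χ =>
        and_congr_right fun _ => lev₁_iff_loc₁ hKR _ χ)
    rw [h1, hKUM q p F hF hζ]
    obtain ⟨ζ, hζF, hζp⟩ := hζ
    have hζ' : ∃ ζ' : ↥F, IsPrimitiveRoot ζ' p := by
      refine ⟨⟨ζ, hζF⟩, ?_⟩
      exact IsPrimitiveRoot.of_map_of_injective (f := F.val) (by exact hζp) F.val.injective
    rw [hPI q ↥F p (Fact.out : p.Prime) hζ']
    split_ifs <;> rfl
  · intro g hg1 hg2 hg0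
    obtain ⟨b, hb1, hb2, hb3⟩ := hND q p F hF hζ g hg1 ((lev₁_iff_loc₁ hKR _ g).1 hg2) hg0
    refine ⟨b, hb1, (lev₁_iff_loc₁ hKR _ b).2 hb2, ?_⟩
    rintro ⟨f, hf1, hf2⟩
    exact hb3 ⟨f, (lev₁_iff_loc₁ hKR _ f).1 hf1, hf2⟩
  · intro c c' hc1 hc2 hc1' hc2'
    obtain ⟨α, β, hαβ, f, hf1, hf2⟩ := hH2 q p F hF hζ c c' hc1 ((lev₂_iff_loc₂ hKR _ c).1 hc2)
      hc1' ((lev₂_iff_loc₂ hKR _ c').1 hc2')
    exact ⟨α, β, hαβ, f, (lev₁_iff_loc₁ hKR _ f).2 hf1, hf2⟩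

end gen

section bundle

variable {p : ℕ} [Fact p.Prime] {S : Finset Nat.Primes}
  {K : IntermediateField ℚ (AlgebraicClosure ℚ)} (𝔓 : PlaceSys S K) (q : ↥S) (w : 𝔓.W q)

/-- The local package at the local group of the place `w`. -/
def LocPkw (p : ℕ) [Fact p.Prime] (d : ℕ) : Prop :=
  @LocPk (q.1 : ℕ) ⟨q.1.2⟩ p _ (𝔓.Γw q w) d

variable {𝔓 q w}

theorem card_Z1w {d : ℕ} (h : LocPkw 𝔓 q w p d) :
    Nat.card ↥(Z1w (ZMod p) 𝔓 q w) = p ^ d := h.1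

theorem finite_Z1w {d : ℕ} (h : LocPkw 𝔓 q w p d) :
    Module.Finite (ZMod p) ↥(Z1w (ZMod p) 𝔓 q w) := by
  haveI : Finite ↥(Z1w (ZMod p) 𝔓 q w) :=
    Nat.finite_of_card_ne_zero (by
      rw [card_Z1w h]
      exact pow_ne_zero _ (Fact.out : p.Prime).ne_zero)
  exact Module.Finite.of_finite

theorem finrank_Z1w {d : ℕ} (h : LocPkw 𝔓 q w p d) :
    Module.finrank (ZMod p) ↥(Z1w (ZMod p) 𝔓 q w) = d := by
  haveI := finite_Z1w h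
  have h1 := Module.natCard_eq_pow_finrank (K := ZMod p) (V := ↥(Z1w (ZMod p) 𝔓 q w))
  rw [card_Z1w h, Nat.card_zmod] at h1
  exact (Nat.pow_right_injective (Fact.out : p.Prime).two_le h1).symm

theorem cup_mem_Z2w' {g b : 𝔓.Γw q w → ZMod p} (hg : g ∈ Z1w (ZMod p) 𝔓 q w)
    (hb : b ∈ Z1w (ZMod p) 𝔓 q w) :
    (fun t : 𝔓.Γw q w × 𝔓.Γw q w => g t.1 * b t.2) ∈ Z2w (ZMod p) 𝔓 q w := by
  refine ⟨?_, Top.H48.levL₂_mul q w hg.2 hb.2⟩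
  funext t
  obtain ⟨t₁, t₂, t₃⟩ := t
  simp only [tTwo, Pi.zero_apply]
  rw [Top.H48.hom_mul hg.1 t₁ t₂, Top.H48.hom_mul hb.1 t₂ t₃]
  ring

theorem cupND_Z1w {d : ℕ} (h : LocPkw 𝔓 q w p d) (g : 𝔓.Γw q w → ZMod p)
    (hg : g ∈ Z1w (ZMod p) 𝔓 q w) (hg0 : g ≠ 0) :
    ∃ b : 𝔓.Γw q w → ZMod p, b ∈ Z1w (ZMod p) 𝔓 q w ∧
      (fun t : 𝔓.Γw q w × 𝔓.Γw q w => g t.1 * b t.2) ∉ B2w (ZMod p) 𝔓 q w := by
  obtain ⟨b, hb1, hb2, hb3⟩ := h.2.1 g hg.1 hg.2 hg0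
  exact ⟨b, ⟨hb1, hb2⟩, fun hmem => hb3 hmem⟩

theorem finrank_H2w {d : ℕ} (hd : 0 < d) (h : LocPkw 𝔓 q w p d) :
    Module.finrank (ZMod p) (H2w (ZMod p) 𝔓 q w) = 1 := by
  haveI := finite_Z1w h
  have hpos : 0 < Module.finrank (ZMod p) ↥(Z1w (ZMod p) 𝔓 q w) := by
    rw [finrank_Z1w h]; exact hd
  obtain ⟨g, hg0⟩ := Module.finrank_pos_iff_exists_ne_zero.1 hpos
  have hg0' : (g : 𝔓.Γw q w → ZMod p) ≠ 0 := fun h0 => hg0 (Subtype.ext h0)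
  obtain ⟨b, hb, hb3⟩ := cupND_Z1w h g.1 g.2 hg0'
  set c₀ : ↥(Z2w (ZMod p) 𝔓 q w) :=
    ⟨fun t : 𝔓.Γw q w × 𝔓.Γw q w => g.1 t.1 * b t.2, cup_mem_Z2w' g.2 hb⟩ with hc₀def
  have hc₀ : (Submodule.Quotient.mk c₀ : H2w (ZMod p) 𝔓 q w) ≠ 0 := by
    rw [Ne, Submodule.Quotient.mk_eq_zero]
    intro hmem
    exact hb3 hmem
  rw [finrank_eq_one_iff_of_nonzero' _ hc₀]
  intro x
  obtain ⟨c', rfl⟩ := Submodule.Quotient.mk_surjective _ x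
  obtain ⟨α, β, hαβ, f, hf1, hf2⟩ := h.2.2 c₀.1 c'.1 c₀.2.1 c₀.2.2 c'.2.1 c'.2.2
  have hrel : α • (Submodule.Quotient.mk c₀ : H2w (ZMod p) 𝔓 q w) +
      β • (Submodule.Quotient.mk c' : H2w (ZMod p) 𝔓 q w) = 0 := by
    rw [← Submodule.Quotient.mk_smul, ← Submodule.Quotient.mk_smul,
      ← Submodule.Quotient.mk_add, Submodule.Quotient.mk_eq_zero]
    exact ⟨f, hf1, hf2⟩
  have hβ : β ≠ 0 := by
    intro hβ0
    rw [hβ0, zero_smul, add_zero] at hrel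
    rcases hαβ with hα | hβ'
    · exact hc₀ ((smul_eq_zero.1 hrel).resolve_left hα)
    · exact hβ' hβ0
  refine ⟨-(β⁻¹ * α), ?_⟩
  have h2 : β • (Submodule.Quotient.mk c' : H2w (ZMod p) 𝔓 q w) =
      -(α • (Submodule.Quotient.mk c₀ : H2w (ZMod p) 𝔓 q w)) :=
    eq_neg_of_add_eq_zero_right hrel
  have h3 : (Submodule.Quotient.mk c' : H2w (ZMod p) 𝔓 q w) =
      β⁻¹ • (β • (Submodule.Quotient.mk c' : H2w (ZMod p) 𝔓 q w)) := by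
    rw [smul_smul, inv_mul_cancel₀ hβ, one_smul]
  rw [h3, h2, neg_smul, mul_smul, smul_neg]

end bundle

/-- **L5-ASM**: the local inputs give `Top.Stmt_I1`. -/
theorem stmt_I1_of (hKR : Stmt_L5_Krasner) (hPL : Stmt_L5_Places) (hKUM : Stmt_L5_Kummer)
    (hND : Stmt_L5_CupND) (hH2 : Stmt_L5_H2Dim) (hPI : CFT.Stmt_LocalPowIndex) :
    Top.Stmt_I1 := by
  intro p _ hp2 S hpS K hK 𝔓
  have key : ∀ q : ↥S, ∃ e : 𝔓.W q → ℕ,
      (∀ w, LocPkw 𝔓 q w p (if (q.1 : ℕ) = p then 2 + e w else 2)) ∧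
      @Finset.sum (𝔓.W q) ℕ _ (@Finset.univ _ (𝔓.fin q)) e = Module.finrank ℚ ↥K := by
    intro q
    haveI : Fact ((q.1 : ℕ)).Prime := ⟨q.1.2⟩
    obtain ⟨F, hFfin, hFΓ, hFζ, hFsum⟩ := hPL p S K hK 𝔓 q
    refine ⟨fun w => Module.finrank ℚ_[(q.1 : ℕ)] ↥(F w), fun w => ?_, hFsum⟩
    have hΓ : 𝔓.Γw q w = (F w).fixingSubgroup := Subgroup.ext fun h => (hFΓ w h).symm
    have h1 := @locPk_fixingSubgroup (q.1 : ℕ) ⟨q.1.2⟩ hKR hKUM hND hH2 hPI p _ (F w)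
      (hFfin w) (hFζ w)
    unfold LocPkw
    rw [hΓ]
    exact h1
  choose e he hsum using key
  have hdpos : ∀ (q : ↥S) (w : 𝔓.W q), 0 < (if (q.1 : ℕ) = p then 2 + e q w else 2) := by
    intro q w
    split_ifs <;> omega
  refine ⟨fun q w => finite_Z1w (he q w), fun q w => finrank_H2w (hdpos q w) (he q w),
    fun q w g hg hg0 => cupND_Z1w (he q w) g hg hg0, ?_⟩
  unfold sumH1w nPl
  have h1 : ∀ q : ↥S, @Finset.sum (𝔓.W q) ℕ _ (@Finset.univ _ (𝔓.fin q))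
      (fun w => Module.finrank (ZMod p) ↥(Z1w (ZMod p) 𝔓 q w)) =
      2 * @Fintype.card (𝔓.W q) (𝔓.fin q) +
        (if q = (⟨pPrime p, hpS⟩ : ↥S) then Module.finrank ℚ ↥K else 0) := by
    intro q
    letI := 𝔓.fin q
    have h2 : ∀ w : 𝔓.W q, Module.finrank (ZMod p) ↥(Z1w (ZMod p) 𝔓 q w) =
        2 + (if (q.1 : ℕ) = p then e q w else 0) := by
      intro w
      rw [finrank_Z1w (he q w)]
      split_ifs <;> rfl
    simp_rw [h2]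
    rw [Finset.sum_add_distrib, Finset.sum_const, Finset.card_univ, smul_eq_mul, mul_comm]
    congr 1
    by_cases hq : (q.1 : ℕ) = p
    · have hq' : q = (⟨pPrime p, hpS⟩ : ↥S) := Subtype.ext (Subtype.ext hq)
      rw [if_pos hq', ← hsum q]
      exact Finset.sum_congr rfl (fun w _ => if_pos hq)
    · have hq' : q ≠ (⟨pPrime p, hpS⟩ : ↥S) := by
        intro h
        apply hq
        rw [h]
        rfl
      rw [if_neg hq']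
      exact Finset.sum_eq_zero (fun w _ => if_neg hq)
  simp_rw [h1]
  rw [Finset.sum_add_distrib, ← Finset.mul_sum, Finset.sum_ite_eq' Finset.univ
    (⟨pPrime p, hpS⟩ : ↥S) (fun _ => Module.finrank ℚ ↥K)]
  simp

end Fermat.Agent.S55.CFT.LOC.H5
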