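/-
S55/E4 island LOC, package LOC-3: Herbrand indices for a commutative group with two
endomorphisms (multiplicative copy of `S14/H62_Herbrand.lean`), and an index computation
(helper68).
-/
import Mathlib

set_option autoImplicit false

namespace Fermat.Agent.S55.CFT.LOC.H68

section herbrand

variable {A : Type*} [CommGroup A]

/-- The index `[ker f ∩ S : g S]` (0 if infinite). -/
noncomputable def mhIdx (f g : A →* A) (S : Subgroup A) : ℕ :=
  (S.map g).relIndex (f.ker ⊓ S)

theorem mhIdx_top (f g : A →* A) : mhIdx f g ⊤ = g.range.relIndex f.ker := by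
  rw [mhIdx, inf_top_eq, MonoidHom.range_eq_map]

theorem mh_index_eq_relIndex_map_mul (f : A →* A) (S : Subgroup A) :
    S.index = (S.map f).relIndex f.range * S.relIndex f.ker := by
  have h1 : (S.map f).relIndex f.range = (S ⊔ f.ker).index := by
    have := Subgroup.relIndex_map_map f S ⊤
    rw [← MonoidHom.range_eq_map] at this
    rw [this, top_sup_eq, Subgroup.relIndex_top_right]
  have h2 : S.relIndex f.ker = S.relIndex (S ⊔ f.ker) := by
    rw [Subgroup.relIndex_sup_left]
  rw [h1, h2, mul_comm]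
  exact (Subgroup.relIndex_mul_index (le_sup_left : S ≤ S ⊔ f.ker)).symm

theorem mhIdx_chain (f g : A →* A) (hfg : ∀ x, f (g x) = 1) (S : Subgroup A)
    (hgS : S.map g ≤ S) :
    (S.map g).relIndex g.range * mhIdx f g ⊤ = mhIdx f g S * S.relIndex f.ker := by
  have hle1 : S.map g ≤ g.range := Subgroup.map_le_range g S
  have hle2 : g.range ≤ f.ker := by
    rintro _ ⟨x, rfl⟩
    exact hfg x
  have hle3 : S.map g ≤ f.ker ⊓ S := le_inf (hle1.trans hle2) hgS
  have hle4 : f.ker ⊓ S ≤ f.ker := inf_le_left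
  rw [mhIdx_top, mhIdx, Subgroup.relIndex_mul_relIndex _ _ _ hle1 hle2,
    ← Subgroup.inf_relIndex_right S f.ker, inf_comm S f.ker,
    Subgroup.relIndex_mul_relIndex _ _ _ hle3 hle4]

/-- **Finite-index invariance of the Herbrand quotient** (cross-multiplied form). -/
theorem mhIdx_mul_eq_of_finiteIndex (f g : A →* A) (hfg : ∀ x, f (g x) = 1)
    (hgf : ∀ x, g (f x) = 1) (S : Subgroup A) (hfS : S.map f ≤ S) (hgS : S.map g ≤ S)
    (hS : S.index ≠ 0) :
    mhIdx f g ⊤ * mhIdx g f S = mhIdx f g S * mhIdx g f ⊤ := by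
  have e1 := mhIdx_chain f g hfg S hgS
  have e2 := mhIdx_chain g f hgf S hfS
  have i1 := mh_index_eq_relIndex_map_mul f S
  have i2 := mh_index_eq_relIndex_map_mul g S
  set α := (S.map f).relIndex f.range
  set β := S.relIndex f.ker
  set γ := (S.map g).relIndex g.range
  set δ := S.relIndex g.ker
  set n := S.index
  have hn : 0 < n := Nat.pos_of_ne_zero hS
  have key : n * (mhIdx f g ⊤ * mhIdx g f S) = n * (mhIdx f g S * mhIdx g f ⊤) := by
    calc n * (mhIdx f g ⊤ * mhIdx g f S)
        = (γ * mhIdx f g ⊤) * (mhIdx g f S * δ) := by rw [i2]; ring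
      _ = (mhIdx f g S * β) * (α * mhIdx g f ⊤) := by rw [e1, e2]
      _ = n * (mhIdx f g S * mhIdx g f ⊤) := by rw [i1]; ring
  exact Nat.eq_of_mul_eq_mul_left hn key

end herbrand


section cyclicIndex

variable {A : Type*} [CommGroup A]

/-- If `K = H · π^ℤ` and `π^k ∈ H ↔ n ∣ k`, then `[K : H] = n`. -/
theorem relIndex_eq_of_cyclic (H K : Subgroup A) (hHK : H ≤ K) (π : A) (hπ : π ∈ K) (n : ℕ)
    (h1 : ∀ x ∈ K, ∃ k : ℤ, x / π ^ k ∈ H) (h2 : ∀ k : ℤ, π ^ k ∈ H ↔ (n : ℤ) ∣ k) :
    H.relIndex K = n := by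
  have hK : K = H ⊔ Subgroup.zpowers π := by
    apply le_antisymm
    · intro x hx
      obtain ⟨k, hk⟩ := h1 x hx
      have : x = (x / π ^ k) * π ^ k := by rw [div_mul_cancel]
      rw [this]
      exact Subgroup.mul_mem_sup hk (Subgroup.zpow_mem_zpowers π k)
    · exact sup_le hHK ((Subgroup.zpowers_le).mpr hπ)
  rw [hK, Subgroup.relIndex_sup_left]
  have hrange : Subgroup.zpowers π = Subgroup.map (zpowersHom A π) ⊤ := by
    rw [← MonoidHom.range_eq_map]
    ext x
    simp only [Subgroup.mem_zpowers_iff, MonoidHom.mem_range]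
    constructor
    · rintro ⟨k, rfl⟩
      exact ⟨Multiplicative.ofAdd k, by simp⟩
    · rintro ⟨k, rfl⟩
      exact ⟨Multiplicative.toAdd k, by simp [zpowersHom_apply]⟩
  rw [hrange, ← Subgroup.relIndex_comap, Subgroup.relIndex_top_right]
  have hcomap : Subgroup.comap (zpowersHom A π) H =
      AddSubgroup.toSubgroup (AddSubgroup.zmultiples (n : ℤ)) := by
    ext k
    rw [Subgroup.mem_comap]
    have : (zpowersHom A π) k = π ^ (Multiplicative.toAdd k) := by simp [zpowersHom_apply]
    rw [this, h2]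
    change _ ↔ Multiplicative.toAdd k ∈ AddSubgroup.zmultiples (n : ℤ)
    rw [Int.mem_zmultiples_iff]
  rw [hcomap, AddSubgroup.index_toSubgroup, Int.index_zmultiples, Int.natAbs_natCast]

end cyclicIndex

end Fermat.Agent.S55.CFT.LOC.H68
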