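/-
S55/E4 island LOC, package LOC-1b (helper72): `#(C / 𝔪 C) = #(A / 𝔪) ^ [L : K]` for the integral
closure `C` of a local principal domain `A` in a finite separable extension `L` of `K = Frac A`.
-/
import Mathlib

set_option autoImplicit false
set_option linter.style.haveILetI false

namespace Fermat.Agent.S55.CFT.LOC.H72

open Module

set_option synthInstance.maxHeartbeats 400000 in
/-- The cardinality of `C / 𝔪 C`, `C` the integral closure of a local principal domain. -/
theorem card_intClosure_quot (A K L : Type*) [CommRing A] [IsDomain A] [IsLocalRing A]
    [IsPrincipalIdealRing A] [Field K] [Field L] [Algebra A K] [IsFractionRing A K]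
    [Algebra K L] [Algebra A L] [IsScalarTower A K L] [FiniteDimensional K L]
    [Algebra.IsSeparable K L] :
    Nat.card (integralClosure A L ⧸
        (IsLocalRing.maximalIdeal A).map (algebraMap A (integralClosure A L)))
      = Nat.card (A ⧸ IsLocalRing.maximalIdeal A) ^ finrank K L := by
  haveI : IsTorsionFree A L := by
    have : FaithfulSMul A L := by
      rw [faithfulSMul_iff_algebraMap_injective, IsScalarTower.algebraMap_eq A K L]
      exact (algebraMap K L).injective.comp (IsFractionRing.injective A K)
    infer_instance
  haveI : Module.Finite A (integralClosure A L) :=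
    IsIntegralClosure.finite A K L (integralClosure A L)
  haveI : Module.Free A (integralClosure A L) :=
    IsIntegralClosure.module_free A K L (integralClosure A L)
  have hrank : finrank A (integralClosure A L) = finrank K L :=
    IsIntegralClosure.rank A K L (integralClosure A L)
  letI := Ideal.Quotient.field (IsLocalRing.maximalIdeal A)
  have h1 := IsLocalRing.finrank_quotient_map (R := A) (S := integralClosure A L)
  haveI : Module.Finite (A ⧸ IsLocalRing.maximalIdeal A) (integralClosure A L ⧸
        (IsLocalRing.maximalIdeal A).map (algebraMap A (integralClosure A L))) :=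
    Module.Finite.of_restrictScalars_finite A _ _
  rw [Module.natCard_eq_pow_finrank (K := A ⧸ IsLocalRing.maximalIdeal A), h1, hrank]

end Fermat.Agent.S55.CFT.LOC.H72
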