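/-
S55/E4 island LOC, package LOC-1: basic toolkit for the absolute value `nrm q F` of a finite
extension `F` of `ℚ_[q]`.  (helper68)
-/
import Fermat.Agent.S55.CFT.Defs_LOC

set_option autoImplicit false
set_option linter.unusedSectionVars false

namespace Fermat.Agent.S55.CFT.LOC

section basic

variable (q : ℕ) [Fact q.Prime] (F : Type) [Field F] [Algebra ℚ_[q] F]
  [FiniteDimensional ℚ_[q] F]

theorem nrm_def (x : F) : nrm q F x = spectralNorm ℚ_[q] F x := rfl

theorem nrm_nonneg (x : F) : 0 ≤ nrm q F x := spectralNorm_nonneg x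

@[simp] theorem nrm_zero : nrm q F 0 = 0 := spectralNorm_zero

@[simp] theorem nrm_one : nrm q F 1 = 1 := spectralNorm_one

theorem nrm_mul (x y : F) : nrm q F (x * y) = nrm q F x * nrm q F y :=
  spectralAlgNorm_mul x y

theorem nrm_eq_zero_iff {x : F} : nrm q F x = 0 ↔ x = 0 := by
  constructor
  · intro h
    exact eq_zero_of_map_spectralNorm_eq_zero h (Algebra.IsAlgebraic.isAlgebraic x)
  · rintro rfl
    exact nrm_zero q F

theorem nrm_pos {x : F} (hx : x ≠ 0) : 0 < nrm q F x :=
  lt_of_le_of_ne (nrm_nonneg q F x) (fun h => hx ((nrm_eq_zero_iff q F).mp h.symm))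

theorem nrm_neg (x : F) : nrm q F (-x) = nrm q F x :=
  spectralNorm_neg (Algebra.IsAlgebraic.isAlgebraic x)

theorem nrm_add_le_max (x y : F) : nrm q F (x + y) ≤ max (nrm q F x) (nrm q F y) :=
  isNonarchimedean_spectralNorm x y

theorem nrm_sub_le_max (x y : F) : nrm q F (x - y) ≤ max (nrm q F x) (nrm q F y) := by
  rw [sub_eq_add_neg]
  have := nrm_add_le_max q F x (-y)
  rwa [nrm_neg] at this

theorem nrm_sub_comm (x y : F) : nrm q F (x - y) = nrm q F (y - x) := by
  rw [← nrm_neg, neg_sub]

theorem nrm_pow (x : F) (n : ℕ) : nrm q F (x ^ n) = nrm q F x ^ n := by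
  induction n with
  | zero => simp
  | succ n ih => rw [pow_succ, nrm_mul, ih, pow_succ]

theorem nrm_inv (x : F) : nrm q F x⁻¹ = (nrm q F x)⁻¹ := by
  by_cases hx : x = 0
  · subst hx; simp
  · have h := nrm_mul q F x x⁻¹
    rw [mul_inv_cancel₀ hx, nrm_one] at h
    exact eq_inv_of_mul_eq_one_right h.symm

theorem nrm_div (x y : F) : nrm q F (x / y) = nrm q F x / nrm q F y := by
  rw [div_eq_mul_inv, nrm_mul, nrm_inv, div_eq_mul_inv]

theorem nrm_zpow (x : F) (n : ℤ) : nrm q F (x ^ n) = nrm q F x ^ n := by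
  cases n with
  | ofNat n => simp [nrm_pow]
  | negSucc n => simp [zpow_negSucc, nrm_inv, nrm_pow]

theorem nrm_algebraMap_padic (a : ℚ_[q]) : nrm q F (algebraMap ℚ_[q] F a) = ‖a‖ :=
  spectralNorm_extends a

theorem nrm_natCast_q : nrm q F (q : F) = (q : ℝ)⁻¹ := by
  have h : (q : F) = algebraMap ℚ_[q] F (q : ℚ_[q]) := by simp
  rw [h, nrm_algebraMap_padic, Padic.norm_p]

/-- ultrametric: if the absolute values differ, the absolute value of the sum is the max. -/
theorem nrm_add_eq_max_of_ne {x y : F} (h : nrm q F x ≠ nrm q F y) :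
    nrm q F (x + y) = max (nrm q F x) (nrm q F y) := by
  wlog hlt : nrm q F x < nrm q F y generalizing x y
  · have hlt' : nrm q F y < nrm q F x := lt_of_le_of_ne (not_lt.mp hlt) (Ne.symm h)
    rw [add_comm, max_comm]
    exact this (Ne.symm h) hlt'
  rw [max_eq_right hlt.le]
  refine le_antisymm ((nrm_add_le_max q F x y).trans (by rw [max_eq_right hlt.le])) ?_
  have h1 : nrm q F y ≤ max (nrm q F (x + y)) (nrm q F x) := by
    have := nrm_sub_le_max q F (x + y) x
    rwa [add_sub_cancel_left] at this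
  rcases le_max_iff.mp h1 with h2 | h2
  · exact h2
  · exact absurd h2 (not_le.mpr hlt)

theorem nrm_one_add_of_lt {x : F} (h : nrm q F x < 1) : nrm q F (1 + x) = 1 := by
  have := nrm_add_eq_max_of_ne q F (x := 1) (y := x) (by rw [nrm_one]; exact h.ne')
  rw [this, nrm_one, max_eq_left h.le]

end basic

section tower

variable (q : ℕ) [Fact q.Prime] (F E : Type) [Field F] [Field E] [Algebra ℚ_[q] F]
  [Algebra ℚ_[q] E] [Algebra F E] [IsScalarTower ℚ_[q] F E]

theorem nrm_algebraMap (x : F) : nrm q E (algebraMap F E x) = nrm q F x :=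
  (spectralNorm.eq_of_tower x).symm

theorem nrm_algEquiv (σ : E ≃ₐ[F] E) (y : E) : nrm q E (σ y) = nrm q E y :=
  (spectralNorm_eq_of_equiv (σ.restrictScalars ℚ_[q]) y).symm

variable [FiniteDimensional ℚ_[q] F] [FiniteDimensional ℚ_[q] E] [FiniteDimensional F E]
  [IsGalois F E]

/-- The absolute value of the norm. -/
theorem nrm_norm (y : E) :
    nrm q F (Algebra.norm F y) = nrm q E y ^ Module.finrank F E := by
  classical
  rw [← nrm_algebraMap q F E, Algebra.norm_eq_prod_automorphisms]
  have hprod : ∀ s : Finset (E ≃ₐ[F] E),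
      nrm q E (∏ σ ∈ s, σ y) = nrm q E y ^ s.card := by
    intro s
    induction s using Finset.induction_on with
    | empty => simp
    | insert a s ha ih =>
      rw [Finset.prod_insert ha, nrm_mul, ih, nrm_algEquiv, Finset.card_insert_of_notMem ha,
        pow_succ, mul_comm]
  rw [hprod, Finset.card_univ, ← Nat.card_eq_fintype_card, IsGalois.card_aut_eq_finrank]

end tower

end Fermat.Agent.S55.CFT.LOC
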