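/-
S55/E4 island LOC, package LOC-1 (helper68): discreteness (uniformiser), finite residue rings
(compactness of the integers), completeness (successive approximation), equivalence of norms
(coordinate bound).  All four `Stmt_*` of `Defs_LOC.lean` §LOC-1 are proved here.
-/
import Fermat.Agent.S55.CFT.LOC.Basic

set_option autoImplicit false
set_option linter.unusedSectionVars false
set_option linter.style.haveILetI false

namespace Fermat.Agent.S55.CFT.LOC.H68

open Fermat.Agent.S55.CFT.LOC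

section unif

variable (q : ℕ) [Fact q.Prime] (F : Type) [Field F] [Algebra ℚ_[q] F]
  [FiniteDimensional ℚ_[q] F]
theorem finrank_pos_padic : 0 < Module.finrank ℚ_[q] F := Module.finrank_pos

/-- `|x|^[F:ℚ_q]` is an integral power of `q`. -/
theorem exists_zpow_nrm_pow {x : F} (hx : x ≠ 0) :
    ∃ m : ℤ, nrm q F x ^ (Module.finrank ℚ_[q] F) = (q : ℝ) ^ m := by
  have hint : IsIntegral ℚ_[q] x := Algebra.IsIntegral.isIntegral x
  set d := (minpoly ℚ_[q] x).natDegree with hd
  have hdpos : 0 < d := minpoly.natDegree_pos hint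
  obtain ⟨k, hk⟩ : d ∣ Module.finrank ℚ_[q] F := minpoly.degree_dvd hint
  have ha0 : (minpoly ℚ_[q] x).coeff 0 ≠ 0 := minpoly.coeff_zero_ne_zero hint hx
  have h1 : nrm q F x ^ d = ‖(minpoly ℚ_[q] x).coeff 0‖ := by
    rw [nrm_def, spectralNorm.spectralNorm_eq_norm_coeff_zero_rpow, ← Real.rpow_natCast,
      ← Real.rpow_mul (norm_nonneg _), one_div, inv_mul_cancel₀ (by exact_mod_cast hdpos.ne'),
      Real.rpow_one]
  refine ⟨-((minpoly ℚ_[q] x).coeff 0).valuation * k, ?_⟩
  rw [hk, pow_mul, h1, Padic.norm_eq_zpow_neg_valuation ha0, zpow_mul, zpow_natCast]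

theorem pow_left_inj_pos {a b : ℝ} (ha : 0 ≤ a) (hb : 0 ≤ b) {n : ℕ} (hn : n ≠ 0)
    (h : a ^ n = b ^ n) : a = b :=
  (pow_left_inj₀ ha hb hn).mp h

end unif

theorem stmt_Uniformizer : Stmt_Uniformizer := by
  intro q _ F _ _ _
  classical
  set n := Module.finrank ℚ_[q] F with hn
  have hnpos : 0 < n := Module.finrank_pos
  have hq1 : (1 : ℝ) < q := by exact_mod_cast (Fact.out : q.Prime).one_lt
  have hq0 : (0 : ℝ) < q := by linarith
  -- the subgroup of exponents
  let A : AddSubgroup ℤ :=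
    { carrier := {m | ∃ x : F, x ≠ 0 ∧ nrm q F x ^ n = (q : ℝ) ^ m}
      zero_mem' := ⟨1, one_ne_zero, by simp⟩
      add_mem' := by
        rintro a b ⟨x, hx, hxa⟩ ⟨y, hy, hyb⟩
        refine ⟨x * y, mul_ne_zero hx hy, ?_⟩
        rw [nrm_mul, mul_pow, hxa, hyb, zpow_add₀ hq0.ne']
      neg_mem' := by
        rintro a ⟨x, hx, hxa⟩
        refine ⟨x⁻¹, inv_ne_zero hx, ?_⟩
        rw [nrm_inv, inv_pow, hxa, zpow_neg] }
  obtain ⟨a, ha⟩ := Int.subgroup_cyclic A
  have hmemA : ∀ m, m ∈ A ↔ ∃ x : F, x ≠ 0 ∧ nrm q F x ^ n = (q : ℝ) ^ m := fun m => Iff.rfl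
  have hqF : (q : F) ≠ 0 := by
    intro h
    have := nrm_natCast_q q F
    rw [h, nrm_zero] at this
    have : (q : ℝ) = 0 := by
      have h2 : ((q : ℝ)⁻¹) = 0 := this.symm
      exact inv_eq_zero.mp h2
    linarith
  have hnA : (-(n : ℤ)) ∈ A := by
    refine ⟨(q : F), hqF, ?_⟩
    rw [nrm_natCast_q, inv_pow, zpow_neg, zpow_natCast]
  have ha0 : a ≠ 0 := by
    rintro rfl
    rw [ha] at hnA
    simp only [AddSubgroup.closure_singleton_zero, AddSubgroup.mem_bot, neg_eq_zero,
      Nat.cast_eq_zero] at hnA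
    omega
  -- a generator with negative exponent
  have habs : (-|a|) ∈ A := by
    have haA : a ∈ A := by rw [ha]; exact AddSubgroup.subset_closure rfl
    rcases abs_choice a with h | h
    · rw [h]; exact A.neg_mem haA
    · rw [h, neg_neg]; exact haA
  obtain ⟨π, hπ0, hπ⟩ := habs
  have habspos : 0 < |a| := abs_pos.mpr ha0
  refine ⟨π, nrm_pos q F hπ0, ?_, ?_⟩
  · by_contra hge
    rw [not_lt] at hge
    have h1 : (1 : ℝ) ≤ nrm q F π ^ n := one_le_pow₀ hge
    rw [hπ] at h1
    have h2 : (q : ℝ) ^ (-|a|) < 1 := zpow_lt_one_of_neg₀ hq1 (by omega)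
    linarith
  · intro x hx
    obtain ⟨m, hm⟩ := exists_zpow_nrm_pow q F hx
    have hmA : m ∈ A := ⟨x, hx, hm⟩
    rw [ha, AddSubgroup.mem_closure_singleton] at hmA
    obtain ⟨k, hk⟩ := hmA
    -- m = k • a = ± k' * |a|
    obtain ⟨k', hk'⟩ : ∃ k' : ℤ, m = k' * (-|a|) := by
      rcases abs_choice a with h | h
      · exact ⟨-k, by rw [h, ← hk]; simp⟩
      · exact ⟨k, by rw [h, ← hk]; simp⟩
    refine ⟨k', ?_⟩
    have hpos : 0 < nrm q F π := nrm_pos q F hπ0
    have h3 : nrm q F x ^ n = (nrm q F π ^ k') ^ n := by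
      have e1 : (nrm q F π ^ k') ^ n = (nrm q F π ^ n) ^ k' := by
        rw [← zpow_natCast (nrm q F π ^ k'), ← zpow_mul, mul_comm, zpow_mul, zpow_natCast]
      rw [e1, hπ, hm, hk', ← zpow_mul, mul_comm]
    exact pow_left_inj_pos (nrm_nonneg q F x) (zpow_nonneg hpos.le _) hnpos.ne' h3

theorem stmt_FiniteResidue : Stmt_FiniteResidue := by
  intro q _ F _ _ _ r hr
  classical
  letI : NontriviallyNormedField F := spectralNorm.nontriviallyNormedField ℚ_[q] F
  letI : NormedSpace ℚ_[q] F := spectralNorm.normedSpace ℚ_[q] F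
  haveI : ProperSpace F := FiniteDimensional.proper ℚ_[q] F
  have hnorm : ∀ x : F, ‖x‖ = nrm q F x := fun x => rfl
  have hc : IsCompact (Metric.closedBall (0 : F) 1) := isCompact_closedBall 0 1
  obtain ⟨t, hts, htfin, hcover⟩ := finite_cover_balls_of_compact hc hr
  refine ⟨htfin.toFinset, ?_, ?_⟩
  · intro x hx
    have hx' : x ∈ t := by simpa using hx
    have := hts hx'
    rw [Metric.mem_closedBall, dist_zero_right, hnorm] at this
    exact this
  · intro x hx
    have hxb : x ∈ Metric.closedBall (0 : F) 1 := by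
      rw [Metric.mem_closedBall, dist_zero_right, hnorm]; exact hx
    have := hcover hxb
    simp only [Set.mem_iUnion, Metric.mem_ball, exists_prop] at this
    obtain ⟨y, hyt, hy⟩ := this
    refine ⟨y, by simpa using hyt, ?_⟩
    rw [dist_eq_norm, hnorm] at hy
    exact hy.le

theorem stmt_SuccApprox : Stmt_SuccApprox := by
  intro q _ F _ _ _ x c ρ hc hρ0 hρ1 hx
  classical
  letI : NontriviallyNormedField F := spectralNorm.nontriviallyNormedField ℚ_[q] F
  haveI : CompleteSpace F := spectralNorm.completeSpace ℚ_[q] F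
  have hnorm : ∀ x : F, ‖x‖ = nrm q F x := fun x => rfl
  have hcau : CauchySeq x := by
    refine cauchySeq_of_le_geometric ρ c hρ1 (fun n => ?_)
    rw [dist_comm, dist_eq_norm, hnorm]
    exact hx n
  obtain ⟨y, hy⟩ := cauchySeq_tendsto_of_complete hcau
  refine ⟨y, fun n => ?_⟩
  -- bound on x m - x n for m ≥ n
  have hb : ∀ k : ℕ, nrm q F (x (n + k) - x n) ≤ c * ρ ^ n := by
    intro k
    induction k with
    | zero => simp only [Nat.add_zero, sub_self, nrm_zero]; positivity
    | succ k ih =>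
      have e : x (n + (k + 1)) - x n = (x (n + k + 1) - x (n + k)) + (x (n + k) - x n) := by
        rw [← add_assoc]; ring
      rw [e]
      refine (nrm_add_le_max q F _ _).trans (max_le ?_ ih)
      refine (hx (n + k)).trans ?_
      apply mul_le_mul_of_nonneg_left _ hc
      exact pow_le_pow_of_le_one hρ0 hρ1.le (Nat.le_add_right n k)
  have hlim : Filter.Tendsto (fun k => ‖x (n + k) - x n‖) Filter.atTop (nhds ‖y - x n‖) := by
    have h1 : Filter.Tendsto (fun k => x (n + k)) Filter.atTop (nhds y) := by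
      have := hy.comp (Filter.tendsto_add_atTop_nat n)
      refine this.congr (fun k => ?_)
      simp [add_comm]
    exact ((h1.sub tendsto_const_nhds).norm)
  rw [← hnorm]
  exact le_of_tendsto hlim (Filter.Eventually.of_forall (fun k => by rw [hnorm]; exact hb k))

theorem stmt_CoordBound : Stmt_CoordBound := by
  intro q _ F E _ _ _ _ _ _ _ _ ι _ b
  classical
  haveI : FiniteDimensional ℚ_[q] E := FiniteDimensional.trans ℚ_[q] F E
  letI : NontriviallyNormedField F := spectralNorm.nontriviallyNormedField ℚ_[q] F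
  haveI : CompleteSpace F := spectralNorm.completeSpace ℚ_[q] F
  letI : NormedAddCommGroup E := spectralNorm.normedAddCommGroup ℚ_[q] E
  have hnormF : ∀ x : F, ‖x‖ = nrm q F x := fun x => rfl
  have hnormE : ∀ x : E, ‖x‖ = nrm q E x := fun x => rfl
  letI : NormedSpace F E :=
    { norm_smul_le := fun a y => by
        rw [hnormE, hnormF, hnormE, Algebra.smul_def, nrm_mul, nrm_algebraMap] }
  let f : ι → (E →L[F] F) := fun i => LinearMap.toContinuousLinearMap (b.coord i)
  refine ⟨1 + ∑ i, ‖f i‖, by positivity, fun y i => ?_⟩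
  have h1 : ‖f i y‖ ≤ ‖f i‖ * ‖y‖ := (f i).le_opNorm y
  have h2 : f i y = b.repr y i := rfl
  rw [h2, hnormF, hnormE] at h1
  refine h1.trans ?_
  apply mul_le_mul_of_nonneg_right _ (nrm_nonneg q E y)
  have h3 : ‖f i‖ ≤ ∑ j, ‖f j‖ :=
    Finset.single_le_sum (f := fun j => ‖f j‖) (fun j _ => norm_nonneg _) (Finset.mem_univ i)
  linarith

end Fermat.Agent.S55.CFT.LOC.H68
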