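/-
S55/E4 island LOC, package LOC-1g (helper72): `n`-th powers are open (Hensel by Newton iteration).
`H72.stmt_PowOpen : Stmt_PowOpen`: every `u` with `|u - 1| ≤ |n|² / 2` is an `n`-th power.
-/
import Fermat.Agent.S55.CFT.LOC.H68_LOC1

set_option autoImplicit false
set_option linter.unusedSectionVars false

namespace Fermat.Agent.S55.CFT.LOC.H72

open Fermat.Agent.S55.CFT.LOC

section ball

variable (q : ℕ) [Fact q.Prime] (F : Type) [Field F] [Algebra ℚ_[q] F]
  [FiniteDimensional ℚ_[q] F]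

/-- The ring of integers `{x | |x| ≤ 1}` of `F`. -/
def ball : Subring F where
  carrier := {x | nrm q F x ≤ 1}
  mul_mem' := fun {a b} ha hb => by
    show nrm q F (a * b) ≤ 1
    rw [nrm_mul]
    exact mul_le_one₀ ha (nrm_nonneg q F b) hb
  one_mem' := by
    show nrm q F 1 ≤ 1
    rw [nrm_one]
  add_mem' := fun {a b} ha hb => (nrm_add_le_max q F a b).trans (max_le ha hb)
  zero_mem' := by
    show nrm q F 0 ≤ 1
    rw [nrm_zero]
    exact zero_le_one
  neg_mem' := fun {a} ha => by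
    show nrm q F (-a) ≤ 1
    rw [nrm_neg]
    exact ha

theorem mem_ball {x : F} : x ∈ ball q F ↔ nrm q F x ≤ 1 := Iff.rfl

theorem nrm_coe_ball_le (x : ball q F) : nrm q F (x : F) ≤ 1 := x.2

theorem nrm_natCast_le (n : ℕ) : nrm q F (n : F) ≤ 1 := by
  have h : ((n : ball q F) : F) = (n : F) := by simp
  rw [← h]
  exact nrm_coe_ball_le q F _

theorem charZero_of_padic (q : ℕ) [Fact q.Prime] (F : Type) [Field F] [Algebra ℚ_[q] F] :
    CharZero F :=
  charZero_of_injective_algebraMap (algebraMap ℚ_[q] F).injective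

theorem natCast_ne_zero (q : ℕ) [Fact q.Prime] (F : Type) [Field F] [Algebra ℚ_[q] F]
    {n : ℕ} (hn : 0 < n) : (n : F) ≠ 0 := by
  have := charZero_of_padic q F
  exact_mod_cast hn.ne'

theorem nrm_natCast_pos {n : ℕ} (hn : 0 < n) : 0 < nrm q F (n : F) :=
  nrm_pos q F (natCast_ne_zero q F hn)

/-- `(x + y) ^ n = x ^ n + n x ^ (n - 1) y + k y ^ 2` with `|k| ≤ 1`, for integral `x`, `y`. -/
theorem exists_pow_add_expansion {x y : F} (hx : nrm q F x ≤ 1) (hy : nrm q F y ≤ 1) (n : ℕ) :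
    ∃ k : F, nrm q F k ≤ 1 ∧ (x + y) ^ n = x ^ n + n * x ^ (n - 1) * y + k * y ^ 2 := by
  obtain ⟨k, hk⟩ := Polynomial.powAddExpansion (⟨x, hx⟩ : ball q F) ⟨y, hy⟩ n
  refine ⟨(k : F), k.2, ?_⟩
  have := congrArg (fun z : ball q F => (z : F)) hk
  simpa using this

/-- `|x ^ n - y ^ n| ≤ |x - y|` for integral `x`, `y`. -/
theorem nrm_pow_sub_pow_le {x y : F} (hx : nrm q F x ≤ 1) (hy : nrm q F y ≤ 1) (n : ℕ) :
    nrm q F (x ^ n - y ^ n) ≤ nrm q F (x - y) := by
  obtain ⟨c, hc⟩ := sub_dvd_pow_sub_pow (⟨x, hx⟩ : ball q F) ⟨y, hy⟩ n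
  have h := congrArg (fun z : ball q F => (z : F)) hc
  have h' : x ^ n - y ^ n = (x - y) * (c : F) := by simpa using h
  rw [h', nrm_mul]
  exact mul_le_of_le_one_right (nrm_nonneg q F _) c.2

end ball

section newton

variable (q : ℕ) [Fact q.Prime] (F : Type) [Field F] [Algebra ℚ_[q] F]
  [FiniteDimensional ℚ_[q] F]

/-- The Newton iteration for `X ^ n = u`, starting at `1`. -/
noncomputable def newtonSeq (n : ℕ) (u : F) : ℕ → F
  | 0 => 1
  | k + 1 => newtonSeq n u k + (u - newtonSeq n u k ^ n) / ((n : F) * newtonSeq n u k ^ (n - 1))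

theorem newtonSeq_zero (n : ℕ) (u : F) : newtonSeq F n u 0 = 1 := rfl

theorem newtonSeq_succ (n : ℕ) (u : F) (k : ℕ) :
    newtonSeq F n u (k + 1)
      = newtonSeq F n u k + (u - newtonSeq F n u k ^ n) / ((n : F) * newtonSeq F n u k ^ (n - 1)) :=
  rfl

/-- The invariants of the Newton iteration. -/
theorem newton_invariant {n : ℕ} (hn : 0 < n) {u : F}
    (hu : nrm q F (u - 1) ≤ nrm q F (n : F) ^ 2 / 2) (k : ℕ) :
    nrm q F (newtonSeq F n u k) = 1 ∧
      nrm q F (newtonSeq F n u k ^ n - u) ≤ nrm q F (n : F) ^ 2 * (1 / 2) ^ (k + 1) := by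
  set ν := nrm q F (n : F) with hν
  have hνpos : 0 < ν := nrm_natCast_pos q F hn
  have hν1 : ν ≤ 1 := nrm_natCast_le q F n
  induction k with
  | zero =>
    refine ⟨by rw [newtonSeq_zero, nrm_one], ?_⟩
    rw [newtonSeq_zero, one_pow, nrm_sub_comm, zero_add, pow_one]
    calc nrm q F (u - 1) ≤ ν ^ 2 / 2 := hu
      _ = ν ^ 2 * (1 / 2) := by ring
  | succ k ih =>
    obtain ⟨h1, h2⟩ := ih
    set w := newtonSeq F n u k with hw
    set δ := (u - w ^ n) / ((n : F) * w ^ (n - 1)) with hδ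
    have hw0 : w ≠ 0 := by
      intro h0
      rw [h0, nrm_zero] at h1
      exact zero_ne_one h1
    have hn0 : (n : F) ≠ 0 := natCast_ne_zero q F hn
    have hden : (n : F) * w ^ (n - 1) ≠ 0 := mul_ne_zero hn0 (pow_ne_zero _ hw0)
    have hdenN : nrm q F ((n : F) * w ^ (n - 1)) = ν := by
      rw [nrm_mul, nrm_pow, h1, one_pow, mul_one]
    have hε : nrm q F (u - w ^ n) ≤ ν ^ 2 * (1 / 2) ^ (k + 1) := by
      rw [nrm_sub_comm]; exact h2
    have hδN : nrm q F δ = nrm q F (u - w ^ n) / ν := by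
      rw [hδ, nrm_div, hdenN]
    have hhalf : (1 / 2 : ℝ) ^ (k + 1) ≤ 1 / 2 := by
      calc (1 / 2 : ℝ) ^ (k + 1) ≤ (1 / 2 : ℝ) ^ 1 :=
            pow_le_pow_of_le_one (by norm_num) (by norm_num) (by omega)
        _ = 1 / 2 := pow_one _
    have hδle : nrm q F δ ≤ ν * (1 / 2) ^ (k + 1) := by
      rw [hδN, div_le_iff₀ hνpos]
      calc nrm q F (u - w ^ n) ≤ ν ^ 2 * (1 / 2) ^ (k + 1) := hε
        _ = ν * (1 / 2) ^ (k + 1) * ν := by ring
    have hδlt : nrm q F δ < 1 := by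
      calc nrm q F δ ≤ ν * (1 / 2) ^ (k + 1) := hδle
        _ ≤ 1 * (1 / 2) := mul_le_mul hν1 hhalf (by positivity) zero_le_one
        _ < 1 := by norm_num
    have hsucc : newtonSeq F n u (k + 1) = w + δ := rfl
    rw [hsucc]
    constructor
    · have := nrm_add_eq_max_of_ne q F (x := w) (y := δ) (by rw [h1]; exact hδlt.ne')
      rw [this, h1, max_eq_left hδlt.le]
    · obtain ⟨G, hG, hexp⟩ := exists_pow_add_expansion q F h1.le hδlt.le n
      have hlin : (n : F) * w ^ (n - 1) * δ = u - w ^ n := by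
        rw [hδ, mul_div_cancel₀ _ hden]
      have e : (w + δ) ^ n - u = G * δ ^ 2 := by
        rw [hexp, hlin]; ring
      rw [e, nrm_mul, nrm_pow]
      have hδ0 : 0 ≤ nrm q F δ := nrm_nonneg q F δ
      calc nrm q F G * nrm q F δ ^ 2 ≤ 1 * nrm q F δ ^ 2 :=
            mul_le_mul_of_nonneg_right hG (by positivity)
        _ = nrm q F δ ^ 2 := one_mul _
        _ ≤ (ν * (1 / 2) ^ (k + 1)) ^ 2 := pow_le_pow_left₀ hδ0 hδle 2
        _ = ν ^ 2 * ((1 / 2) ^ (k + 1) * (1 / 2) ^ (k + 1)) := by ring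
        _ ≤ ν ^ 2 * ((1 / 2) ^ (k + 1) * (1 / 2)) := by
            apply mul_le_mul_of_nonneg_left _ (by positivity)
            exact mul_le_mul_of_nonneg_left hhalf (by positivity)
        _ = ν ^ 2 * (1 / 2) ^ (k + 1 + 1) := by ring

theorem newton_step_le {n : ℕ} (hn : 0 < n) {u : F}
    (hu : nrm q F (u - 1) ≤ nrm q F (n : F) ^ 2 / 2) (k : ℕ) :
    nrm q F (newtonSeq F n u (k + 1) - newtonSeq F n u k)
      ≤ nrm q F (n : F) / 2 * (1 / 2) ^ k := by
  set ν := nrm q F (n : F) with hν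
  have hνpos : 0 < ν := nrm_natCast_pos q F hn
  obtain ⟨h1, h2⟩ := newton_invariant q F hn hu k
  rw [newtonSeq_succ, add_sub_cancel_left, nrm_div, nrm_mul, nrm_pow, h1, one_pow, mul_one,
    nrm_sub_comm, div_le_iff₀ hνpos]
  calc nrm q F (newtonSeq F n u k ^ n - u) ≤ ν ^ 2 * (1 / 2) ^ (k + 1) := h2
    _ = ν / 2 * (1 / 2) ^ k * ν := by ring

end newton

/-- **LOC-1g**: units close to `1` are `n`-th powers (`|u - 1| ≤ |n|² / 2` suffices). -/
theorem pow_eq_of_nrm_sub_one_le (q : ℕ) [Fact q.Prime] (F : Type) [Field F] [Algebra ℚ_[q] F]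
    [FiniteDimensional ℚ_[q] F] {n : ℕ} (hn : 0 < n) {u : F}
    (hu : nrm q F (u - 1) ≤ nrm q F (n : F) ^ 2 / 2) :
    ∃ w : F, nrm q F w = 1 ∧ w ^ n = u := by
  set ν := nrm q F (n : F) with hν
  have hνpos : 0 < ν := nrm_natCast_pos q F hn
  have hν1 : ν ≤ 1 := nrm_natCast_le q F n
  obtain ⟨y, hy⟩ := H68.stmt_SuccApprox q F (newtonSeq F n u) (ν / 2) (1 / 2) (by positivity)
    (by norm_num) (by norm_num) (newton_step_le q F hn hu)
  -- `|y| = 1`
  have hy0 := hy 0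
  rw [pow_zero, mul_one, newtonSeq_zero] at hy0
  have hy1 : nrm q F y = 1 := by
    have h1 : nrm q F (y - 1) < 1 := by
      calc nrm q F (y - 1) ≤ ν / 2 := hy0
        _ < 1 := by linarith
    have := nrm_one_add_of_lt q F h1
    rwa [add_sub_cancel] at this
  refine ⟨y, hy1, ?_⟩
  -- `|y ^ n - u| ≤ (1 / 2) ^ k` for all `k`
  have hb : ∀ k : ℕ, nrm q F (y ^ n - u) ≤ (1 / 2 : ℝ) ^ k := by
    intro k
    obtain ⟨h1, h2⟩ := newton_invariant q F hn hu k
    have e : y ^ n - u = (y ^ n - newtonSeq F n u k ^ n) + (newtonSeq F n u k ^ n - u) := by ring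
    rw [e]
    refine (nrm_add_le_max q F _ _).trans (max_le ?_ ?_)
    · refine (nrm_pow_sub_pow_le q F hy1.le h1.le n).trans ((hy k).trans ?_)
      calc ν / 2 * (1 / 2) ^ k ≤ 1 * (1 / 2) ^ k := by
            apply mul_le_mul_of_nonneg_right _ (by positivity)
            linarith
        _ = (1 / 2) ^ k := one_mul _
    · refine h2.trans ?_
      calc ν ^ 2 * (1 / 2) ^ (k + 1) ≤ 1 * (1 / 2) ^ (k + 1) := by
            apply mul_le_mul_of_nonneg_right _ (by positivity)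
            exact pow_le_one₀ hνpos.le hν1
        _ = (1 / 2) ^ (k + 1) := one_mul _
        _ ≤ (1 / 2) ^ k := pow_le_pow_of_le_one (by norm_num) (by norm_num) (Nat.le_succ k)
  have hzero : nrm q F (y ^ n - u) = 0 := by
    apply le_antisymm _ (nrm_nonneg q F _)
    apply le_of_forall_pos_le_add
    intro ε hε
    obtain ⟨k, hk⟩ := exists_pow_lt_of_lt_one hε (by norm_num : (1 / 2 : ℝ) < 1)
    rw [zero_add]
    exact (hb k).trans hk.le
  exact sub_eq_zero.mp ((nrm_eq_zero_iff q F).mp hzero)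

theorem stmt_PowOpen : Stmt_PowOpen := by
  intro q _ F _ _ _ n hn
  refine ⟨nrm q F (n : F) ^ 2 / 2, by
    have := nrm_natCast_pos q F hn
    positivity, fun u hu => ?_⟩
  obtain ⟨w, -, hw⟩ := pow_eq_of_nrm_sub_one_le q F hn hu
  exact ⟨w, hw⟩

end Fermat.Agent.S55.CFT.LOC.H72
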