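/-
S55/E4 island LOC, package LOC-1b (helper72), part A: the groups `V_r = {|x - 1| ≤ r}` and the
`p`-th power map on them.

* `exists_root_near_one` : refined Hensel: `|u - 1| ≤ |n|² / 2 ⟹ u = wⁿ` with `|w - 1| ≤ |n| / 2`;
* `nrm_pow_sub_one`      : `|wⁿ - 1| = |n| |w - 1|` for `|w - 1| < |n|`;
* `Vmul r`               : the subgroup `{x | |x - 1| ≤ r}` of `Fˣ` (`r < 1`);
* `map_pow_Vmul`         : `(V_r)ⁿ = V_{r |n|}` for `r ≤ |n| / 2`;
* `Badd r`               : the additive subgroup `{x | |x| ≤ r}`;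
* `relIndex_Vmul_eq`     : `[V_r : V_s] = [B_r : B_s]`;
* `relIndex_Badd_smul`   : `[B_{|c| r} : B_{|c| s}] = [B_r : B_s]`.
-/
import Fermat.Agent.S55.CFT.LOC.H72_PowOpen

set_option autoImplicit false
set_option linter.unusedSectionVars false

namespace Fermat.Agent.S55.CFT.LOC.H72

open Fermat.Agent.S55.CFT.LOC

section hensel

variable (q : ℕ) [Fact q.Prime] (F : Type) [Field F] [Algebra ℚ_[q] F]
  [FiniteDimensional ℚ_[q] F]

/-- `|wⁿ - 1| = |n| |w - 1|` when `|w - 1| < |n|`. -/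
theorem nrm_pow_sub_one {n : ℕ} {w : F} (hw : nrm q F (w - 1) < nrm q F (n : F)) :
    nrm q F (w ^ n - 1) = nrm q F (n : F) * nrm q F (w - 1) := by
  set ν := nrm q F (n : F) with hν
  have hν1 : ν ≤ 1 := nrm_natCast_le q F n
  set y := w - 1 with hy
  have hy1 : nrm q F y ≤ 1 := hw.le.trans hν1
  obtain ⟨G, hG, hexp⟩ := exists_pow_add_expansion q F (x := 1) (y := y)
    (by rw [nrm_one]) hy1 n
  have e : w ^ n - 1 = (n : F) * y + G * y ^ 2 := by
    have hw' : w = 1 + y := by rw [hy]; ring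
    rw [hw', hexp]; ring
  rw [e]
  by_cases hy0 : y = 0
  · rw [hy0]; simp
  have hypos : 0 < nrm q F y := nrm_pos q F hy0
  have h2 : nrm q F (G * y ^ 2) < nrm q F ((n : F) * y) := by
    rw [nrm_mul, nrm_mul, nrm_pow]
    calc nrm q F G * nrm q F y ^ 2 ≤ 1 * nrm q F y ^ 2 :=
          mul_le_mul_of_nonneg_right hG (by positivity)
      _ = nrm q F y * nrm q F y := by ring
      _ < ν * nrm q F y := mul_lt_mul_of_pos_right hw hypos
  have := nrm_add_eq_max_of_ne q F (x := (n : F) * y) (y := G * y ^ 2) h2.ne'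
  rw [this, max_eq_left h2.le, nrm_mul]

/-- Refined Hensel: a root close to `1`. -/
theorem exists_root_near_one {n : ℕ} (hn : 0 < n) {u : F}
    (hu : nrm q F (u - 1) ≤ nrm q F (n : F) ^ 2 / 2) :
    ∃ w : F, w ^ n = u ∧ nrm q F (w - 1) ≤ nrm q F (n : F) / 2 ∧
      nrm q F (u - 1) = nrm q F (n : F) * nrm q F (w - 1) := by
  set ν := nrm q F (n : F) with hν
  have hνpos : 0 < ν := nrm_natCast_pos q F hn
  obtain ⟨y, hy⟩ := H68.stmt_SuccApprox q F (newtonSeq F n u) (ν / 2) (1 / 2) (by positivity)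
    (by norm_num) (by norm_num) (newton_step_le q F hn hu)
  have hy0 := hy 0
  rw [pow_zero, mul_one, newtonSeq_zero] at hy0
  -- the limit is the root constructed in `pow_eq_of_nrm_sub_one_le`; redo the short argument
  have hν1 : ν ≤ 1 := nrm_natCast_le q F n
  have hy1 : nrm q F y = 1 := by
    have h1 : nrm q F (y - 1) < 1 := by
      calc nrm q F (y - 1) ≤ ν / 2 := hy0
        _ < 1 := by linarith
    have := nrm_one_add_of_lt q F h1
    rwa [add_sub_cancel] at this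
  have hb : ∀ k : ℕ, nrm q F (y ^ n - u) ≤ (1 / 2 : ℝ) ^ k := by
    intro k
    obtain ⟨h1, h2⟩ := newton_invariant q F hn hu k
    have e : y ^ n - u = (y ^ n - newtonSeq F n u k ^ n) + (newtonSeq F n u k ^ n - u) := by ring
    rw [e]
    refine (nrm_add_le_max q F _ _).trans (max_le ?_ ?_)
    · refine (nrm_pow_sub_pow_le q F hy1.le h1.le n).trans ((hy k).trans ?_)
      calc ν / 2 * (1 / 2) ^ k ≤ 1 * (1 / 2) ^ k := by
            apply mul_le_mul_of_nonneg_right _ (by positivity)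
            linarith
        _ = (1 / 2) ^ k := one_mul _
    · refine h2.trans ?_
      calc ν ^ 2 * (1 / 2) ^ (k + 1) ≤ 1 * (1 / 2) ^ (k + 1) := by
            apply mul_le_mul_of_nonneg_right _ (by positivity)
            exact pow_le_one₀ hνpos.le hν1
        _ = (1 / 2) ^ (k + 1) := one_mul _
        _ ≤ (1 / 2) ^ k := pow_le_pow_of_le_one (by norm_num) (by norm_num) (Nat.le_succ k)
  have hzero : nrm q F (y ^ n - u) = 0 := by
    apply le_antisymm _ (nrm_nonneg q F _)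
    apply le_of_forall_pos_le_add
    intro ε hε
    obtain ⟨k, hk⟩ := exists_pow_lt_of_lt_one hε (by norm_num : (1 / 2 : ℝ) < 1)
    rw [zero_add]
    exact (hb k).trans hk.le
  have hyn : y ^ n = u := sub_eq_zero.mp ((nrm_eq_zero_iff q F).mp hzero)
  refine ⟨y, hyn, hy0, ?_⟩
  rw [← hyn]
  exact nrm_pow_sub_one q F (lt_of_le_of_lt hy0 (by linarith))

end hensel

section groups

variable (q : ℕ) [Fact q.Prime] (F : Type) [Field F] [Algebra ℚ_[q] F]
  [FiniteDimensional ℚ_[q] F]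

/-- The additive subgroup `{x | |x| ≤ r}`. -/
def Badd (r : ℝ) (hr : 0 ≤ r) : AddSubgroup F where
  carrier := {x | nrm q F x ≤ r}
  add_mem' := fun {a b} ha hb => (nrm_add_le_max q F a b).trans (max_le ha hb)
  zero_mem' := by
    show nrm q F 0 ≤ r
    rw [nrm_zero]; exact hr
  neg_mem' := fun {a} ha => by
    show nrm q F (-a) ≤ r
    rw [nrm_neg]; exact ha

theorem mem_Badd {r : ℝ} {hr : 0 ≤ r} {x : F} : x ∈ Badd q F r hr ↔ nrm q F x ≤ r := Iff.rfl

/-- Elements close to `1` have absolute value `1`. -/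
theorem nrm_eq_one_of_sub_one_lt {x : F} (hx : nrm q F (x - 1) < 1) : nrm q F x = 1 := by
  have := nrm_one_add_of_lt q F hx
  rwa [add_sub_cancel] at this

/-- The subgroup `{x | |x - 1| ≤ r}` of `Fˣ`, for `r < 1`. -/
def Vmul (r : ℝ) (hr : 0 ≤ r) (hr1 : r < 1) : Subgroup Fˣ where
  carrier := {x | nrm q F ((x : F) - 1) ≤ r}
  mul_mem' := fun {a b} ha hb => by
    show nrm q F (((a * b : Fˣ) : F) - 1) ≤ r
    have hb1 : nrm q F (b : F) = 1 := nrm_eq_one_of_sub_one_lt q F (lt_of_le_of_lt hb hr1)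
    have e : ((a * b : Fˣ) : F) - 1 = ((a : F) - 1) * (b : F) + ((b : F) - 1) := by
      rw [Units.val_mul]; ring
    rw [e]
    refine (nrm_add_le_max q F _ _).trans (max_le ?_ hb)
    rw [nrm_mul, hb1, mul_one]
    exact ha
  one_mem' := by
    show nrm q F (((1 : Fˣ) : F) - 1) ≤ r
    rw [Units.val_one, sub_self, nrm_zero]; exact hr
  inv_mem' := fun {a} ha => by
    show nrm q F (((a⁻¹ : Fˣ) : F) - 1) ≤ r
    have ha1 : nrm q F (a : F) = 1 := nrm_eq_one_of_sub_one_lt q F (lt_of_le_of_lt ha hr1)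
    have e : ((a⁻¹ : Fˣ) : F) - 1 = -(((a : F) - 1) * ((a⁻¹ : Fˣ) : F)) := by
      have : (a : F) * ((a⁻¹ : Fˣ) : F) = 1 := by rw [← Units.val_mul, mul_inv_cancel, Units.val_one]
      linear_combination this
    rw [e, nrm_neg, nrm_mul, Units.val_inv_eq_inv_val, nrm_inv, ha1, inv_one, mul_one]
    exact ha

theorem mem_Vmul {r : ℝ} {hr : 0 ≤ r} {hr1 : r < 1} {x : Fˣ} :
    x ∈ Vmul q F r hr hr1 ↔ nrm q F ((x : F) - 1) ≤ r := Iff.rfl

theorem nrm_of_mem_Vmul {r : ℝ} {hr : 0 ≤ r} {hr1 : r < 1} {x : Fˣ}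
    (hx : x ∈ Vmul q F r hr hr1) : nrm q F (x : F) = 1 :=
  nrm_eq_one_of_sub_one_lt q F (lt_of_le_of_lt hx hr1)

theorem Vmul_mono {r s : ℝ} {hr : 0 ≤ r} {hr1 : r < 1} {hs : 0 ≤ s} {hs1 : s < 1} (h : s ≤ r) :
    Vmul q F s hs hs1 ≤ Vmul q F r hr hr1 := fun _ hx => le_trans hx h

theorem Badd_mono {r s : ℝ} {hr : 0 ≤ r} {hs : 0 ≤ s} (h : s ≤ r) :
    Badd q F s hs ≤ Badd q F r hr := fun _ hx => le_trans hx h

/-- The `n`-th power map sends `V_r` onto `V_{r |n|}`, for `r ≤ |n| / 2`. -/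
theorem map_pow_Vmul {n : ℕ} (hn : 0 < n) {r : ℝ} (hr : 0 ≤ r)
    (hrn : r ≤ nrm q F (n : F) / 2) (hr1 : r < 1) (hr1' : r * nrm q F (n : F) < 1) :
    (Vmul q F r hr hr1).map (powMonoidHom n : Fˣ →* Fˣ)
      = Vmul q F (r * nrm q F (n : F)) (mul_nonneg hr (nrm_nonneg q F _)) hr1' := by
  set ν := nrm q F (n : F) with hν
  have hνpos : 0 < ν := nrm_natCast_pos q F hn
  ext u
  rw [Subgroup.mem_map, mem_Vmul]
  constructor
  · rintro ⟨x, hx, rfl⟩
    rw [mem_Vmul] at hx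
    rw [powMonoidHom_apply, Units.val_pow_eq_pow_val]
    have hlt : nrm q F ((x : F) - 1) < ν := lt_of_le_of_lt hx (by linarith)
    rw [nrm_pow_sub_one q F hlt, mul_comm]
    exact mul_le_mul_of_nonneg_right hx hνpos.le
  · intro hu
    have hu' : nrm q F ((u : F) - 1) ≤ ν ^ 2 / 2 := by
      calc nrm q F ((u : F) - 1) ≤ r * ν := hu
        _ ≤ ν / 2 * ν := mul_le_mul_of_nonneg_right hrn hνpos.le
        _ = ν ^ 2 / 2 := by ring
    obtain ⟨w, hw, hw1, hw2⟩ := exists_root_near_one q F hn hu'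
    have hw0 : w ≠ 0 := by
      intro h0
      rw [h0, zero_pow hn.ne'] at hw
      exact u.ne_zero hw.symm
    refine ⟨Units.mk0 w hw0, ?_, ?_⟩
    · rw [mem_Vmul, Units.val_mk0]
      have hu2 : ν * nrm q F (w - 1) ≤ ν * r := by
        rw [← hw2, mul_comm ν r]; exact hu
      exact le_of_mul_le_mul_left hu2 hνpos
    · apply Units.ext
      rw [powMonoidHom_apply, Units.val_pow_eq_pow_val, Units.val_mk0, hw]

/-- The `n`-torsion of `V_r` is trivial, for `r < |n|`. -/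
theorem eq_one_of_pow_eq_one_of_mem_Vmul {n : ℕ} (hn : 0 < n) {r : ℝ} (hr : 0 ≤ r)
    (hrn : r < nrm q F (n : F)) (hr1 : r < 1) {x : Fˣ} (hx : x ∈ Vmul q F r hr hr1)
    (hxn : x ^ n = 1) : x = 1 := by
  have hνpos : 0 < nrm q F (n : F) := nrm_natCast_pos q F hn
  have h1 := nrm_pow_sub_one q F (n := n) (w := (x : F)) (lt_of_le_of_lt hx hrn)
  have h2 : (x : F) ^ n = 1 := by rw [← Units.val_pow_eq_pow_val, hxn, Units.val_one]
  rw [h2, sub_self, nrm_zero] at h1
  have h3 : nrm q F ((x : F) - 1) = 0 := by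
    rcases mul_eq_zero.mp h1.symm with h | h
    · exact absurd h hνpos.ne'
    · exact h
  apply Units.ext
  rw [Units.val_one]
  exact sub_eq_zero.mp ((nrm_eq_zero_iff q F).mp h3)

end groups

end Fermat.Agent.S55.CFT.LOC.H72
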