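/-
S55/E4 island LOC, package LOC-1b (helper72), part B: the index `[O : qO] = q ^ [F : ℚ_q]`.

* `isIntegral_iff_nrm_le_one` : `x` is integral over `ℤ_q` iff `|x| ≤ 1`;
* `card_intClosure_quot`      : `#(C / 𝔪 C) = #(A / 𝔪) ^ [L : K]` for the integral closure `C` of a
                                local principal domain `A` in a finite separable extension;
* `relIndex_Badd_q`           : `[B_1 : B_{|q|}] = q ^ [F : ℚ_q]`;
* `relIndex_Vmul_eq`          : `[V_r : V_s] = [B_r : B_s]`;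
* `relIndex_Badd_mul`         : `[B_{|c| r} : B_{|c| s}] = [B_r : B_s]`.
-/
import Fermat.Agent.S55.CFT.LOC.H72_PowIndexA
import Fermat.Agent.S55.CFT.LOC.H72_IntClosureCard

set_option autoImplicit false
set_option linter.unusedSectionVars false
set_option linter.style.haveILetI false

namespace Fermat.Agent.S55.CFT.LOC.H72

open Fermat.Agent.S55.CFT.LOC Module Polynomial

section padic

variable (q : ℕ) [Fact q.Prime] (F : Type) [Field F] [Algebra ℚ_[q] F]
  [FiniteDimensional ℚ_[q] F]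

/-- The `ℤ_q`-algebra structure of `F`. -/
@[reducible] noncomputable def algZ : Algebra ℤ_[q] F :=
  ((algebraMap ℚ_[q] F).comp (algebraMap ℤ_[q] ℚ_[q])).toAlgebra

attribute [local instance] algZ

theorem isScalarTower_Z : IsScalarTower ℤ_[q] ℚ_[q] F :=
  IsScalarTower.of_algebraMap_eq (fun _ => rfl)

attribute [local instance] isScalarTower_Z

theorem algebraMap_Z_apply (a : ℤ_[q]) :
    algebraMap ℤ_[q] F a = algebraMap ℚ_[q] F (a : ℚ_[q]) := rfl

theorem nrm_algebraMap_Z_le (a : ℤ_[q]) : nrm q F (algebraMap ℤ_[q] F a) ≤ 1 := by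
  rw [algebraMap_Z_apply, nrm_algebraMap_padic]
  exact a.2

/-- `x` is integral over `ℤ_q` iff `|x| ≤ 1`. -/
theorem isIntegral_iff_nrm_le_one (x : F) : IsIntegral ℤ_[q] x ↔ nrm q F x ≤ 1 := by
  have hxK : IsIntegral ℚ_[q] x := Algebra.IsIntegral.isIntegral x
  have hmonic : (minpoly ℚ_[q] x).Monic := minpoly.monic hxK
  rw [nrm_def, spectralNorm, spectralValue_le_one_iff hmonic]
  constructor
  · intro hx n
    rw [minpoly.isIntegrallyClosed_eq_field_fractions' ℚ_[q] hx, coeff_map]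
    exact ((minpoly ℤ_[q] x).coeff n).2
  · intro h
    have hlift : minpoly ℚ_[q] x ∈ Polynomial.lifts (algebraMap ℤ_[q] ℚ_[q]) := by
      rw [Polynomial.lifts_iff_coeff_lifts]
      intro n
      exact ⟨⟨(minpoly ℚ_[q] x).coeff n, h n⟩, rfl⟩
    obtain ⟨Q, hQ, -, hQm⟩ := Polynomial.lifts_and_natDegree_eq_and_monic hlift hmonic
    refine ⟨Q, hQm, ?_⟩
    have h1 : Polynomial.eval₂ (algebraMap ℤ_[q] F) x Q
        = Polynomial.eval₂ (algebraMap ℚ_[q] F) x (Q.map (algebraMap ℤ_[q] ℚ_[q])) := by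
      rw [Polynomial.eval₂_map]
      rfl
    rw [h1, hQ]
    exact minpoly.aeval ℚ_[q] x

theorem card_residue_Z : Nat.card (ℤ_[q] ⧸ IsLocalRing.maximalIdeal ℤ_[q]) = q := by
  show Nat.card (IsLocalRing.ResidueField ℤ_[q]) = q
  rw [Nat.card_congr (PadicInt.residueField (p := q)).toEquiv, Nat.card_zmod]

/-- `[O : qO] = q ^ [F : ℚ_q]`, in terms of balls. -/
theorem relIndex_Badd_q :
    (Badd q F (nrm q F (q : F)) (nrm_nonneg q F _)).relIndex (Badd q F 1 zero_le_one)
      = q ^ finrank ℚ_[q] F := by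
  haveI : Algebra.IsSeparable ℚ_[q] F := inferInstance
  set C := integralClosure ℤ_[q] F with hC
  set I : Ideal C := (IsLocalRing.maximalIdeal ℤ_[q]).map (algebraMap ℤ_[q] C) with hI
  have hcard : Nat.card (C ⧸ I) = q ^ finrank ℚ_[q] F := by
    rw [hI, hC, card_intClosure_quot ℤ_[q] ℚ_[q] F, card_residue_Z]
  have hq0 : (q : F) ≠ 0 := natCast_ne_zero q F (Fact.out : q.Prime).pos
  -- the additive hom `O → C / I`
  let ι : ↥(Badd q F 1 zero_le_one) →+ C :=
    { toFun := fun x => ⟨(x : F), (isIntegral_iff_nrm_le_one q F _).mpr x.2⟩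
      map_zero' := rfl
      map_add' := fun _ _ => rfl }
  let ψ : ↥(Badd q F 1 zero_le_one) →+ C ⧸ I :=
    (Ideal.Quotient.mk I : C →+* C ⧸ I).toAddMonoidHom.comp ι
  have hψ : Function.Surjective ψ := by
    intro c
    obtain ⟨c, rfl⟩ := Ideal.Quotient.mk_surjective c
    exact ⟨⟨(c : F), (isIntegral_iff_nrm_le_one q F _).mp c.2⟩, rfl⟩
  have hImem : ∀ c : C, c ∈ I ↔ nrm q F (c : F) ≤ nrm q F (q : F) := by
    intro c
    rw [hI, PadicInt.maximalIdeal_eq_span_p, Ideal.map_span, Set.image_singleton,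
      Ideal.mem_span_singleton']
    constructor
    · rintro ⟨a, rfl⟩
      have e : ((a * algebraMap ℤ_[q] C (q : ℤ_[q]) : C) : F) = (a : F) * (q : F) := by
        simp
      rw [e, nrm_mul]
      exact mul_le_of_le_one_left (nrm_nonneg q F _) ((isIntegral_iff_nrm_le_one q F _).mp a.2)
    · intro h
      have h1 : nrm q F ((c : F) / (q : F)) ≤ 1 := by
        rw [nrm_div]
        exact div_le_one_of_le₀ h (nrm_nonneg q F _)
      refine ⟨⟨(c : F) / (q : F), (isIntegral_iff_nrm_le_one q F _).mpr h1⟩, ?_⟩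
      apply Subtype.ext
      have e : ((⟨(c : F) / (q : F), (isIntegral_iff_nrm_le_one q F _).mpr h1⟩
          * algebraMap ℤ_[q] C (q : ℤ_[q]) : C) : F) = (c : F) / (q : F) * (q : F) := by
        simp
      rw [e, div_mul_cancel₀ _ hq0]
  have hker : ψ.ker = (Badd q F (nrm q F (q : F)) (nrm_nonneg q F _)).addSubgroupOf
      (Badd q F 1 zero_le_one) := by
    ext x
    rw [AddMonoidHom.mem_ker, AddSubgroup.mem_addSubgroupOf, mem_Badd]
    show (Ideal.Quotient.mk I (ι x) = 0) ↔ _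
    rw [Ideal.Quotient.eq_zero_iff_mem, hImem]
    rfl
  rw [AddSubgroup.relIndex, ← hker, AddSubgroup.index_ker, ← hcard]
  exact Nat.card_congr (Equiv.ofBijective (fun y : ψ.range => (y : C ⧸ I))
    ⟨Subtype.val_injective, fun c => by
      obtain ⟨x, hx⟩ := hψ c
      exact ⟨⟨c, ⟨x, hx⟩⟩, rfl⟩⟩)

end padic

section transfer

variable (q : ℕ) [Fact q.Prime] (F : Type) [Field F] [Algebra ℚ_[q] F]
  [FiniteDimensional ℚ_[q] F]

/-- `[V_r : V_s] = [B_r : B_s]`. -/
theorem relIndex_Vmul_eq {r s : ℝ} (hr : 0 ≤ r) (hr1 : r < 1) (hs : 0 ≤ s) (hs1 : s < 1) :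
    (Vmul q F s hs hs1).relIndex (Vmul q F r hr hr1)
      = (Badd q F s hs).relIndex (Badd q F r hr) := by
  rw [Subgroup.relIndex, AddSubgroup.relIndex, Subgroup.index_eq_card, AddSubgroup.index_eq_card]
  apply Nat.card_congr
  have hne : ∀ y : ↥(Badd q F r hr), (y : F) + 1 ≠ 0 := by
    intro y h0
    have h1 : nrm q F ((y : F) + 1) = 1 := by
      rw [add_comm]
      exact nrm_one_add_of_lt q F (lt_of_le_of_lt y.2 hr1)
    rw [h0, nrm_zero] at h1
    exact zero_ne_one h1
  let e : ↥(Vmul q F r hr hr1) ≃ ↥(Badd q F r hr) :=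
    { toFun := fun x => ⟨((x : Fˣ) : F) - 1, x.2⟩
      invFun := fun y => ⟨Units.mk0 ((y : F) + 1) (hne y), by
        show nrm q F (((Units.mk0 ((y : F) + 1) (hne y) : Fˣ) : F) - 1) ≤ r
        rw [Units.val_mk0, add_sub_cancel_right]
        exact y.2⟩
      left_inv := fun x => by
        apply Subtype.ext
        apply Units.ext
        show ((x : Fˣ) : F) - 1 + 1 = _
        ring
      right_inv := fun y => by
        apply Subtype.ext
        show (y : F) + 1 - 1 = _
        ring }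
  refine Quotient.congr e ?_
  intro a b
  rw [QuotientGroup.leftRel_apply, QuotientAddGroup.leftRel_apply, Subgroup.mem_subgroupOf,
    AddSubgroup.mem_addSubgroupOf, mem_Vmul, mem_Badd]
  have ha1 : nrm q F ((a : Fˣ) : F) = 1 := nrm_of_mem_Vmul q F a.2
  have e1 : (((a⁻¹ * b : ↥(Vmul q F r hr hr1)) : Fˣ) : F) - 1
      = (((b : Fˣ) : F) - ((a : Fˣ) : F)) / ((a : Fˣ) : F) := by
    have : (((a⁻¹ * b : ↥(Vmul q F r hr hr1)) : Fˣ) : F) = ((a : Fˣ) : F)⁻¹ * ((b : Fˣ) : F) := by
      simp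
    rw [this]
    field_simp
  have e2 : ((-e a + e b : ↥(Badd q F r hr)) : F) = ((b : Fˣ) : F) - ((a : Fˣ) : F) := by
    show -(((a : Fˣ) : F) - 1) + (((b : Fˣ) : F) - 1) = _
    ring
  rw [e1, e2, nrm_div, ha1, div_one]

/-- `[B_{|c| r} : B_{|c| s}] = [B_r : B_s]`. -/
theorem relIndex_Badd_mul {c : F} (hc : c ≠ 0) {r s : ℝ} (hr : 0 ≤ r) (hs : 0 ≤ s) :
    (Badd q F (nrm q F c * s) (mul_nonneg (nrm_nonneg q F c) hs)).relIndex
        (Badd q F (nrm q F c * r) (mul_nonneg (nrm_nonneg q F c) hr))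
      = (Badd q F s hs).relIndex (Badd q F r hr) := by
  have hcpos : 0 < nrm q F c := nrm_pos q F hc
  have hinj : Function.Injective (AddMonoidHom.mulLeft c : F →+ F) := by
    intro x y hxy
    exact mul_left_cancel₀ hc hxy
  have hmap : ∀ (t : ℝ) (ht : 0 ≤ t), (Badd q F t ht).map (AddMonoidHom.mulLeft c : F →+ F)
      = Badd q F (nrm q F c * t) (mul_nonneg (nrm_nonneg q F c) ht) := by
    intro t ht
    ext x
    rw [AddSubgroup.mem_map, mem_Badd]
    constructor
    · rintro ⟨y, hy, rfl⟩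
      show nrm q F (c * y) ≤ _
      rw [nrm_mul]
      exact mul_le_mul_of_nonneg_left hy hcpos.le
    · intro hx
      refine ⟨x / c, ?_, ?_⟩
      · show nrm q F (x / c) ≤ t
        rw [nrm_div, div_le_iff₀ hcpos, mul_comm]
        exact hx
      · show c * (x / c) = x
        field_simp
  rw [← hmap r hr, ← hmap s hs, AddSubgroup.relIndex_map_map_of_injective _ _ hinj]

end transfer

end Fermat.Agent.S55.CFT.LOC.H72
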