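/-
S55/E4 island LOC, package LOC-1b (helper72), part C: the index `[Fˣ : Fˣᵖ]`.

`H72.stmt_LocalPowIndex : CFT.Stmt_LocalPowIndex`: if `μ_p ⊆ F` then
`[Fˣ : Fˣᵖ] = p ^ (2 + [F : ℚ_q])` for `q = p` and `= p ^ 2` for `q ≠ p`.

Index calculus (`H68.mhIdx_mul_eq_of_finiteIndex`) for the `p`-th power map on `Fˣ` and on the
subgroup `S = V_r · π^ℤ` of finite index, `r = |π|^m ≤ |p| / 2`:
`[Fˣ : Fˣᵖ] · #S[p] = [S : Sᵖ] · #μ_p`, `S[p] = 1`, `Sᵖ = V_{r|p|} · π^{pℤ}`,
`[S : Sᵖ] = p · [V_r : V_{r|p|}] = p · [O : pO]`.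
-/
import Fermat.Agent.S55.CFT.LOC.H72_PowIndexB
import Fermat.Agent.S55.CFT.LOC.H68_Herbrand

set_option autoImplicit false
set_option linter.unusedSectionVars false
set_option linter.style.haveILetI false

namespace Fermat.Agent.S55.CFT.LOC.H72

open Fermat.Agent.S55.CFT.LOC Module

section lattice

variable {G : Type*} [CommGroup G]

/-- `[V ⊔ Z : V' ⊔ Z] = [V : V']` when `(V' ⊔ Z) ⊓ V = V'`. -/
theorem relIndex_sup_sup_eq (V V' Z : Subgroup G) (hV : V' ≤ V) (h : (V' ⊔ Z) ⊓ V = V') :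
    (V' ⊔ Z).relIndex (V ⊔ Z) = V'.relIndex V := by
  have e : V ⊔ Z = (V' ⊔ Z) ⊔ V := by
    apply le_antisymm
    · exact sup_le le_sup_right (le_sup_right.trans le_sup_left)
    · exact sup_le (sup_le (hV.trans le_sup_left) le_sup_right) le_sup_left
  rw [e, Subgroup.relIndex_sup_left, ← Subgroup.inf_relIndex_right, h]

end lattice

section main

variable (q : ℕ) [Fact q.Prime] (F : Type) [Field F] [Algebra ℚ_[q] F]
  [FiniteDimensional ℚ_[q] F]

theorem Badd_congr {r r' : ℝ} (hr : 0 ≤ r) (hr' : 0 ≤ r') (h : r = r') :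
    Badd q F r hr = Badd q F r' hr' := by
  subst h; rfl

theorem Vmul_congr {r r' : ℝ} (hr : 0 ≤ r) (hr1 : r < 1) (hr' : 0 ≤ r') (hr1' : r' < 1)
    (h : r = r') : Vmul q F r hr hr1 = Vmul q F r' hr' hr1' := by
  subst h; rfl

/-- The absolute value of a prime `p ≠ q` is `1`. -/
theorem nrm_prime_ne {p : ℕ} (hp : p.Prime) (hpq : q ≠ p) : nrm q F (p : F) = 1 := by
  have h : (p : F) = algebraMap ℚ_[q] F (p : ℚ_[q]) := by simp
  rw [h, nrm_algebraMap_padic, Padic.norm_natCast_eq_one_iff]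
  exact (Nat.coprime_primes (Fact.out : q.Prime) hp).mpr hpq

/-- The `p`-th power map. -/
noncomputable abbrev powHom (p : ℕ) : Fˣ →* Fˣ := powMonoidHom p

/-- `#μ_p(F) = p`. -/
theorem card_ker_pow {p : ℕ} (hp : p.Prime) {ζ : F} (hζ : IsPrimitiveRoot ζ p) :
    Nat.card (powHom F p).ker = p := by
  haveI : NeZero p := ⟨hp.ne_zero⟩
  have e : (powHom F p).ker = rootsOfUnity p F := by
    ext x
    rw [MonoidHom.mem_ker, mem_rootsOfUnity, powMonoidHom_apply]
  rw [e]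
  exact hζ.card_rootsOfUnity

/-- Absolute value of a power of the uniformiser. -/
theorem nrm_units_zpow (π : Fˣ) (k : ℤ) : nrm q F ((π ^ k : Fˣ) : F) = nrm q F (π : F) ^ k := by
  rw [Units.val_zpow_eq_zpow_val, nrm_zpow]

theorem eq_zero_of_nrm_zpow_eq_one {a : ℝ} (ha0 : 0 < a) (ha1 : a < 1) {k : ℤ}
    (h : a ^ k = 1) : k = 0 :=
  (zpow_eq_one_iff_right₀ ha0.le ha1.ne).mp h

/-- The subgroup `S = V_r · π^ℤ` has finite index. -/
theorem index_sup_zpowers_ne_zero (π : Fˣ) (hπ : ∀ x : F, x ≠ 0 → ∃ n : ℤ,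
    nrm q F x = nrm q F (π : F) ^ n) {r : ℝ} (hr : 0 < r) (hr1 : r < 1) :
    (Vmul q F r hr.le hr1 ⊔ Subgroup.zpowers π).index ≠ 0 := by
  classical
  obtain ⟨T, -, hT⟩ := H68.stmt_FiniteResidue q F r hr
  set S := Vmul q F r hr.le hr1 ⊔ Subgroup.zpowers π with hS
  let f : T → Fˣ ⧸ S := fun t =>
    if h : (t : F) = 0 then 1 else QuotientGroup.mk (Units.mk0 (t : F) h)
  have hf : Function.Surjective f := by
    intro c
    obtain ⟨x, rfl⟩ := QuotientGroup.mk_surjective c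
    obtain ⟨k, hk⟩ := hπ (x : F) x.ne_zero
    set u : Fˣ := x * (π ^ k)⁻¹ with hu
    have hπpos : 0 < nrm q F (π : F) := nrm_pos q F π.ne_zero
    have hu1 : nrm q F (u : F) = 1 := by
      rw [hu, Units.val_mul, nrm_mul, hk, Units.val_inv_eq_inv_val, nrm_inv, nrm_units_zpow,
        mul_inv_cancel₀ (zpow_ne_zero k hπpos.ne')]
    obtain ⟨t, htT, ht⟩ := hT (u : F) hu1.le
    have ht1 : nrm q F t = 1 := by
      have h1 : nrm q F (t - (u : F)) < 1 := by
        rw [nrm_sub_comm]; exact lt_of_le_of_lt ht hr1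
      have h2 := nrm_add_eq_max_of_ne q F (x := (u : F)) (y := t - (u : F))
        (by rw [hu1]; exact h1.ne')
      rw [add_sub_cancel, hu1, max_eq_left h1.le] at h2
      exact h2
    have ht0 : t ≠ 0 := fun h => by rw [h, nrm_zero] at ht1; exact zero_ne_one ht1
    refine ⟨⟨t, htT⟩, ?_⟩
    show (if h : t = 0 then (1 : Fˣ ⧸ S) else QuotientGroup.mk (Units.mk0 t h)) = _
    rw [dif_neg ht0, QuotientGroup.eq]
    -- `t⁻¹ x = (u / t) π^k`
    have e : (Units.mk0 t ht0)⁻¹ * x = ((Units.mk0 t ht0)⁻¹ * u) * π ^ k := by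
      rw [hu]; group
    rw [e]
    refine Subgroup.mul_mem_sup ?_ (Subgroup.zpow_mem_zpowers π k)
    rw [mem_Vmul]
    have e2 : (((Units.mk0 t ht0)⁻¹ * u : Fˣ) : F) - 1 = ((u : F) - t) / t := by
      rw [Units.val_mul, Units.val_inv_eq_inv_val, Units.val_mk0]
      field_simp
    rw [e2, nrm_div, ht1, div_one]
    exact ht
  haveI : Finite (Fˣ ⧸ S) := Finite.of_surjective f hf
  exact Subgroup.index_ne_zero_of_finite

/-- Elements of `V_r · ⟨z⟩` of absolute value `1` lie in `V_r`, if `|z| < 1`. -/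
theorem mem_Vmul_of_mem_sup {r : ℝ} (hr : 0 ≤ r) (hr1 : r < 1) (z : Fˣ)
    (hz0 : 0 < nrm q F (z : F)) (hz1 : nrm q F (z : F) < 1) {x : Fˣ}
    (hx : x ∈ Vmul q F r hr hr1 ⊔ Subgroup.zpowers z) (hx1 : nrm q F (x : F) = 1) :
    x ∈ Vmul q F r hr hr1 := by
  rw [Subgroup.mem_sup] at hx
  obtain ⟨v, hv, c, hc, rfl⟩ := hx
  rw [Subgroup.mem_zpowers_iff] at hc
  obtain ⟨k, rfl⟩ := hc
  rw [Units.val_mul, nrm_mul, nrm_of_mem_Vmul q F hv, one_mul, nrm_units_zpow] at hx1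
  have hk : k = 0 := eq_zero_of_nrm_zpow_eq_one hz0 hz1 hx1
  rw [hk, zpow_zero, mul_one]
  exact hv

end main

/-- **LOC-1b**: the index of the `p`-th powers in `Fˣ`, when `μ_p ⊆ F`. -/
theorem stmt_LocalPowIndex : Stmt_LocalPowIndex := by
  intro q _ F _ _ _ p hp hζ
  obtain ⟨ζ, hζ⟩ := hζ
  classical
  have hppos : 0 < p := hp.pos
  obtain ⟨π₀, hπ0, hπ1, hπ⟩ := H68.stmt_Uniformizer q F
  have hπne : π₀ ≠ 0 := fun h => by rw [h, nrm_zero] at hπ0; exact lt_irrefl _ hπ0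
  set π : Fˣ := Units.mk0 π₀ hπne with hπdef
  have hπval : (π : F) = π₀ := rfl
  set ν := nrm q F (p : F) with hν
  have hνpos : 0 < ν := nrm_natCast_pos q F hppos
  have hν1 : ν ≤ 1 := nrm_natCast_le q F p
  -- the radius
  obtain ⟨m, hm⟩ := exists_pow_lt_of_lt_one (by positivity : 0 < ν / 2) hπ1
  set r := nrm q F (π₀ ^ m) with hr
  have hrpow : r = nrm q F π₀ ^ m := nrm_pow q F π₀ m
  have hrpos : 0 < r := by rw [hrpow]; positivity
  have hrν : r ≤ ν / 2 := by rw [hrpow]; exact hm.le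
  have hr1 : r < 1 := by linarith
  have hrltν : r < ν := by linarith
  have hrν1 : r * ν < 1 := by
    calc r * ν ≤ r * 1 := mul_le_mul_of_nonneg_left hν1 hrpos.le
      _ = r := mul_one r
      _ < 1 := hr1
  set V := Vmul q F r hrpos.le hr1 with hV
  set V' := Vmul q F (r * ν) (mul_nonneg hrpos.le hνpos.le) hrν1 with hV'
  have hV'V : V' ≤ V := Vmul_mono q F (by
    calc r * ν ≤ r * 1 := mul_le_mul_of_nonneg_left hν1 hrpos.le
      _ = r := mul_one r)
  set S := V ⊔ Subgroup.zpowers π with hS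
  set g : Fˣ →* Fˣ := powHom F p with hg
  set f : Fˣ →* Fˣ := 1 with hf
  -- index calculus
  have hSfin : S.index ≠ 0 := index_sup_zpowers_ne_zero q F π (by rw [hπval]; exact hπ) hrpos hr1
  have hfS : S.map f ≤ S := by rw [hf, Subgroup.map_one_eq_bot]; exact bot_le
  have hgS : S.map g ≤ S := by
    rintro _ ⟨x, hx, rfl⟩
    exact pow_mem hx p
  have hherb := H68.mhIdx_mul_eq_of_finiteIndex f g (fun x => rfl) (fun x => map_one g) S
    hfS hgS hSfin
  -- the four terms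
  have t1 : H68.mhIdx f g ⊤ = g.range.index := by
    rw [H68.mhIdx_top, hf, MonoidHom.ker_one, Subgroup.relIndex_top_right]
  have hkerS : g.ker ⊓ S = ⊥ := by
    rw [eq_bot_iff]
    rintro x ⟨hxk, hxS⟩
    have hxp : x ^ p = 1 := hxk
    have hx1 : nrm q F (x : F) = 1 := by
      have h1 : nrm q F (x : F) ^ p = 1 := by
        rw [← nrm_pow, ← Units.val_pow_eq_pow_val, hxp, Units.val_one, nrm_one]
      exact (pow_eq_one_iff_of_nonneg (nrm_nonneg q F _) hp.ne_zero).mp h1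
    have hxV : x ∈ V := mem_Vmul_of_mem_sup q F hrpos.le hr1 π hπ0 hπ1 hxS hx1
    exact eq_one_of_pow_eq_one_of_mem_Vmul q F hppos hrpos.le hrltν hr1 hxV hxp
  have t2 : H68.mhIdx g f S = 1 := by
    rw [H68.mhIdx, hkerS, hf, Subgroup.map_one_eq_bot, Subgroup.relIndex_self]
  have t3 : H68.mhIdx f g S = (S.map g).relIndex S := by
    rw [H68.mhIdx, hf, MonoidHom.ker_one, top_inf_eq]
  have t4 : H68.mhIdx g f ⊤ = p := by
    rw [H68.mhIdx_top, hf, MonoidHom.range_one, Subgroup.relIndex_bot_left]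
    exact card_ker_pow F hp hζ
  rw [t1, t2, t3, t4, mul_one] at hherb
  -- `S ^ p`
  have hSmap : S.map g = V' ⊔ Subgroup.zpowers (π ^ p) := by
    rw [hS, Subgroup.map_sup, MonoidHom.map_zpowers]
    congr 1
    exact map_pow_Vmul q F hppos hrpos.le hrν hr1 hrν1
  -- `[S : S ^ p] = p [V : V']`
  have hπp0 : 0 < nrm q F ((π ^ p : Fˣ) : F) := nrm_pos q F (Units.ne_zero _)
  have hπp1 : nrm q F ((π ^ p : Fˣ) : F) < 1 := by
    rw [Units.val_pow_eq_pow_val, nrm_pow]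
    exact pow_lt_one₀ hπ0.le hπ1 hp.ne_zero
  have hmid1 : V' ⊔ Subgroup.zpowers (π ^ p) ≤ V ⊔ Subgroup.zpowers (π ^ p) :=
    sup_le_sup_right hV'V _
  have hzle : Subgroup.zpowers (π ^ p) ≤ Subgroup.zpowers π :=
    Subgroup.zpowers_le.mpr (Subgroup.pow_mem _ (Subgroup.mem_zpowers π) p)
  have hmid2 : V ⊔ Subgroup.zpowers (π ^ p) ≤ S := sup_le_sup_left hzle _
  have hstep1 : (V' ⊔ Subgroup.zpowers (π ^ p)).relIndex (V ⊔ Subgroup.zpowers (π ^ p))
      = V'.relIndex V := by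
    apply relIndex_sup_sup_eq _ _ _ hV'V
    apply le_antisymm
    · rintro x ⟨hx1, hx2⟩
      exact mem_Vmul_of_mem_sup q F _ hrν1 (π ^ p) hπp0 hπp1 hx1 (nrm_of_mem_Vmul q F hx2)
    · exact le_inf le_sup_left hV'V
  have hstep2 : (V ⊔ Subgroup.zpowers (π ^ p)).relIndex S = p := by
    apply H68.relIndex_eq_of_cyclic _ _ hmid2 π
      (Subgroup.mem_sup_right (Subgroup.mem_zpowers π)) p
    · intro x hx
      rw [hS, Subgroup.mem_sup] at hx
      obtain ⟨v, hv, c, hc, rfl⟩ := hx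
      rw [Subgroup.mem_zpowers_iff] at hc
      obtain ⟨k, rfl⟩ := hc
      refine ⟨k, ?_⟩
      rw [mul_div_assoc, div_self', mul_one]
      exact Subgroup.mem_sup_left hv
    · intro k
      constructor
      · intro hk
        rw [Subgroup.mem_sup] at hk
        obtain ⟨v, hv, c, hc, hvc⟩ := hk
        rw [Subgroup.mem_zpowers_iff] at hc
        obtain ⟨j, rfl⟩ := hc
        have h1 := congrArg (fun y : Fˣ => nrm q F (y : F)) hvc
        simp only [Units.val_mul, nrm_mul, nrm_of_mem_Vmul q F hv, one_mul] at h1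
        rw [← zpow_natCast π p, ← zpow_mul, nrm_units_zpow, nrm_units_zpow] at h1
        have h2 := zpow_right_injective₀ hπ0 hπ1.ne h1
        exact ⟨j, by rw [← h2]⟩
      · rintro ⟨j, rfl⟩
        apply Subgroup.mem_sup_right
        rw [Subgroup.mem_zpowers_iff]
        exact ⟨j, by rw [← zpow_natCast π p, ← zpow_mul]⟩
  have hSidx : (S.map g).relIndex S = V'.relIndex V * p := by
    rw [hSmap, ← Subgroup.relIndex_mul_relIndex _ _ _ hmid1 hmid2, hstep1, hstep2]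
  rw [hSidx] at hherb
  show g.range.index = _
  rw [hherb]
  -- `[V : V']`
  by_cases hqp : q = p
  · rw [if_pos hqp]
    have hπm : π₀ ^ m ≠ 0 := pow_ne_zero m hπne
    have h1 : V'.relIndex V
        = (Badd q F (r * ν) (mul_nonneg hrpos.le hνpos.le)).relIndex (Badd q F r hrpos.le) :=
      relIndex_Vmul_eq q F hrpos.le hr1 (mul_nonneg hrpos.le hνpos.le) hrν1
    have h2 := relIndex_Badd_mul q F hπm (r := 1) (s := ν) zero_le_one hνpos.le
    have h3 : Badd q F (nrm q F (π₀ ^ m) * 1) (mul_nonneg (nrm_nonneg q F _) zero_le_one)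
        = Badd q F r hrpos.le := Badd_congr q F _ _ (mul_one _)
    rw [h3] at h2
    have hcast : (p : F) = (q : F) := congrArg (Nat.cast : ℕ → F) hqp.symm
    have h4 : ν = nrm q F (q : F) := by rw [hν, hcast]
    have h5 : Badd q F ν hνpos.le = Badd q F (nrm q F (q : F)) (nrm_nonneg q F _) :=
      Badd_congr q F _ _ h4
    rw [h1, h2, h5, relIndex_Badd_q]
    generalize finrank ℚ_[q] F = n
    rw [hqp]
    ring
  · rw [if_neg hqp]
    have hν1' : ν = 1 := nrm_prime_ne q F hp hqp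
    have hVV : V' = V := Vmul_congr q F _ _ _ _ (by rw [hν1', mul_one])
    rw [hVV, Subgroup.relIndex_self]
    ring

end Fermat.Agent.S55.CFT.LOC.H72
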