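/-
S55/E4 island LOC, package LOC-5, **L5-ASM**, wired with the leaves which are already proved
(helper5): `Stmt_L5_Places → Stmt_L5_CupND → Stmt_L5_H2Dim → Top.Stmt_I1`
(with `H5.stmt_L5_Krasner`, `H45.stmt_L5_Kummer`, `H72.stmt_LocalPowIndex`).
-/
import Fermat.Agent.S55.CFT.LOC.H5_L5Asm
import Fermat.Agent.S55.CFT.LOC.H5_Krasner
import Fermat.Agent.S55.CFT.LOC.H45_Kummer
import Fermat.Agent.S55.CFT.LOC.H72_PowIndexC

set_option autoImplicit false

namespace Fermat.Agent.S55.CFT.LOC.H5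

/-- **L5-ASM**, with the proved leaves plugged in. -/
theorem stmt_I1_of' (hPL : Stmt_L5_Places) (hND : Stmt_L5_CupND) (hH2 : Stmt_L5_H2Dim) :
    Top.Stmt_I1 :=
  stmt_I1_of stmt_L5_Krasner hPL H45.stmt_L5_Kummer hND hH2 H72.stmt_LocalPowIndex

end Fermat.Agent.S55.CFT.LOC.H5
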