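/-
S55/E4 island LOC, package LOC-5, finite-level descent (FL) (helper68).
`Ω/k` Galois (possibly infinite), `F` an intermediate field, `Γ = F.fixingSubgroup = Gal(Ω/F)`.
* `resΓ F L : Γ →* Gal(L/F)` for a normal intermediate field `L` of `Ω/F`
  (`L : IntermediateField ↥F Ω`), surjective, `resΓ_eq_iff`;
* `exists_finLevel`: every finite extension `E/k` inside `Ω` lies in a finite Galois `L/F`;
* `exists_factor₁/₂`: functions on `Γ` which are constant modulo `E.fixingSubgroup` factor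
  through `resΓ F L`.
-/
import Mathlib

set_option autoImplicit false
set_option linter.unusedSectionVars false
set_option linter.style.haveILetI false
set_option linter.unusedVariables false

namespace Fermat.Agent.S55.CFT.LOC.H68

section FL

variable {k Ω : Type} [Field k] [Field Ω] [Algebra k Ω] [IsGalois k Ω]
variable (F : IntermediateField k Ω)

/-- restriction of `Γ = Gal(Ω/F)` to a normal intermediate field `L` of `Ω/F` -/
noncomputable def resΓ (L : IntermediateField ↥F Ω) [Normal ↥F ↥L] :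
    ↥F.fixingSubgroup →* (↥L ≃ₐ[↥F] ↥L) :=
  (AlgEquiv.restrictNormalHom (F := ↥F) (K₁ := Ω) ↥L).comp
    (IntermediateField.fixingSubgroupEquiv F).toMonoidHom

theorem resΓ_apply (L : IntermediateField ↥F Ω) [Normal ↥F ↥L] (g : ↥F.fixingSubgroup)
    (x : ↥L) : ((resΓ F L g x : ↥L) : Ω) = (g : Ω ≃ₐ[k] Ω) (x : Ω) := by
  have h := AlgEquiv.restrictNormal_commutes (IntermediateField.fixingSubgroupEquiv F g) ↥L x
  exact h

theorem resΓ_surjective (L : IntermediateField ↥F Ω) [Normal ↥F ↥L] :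
    Function.Surjective (resΓ F L) := by
  intro σ
  obtain ⟨τ, hτ⟩ := AlgEquiv.restrictNormalHom_surjective (F := ↥F) (K₁ := ↥L) Ω σ
  refine ⟨(IntermediateField.fixingSubgroupEquiv F).symm τ, ?_⟩
  show (AlgEquiv.restrictNormalHom (F := ↥F) (K₁ := Ω) ↥L)
    ((IntermediateField.fixingSubgroupEquiv F) ((IntermediateField.fixingSubgroupEquiv F).symm τ))
      = σ
  rw [MulEquiv.apply_symm_apply]
  exact hτ

theorem resΓ_eq_iff (L : IntermediateField ↥F Ω) [Normal ↥F ↥L] (g g' : ↥F.fixingSubgroup) :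
    resΓ F L g = resΓ F L g' ↔ ∀ x ∈ L, (g : Ω ≃ₐ[k] Ω) x = (g' : Ω ≃ₐ[k] Ω) x := by
  constructor
  · intro h x hx
    have h1 := resΓ_apply F L g ⟨x, hx⟩
    have h2 := resΓ_apply F L g' ⟨x, hx⟩
    rw [h] at h1
    exact h1.symm.trans h2
  · intro h
    ext x
    rw [resΓ_apply, resΓ_apply]
    exact h x x.2

theorem resΓ_eq_one_iff (L : IntermediateField ↥F Ω) [Normal ↥F ↥L] (g : ↥F.fixingSubgroup) :
    resΓ F L g = 1 ↔ ∀ x ∈ L, (g : Ω ≃ₐ[k] Ω) x = x := by
  rw [← map_one (resΓ F L), resΓ_eq_iff]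
  rfl

/-- every finite extension `E/k` inside `Ω` lies in a finite Galois extension `L/F` -/
theorem exists_finLevel (E : IntermediateField k Ω) [FiniteDimensional k ↥E] :
    ∃ L : IntermediateField ↥F Ω, FiniteDimensional ↥F ↥L ∧ IsGalois ↥F ↥L ∧
      ∀ x ∈ E, x ∈ L := by
  classical
  haveI : Algebra.IsSeparable k ↥E := Algebra.isSeparable_tower_bot_of_isSeparable k ↥E Ω
  obtain ⟨α, hα⟩ := Field.exists_primitive_element k ↥E
  have hint : IsIntegral ↥F (α : Ω) := Algebra.IsIntegral.isIntegral (R := ↥F) (α : Ω)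
  let M : IntermediateField ↥F Ω := IntermediateField.adjoin ↥F {(α : Ω)}
  haveI : FiniteDimensional ↥F ↥M := IntermediateField.adjoin.finiteDimensional hint
  let L : IntermediateField ↥F Ω := IntermediateField.normalClosure ↥F ↥M Ω
  haveI : FiniteDimensional ↥F ↥L := normalClosure.is_finiteDimensional ↥F ↥M Ω
  haveI : Normal ↥F ↥L := normalClosure.normal ↥F ↥M Ω
  haveI : Algebra.IsSeparable ↥F ↥L := Algebra.isSeparable_tower_bot_of_isSeparable ↥F ↥L Ω
  refine ⟨L, inferInstance, ⟨⟩, ?_⟩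
  -- `E = k(α) ⊆ F(α) ⊆ L`
  have hML : M ≤ L := IntermediateField.le_normalClosure M
  have hαM : (α : Ω) ∈ M := IntermediateField.mem_adjoin_simple_self ↥F (α : Ω)
  have hEle : E ≤ (L.restrictScalars k) := by
    have h1 : E = IntermediateField.adjoin k {(α : Ω)} := by
      have h2 : IntermediateField.map E.val (IntermediateField.adjoin k {α}) =
          IntermediateField.adjoin k {(α : Ω)} := by
        rw [IntermediateField.adjoin_map]
        simp
      rw [hα] at h2
      rw [← h2]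
      ext x
      simp [IntermediateField.mem_map]
    rw [h1, IntermediateField.adjoin_le_iff]
    intro x hx
    rw [Set.mem_singleton_iff] at hx
    subst hx
    exact hML hαM
  intro x hx
  exact hEle hx

/-- functions constant modulo `E.fixingSubgroup` factor through a finite level `L ⊇ E` -/
theorem exists_factor₁ (L : IntermediateField ↥F Ω) [Normal ↥F ↥L] (E : IntermediateField k Ω)
    (hEL : ∀ x ∈ E, x ∈ L) {X : Type*} (f : ↥F.fixingSubgroup → X)
    (hf : ∀ g s : ↥F.fixingSubgroup, (s : Ω ≃ₐ[k] Ω) ∈ E.fixingSubgroup → f (g * s) = f g) :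
    ∃ f' : (↥L ≃ₐ[↥F] ↥L) → X, ∀ g : ↥F.fixingSubgroup, f g = f' (resΓ F L g) := by
  classical
  have hwd : ∀ g g' : ↥F.fixingSubgroup, resΓ F L g = resΓ F L g' → f g = f g' := by
    intro g g' h
    have hs : ((g⁻¹ * g' : ↥F.fixingSubgroup) : Ω ≃ₐ[k] Ω) ∈ E.fixingSubgroup := by
      rw [IntermediateField.mem_fixingSubgroup_iff]
      intro x hx
      have h1 := (resΓ_eq_iff F L g g').1 h x (hEL x hx)
      rw [Subgroup.coe_mul, Subgroup.coe_inv, AlgEquiv.mul_apply, ← h1]
      exact AlgEquiv.symm_apply_apply (g : Ω ≃ₐ[k] Ω) x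
    have := hf g (g⁻¹ * g') hs
    rw [mul_inv_cancel_left] at this
    exact this.symm
  refine ⟨fun σ => f (Function.surjInv (resΓ_surjective F L) σ), fun g => ?_⟩
  exact hwd _ _ (Function.surjInv_eq (resΓ_surjective F L) (resΓ F L g)).symm

theorem exists_factor₂ (L : IntermediateField ↥F Ω) [Normal ↥F ↥L] (E : IntermediateField k Ω)
    (hEL : ∀ x ∈ E, x ∈ L) {X : Type*} (f : ↥F.fixingSubgroup × ↥F.fixingSubgroup → X)
    (hf : ∀ g g' s s' : ↥F.fixingSubgroup, (s : Ω ≃ₐ[k] Ω) ∈ E.fixingSubgroup →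
      (s' : Ω ≃ₐ[k] Ω) ∈ E.fixingSubgroup → f (g * s, g' * s') = f (g, g')) :
    ∃ f' : (↥L ≃ₐ[↥F] ↥L) × (↥L ≃ₐ[↥F] ↥L) → X,
      ∀ g h : ↥F.fixingSubgroup, f (g, h) = f' (resΓ F L g, resΓ F L h) := by
  classical
  have hmem : ∀ g g' : ↥F.fixingSubgroup, resΓ F L g = resΓ F L g' →
      ((g⁻¹ * g' : ↥F.fixingSubgroup) : Ω ≃ₐ[k] Ω) ∈ E.fixingSubgroup := by
    intro g g' h
    rw [IntermediateField.mem_fixingSubgroup_iff]
    intro x hx
    have h1 := (resΓ_eq_iff F L g g').1 h x (hEL x hx)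
    rw [Subgroup.coe_mul, Subgroup.coe_inv, AlgEquiv.mul_apply, ← h1]
    exact AlgEquiv.symm_apply_apply (g : Ω ≃ₐ[k] Ω) x
  have hwd : ∀ g g' h h' : ↥F.fixingSubgroup, resΓ F L g = resΓ F L g' →
      resΓ F L h = resΓ F L h' → f (g, h) = f (g', h') := by
    intro g g' h h' e1 e2
    have := hf g h (g⁻¹ * g') (h⁻¹ * h') (hmem g g' e1) (hmem h h' e2)
    rw [mul_inv_cancel_left, mul_inv_cancel_left] at this
    exact this.symm
  refine ⟨fun σ => f (Function.surjInv (resΓ_surjective F L) σ.1,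
    Function.surjInv (resΓ_surjective F L) σ.2), fun g h => ?_⟩
  exact hwd _ _ _ _ (Function.surjInv_eq (resΓ_surjective F L) (resΓ F L g)).symm
    (Function.surjInv_eq (resΓ_surjective F L) (resΓ F L h)).symm

end FL

end Fermat.Agent.S55.CFT.LOC.H68
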