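/-
S55/E4 island LOC, package LOC-4c' (helper68): inflation–restriction in degree 2 in the shape
used by LOC-4f: a surjection `π : Γ ↠ Q` (kernel `N`), a `Q`-module `B` embedded equivariantly
in the `Γ`-module `A` with image `A^N`, and `H¹(N, A) = 0` (`InfData π ι`), explicit additive
cocycles (`groupCohomology.IsCocycle₂`).  Here: `inf_injective`.
(The quotient-group form `H²(G ⧸ N, A^N)` is `CFT/H24_InfRes2.lean`, helper24.)
-/
import Mathlib

set_option autoImplicit false

namespace Fermat.Agent.S55.CFT.LOC.H68

open groupCohomology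

section infres

variable {Γ Q A B : Type} [Group Γ] [Group Q] [AddCommGroup A] [AddCommGroup B]
  [DistribMulAction Γ A] [DistribMulAction Q B]

/-- The data of an inflation situation: `π : Γ ↠ Q` with kernel `N`, `ι : B ↪ A` equivariant
with image `A^N`, and `H¹(N, A) = 0`. -/
structure InfData (π : Γ →* Q) (ι : B →+ A) : Prop where
  surj : Function.Surjective π
  inj : Function.Injective ι
  equiv : ∀ (g : Γ) (b : B), ι (π g • b) = g • ι b
  image : ∀ a : A, (∀ n : Γ, π n = 1 → n • a = a) → ∃ b : B, ι b = a
  h1 : ∀ f : Γ → A, (∀ n n' : Γ, π n = 1 → π n' = 1 → f (n * n') = n • f n' + f n) →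
    ∃ a : A, ∀ n : Γ, π n = 1 → n • a - a = f n

variable {π : Γ →* Q} {ι : B →+ A}

theorem InfData.fixed (D : InfData π ι) (b : B) {n : Γ} (hn : π n = 1) : n • ι b = ι b := by
  rw [← D.equiv, hn, one_smul]

/-- cocycle identities at the identity -/
theorem cocycle_one_left {G M : Type} [Group G] [AddCommGroup M] [DistribMulAction G M]
    {c : G × G → M} (hc : IsCocycle₂ c) (j : G) : c (1, j) = c (1, 1) := by
  have := hc 1 1 j
  simp only [one_mul, one_smul] at this
  -- c(1,j) + c(1,1) = c(1,j) + c(1,j)
  linear_combination (norm := abel) -this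

theorem cocycle_one_right {G M : Type} [Group G] [AddCommGroup M] [DistribMulAction G M]
    {c : G × G → M} (hc : IsCocycle₂ c) (g : G) : c (g, 1) = g • c (1, 1) := by
  have := hc g 1 1
  simp only [mul_one] at this
  linear_combination (norm := abel) this

/-- **Inflation is injective on `H²`** (when `H¹(N, A) = 0`). -/
theorem inf_injective (D : InfData π ι) (c : Q × Q → B) (hc : IsCocycle₂ c)
    (x : Γ → A) (hx : ∀ g h : Γ, g • x h - x (g * h) + x g = ι (c (π g, π h))) :
    IsCoboundary₂ c := by
  classical
  set c₀ := c (1, 1) with hc₀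
  -- x' = x - ι c₀ is a 1-cocycle on N
  obtain ⟨a, ha⟩ := D.h1 (fun g => x g - ι c₀) (by
    intro n n' hn hn'
    have h := hx n n'
    rw [hn, hn'] at h
    have hfix := D.fixed (ι := ι) c₀ hn
    simp only [smul_sub, hfix]
    linear_combination (norm := abel) -h)
  -- x'' g = x g - (g • a - a)
  set x'' : Γ → A := fun g => x g - (g • a - a) with hx''
  have hx''d : ∀ g h : Γ, g • x'' h - x'' (g * h) + x'' g = ι (c (π g, π h)) := by
    intro g h
    simp only [hx'', smul_sub, mul_smul]
    linear_combination (norm := abel) hx g h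
  have hx''N : ∀ n : Γ, π n = 1 → x'' n = ι c₀ := by
    intro n hn
    simp only [hx'']
    linear_combination (norm := abel) -ha n hn
  -- x'' (g n) = x'' g
  have hright : ∀ (g n : Γ), π n = 1 → x'' (g * n) = x'' g := by
    intro g n hn
    have h := hx''d g n
    rw [hn, cocycle_one_right hc, D.equiv, hx''N n hn] at h
    linear_combination (norm := abel) -h
  -- x'' g is N-fixed
  have hfixed : ∀ (g n : Γ), π n = 1 → n • x'' g = x'' g := by
    intro g n hn
    have h := hx''d n g
    rw [hn, cocycle_one_left hc, hx''N n hn] at h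
    have hconj : π (g⁻¹ * n * g) = 1 := by
      rw [map_mul, map_mul, hn, mul_one, map_inv, inv_mul_cancel]
    have h2 := hright g (g⁻¹ * n * g) hconj
    have e : g * (g⁻¹ * n * g) = n * g := by group
    rw [e] at h2
    rw [h2] at h
    linear_combination (norm := abel) h
  -- descend
  choose y hy using fun g : Γ => D.image (x'' g) (fun n hn => hfixed g n hn)
  let s : Q → Γ := Function.surjInv D.surj
  have hs : ∀ q, π (s q) = q := Function.surjInv_eq D.surj
  have hxs : ∀ g : Γ, x'' (s (π g)) = x'' g := by
    intro g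
    have hk : π ((s (π g))⁻¹ * g) = 1 := by
      rw [map_mul, map_inv, hs, inv_mul_cancel]
    have := hright (s (π g)) ((s (π g))⁻¹ * g) hk
    rw [mul_inv_cancel_left] at this
    exact this.symm
  refine ⟨fun q => y (s q), fun q r => ?_⟩
  apply D.inj
  have h := hx''d (s q) (s r)
  rw [hs, hs] at h
  rw [← h, map_add, map_sub, hy, hy, ← hs q, D.equiv, hy, hs q]
  have e : x'' (s (q * r)) = x'' (s q * s r) := by
    have := hxs (s q * s r)
    rw [map_mul, hs, hs] at this
    exact this
  rw [e]

end infres

end Fermat.Agent.S55.CFT.LOC.H68
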