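/-
S55/E4 island LOC, package LOC-4 (local class formation on p-extensions): interfaces of the
sub-packages.  Route: NOTES/plan/S55_LOC.md, section "LOC-4 detailed route" (helper68).
-/
import Fermat.Agent.S55.CFT.LOC.Basic
import Fermat.Agent.S55.CFT.LOC.H68_InfRes

set_option autoImplicit false

open CategoryTheory groupCohomology

namespace Fermat.Agent.S55.CFT.LOC

/-- **LOC-2c** (arithmetic input of the splitting step).  For a finite Galois extension `E/F`
of local fields there are a finite Galois extension `L/F` containing `E`, and an intermediate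
field `E'` of `L/F`, unramified cyclic over `F` of degree `[E:F]·k`, with `L = E·E'`, `L/E`
cyclic, such that `x^k` is a norm from `L` to `E` for every `x ∈ Fˣ`.
(Take `E' = F(ζ)`, `ζ` of order `N^(n') − 1`, `N = #k_F`, `n' = n·a` with `#k_E = q^a`; then
`L = E(ζ)` is unramified over `E`, `L/E'` is totally ramified of degree `e = e(E/F)`, so
`[L:E] = e·k`, and `N_{L/E} Lˣ = {y : v_E(y) ∈ [L:E]·ℤ}`, while `v_E(x^k) = e·k·v_F(x)`.) -/
def Stmt_UnramCompositum : Prop :=
  ∀ (q : ℕ) [Fact q.Prime] (F E : Type) [Field F] [Field E] [Algebra ℚ_[q] F]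
    [FiniteDimensional ℚ_[q] F] [Algebra ℚ_[q] E] [Algebra F E] [IsScalarTower ℚ_[q] F E]
    [FiniteDimensional F E] [IsGalois F E],
    ∃ (L : Type) (_ : Field L) (_ : Algebra ℚ_[q] L) (_ : Algebra F L) (_ : Algebra E L)
      (_ : IsScalarTower ℚ_[q] F L) (_ : IsScalarTower F E L) (_ : FiniteDimensional F L)
      (_ : IsGalois F L) (E' : IntermediateField F L) (k : ℕ),
      0 < k ∧ IsGalois F E' ∧ IsCyclic (E' ≃ₐ[F] E') ∧
      Module.finrank F E' = Module.finrank F E * k ∧ IsUnram q F E' ∧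
      E' ⊔ (IsScalarTower.toAlgHom F E L).fieldRange = ⊤ ∧
      IsCyclic (L ≃ₐ[E] L) ∧
      ∀ x : F, x ≠ 0 → ∃ y : L, Algebra.norm E y = algebraMap F E x ^ k

/-- **LOC-4c'** (exactness of inflation–restriction at `H²(Γ, A)`, shape `InfData`): a
2-cocycle of `Γ` whose restriction to `N = ker π` is a coboundary is cohomologous to an
inflated cocycle. -/
def Stmt_InfResExact : Prop :=
  ∀ (Γ Q A B : Type) [Group Γ] [Group Q] [AddCommGroup A] [AddCommGroup B]
    [DistribMulAction Γ A] [DistribMulAction Q B] (π : Γ →* Q) (ι : B →+ A),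
    H68.InfData π ι →
    ∀ c' : Γ × Γ → A, IsCocycle₂ c' →
      (∃ z : Γ → A, ∀ n n' : Γ, π n = 1 → π n' = 1 → n • z n' - z (n * n') + z n = c' (n, n')) →
      ∃ c : Q × Q → B, IsCocycle₂ c ∧
        ∃ x : Γ → A, ∀ g h : Γ, c' (g, h) = ι (c (π g, π h)) + (g • x h - x (g * h) + x g)

/-- **LOC-4f** (lower bound): `H²(Gal(E/F), Eˣ)` contains a class of order `[E:F]`, for every
finite Galois extension of local fields. -/
def Stmt_LocalH2Order : Prop :=
  ∀ (q : ℕ) [Fact q.Prime] (F E : Type) [Field F] [Field E] [Algebra ℚ_[q] F]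
    [FiniteDimensional ℚ_[q] F] [Algebra F E] [FiniteDimensional F E] [IsGalois F E],
    ∃ γ : groupCohomology (unitsRep F E) 2,
      ∀ k : ℤ, k • γ = 0 → (Module.finrank F E : ℤ) ∣ k

/-- **LOC-4f'** (`p`-extensions): `H²(Gal(E/F), Eˣ)` is cyclic of order `[E:F]`. -/
def Stmt_LocalH2CyclicP : Prop :=
  ∀ (q : ℕ) [Fact q.Prime] (p : ℕ) [Fact p.Prime] (F E : Type) [Field F] [Field E]
    [Algebra ℚ_[q] F] [FiniteDimensional ℚ_[q] F] [Algebra F E] [FiniteDimensional F E]
    [IsGalois F E],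
    IsPGroup p (E ≃ₐ[F] E) →
    Nat.card (groupCohomology (unitsRep F E) 2) = Module.finrank F E ∧
    ∃ γ : groupCohomology (unitsRep F E) 2, ∀ x : groupCohomology (unitsRep F E) 2,
      ∃ n : ℤ, x = n • γ

end Fermat.Agent.S55.CFT.LOC
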