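/-
S55/E4 island LOC (helper25), package LOC-2c, part 1: the spanning argument.
If `L/K` is a finite extension of local fields with the same residue field, `π` a uniformiser
of `L`, `ϖ ∈ K` with `|ϖ| = |π|^e`, then `1, π, …, π^(e-1)` span `L` over `K`; in particular
`[L : K] ≤ e`.  (Successive approximation.)
-/
import Fermat.Agent.S55.CFT.LOC.H68_LOC1

set_option autoImplicit false
set_option linter.unusedSectionVars false
set_option linter.style.haveILetI false

namespace Fermat.Agent.S55.CFT.LOC.H25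

open Fermat.Agent.S55.CFT.LOC

section sums

variable (q : ℕ) [Fact q.Prime] (F : Type) [Field F] [Algebra ℚ_[q] F]
  [FiniteDimensional ℚ_[q] F]

theorem nrm_sum_le {ι : Type*} (s : Finset ι) (f : ι → F) {r : ℝ} (hr : 0 ≤ r)
    (h : ∀ i ∈ s, nrm q F (f i) ≤ r) : nrm q F (∑ i ∈ s, f i) ≤ r := by
  classical
  induction s using Finset.induction_on with
  | empty => simpa using hr
  | insert a s ha ih =>
    rw [Finset.sum_insert ha]
    refine (nrm_add_le_max q F _ _).trans (max_le ?_ ?_)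
    · exact h a (Finset.mem_insert_self a s)
    · exact ih (fun i hi => h i (Finset.mem_insert_of_mem hi))

theorem nrm_sum_lt {ι : Type*} (s : Finset ι) (f : ι → F) {r : ℝ} (hr : 0 < r)
    (h : ∀ i ∈ s, nrm q F (f i) < r) : nrm q F (∑ i ∈ s, f i) < r := by
  classical
  induction s using Finset.induction_on with
  | empty => simpa using hr
  | insert a s ha ih =>
    rw [Finset.sum_insert ha]
    refine lt_of_le_of_lt (nrm_add_le_max q F _ _) (max_lt ?_ ?_)
    · exact h a (Finset.mem_insert_self a s)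
    · exact ih (fun i hi => h i (Finset.mem_insert_of_mem hi))

theorem eq_zero_of_nrm_le_pow {x : F} {ρ : ℝ} (_hρ0 : 0 ≤ ρ) (hρ1 : ρ < 1)
    (h : ∀ k : ℕ, nrm q F x ≤ ρ ^ k) : x = 0 := by
  by_contra hx
  have hpos := nrm_pos q F hx
  obtain ⟨k, hk⟩ := exists_pow_lt_of_lt_one hpos hρ1
  exact absurd (h k) (not_le.mpr hk)

end sums

section span

variable (q : ℕ) [Fact q.Prime] (K L : Type) [Field K] [Field L] [Algebra ℚ_[q] K]
  [FiniteDimensional ℚ_[q] K] [Algebra ℚ_[q] L] [FiniteDimensional ℚ_[q] L] [Algebra K L]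
  [IsScalarTower ℚ_[q] K L]

variable (hres : ∀ y : L, nrm q L y ≤ 1 → ∃ x : K, nrm q L (y - algebraMap K L x) < 1)
  (π : L) (ϖ : K) (e : ℕ) (hπ0 : 0 < nrm q L π) (hπ1 : nrm q L π < 1)
  (hπe : nrm q L π ^ e = nrm q K ϖ)
  (hval : ∀ y : L, y ≠ 0 → ∃ k : ℤ, nrm q L y = nrm q L π ^ k)

include hres hπ0 hπ1 hval in
/-- One digit. -/
theorem exists_digit (y : L) (hy : nrm q L y ≤ 1) :
    ∃ (a : K) (y' : L), nrm q K a ≤ 1 ∧ nrm q L y' ≤ 1 ∧ y = algebraMap K L a + π * y' := by
  obtain ⟨x, hx⟩ := hres y hy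
  have hx1 : nrm q K x ≤ 1 := by
    rw [← nrm_algebraMap q K L]
    have h1 : algebraMap K L x = y - (y - algebraMap K L x) := by ring
    rw [h1]
    exact (nrm_sub_le_max q L _ _).trans (max_le hy hx.le)
  have hπne : π ≠ 0 := by
    rintro rfl
    rw [nrm_zero] at hπ0
    exact lt_irrefl _ hπ0
  refine ⟨x, (y - algebraMap K L x) / π, hx1, ?_, ?_⟩
  · by_cases hr : y - algebraMap K L x = 0
    · rw [hr, zero_div, nrm_zero]
      exact zero_le_one
    · obtain ⟨k, hk⟩ := hval _ hr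
      rw [hk] at hx
      have hk1 : 0 < k := (zpow_lt_one_iff_right_of_lt_one₀ hπ0 hπ1).mp hx
      rw [nrm_div, hk, div_eq_mul_inv, ← zpow_sub_one₀ hπ0.ne']
      exact (zpow_le_one_iff_right_of_lt_one₀ hπ0 hπ1).mpr (by omega)
  · field_simp
    ring

include hres hπ0 hπ1 hval in
/-- `t` digits. -/
theorem exists_digits (t : ℕ) (y : L) (hy : nrm q L y ≤ 1) :
    ∃ (a : ℕ → K) (y' : L), (∀ j, nrm q K (a j) ≤ 1) ∧ nrm q L y' ≤ 1 ∧
      y = ∑ j ∈ Finset.range t, algebraMap K L (a j) * π ^ j + π ^ t * y' := by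
  induction t with
  | zero => exact ⟨fun _ => 0, y, fun _ => by simp, hy, by simp⟩
  | succ t ih =>
    obtain ⟨a, y', ha, hy', h⟩ := ih
    obtain ⟨b, y'', hb, hy'', h'⟩ := exists_digit q K L hres π hπ0 hπ1 hval y' hy'
    refine ⟨fun j => if j = t then b else a j, y'', ?_, hy'', ?_⟩
    · intro j
      by_cases hj : j = t
      · simp only [hj, if_true]
        exact hb
      · simp only [hj, if_false]
        exact ha j
    · rw [Finset.sum_range_succ, h, h']
      have hsum : ∑ j ∈ Finset.range t, algebraMap K L (if j = t then b else a j) * π ^ j =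
          ∑ j ∈ Finset.range t, algebraMap K L (a j) * π ^ j := by
        refine Finset.sum_congr rfl (fun j hj => ?_)
        have : j ≠ t := (Finset.mem_range.mp hj).ne
        simp only [this, if_false]
      rw [hsum]
      simp only [if_true]
      ring

include hres hπ0 hπ1 hπe hval in
/-- One block of `e` digits, with remainder divisible by `ϖ`. -/
theorem exists_block (y : L) (hy : nrm q L y ≤ 1) :
    ∃ (a : ℕ → K) (y' : L), (∀ j, nrm q K (a j) ≤ 1) ∧ nrm q L y' ≤ 1 ∧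
      y = ∑ j ∈ Finset.range e, algebraMap K L (a j) * π ^ j + algebraMap K L ϖ * y' := by
  obtain ⟨a, y', ha, hy', h⟩ := exists_digits q K L hres π hπ0 hπ1 hval e y hy
  have hϖ0 : algebraMap K L ϖ ≠ 0 := by
    intro h0
    have := nrm_algebraMap q K L ϖ
    rw [h0, nrm_zero, ← hπe] at this
    exact (pow_pos hπ0 e).ne this
  refine ⟨a, π ^ e / algebraMap K L ϖ * y', ha, ?_, ?_⟩
  · rw [nrm_mul, nrm_div, nrm_pow, nrm_algebraMap, hπe, div_self, one_mul]
    · exact hy'
    · rw [← hπe]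
      exact (pow_pos hπ0 e).ne'
  · rw [h]
    field_simp

/-- The data of the iteration. -/
structure BlockData where
  /-- the current remainder -/
  y : L
  hy : nrm q L y ≤ 1

include hres hπ0 hπ1 hπe hval in
theorem exists_seq (y : L) (hy : nrm q L y ≤ 1) :
    ∃ (A : ℕ → ℕ → K) (Y : ℕ → L), Y 0 = y ∧ ∀ k, (∀ j, nrm q K (A k j) ≤ 1) ∧
      nrm q L (Y k) ≤ 1 ∧
      Y k = ∑ j ∈ Finset.range e, algebraMap K L (A k j) * π ^ j +
        algebraMap K L ϖ * Y (k + 1) := by
  classical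
  have hstep : ∀ d : BlockData q L, ∃ (a : ℕ → K) (d' : BlockData q L),
      (∀ j, nrm q K (a j) ≤ 1) ∧
      d.y = ∑ j ∈ Finset.range e, algebraMap K L (a j) * π ^ j + algebraMap K L ϖ * d'.y := by
    intro d
    obtain ⟨a, y', ha, hy', h⟩ := exists_block q K L hres π ϖ e hπ0 hπ1 hπe hval d.y d.hy
    exact ⟨a, ⟨y', hy'⟩, ha, h⟩
  choose dig nxt hdig hnxt using hstep
  let D : ℕ → BlockData q L := fun k => Nat.rec ⟨y, hy⟩ (fun _ d => nxt d) k
  have hD : ∀ k, D (k + 1) = nxt (D k) := fun k => rfl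
  refine ⟨fun k => dig (D k), fun k => (D k).y, rfl, ?_⟩
  intro k
  refine ⟨hdig (D k), (D k).hy, ?_⟩
  exact hnxt (D k)

include hres hπ0 hπ1 hπe hval in
/-- Integers of `L` are combinations of `1, π, …, π^(e-1)`. -/
theorem exists_repr_of_le_one (he : 0 < e) (y : L) (hy : nrm q L y ≤ 1) :
    ∃ B : ℕ → K, y = ∑ j ∈ Finset.range e, algebraMap K L (B j) * π ^ j := by
  classical
  obtain ⟨A, Y, hY0, hAY⟩ := exists_seq q K L hres π ϖ e hπ0 hπ1 hπe hval y hy
  set ρ : ℝ := nrm q K ϖ with hρ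
  have hρ0 : 0 ≤ ρ := nrm_nonneg q K ϖ
  have hρ1 : ρ < 1 := by
    rw [← hπe]
    exact pow_lt_one₀ hπ0.le hπ1 he.ne'
  -- partial sums
  let S : ℕ → ℕ → K := fun j m => ∑ k ∈ Finset.range m, A k j * ϖ ^ k
  have hS : ∀ m, y = ∑ j ∈ Finset.range e, algebraMap K L (S j m) * π ^ j +
      algebraMap K L ϖ ^ m * Y m := by
    intro m
    induction m with
    | zero => simp [S, hY0]
    | succ m ih =>
      have h1 := (hAY m).2.2
      have h2 : ∀ j, S j (m + 1) = S j m + A m j * ϖ ^ m := fun j =>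
        Finset.sum_range_succ _ _
      calc y = ∑ j ∈ Finset.range e, algebraMap K L (S j m) * π ^ j +
            algebraMap K L ϖ ^ m * Y m := ih
        _ = ∑ j ∈ Finset.range e, algebraMap K L (S j m) * π ^ j +
            algebraMap K L ϖ ^ m * (∑ j ∈ Finset.range e, algebraMap K L (A m j) * π ^ j +
              algebraMap K L ϖ * Y (m + 1)) := by rw [← h1]
        _ = ∑ j ∈ Finset.range e, algebraMap K L (S j (m + 1)) * π ^ j +
            algebraMap K L ϖ ^ (m + 1) * Y (m + 1) := by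
          rw [mul_add, Finset.mul_sum, ← add_assoc, ← Finset.sum_add_distrib, pow_succ]
          congr 1
          · refine Finset.sum_congr rfl (fun j _ => ?_)
            rw [h2, map_add, map_mul, map_pow]
            ring
          · ring
  -- limits
  have hlim : ∀ j, ∃ b : K, ∀ m, nrm q K (b - S j m) ≤ 1 * ρ ^ m := by
    intro j
    refine H68.stmt_SuccApprox q K (fun m => S j m) 1 ρ zero_le_one hρ0 hρ1 ?_
    intro m
    have : S j (m + 1) - S j m = A m j * ϖ ^ m := by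
      change ∑ k ∈ Finset.range (m + 1), A k j * ϖ ^ k - ∑ k ∈ Finset.range m, A k j * ϖ ^ k = _
      rw [Finset.sum_range_succ]
      ring
    rw [this, nrm_mul, nrm_pow]
    exact mul_le_mul_of_nonneg_right ((hAY m).1 j) (pow_nonneg hρ0 m)
  choose B hB using hlim
  refine ⟨B, ?_⟩
  rw [← sub_eq_zero]
  apply eq_zero_of_nrm_le_pow q L hρ0 hρ1
  intro m
  have h1 : y - ∑ j ∈ Finset.range e, algebraMap K L (B j) * π ^ j =
      ∑ j ∈ Finset.range e, algebraMap K L (S j m - B j) * π ^ j +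
        algebraMap K L ϖ ^ m * Y m := by
    conv_lhs => rw [hS m]
    have : ∑ j ∈ Finset.range e, algebraMap K L (S j m - B j) * π ^ j =
        ∑ j ∈ Finset.range e, algebraMap K L (S j m) * π ^ j -
          ∑ j ∈ Finset.range e, algebraMap K L (B j) * π ^ j := by
      rw [← Finset.sum_sub_distrib]
      refine Finset.sum_congr rfl (fun j _ => ?_)
      rw [map_sub]
      ring
    rw [this]
    ring
  rw [h1]
  refine (nrm_add_le_max q L _ _).trans (max_le ?_ ?_)
  · apply nrm_sum_le q L _ _ (pow_nonneg hρ0 m)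
    intro j _
    rw [nrm_mul, nrm_algebraMap, nrm_pow, nrm_sub_comm]
    have h2 := hB j m
    rw [one_mul] at h2
    calc nrm q K (B j - S j m) * nrm q L π ^ j ≤ ρ ^ m * 1 :=
          mul_le_mul h2 (pow_le_one₀ hπ0.le hπ1.le) (pow_nonneg hπ0.le j) (pow_nonneg hρ0 m)
      _ = ρ ^ m := mul_one _
  · rw [nrm_mul, nrm_pow, nrm_algebraMap]
    calc ρ ^ m * nrm q L (Y m) ≤ ρ ^ m * 1 :=
          mul_le_mul_of_nonneg_left (hAY m).2.1 (pow_nonneg hρ0 m)
      _ = ρ ^ m := mul_one _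

include hres hπ0 hπ1 hπe hval in
/-- Every element of `L` is a combination of `1, π, …, π^(e-1)`. -/
theorem exists_repr (he : 0 < e) (y : L) :
    ∃ B : ℕ → K, y = ∑ j ∈ Finset.range e, algebraMap K L (B j) * π ^ j := by
  set ρ : ℝ := nrm q K ϖ with hρ
  have hρ0 : 0 < ρ := by
    rw [← hπe]
    exact pow_pos hπ0 e
  have hρ1 : ρ < 1 := by
    rw [← hπe]
    exact pow_lt_one₀ hπ0.le hπ1 he.ne'
  have hϖ0 : ϖ ≠ 0 := by
    intro h0
    have h1 : ρ = 0 := by rw [hρ, h0, nrm_zero]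
    rw [h1] at hρ0
    exact lt_irrefl _ hρ0
  by_cases hy0 : y = 0
  · exact ⟨fun _ => 0, by simp [hy0]⟩
  obtain ⟨m, hm⟩ := exists_pow_lt_of_lt_one (show 0 < (nrm q L y)⁻¹ from
    inv_pos.mpr (nrm_pos q L hy0)) hρ1
  have hy1 : nrm q L (algebraMap K L ϖ ^ m * y) ≤ 1 := by
    rw [nrm_mul, nrm_pow, nrm_algebraMap]
    have := mul_lt_mul_of_pos_right hm (nrm_pos q L hy0)
    rw [inv_mul_cancel₀ (nrm_pos q L hy0).ne'] at this
    exact this.le
  obtain ⟨B, hB⟩ := exists_repr_of_le_one q K L hres π ϖ e hπ0 hπ1 hπe hval he _ hy1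
  refine ⟨fun j => (ϖ ^ m)⁻¹ * B j, ?_⟩
  have hne : algebraMap K L ϖ ^ m ≠ 0 :=
    pow_ne_zero _ ((map_ne_zero (algebraMap K L)).mpr hϖ0)
  have h2 : y = (algebraMap K L ϖ ^ m)⁻¹ * (algebraMap K L ϖ ^ m * y) := by
    rw [← mul_assoc, inv_mul_cancel₀ hne, one_mul]
  rw [h2, hB, Finset.mul_sum]
  refine Finset.sum_congr rfl (fun j _ => ?_)
  rw [map_mul, map_inv₀, map_pow]
  ring

include hres hπ0 hπ1 hπe hval in
/-- **Spanning**: `[L : K] ≤ e`. -/
theorem finrank_le_of_residue_eq (he : 0 < e) : Module.finrank K L ≤ e := by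
  classical
  let b : Fin e → L := fun j => π ^ (j : ℕ)
  have hspan : Submodule.span K (Set.range b) = ⊤ := by
    rw [eq_top_iff]
    intro y _
    obtain ⟨B, hB⟩ := exists_repr q K L hres π ϖ e hπ0 hπ1 hπe hval he y
    rw [hB]
    refine Submodule.sum_mem _ (fun j hj => ?_)
    rw [← Algebra.smul_def]
    refine Submodule.smul_mem _ _ (Submodule.subset_span ?_)
    exact ⟨⟨j, Finset.mem_range.mp hj⟩, rfl⟩
  have h1 := finrank_range_le_card (R := K) b
  rw [Set.finrank, hspan, finrank_top, Fintype.card_fin] at h1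
  exact h1

end span

end Fermat.Agent.S55.CFT.LOC.H25
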