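/-
S55/E4 island LOC, package LOC-3a (`Stmt_TrivialUnits`): split into
* LOC-3a-I  (abstract, pure algebra): `Stmt_TrivialOfLattice`
* LOC-3a-II (concrete, normal basis + absolute value): `Stmt_LatticeExists`
(helper68).  `NLat F E` is a decreasing, separated, complete, Galois-stable filtration
`M 0 ⊇ M 1 ⊇ …` of `E` by additive subgroups with `M j * M k ⊆ M (j+k+1)`, on which the trace is
onto the invariants (`Ĥ⁰ = 0`) and elements of small trace are almost of the form `σ y - y`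
(`H¹ = 0`).  Model: `M k = {Σ_τ a_τ τ(θ) : |a_τ| ≤ s₀ / 2^k}`, `θ` a normal basis generator.
-/
import Fermat.Agent.S55.CFT.LOC.Basic

set_option autoImplicit false

namespace Fermat.Agent.S55.CFT.LOC

/-- A cohomologically trivial multiplicative filtration of `E` (see the file header). -/
structure NLat (F E : Type) [Field F] [Field E] [Algebra F E] [FiniteDimensional F E] where
  /-- the lattices -/
  M : ℕ → AddSubgroup E
  anti : ∀ k, M (k + 1) ≤ M k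
  mul_mem : ∀ (j k : ℕ) (x y : E), x ∈ M j → y ∈ M k → x * y ∈ M (j + k + 1)
  sep : ∀ x : E, (∀ k, x ∈ M k) → x = 0
  complete : ∀ x : ℕ → E, (∀ k, x (k + 1) - x k ∈ M k) → ∃ y : E, ∀ k, y - x k ∈ M k
  galois : ∀ (τ : E ≃ₐ[F] E) (k : ℕ) (x : E), x ∈ M k → τ x ∈ M k
  h0 : ∀ (k : ℕ) (x : E), x ∈ M k → (∀ τ : E ≃ₐ[F] E, τ x = x) →
    ∃ y ∈ M k, ∑ τ : E ≃ₐ[F] E, τ y = x
  h1 : ∀ (σ : E ≃ₐ[F] E), (∀ τ : E ≃ₐ[F] E, τ ∈ Subgroup.zpowers σ) →
    ∀ (k l : ℕ) (x : E), x ∈ M k → ∑ τ : E ≃ₐ[F] E, τ x ∈ M l →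
      ∃ y ∈ M k, σ y - y - x ∈ M l

/-- **LOC-3a-II** (concrete): a finite Galois extension of local fields has an `NLat` whose
first term contains a ball around `0` and is contained in the open unit ball. -/
def Stmt_LatticeExists : Prop :=
  ∀ (q : ℕ) [Fact q.Prime] (F E : Type) [Field F] [Field E] [Algebra ℚ_[q] F]
    [FiniteDimensional ℚ_[q] F] [Algebra ℚ_[q] E] [Algebra F E] [IsScalarTower ℚ_[q] F E]
    [FiniteDimensional F E] [IsGalois F E],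
    ∃ (L : NLat F E) (r : ℝ), 0 < r ∧ (∀ x : E, nrm q E x ≤ r → x ∈ L.M 0) ∧
      ∀ x ∈ L.M 0, nrm q E x < 1

/-- **LOC-3a-I** (abstract): the group `V = 1 + M 0` of an `NLat` is a `σ`-stable subgroup of
`Eˣ` on which `Ĥ⁰` and `H¹` vanish. -/
def Stmt_TrivialOfLattice : Prop :=
  ∀ (F E : Type) [Field F] [Field E] [Algebra F E] [FiniteDimensional F E] [IsGalois F E]
    (L : NLat F E) (σ : E ≃ₐ[F] E), (∀ τ : E ≃ₐ[F] E, τ ∈ Subgroup.zpowers σ) →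
    ∃ V : Subgroup Eˣ, (∀ u : Eˣ, u ∈ V ↔ (u : E) - 1 ∈ L.M 0) ∧
      (∀ x ∈ L.M 0, 1 + x ≠ 0) ∧
      (∀ u ∈ V, Units.map (σ : E →* E) u ∈ V) ∧
      (∀ u ∈ V, σ (u : E) = u → ∃ w ∈ V, algebraMap F E (Algebra.norm F (w : E)) = u) ∧
      (∀ u ∈ V, Algebra.norm F (u : E) = 1 → ∃ w ∈ V, (u : E) = σ (w : E) / w)

end Fermat.Agent.S55.CFT.LOC
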