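/-
S55/E4 island LOC, package LOC-3a-II (concrete lattice), file 1: coordinates with respect to the
normal basis, structure constants (helper68).
-/
import Fermat.Agent.S55.CFT.LOC.H68_LOC1
import Fermat.Agent.S55.CFT.LOC.Defs_Lattice

set_option autoImplicit false
set_option linter.unusedSectionVars false
set_option linter.style.haveILetI false

namespace Fermat.Agent.S55.CFT.LOC.H68

open Fermat.Agent.S55.CFT.LOC

section general

variable (q : ℕ) [Fact q.Prime] (F : Type) [Field F] [Algebra ℚ_[q] F]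
  [FiniteDimensional ℚ_[q] F]

theorem nrm_sum_le {ι : Type} (s : Finset ι) (f : ι → F) {r : ℝ} (hr : 0 ≤ r)
    (h : ∀ i ∈ s, nrm q F (f i) ≤ r) : nrm q F (∑ i ∈ s, f i) ≤ r := by
  classical
  induction s using Finset.induction_on with
  | empty => simpa using hr
  | insert a s ha ih =>
    rw [Finset.sum_insert ha]
    exact (nrm_add_le_max q F _ _).trans
      (max_le (h a (Finset.mem_insert_self a s))
        (ih (fun i hi => h i (Finset.mem_insert_of_mem hi))))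

end general

section concrete

variable (q : ℕ) [Fact q.Prime] (F E : Type) [Field F] [Field E] [Algebra ℚ_[q] F]
  [FiniteDimensional ℚ_[q] F] [Algebra ℚ_[q] E] [Algebra F E] [IsScalarTower ℚ_[q] F E]
  [FiniteDimensional F E] [IsGalois F E]

theorem nrm_smul (a : F) (y : E) : nrm q E (a • y) = nrm q F a * nrm q E y := by
  haveI : FiniteDimensional ℚ_[q] E := FiniteDimensional.trans ℚ_[q] F E
  rw [Algebra.smul_def, nrm_mul, nrm_algebraMap]

/-- the coordinates with respect to the normal basis -/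
noncomputable def nbc (x : E) (τ : E ≃ₐ[F] E) : F := (IsGalois.normalBasis F E).repr x τ

theorem nbc_add (x y : E) (τ : E ≃ₐ[F] E) : nbc F E (x + y) τ = nbc F E x τ + nbc F E y τ := by
  simp [nbc]

theorem nbc_neg (x : E) (τ : E ≃ₐ[F] E) : nbc F E (-x) τ = -nbc F E x τ := by
  simp [nbc]

theorem nbc_sub (x y : E) (τ : E ≃ₐ[F] E) : nbc F E (x - y) τ = nbc F E x τ - nbc F E y τ := by
  simp [nbc]

theorem nbc_zero (τ : E ≃ₐ[F] E) : nbc F E 0 τ = 0 := by
  simp [nbc]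

theorem nbc_smul (a : F) (x : E) (τ : E ≃ₐ[F] E) : nbc F E (a • x) τ = a * nbc F E x τ := by
  simp [nbc]

theorem nbc_sum {ι : Type} (s : Finset ι) (f : ι → E) (τ : E ≃ₐ[F] E) :
    nbc F E (∑ i ∈ s, f i) τ = ∑ i ∈ s, nbc F E (f i) τ := by
  simp [nbc, Finsupp.finsetSum_apply]

theorem nbc_sum_self (x : E) : ∑ τ, nbc F E x τ • IsGalois.normalBasis F E τ = x :=
  (IsGalois.normalBasis F E).sum_repr x

theorem nbc_of_sum (c : (E ≃ₐ[F] E) → F) (τ : E ≃ₐ[F] E) :
    nbc F E (∑ ρ, c ρ • IsGalois.normalBasis F E ρ) τ = c τ := by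
  unfold nbc
  rw [Module.Basis.repr_sum_self]

theorem nbc_ext {x y : E} (h : ∀ τ, nbc F E x τ = nbc F E y τ) : x = y := by
  rw [← nbc_sum_self F E x, ← nbc_sum_self F E y]
  exact Finset.sum_congr rfl (fun τ _ => by rw [h τ])

theorem nb_galois (τ ρ : E ≃ₐ[F] E) :
    τ (IsGalois.normalBasis F E ρ) = IsGalois.normalBasis F E (τ * ρ) := by
  rw [IsGalois.normalBasis_apply ρ, IsGalois.normalBasis_apply (τ * ρ), AlgEquiv.mul_apply]

/-- coordinates of a Galois conjugate -/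
theorem nbc_galois (τ : E ≃ₐ[F] E) (x : E) (ρ : E ≃ₐ[F] E) :
    nbc F E (τ x) ρ = nbc F E x (τ⁻¹ * ρ) := by
  have h1 : τ x = ∑ π, nbc F E x (τ⁻¹ * π) • IsGalois.normalBasis F E π := by
    conv_lhs => rw [← nbc_sum_self F E x]
    rw [map_sum]
    simp only [map_smul, nb_galois]
    refine Fintype.sum_equiv (Equiv.mulLeft τ) _ _ (fun π => ?_)
    simp
  rw [h1, nbc_of_sum]

/-- the bound on the structure constants -/
noncomputable def nbK : ℝ :=
  1 + ∑ τ : E ≃ₐ[F] E, ∑ ρ : E ≃ₐ[F] E, ∑ π : E ≃ₐ[F] E,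
    nrm q F (nbc F E (IsGalois.normalBasis F E τ * IsGalois.normalBasis F E ρ) π)

theorem nbK_ge_one : 1 ≤ nbK q F E := by
  unfold nbK
  have : 0 ≤ ∑ τ : E ≃ₐ[F] E, ∑ ρ : E ≃ₐ[F] E, ∑ π : E ≃ₐ[F] E,
    nrm q F (nbc F E (IsGalois.normalBasis F E τ * IsGalois.normalBasis F E ρ) π) :=
    Finset.sum_nonneg (fun τ _ => Finset.sum_nonneg (fun ρ _ => Finset.sum_nonneg
      (fun π _ => nrm_nonneg q F _)))
  linarith

theorem nbK_bound (τ ρ π : E ≃ₐ[F] E) :
    nrm q F (nbc F E (IsGalois.normalBasis F E τ * IsGalois.normalBasis F E ρ) π) ≤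
      nbK q F E := by
  unfold nbK
  have h1 : nrm q F (nbc F E (IsGalois.normalBasis F E τ * IsGalois.normalBasis F E ρ) π) ≤
      ∑ π' : E ≃ₐ[F] E,
        nrm q F (nbc F E (IsGalois.normalBasis F E τ * IsGalois.normalBasis F E ρ) π') :=
    Finset.single_le_sum (f := fun π' =>
      nrm q F (nbc F E (IsGalois.normalBasis F E τ * IsGalois.normalBasis F E ρ) π'))
      (fun _ _ => nrm_nonneg q F _) (Finset.mem_univ π)
  have h2 : (∑ π' : E ≃ₐ[F] E,
        nrm q F (nbc F E (IsGalois.normalBasis F E τ * IsGalois.normalBasis F E ρ) π')) ≤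
      ∑ ρ' : E ≃ₐ[F] E, ∑ π' : E ≃ₐ[F] E,
        nrm q F (nbc F E (IsGalois.normalBasis F E τ * IsGalois.normalBasis F E ρ') π') :=
    Finset.single_le_sum (f := fun ρ' => ∑ π' : E ≃ₐ[F] E,
        nrm q F (nbc F E (IsGalois.normalBasis F E τ * IsGalois.normalBasis F E ρ') π'))
      (fun _ _ => Finset.sum_nonneg (fun _ _ => nrm_nonneg q F _)) (Finset.mem_univ ρ)
  have h3 : (∑ ρ' : E ≃ₐ[F] E, ∑ π' : E ≃ₐ[F] E,
        nrm q F (nbc F E (IsGalois.normalBasis F E τ * IsGalois.normalBasis F E ρ') π')) ≤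
      ∑ τ' : E ≃ₐ[F] E, ∑ ρ' : E ≃ₐ[F] E, ∑ π' : E ≃ₐ[F] E,
        nrm q F (nbc F E (IsGalois.normalBasis F E τ' * IsGalois.normalBasis F E ρ') π') :=
    Finset.single_le_sum (f := fun τ' => ∑ ρ' : E ≃ₐ[F] E, ∑ π' : E ≃ₐ[F] E,
        nrm q F (nbc F E (IsGalois.normalBasis F E τ' * IsGalois.normalBasis F E ρ') π'))
      (fun _ _ => Finset.sum_nonneg (fun _ _ => Finset.sum_nonneg (fun _ _ => nrm_nonneg q F _)))
      (Finset.mem_univ τ)
  linarith

/-- product rule for coordinates -/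
theorem nbc_mul_le {x y : E} {r s : ℝ} (hr : 0 ≤ r) (hs : 0 ≤ s)
    (hx : ∀ τ, nrm q F (nbc F E x τ) ≤ r) (hy : ∀ τ, nrm q F (nbc F E y τ) ≤ s)
    (π : E ≃ₐ[F] E) : nrm q F (nbc F E (x * y) π) ≤ nbK q F E * r * s := by
  have hxy : x * y = ∑ τ, ∑ ρ, (nbc F E x τ * nbc F E y ρ) •
      (IsGalois.normalBasis F E τ * IsGalois.normalBasis F E ρ) := by
    conv_lhs => rw [← nbc_sum_self F E x, ← nbc_sum_self F E y]
    rw [Finset.sum_mul_sum]
    refine Finset.sum_congr rfl (fun τ _ => Finset.sum_congr rfl (fun ρ _ => ?_))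
    rw [smul_mul_smul_comm]
  rw [hxy, nbc_sum]
  have hK0 : 0 ≤ nbK q F E := le_trans zero_le_one (nbK_ge_one q F E)
  refine nrm_sum_le q F _ _ (by positivity) (fun τ _ => ?_)
  rw [nbc_sum]
  refine nrm_sum_le q F _ _ (by positivity) (fun ρ _ => ?_)
  rw [nbc_smul, nrm_mul, nrm_mul]
  have h1 := hx τ
  have h2 := hy ρ
  have h3 := nbK_bound q F E τ ρ π
  have hn1 := nrm_nonneg q F (nbc F E x τ)
  have hn2 := nrm_nonneg q F (nbc F E y ρ)
  have hn3 := nrm_nonneg q F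
    (nbc F E (IsGalois.normalBasis F E τ * IsGalois.normalBasis F E ρ) π)
  calc nrm q F (nbc F E x τ) * nrm q F (nbc F E y ρ) *
        nrm q F (nbc F E (IsGalois.normalBasis F E τ * IsGalois.normalBasis F E ρ) π)
      ≤ r * s * nbK q F E := by
        apply mul_le_mul (mul_le_mul h1 h2 hn2 hr) h3 hn3 (by positivity)
    _ = nbK q F E * r * s := by ring

end concrete

end Fermat.Agent.S55.CFT.LOC.H68
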