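/-
S55/E4 island LOC, package LOC-3a-I (abstract part), file 1: the subgroups `V k = 1 + M k` of an
`NLat` (helper68).
-/
import Fermat.Agent.S55.CFT.LOC.Defs_Lattice

set_option autoImplicit false
set_option linter.unusedSectionVars false
set_option linter.style.haveILetI false

namespace Fermat.Agent.S55.CFT.LOC.H68

open Fermat.Agent.S55.CFT.LOC

section abstract

variable {F E : Type} [Field F] [Field E] [Algebra F E] [FiniteDimensional F E] (L : NLat F E)

theorem nl_mono {j k : ℕ} (h : j ≤ k) : L.M k ≤ L.M j := by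
  induction h with
  | refl => exact le_rfl
  | step _ ih => exact (L.anti _).trans ih

theorem nl_mul_mem_of_le {j k l : ℕ} (h : l ≤ j + k + 1) {x y : E} (hx : x ∈ L.M j)
    (hy : y ∈ L.M k) : x * y ∈ L.M l :=
  nl_mono L h (L.mul_mem j k x y hx hy)

theorem nl_mul_mem_right {j k : ℕ} {x y : E} (hx : x ∈ L.M j) (hy : y ∈ L.M k) :
    x * y ∈ L.M k :=
  nl_mul_mem_of_le L (by omega) hx hy

theorem nl_mul_mem_left {j k : ℕ} {x y : E} (hx : x ∈ L.M j) (hy : y ∈ L.M k) :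
    x * y ∈ L.M j :=
  nl_mul_mem_of_le L (by omega) hx hy

/-- `(1 + x) * y ∈ M k` for `x ∈ M 0`, `y ∈ M k`. -/
theorem nl_one_add_mul_mem {k : ℕ} {x y : E} (hx : x ∈ L.M 0) (hy : y ∈ L.M k) :
    (1 + x) * y ∈ L.M k := by
  rw [add_mul, one_mul]
  exact (L.M k).add_mem hy (nl_mul_mem_right L hx hy)

theorem nl_pow_mem {k : ℕ} {x : E} (hx : x ∈ L.M k) (j : ℕ) : x ^ (j + 1) ∈ L.M (k + j) := by
  induction j with
  | zero => simpa using hx
  | succ j ih =>
    rw [pow_succ]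
    exact nl_mul_mem_of_le L (by omega) ih hx

theorem nl_sum_mem {ι : Type} (s : Finset ι) {k : ℕ} {f : ι → E} (h : ∀ i ∈ s, f i ∈ L.M k) :
    ∑ i ∈ s, f i ∈ L.M k :=
  (L.M k).sum_mem h

/-- geometric series: `1 + x` is invertible with inverse in `1 + M k`. -/
theorem nl_exists_inv {k : ℕ} {x : E} (hx : x ∈ L.M k) :
    ∃ z ∈ L.M k, (1 + x) * (1 + z) = 1 := by
  -- partial sums
  let Z : ℕ → E := fun m => ∑ j ∈ Finset.range m, (-x) ^ (j + 1)
  have hnx : -x ∈ L.M k := (L.M k).neg_mem hx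
  have hZk : ∀ m, Z m ∈ L.M k := fun m =>
    nl_sum_mem L _ (fun j _ => nl_mono L (Nat.le_add_right k j) (nl_pow_mem L hnx j))
  have hdiff : ∀ m, Z (m + 1) - Z m ∈ L.M m := by
    intro m
    have : Z (m + 1) - Z m = (-x) ^ (m + 1) := by
      simp only [Z, Finset.sum_range_succ, add_sub_cancel_left]
    rw [this]
    exact nl_mono L (Nat.le_add_left m k) (nl_pow_mem L hnx m)
  obtain ⟨z, hz⟩ := L.complete Z hdiff
  have hzk : z ∈ L.M k := by
    have h1 : z - Z k ∈ L.M k := hz k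
    have : z = (z - Z k) + Z k := by ring
    rw [this]
    exact (L.M k).add_mem h1 (hZk k)
  refine ⟨z, hzk, ?_⟩
  -- (1+x)(1+Z m) = 1 - (-x)^(m+1)
  have hgeo : ∀ m, (1 + x) * (1 + Z m) = 1 - (-x) ^ (m + 1) := by
    intro m
    induction m with
    | zero => simp [Z]
    | succ m ih =>
      have : Z (m + 1) = Z m + (-x) ^ (m + 1) := by
        simp only [Z, Finset.sum_range_succ]
      rw [this, ← add_assoc, mul_add, ih]
      ring
  have hx0 : x ∈ L.M 0 := nl_mono L (Nat.zero_le k) hx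
  have hall : ∀ m, (1 + x) * (1 + z) - 1 ∈ L.M m := by
    intro m
    have e : (1 + x) * (1 + z) - 1 = (1 + x) * (z - Z m) + (-((-x) ^ (m + 1))) := by
      have := hgeo m
      have e2 : (1 + x) * (1 + z) = (1 + x) * (z - Z m) + (1 + x) * (1 + Z m) := by ring
      rw [e2, this]; ring
    rw [e]
    refine (L.M m).add_mem (nl_one_add_mul_mem L hx0 (hz m)) ((L.M m).neg_mem ?_)
    exact nl_mono L (Nat.le_add_left m k) (nl_pow_mem L hnx m)
  have := L.sep _ hall
  exact sub_eq_zero.mp this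

theorem nl_one_add_ne_zero {x : E} (hx : x ∈ L.M 0) : 1 + x ≠ 0 := by
  obtain ⟨z, _, hz⟩ := nl_exists_inv L hx
  intro h
  rw [h, zero_mul] at hz
  exact zero_ne_one hz

/-- The subgroups `V k = 1 + M k` of `Eˣ`. -/
def nlV (k : ℕ) : Subgroup Eˣ where
  carrier := {u | (u : E) - 1 ∈ L.M k}
  one_mem' := by simp
  mul_mem' := by
    intro u v hu hv
    simp only [Set.mem_ofPred_eq] at hu hv ⊢
    have e : ((u * v : Eˣ) : E) - 1 = ((u : E) - 1) * ((v : E) - 1) + ((u : E) - 1) +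
        ((v : E) - 1) := by
      push_cast; ring
    rw [e]
    exact (L.M k).add_mem ((L.M k).add_mem (nl_mul_mem_right L hu hv) hu) hv
  inv_mem' := by
    intro u hu
    simp only [Set.mem_ofPred_eq] at hu ⊢
    obtain ⟨z, hz, hmul⟩ := nl_exists_inv L hu
    have e1 : (1 : E) + ((u : E) - 1) = u := by ring
    rw [e1] at hmul
    have e2 : ((u⁻¹ : Eˣ) : E) = 1 + z := by
      have := congrArg (fun t => ((u⁻¹ : Eˣ) : E) * t) hmul
      simp only [mul_one] at this
      rw [← mul_assoc, Units.inv_mul, one_mul] at this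
      exact this.symm
    rw [e2, add_sub_cancel_left]
    exact hz

theorem mem_nlV {k : ℕ} {u : Eˣ} : u ∈ nlV L k ↔ (u : E) - 1 ∈ L.M k := Iff.rfl

theorem nlV_mono {j k : ℕ} (h : j ≤ k) : nlV L k ≤ nlV L j := fun _ hu => nl_mono L h hu

theorem nlV_sep {u : Eˣ} (h : ∀ k, u ∈ nlV L k) : u = 1 := by
  have := L.sep _ h
  exact Units.ext (sub_eq_zero.mp this)

/-- the unit `1 + x` -/
noncomputable def nlUnit (x : E) (hx : x ∈ L.M 0) : Eˣ := Units.mk0 (1 + x) (nl_one_add_ne_zero L hx)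

@[simp] theorem nlUnit_coe (x : E) (hx : x ∈ L.M 0) : ((nlUnit L x hx : Eˣ) : E) = 1 + x := rfl

theorem nlUnit_mem {k : ℕ} (x : E) (hx : x ∈ L.M k) :
    nlUnit L x (nl_mono L (Nat.zero_le k) hx) ∈ nlV L k := by
  rw [mem_nlV, nlUnit_coe, add_sub_cancel_left]; exact hx

/-- if `u, v ∈ V 0` and `u - v ∈ M k` then `u / v ∈ V k`. -/
theorem nlV_div_mem {k : ℕ} {u v : Eˣ} (hv : v ∈ nlV L 0) (h : (u : E) - v ∈ L.M k) :
    u / v ∈ nlV L k := by
  rw [mem_nlV]
  have hv' : v⁻¹ ∈ nlV L 0 := (nlV L 0).inv_mem hv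
  rw [mem_nlV] at hv'
  have e : ((u / v : Eˣ) : E) - 1 = (1 + (((v⁻¹ : Eˣ) : E) - 1)) * ((u : E) - v) := by
    rw [div_eq_mul_inv]
    push_cast
    have : (v : E) * (v : E)⁻¹ = 1 := by
      rw [← Units.val_inv_eq_inv_val]; exact Units.mul_inv v
    linear_combination (1 : E) * this
  rw [e]
  exact nl_one_add_mul_mem L hv' h

/-- if `u / v ∈ V k`, `v ∈ V 0` then `u - v ∈ M k`. -/
theorem nlV_sub_mem {k : ℕ} {u v : Eˣ} (hv : v ∈ nlV L 0) (h : u / v ∈ nlV L k) :
    (u : E) - v ∈ L.M k := by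
  rw [mem_nlV] at h hv
  have e : (u : E) - v = (1 + ((v : E) - 1)) * (((u / v : Eˣ) : E) - 1) := by
    rw [div_eq_mul_inv]
    push_cast
    have : (v : E) * (v : E)⁻¹ = 1 := by
      rw [← Units.val_inv_eq_inv_val]; exact Units.mul_inv v
    linear_combination (-(u : E)) * this
  rw [e]
  exact nl_one_add_mul_mem L hv h

end abstract

end Fermat.Agent.S55.CFT.LOC.H68
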