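/-
S55/E4 island LOC, package LOC-3a-I (abstract part), file 2: `Stmt_TrivialOfLattice` —
product expansion, the limit argument, the two approximation steps (helper68).
-/
import Fermat.Agent.S55.CFT.LOC.H68_NLat1

set_option autoImplicit false
set_option linter.unusedSectionVars false
set_option linter.style.haveILetI false

namespace Fermat.Agent.S55.CFT.LOC.H68

open Fermat.Agent.S55.CFT.LOC

section abstract2

variable {F E : Type} [Field F] [Field E] [Algebra F E] [FiniteDimensional F E] (L : NLat F E)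

/-- `∏ (1 + y i) ≡ 1 + ∑ y i mod M (2k+1)` for `y i ∈ M k`. -/
theorem nl_prod_one_add {ι : Type} (s : Finset ι) {k : ℕ} {y : ι → E}
    (hy : ∀ i ∈ s, y i ∈ L.M k) :
    ∏ i ∈ s, (1 + y i) - 1 - ∑ i ∈ s, y i ∈ L.M (2 * k + 1) := by
  classical
  induction s using Finset.induction_on with
  | empty => simp
  | insert a s ha ih =>
    have hya : y a ∈ L.M k := hy a (Finset.mem_insert_self a s)
    have hys : ∀ i ∈ s, y i ∈ L.M k := fun i hi => hy i (Finset.mem_insert_of_mem hi)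
    have ih' := ih hys
    have hS : ∑ i ∈ s, y i ∈ L.M k := nl_sum_mem L s hys
    rw [Finset.prod_insert ha, Finset.sum_insert ha]
    set P := ∏ i ∈ s, (1 + y i) with hP
    set S := ∑ i ∈ s, y i with hSdef
    have e : (1 + y a) * P - 1 - (y a + S) = (P - 1 - S) + y a * S + y a * (P - 1 - S) := by
      ring
    rw [e]
    refine (L.M _).add_mem ((L.M _).add_mem ih' ?_) ?_
    · exact nl_mul_mem_of_le L (by omega) hya hS
    · exact nl_mul_mem_right L hya ih'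

theorem nl_mul_unit_mem {k : ℕ} {a : E} {w : Eˣ} (ha : a ∈ L.M k) (hw : w ∈ nlV L 0) :
    a * (w : E) ∈ L.M k := by
  rw [mem_nlV] at hw
  have e : a * (w : E) = (1 + ((w : E) - 1)) * a := by ring
  rw [e]
  exact nl_one_add_mul_mem L hw ha

/-- the abstract limit argument -/
theorem nl_limit (f : Eˣ →* Eˣ) (hf : ∀ k, ∀ w ∈ nlV L k, f w ∈ nlV L k) (X : Subgroup Eˣ)
    (hfX : ∀ w, f w ∈ X)
    (step : ∀ k, ∀ u ∈ nlV L k, u ∈ X → ∃ w ∈ nlV L k, u / f w ∈ nlV L (k + 1)) :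
    ∀ u ∈ nlV L 0, u ∈ X → ∃ W ∈ nlV L 0, f W = u := by
  intro u hu huX
  have key : ∀ (k : ℕ) (P : {P : Eˣ // P ∈ nlV L 0 ∧ u / f P ∈ nlV L k}),
      ∃ P' : {P : Eˣ // P ∈ nlV L 0 ∧ u / f P ∈ nlV L (k + 1)},
        (P'.1 / P.1 : Eˣ) ∈ nlV L k := by
    rintro k ⟨P, hP0, hPk⟩
    have hX : u / f P ∈ X := X.div_mem huX (hfX P)
    obtain ⟨w, hw, hw'⟩ := step k _ hPk hX
    refine ⟨⟨P * w, (nlV L 0).mul_mem hP0 (nlV_mono L (Nat.zero_le k) hw), ?_⟩, ?_⟩
    · rw [map_mul]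
      have : u / (f P * f w) = u / f P / f w := by rw [div_div]
      rw [this]; exact hw'
    · simpa using hw
  choose stepf hstepf using key
  let seq : (k : ℕ) → {P : Eˣ // P ∈ nlV L 0 ∧ u / f P ∈ nlV L k} :=
    fun k => Nat.rec (motive := fun k => {P : Eˣ // P ∈ nlV L 0 ∧ u / f P ∈ nlV L k})
      ⟨1, (nlV L 0).one_mem, by simpa using hu⟩ (fun k P => stepf k P) k
  have hseq : ∀ k, ((seq (k + 1)).1 / (seq k).1 : Eˣ) ∈ nlV L k := fun k => hstepf k (seq k)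
  have hseq0 : (seq 0).1 = 1 := rfl
  have hdiff : ∀ k, (((seq (k + 1)).1 : Eˣ) : E) - ((seq k).1 : Eˣ) ∈ L.M k := fun k =>
    nlV_sub_mem L (seq k).2.1 (hseq k)
  obtain ⟨y, hy⟩ := L.complete (fun k => (((seq k).1 : Eˣ) : E)) hdiff
  have hy0 : y - 1 ∈ L.M 0 := by
    have := hy 0
    simpa [hseq0] using this
  let W : Eˣ := nlUnit L (y - 1) hy0
  have hWy : (W : E) = y := by simp [W]
  have hW0 : W ∈ nlV L 0 := by rw [mem_nlV, hWy]; exact hy0
  refine ⟨W, hW0, ?_⟩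
  have hWk : ∀ k, W / (seq k).1 ∈ nlV L k := fun k =>
    nlV_div_mem L (seq k).2.1 (by rw [hWy]; exact hy k)
  have hall : ∀ k, u / f W ∈ nlV L k := by
    intro k
    have h1 : f (W / (seq k).1) ∈ nlV L k := hf k _ (hWk k)
    have h2 : u / f (seq k).1 ∈ nlV L k := (seq k).2.2
    have e : u / f W = (u / f (seq k).1) / f (W / (seq k).1) := by
      rw [map_div]
      rw [div_div, mul_div_cancel]
    rw [e]
    exact (nlV L k).div_mem h2 h1
  have := nlV_sep L hall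
  exact (div_eq_one.mp this).symm

end abstract2

section abstract3

variable {F E : Type} [Field F] [Field E] [Algebra F E] [FiniteDimensional F E] (L : NLat F E)

/-- the norm as an endomorphism of `Eˣ` -/
noncomputable def nlN (F E : Type) [Field F] [Field E] [Algebra F E] [FiniteDimensional F E] :
    Eˣ →* Eˣ :=
  ∏ τ : E ≃ₐ[F] E, Units.map (τ : E →* E)

theorem nlN_coe (w : Eˣ) : ((nlN F E w : Eˣ) : E) = ∏ τ : E ≃ₐ[F] E, τ (w : E) := by
  simp [nlN]

theorem nlN_eq_norm [IsGalois F E] (w : Eˣ) :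
    ((nlN F E w : Eˣ) : E) = algebraMap F E (Algebra.norm F (w : E)) := by
  rw [nlN_coe, Algebra.norm_eq_prod_automorphisms]

/-- `σ - 1` as an endomorphism of `Eˣ` -/
noncomputable def nlD (σ : E ≃ₐ[F] E) : Eˣ →* Eˣ :=
  Units.map (σ : E →* E) / MonoidHom.id Eˣ

theorem nlD_apply (σ : E ≃ₐ[F] E) (w : Eˣ) : nlD σ w = Units.map (σ : E →* E) w / w := rfl

theorem nlD_coe (σ : E ≃ₐ[F] E) (w : Eˣ) : ((nlD σ w : Eˣ) : E) = σ (w : E) / w := by
  rw [nlD_apply]; simp [Units.val_div_eq_div_val]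

theorem nlV_map_mem (τ : E ≃ₐ[F] E) {k : ℕ} {w : Eˣ} (hw : w ∈ nlV L k) :
    Units.map (τ : E →* E) w ∈ nlV L k := by
  rw [mem_nlV] at hw ⊢
  have := L.galois τ k _ hw
  simpa using this

theorem nlN_mem {k : ℕ} {w : Eˣ} (hw : w ∈ nlV L k) : nlN F E w ∈ nlV L k := by
  rw [nlN, MonoidHom.finsetProd_apply]
  exact (nlV L k).prod_mem (fun τ _ => nlV_map_mem L τ hw)

theorem nlD_mem (σ : E ≃ₐ[F] E) {k : ℕ} {w : Eˣ} (hw : w ∈ nlV L k) : nlD σ w ∈ nlV L k := by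
  rw [nlD_apply]
  exact (nlV L k).div_mem (nlV_map_mem L σ hw) hw

end abstract3

section abstract4

variable {F E : Type} [Field F] [Field E] [Algebra F E] [FiniteDimensional F E] (L : NLat F E)

theorem nl_stepN (k : ℕ) (u : Eˣ) (hu : u ∈ nlV L k)
    (hfix : ∀ τ : E ≃ₐ[F] E, τ (u : E) = u) :
    ∃ w ∈ nlV L k, u / nlN F E w ∈ nlV L (k + 1) := by
  have hx : (u : E) - 1 ∈ L.M k := hu
  have hxfix : ∀ τ : E ≃ₐ[F] E, τ ((u : E) - 1) = (u : E) - 1 := by
    intro τ; rw [map_sub, map_one, hfix]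
  obtain ⟨y, hy, hTr⟩ := L.h0 k _ hx hxfix
  have hy0 : y ∈ L.M 0 := nl_mono L (Nat.zero_le k) hy
  refine ⟨nlUnit L y hy0, nlUnit_mem L y hy, ?_⟩
  apply nlV_div_mem L (nlV_mono L (Nat.zero_le k) (nlN_mem L (nlUnit_mem L y hy)))
  have hexp := nl_prod_one_add L (Finset.univ : Finset (E ≃ₐ[F] E)) (k := k)
    (y := fun τ => τ y) (fun τ _ => L.galois τ k y hy)
  rw [hTr] at hexp
  have hN : ((nlN F E (nlUnit L y hy0) : Eˣ) : E) = ∏ τ : E ≃ₐ[F] E, (1 + τ y) := by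
    rw [nlN_coe]; simp
  have e : (u : E) - (nlN F E (nlUnit L y hy0) : Eˣ) =
      -(∏ τ : E ≃ₐ[F] E, (1 + τ y) - 1 - ((u : E) - 1)) := by rw [hN]; ring
  rw [e]
  exact (L.M _).neg_mem (nl_mono L (by omega) hexp)

theorem nl_stepD (σ : E ≃ₐ[F] E) (hσ : ∀ τ : E ≃ₐ[F] E, τ ∈ Subgroup.zpowers σ) (k : ℕ)
    (u : Eˣ) (hu : u ∈ nlV L k) (hN : nlN F E u = 1) :
    ∃ w ∈ nlV L k, u / nlD σ w ∈ nlV L (k + 1) := by
  have hx : (u : E) - 1 ∈ L.M k := hu
  have hux : (u : E) = 1 + ((u : E) - 1) := by ring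
  generalize (u : E) - 1 = x at hx hux
  have hexp := nl_prod_one_add L (Finset.univ : Finset (E ≃ₐ[F] E)) (k := k)
    (y := fun τ => τ x) (fun τ _ => L.galois τ k x hx)
  have hprod : ∏ τ : E ≃ₐ[F] E, (1 + τ x) = 1 := by
    have h1 := nlN_coe (F := F) u
    rw [hN] at h1
    simp only [Units.val_one] at h1
    refine Eq.trans ?_ h1.symm
    apply Finset.prod_congr rfl
    intro τ _
    rw [hux, map_add, map_one]
  rw [hprod, sub_self, zero_sub] at hexp
  have hTr : ∑ τ : E ≃ₐ[F] E, τ x ∈ L.M (2 * k + 1) := by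
    simpa using (L.M _).neg_mem hexp
  obtain ⟨y, hy, hyx⟩ := L.h1 σ hσ k (2 * k + 1) x hx hTr
  have hy0 : y ∈ L.M 0 := nl_mono L (Nat.zero_le k) hy
  have hw : nlUnit L y hy0 ∈ nlV L k := nlUnit_mem L y hy
  refine ⟨nlUnit L y hy0, hw, ?_⟩
  have hv : nlD σ (nlUnit L y hy0) ∈ nlV L k := nlD_mem L σ hw
  apply nlV_div_mem L (nlV_mono L (Nat.zero_le k) hv)
  set w := nlUnit L y hy0 with hwdef
  have hwc : (w : E) = 1 + y := rfl
  have hw0 : (w : E) ≠ 0 := w.ne_zero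
  have h1 : ((u : E) - (nlD σ w : Eˣ)) * (w : E) ∈ L.M (2 * k + 1) := by
    have e : ((u : E) - (nlD σ w : Eˣ)) * (w : E) = -(σ y - y - x) + x * y := by
      rw [nlD_coe, sub_mul, div_mul_cancel₀ _ hw0, hwc, map_add, map_one, hux]
      ring
    rw [e]
    exact (L.M _).add_mem ((L.M _).neg_mem hyx) (nl_mul_mem_of_le L (by omega) hx hy)
  have hwinv : w⁻¹ ∈ nlV L 0 := (nlV L 0).inv_mem (nlV_mono L (Nat.zero_le k) hw)
  have h2 := nl_mul_unit_mem L h1 hwinv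
  have e2 : ((u : E) - (nlD σ w : Eˣ)) * (w : E) * ((w⁻¹ : Eˣ) : E) =
      (u : E) - (nlD σ w : Eˣ) := by
    rw [mul_assoc, Units.mul_inv, mul_one]
  rw [e2] at h2
  exact nl_mono L (by omega) h2

theorem stmt_TrivialOfLattice : Stmt_TrivialOfLattice := by
  intro F E _ _ _ _ _ L σ hσ
  refine ⟨nlV L 0, fun u => Iff.rfl, fun x hx => nl_one_add_ne_zero L hx,
    fun u hu => nlV_map_mem L σ hu, ?_, ?_⟩
  · intro u hu hσu
    have hfix : ∀ τ : E ≃ₐ[F] E, τ (u : E) = u := by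
      intro τ
      obtain ⟨m, rfl⟩ := Subgroup.mem_zpowers_iff.mp (hσ τ)
      have hmem : σ ∈ MulAction.stabilizer (E ≃ₐ[F] E) (u : E) := hσu
      exact (MulAction.stabilizer (E ≃ₐ[F] E) (u : E)).zpow_mem hmem m
    let X : Subgroup Eˣ :=
      { carrier := {v | ∀ τ : E ≃ₐ[F] E, τ (v : E) = v}
        one_mem' := by intro τ; simp
        mul_mem' := by
          intro a b ha hb τ
          simp only [Set.mem_ofPred_eq] at ha hb
          rw [Units.val_mul, map_mul, ha τ, hb τ]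
        inv_mem' := by
          intro a ha τ
          simp only [Set.mem_ofPred_eq] at ha
          rw [Units.val_inv_eq_inv_val, map_inv₀, ha τ] }
    obtain ⟨W, hW, hWu⟩ := nl_limit L (nlN F E) (fun k w hw => nlN_mem L hw) X
      (fun w τ => by rw [nlN_eq_norm]; exact τ.commutes _)
      (fun k u hu hX => nl_stepN L k u hu hX) u hu hfix
    refine ⟨W, hW, ?_⟩
    rw [← nlN_eq_norm, hWu]
  · intro u hu hN
    have hN' : nlN F E u = 1 := Units.ext (by rw [nlN_eq_norm, hN, map_one]; rfl)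
    obtain ⟨W, hW, hWu⟩ := nl_limit L (nlD σ) (fun k w hw => nlD_mem L σ hw) (nlN F E).ker
      (fun w => by
        rw [MonoidHom.mem_ker, nlD_apply, map_div, div_eq_one]
        apply Units.ext
        rw [nlN_eq_norm, nlN_eq_norm]
        congr 1
        exact Algebra.norm_eq_of_algEquiv σ (w : E))
      (fun k u hu hX => nl_stepD L σ hσ k u hu (MonoidHom.mem_ker.mp hX)) u hu
      (MonoidHom.mem_ker.mpr hN')
    refine ⟨W, hW, ?_⟩
    rw [← hWu, nlD_coe]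

end abstract4

end Fermat.Agent.S55.CFT.LOC.H68

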