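/-
S55/E4 island LOC, package LOC-3a: wiring
`Stmt_LatticeExists → Stmt_TrivialOfLattice → Stmt_TrivialUnits` (helper68).
-/
import Fermat.Agent.S55.CFT.LOC.Defs_Lattice

set_option autoImplicit false
set_option linter.style.haveILetI false

namespace Fermat.Agent.S55.CFT.LOC.H68

open Fermat.Agent.S55.CFT.LOC

theorem trivialUnits_of_lattice (h2 : Stmt_LatticeExists) (h1 : Stmt_TrivialOfLattice) :
    Stmt_TrivialUnits := by
  intro q _ F E _ _ _ _ _ _ _ _ _ σ hσ
  haveI : FiniteDimensional ℚ_[q] E := FiniteDimensional.trans ℚ_[q] F E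
  obtain ⟨L, r, hr, hball, hunit⟩ := h2 q F E
  obtain ⟨V, hV, _, hVσ, hH0, hH1⟩ := h1 F E L σ hσ
  refine ⟨r, V, hr, ?_, ?_, hVσ, hH0, hH1⟩
  · intro u hu
    exact (hV u).mpr (hball _ hu)
  · intro u hu
    have h := hunit _ ((hV u).mp hu)
    have := nrm_one_add_of_lt q E h
    simpa using this

end Fermat.Agent.S55.CFT.LOC.H68
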