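/-
S55/E4 island LOC, package LOC-3a-II (concrete lattice), file 2: the normal basis lattices
`M k = {x : all coordinates have absolute value ≤ s₀ / 2^k}` form an `NLat`;
`stmt_LatticeExists`, and the assembled `stmt_TrivialUnits : Stmt_TrivialUnits` (helper68).
-/
import Fermat.Agent.S55.CFT.LOC.H68_Conc1
import Fermat.Agent.S55.CFT.LOC.H68_NLat2
import Fermat.Agent.S55.CFT.LOC.H68_TrivWire
set_option autoImplicit false
set_option linter.unusedSectionVars false
set_option linter.style.haveILetI false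

namespace Fermat.Agent.S55.CFT.LOC.H68

open Fermat.Agent.S55.CFT.LOC

/-- Telescoping on a finite cyclic group: every function is, up to its sum placed at `1`,
of the form `τ ↦ b (σ⁻¹ τ) - b τ`, with `b` built from sums of values of `a`. -/
theorem cyclic_telescope {G : Type} [Group G] [Fintype G] {A : Type}
    [AddCommGroup A] (σ : G) (hσ : ∀ τ : G, τ ∈ Subgroup.zpowers σ) (a : G → A) :
    ∃ b : G → A, (∀ τ, b (σ⁻¹ * τ) - b τ = a τ - (open Classical in if τ = 1 then ∑ π, a π else 0)) ∧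
      ∀ B : AddSubgroup A, (∀ τ, a τ ∈ B) → ∀ τ, b τ ∈ B := by
  classical
  set n := orderOf σ with hn
  have hnpos : 0 < n := orderOf_pos σ
  have hex : ∀ τ : G, ∃ i, i < n ∧ σ ^ i = τ := by
    intro τ
    have h1 : τ ∈ Submonoid.powers σ := mem_powers_iff_mem_zpowers.mpr (hσ τ)
    rw [mem_powers_iff_mem_range_orderOf] at h1
    obtain ⟨i, hi, hiτ⟩ := Finset.mem_image.mp h1
    exact ⟨i, Finset.mem_range.mp hi, hiτ⟩
  choose idx hidx_lt hidx_eq using hex
  have uniq : ∀ i j, i < n → j < n → σ ^ i = σ ^ j → i = j := fun i j hi hj h =>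
    pow_injOn_Iio_orderOf (x := σ) hi hj h
  have hidx_pow : ∀ i, i < n → idx (σ ^ i) = i := fun i hi =>
    uniq _ _ (hidx_lt _) hi (hidx_eq _)
  have hsum : ∑ π, a π = ∑ j ∈ Finset.range n, a (σ ^ j) := by
    symm
    refine Finset.sum_bij (fun j _ => σ ^ j) (fun _ _ => Finset.mem_univ _) ?_ ?_ (fun _ _ => rfl)
    · intro i hi j hj h
      exact uniq i j (Finset.mem_range.mp hi) (Finset.mem_range.mp hj) h
    · intro τ _
      exact ⟨idx τ, Finset.mem_range.mpr (hidx_lt τ), hidx_eq τ⟩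
  let b' : ℕ → A := fun i => -∑ j ∈ Finset.range i, a (σ ^ (j + 1))
  refine ⟨fun τ => b' (idx τ), ?_, ?_⟩
  · intro τ
    rcases Nat.eq_zero_or_eq_succ_pred (idx τ) with h0 | hs
    · -- τ = 1
      have hτ : τ = 1 := by rw [← hidx_eq τ, h0, pow_zero]
      subst hτ
      rw [if_pos rfl, mul_one]
      have hinv : σ⁻¹ = σ ^ (n - 1) := by
        rw [inv_eq_iff_mul_eq_one, ← pow_succ', Nat.sub_add_cancel hnpos, hn, pow_orderOf_eq_one]
      have h1 : idx σ⁻¹ = n - 1 := by rw [hinv]; exact hidx_pow _ (by omega)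
      simp only [h1, h0, b', Finset.range_zero, Finset.sum_empty, neg_zero, sub_zero]
      rw [hsum]
      have hn1 : n = (n - 1) + 1 := by omega
      conv_rhs => rw [hn1, Finset.sum_range_succ', pow_zero]
      abel
    · set i := (idx τ).pred with hi
      have hτ : τ = σ ^ (i + 1) := by rw [← hidx_eq τ, hs]
      have hlt : i + 1 < n := by rw [← Nat.succ_eq_add_one, ← hs]; exact hidx_lt τ
      have hne : τ ≠ 1 := by
        intro h1
        have : idx τ = 0 := by
          rw [h1]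
          have := hidx_pow 0 hnpos
          rwa [pow_zero] at this
        omega
      rw [if_neg hne, sub_zero]
      have h2 : σ⁻¹ * τ = σ ^ i := by rw [hτ, pow_succ', inv_mul_cancel_left]
      have h3 : idx (σ⁻¹ * τ) = i := by rw [h2]; exact hidx_pow i (by omega)
      have h4 : idx τ = i + 1 := hs
      simp only [h3, h4, b', Finset.sum_range_succ]
      rw [← hτ]
      abel
  · intro B hB τ
    exact B.neg_mem (B.sum_mem (fun j _ => hB _))

section concrete2

variable (q : ℕ) [Fact q.Prime] (F E : Type) [Field F] [Field E] [Algebra ℚ_[q] F]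
  [FiniteDimensional ℚ_[q] F] [Algebra ℚ_[q] E] [Algebra F E] [IsScalarTower ℚ_[q] F E]
  [FiniteDimensional F E] [IsGalois F E] [FiniteDimensional ℚ_[q] E]

/-- the basic radius -/
noncomputable def nbS0 : ℝ := 1 / (2 * (nbK q F E + nrm q E (IsGalois.normalBasis F E 1)))

theorem nbS0_pos : 0 < nbS0 q F E := by
  unfold nbS0
  have h1 := nbK_ge_one q F E
  have h2 := nrm_nonneg q E (IsGalois.normalBasis F E 1)
  positivity

theorem nbS0_K : nbK q F E * nbS0 q F E ≤ 1 / 2 := by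
  unfold nbS0
  have h1 := nbK_ge_one q F E
  have h2 := nrm_nonneg q E (IsGalois.normalBasis F E 1)
  rw [mul_one_div, div_le_div_iff₀ (by positivity) (by norm_num)]
  nlinarith

theorem nbS0_T : nbS0 q F E * nrm q E (IsGalois.normalBasis F E 1) ≤ 1 / 2 := by
  unfold nbS0
  have h1 := nbK_ge_one q F E
  have h2 := nrm_nonneg q E (IsGalois.normalBasis F E 1)
  rw [one_div_mul_eq_div, div_le_div_iff₀ (by positivity) (by norm_num)]
  nlinarith

/-- the radii `s₀ / 2^k` -/
noncomputable def nbRad (k : ℕ) : ℝ := nbS0 q F E * (1 / 2) ^ k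

theorem nbRad_pos (k : ℕ) : 0 < nbRad q F E k := by
  unfold nbRad
  have := nbS0_pos q F E
  positivity

theorem nbRad_succ (k : ℕ) : nbRad q F E (k + 1) = nbRad q F E k / 2 := by
  unfold nbRad
  rw [pow_succ]; ring

theorem nbRad_anti (k : ℕ) : nbRad q F E (k + 1) ≤ nbRad q F E k := by
  rw [nbRad_succ]
  have := nbRad_pos q F E k
  linarith

theorem nbRad_le_S0 (k : ℕ) : nbRad q F E k ≤ nbS0 q F E := by
  unfold nbRad
  have h := nbS0_pos q F E
  have : ((1 : ℝ) / 2) ^ k ≤ 1 := pow_le_one₀ (by norm_num) (by norm_num)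
  nlinarith

theorem nbRad_mul (j k : ℕ) :
    nbK q F E * nbRad q F E j * nbRad q F E k ≤ nbRad q F E (j + k + 1) := by
  have hK := nbS0_K q F E
  have h0 := nbS0_pos q F E
  have e : nbRad q F E (j + k + 1) = (1 / 2) * nbS0 q F E * ((1 / 2) ^ j * (1 / 2) ^ k) := by
    unfold nbRad
    rw [pow_succ, pow_add]; ring
  have e2 : nbK q F E * nbRad q F E j * nbRad q F E k =
      (nbK q F E * nbS0 q F E) * nbS0 q F E * ((1 / 2) ^ j * (1 / 2) ^ k) := by
    unfold nbRad; ring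
  rw [e, e2]
  have hp : (0 : ℝ) ≤ (1 / 2) ^ j * (1 / 2) ^ k := by positivity
  apply mul_le_mul_of_nonneg_right _ hp
  exact mul_le_mul_of_nonneg_right hK h0.le

/-- the lattices -/
noncomputable def nbM (k : ℕ) : AddSubgroup E where
  carrier := {x | ∀ τ, nrm q F (nbc F E x τ) ≤ nbRad q F E k}
  zero_mem' := by
    intro τ
    rw [nbc_zero, nrm_zero]
    exact (nbRad_pos q F E k).le
  add_mem' := by
    intro x y hx hy τ
    rw [nbc_add]
    exact (nrm_add_le_max q F _ _).trans (max_le (hx τ) (hy τ))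
  neg_mem' := by
    intro x hx τ
    rw [nbc_neg, nrm_neg]
    exact hx τ

theorem mem_nbM {k : ℕ} {x : E} :
    x ∈ nbM q F E k ↔ ∀ τ, nrm q F (nbc F E x τ) ≤ nbRad q F E k := Iff.rfl

theorem nbM_anti (k : ℕ) : nbM q F E (k + 1) ≤ nbM q F E k := fun _ hx τ =>
  (hx τ).trans (nbRad_anti q F E k)

theorem nbM_mul_mem (j k : ℕ) (x y : E) (hx : x ∈ nbM q F E j) (hy : y ∈ nbM q F E k) :
    x * y ∈ nbM q F E (j + k + 1) := fun π =>
  (nbc_mul_le q F E (nbRad_pos q F E j).le (nbRad_pos q F E k).le hx hy π).trans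
    (nbRad_mul q F E j k)

theorem nbM_sep (x : E) (h : ∀ k, x ∈ nbM q F E k) : x = 0 := by
  apply nbc_ext F E
  intro τ
  rw [nbc_zero]
  by_contra hne
  have hpos : 0 < nrm q F (nbc F E x τ) := nrm_pos q F hne
  have h0 := nbS0_pos q F E
  obtain ⟨k, hk⟩ := exists_pow_lt_of_lt_one (div_pos hpos h0) (by norm_num : (1 / 2 : ℝ) < 1)
  have h1 := h k τ
  unfold nbRad at h1
  rw [lt_div_iff₀ h0] at hk
  linarith

theorem nbM_complete (x : ℕ → E) (h : ∀ k, x (k + 1) - x k ∈ nbM q F E k) :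
    ∃ y : E, ∀ k, y - x k ∈ nbM q F E k := by
  have hτ : ∀ τ : E ≃ₐ[F] E, ∃ yτ : F, ∀ k,
      nrm q F (yτ - nbc F E (x k) τ) ≤ nbS0 q F E * (1 / 2) ^ k := by
    intro τ
    refine stmt_SuccApprox q F (fun k => nbc F E (x k) τ) (nbS0 q F E) (1 / 2)
      (nbS0_pos q F E).le (by norm_num) (by norm_num) (fun k => ?_)
    have := h k τ
    rwa [nbc_sub] at this
  choose yf hyf using hτ
  refine ⟨∑ τ, yf τ • IsGalois.normalBasis F E τ, fun k τ => ?_⟩
  rw [nbc_sub, nbc_of_sum]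
  exact hyf τ k

theorem nbM_galois (τ : E ≃ₐ[F] E) (k : ℕ) (x : E) (hx : x ∈ nbM q F E k) :
    τ x ∈ nbM q F E k := fun ρ => by
  rw [nbc_galois]
  exact hx _

theorem nbM_h0 (k : ℕ) (x : E) (hx : x ∈ nbM q F E k) (hfix : ∀ τ : E ≃ₐ[F] E, τ x = x) :
    ∃ y ∈ nbM q F E k, ∑ τ : E ≃ₐ[F] E, τ y = x := by
  classical
  have hc : ∀ ρ : E ≃ₐ[F] E, nbc F E x ρ = nbc F E x 1 := by
    intro ρ
    have := nbc_galois F E ρ x ρ
    rw [hfix ρ, inv_mul_cancel] at this
    exact this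
  refine ⟨nbc F E x 1 • IsGalois.normalBasis F E 1, ?_, ?_⟩
  · intro τ
    rw [nbc_smul]
    have h1 : nbc F E (IsGalois.normalBasis F E 1) τ = if (1 : E ≃ₐ[F] E) = τ then 1 else 0 := by
      unfold nbc
      rw [Module.Basis.repr_self, Finsupp.single_apply]
    rw [h1]
    split_ifs
    · rw [mul_one]; exact hx 1
    · rw [mul_zero, nrm_zero]; exact (nbRad_pos q F E k).le
  · conv_rhs => rw [← nbc_sum_self F E x]
    refine Finset.sum_congr rfl (fun τ _ => ?_)
    rw [map_smul, nb_galois, mul_one, hc τ]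

end concrete2

section concrete3

variable (q : ℕ) [Fact q.Prime] (F E : Type) [Field F] [Field E] [Algebra ℚ_[q] F]
  [FiniteDimensional ℚ_[q] F] [Algebra ℚ_[q] E] [Algebra F E] [IsScalarTower ℚ_[q] F E]
  [FiniteDimensional F E] [IsGalois F E] [FiniteDimensional ℚ_[q] E]

theorem nbM_h1 (σ : E ≃ₐ[F] E) (hσ : ∀ τ : E ≃ₐ[F] E, τ ∈ Subgroup.zpowers σ) (k l : ℕ)
    (x : E) (hx : x ∈ nbM q F E k) (hTr : ∑ τ : E ≃ₐ[F] E, τ x ∈ nbM q F E l) :
    ∃ y ∈ nbM q F E k, σ y - y - x ∈ nbM q F E l := by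
  classical
  obtain ⟨b, hb, hbB⟩ := cyclic_telescope σ hσ (fun τ => nbc F E x τ)
  let Bk : AddSubgroup F :=
    { carrier := {a | nrm q F a ≤ nbRad q F E k}
      zero_mem' := by
        change nrm q F 0 ≤ _
        rw [nrm_zero]; exact (nbRad_pos q F E k).le
      add_mem' := fun {a c} ha hc => (nrm_add_le_max q F a c).trans (max_le ha hc)
      neg_mem' := fun {a} ha => by
        change nrm q F (-a) ≤ _
        rw [nrm_neg]; exact ha }
  have hbk : ∀ τ, nrm q F (b τ) ≤ nbRad q F E k := hbB Bk (fun τ => hx τ)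
  have hS : nrm q F (∑ π, nbc F E x π) ≤ nbRad q F E l := by
    have h1 := hTr 1
    rw [nbc_sum] at h1
    simp only [nbc_galois, mul_one] at h1
    have e : ∑ τ : E ≃ₐ[F] E, nbc F E x τ⁻¹ = ∑ π, nbc F E x π :=
      Fintype.sum_equiv (Equiv.inv _) _ _ (fun τ => rfl)
    rwa [e] at h1
  refine ⟨∑ τ, b τ • IsGalois.normalBasis F E τ,
    fun τ => by rw [nbc_of_sum]; exact hbk τ, fun τ => ?_⟩
  rw [nbc_sub, nbc_sub, nbc_galois, nbc_of_sum, nbc_of_sum, hb τ]
  split_ifs
  · rw [sub_sub_cancel_left, nrm_neg]; exact hS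
  · rw [sub_zero, sub_self, nrm_zero]; exact (nbRad_pos q F E l).le

theorem nbM_ball : ∃ r : ℝ, 0 < r ∧ ∀ x : E, nrm q E x ≤ r → x ∈ nbM q F E 0 := by
  obtain ⟨C, hC, hCb⟩ := stmt_CoordBound q F E (E ≃ₐ[F] E) (IsGalois.normalBasis F E)
  refine ⟨nbS0 q F E / C, div_pos (nbS0_pos q F E) hC, fun x hx τ => ?_⟩
  have h1 : nrm q F (nbc F E x τ) ≤ C * nrm q E x := hCb x τ
  have h2 : nbRad q F E 0 = nbS0 q F E := by unfold nbRad; simp
  rw [h2]
  calc nrm q F (nbc F E x τ) ≤ C * nrm q E x := h1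
    _ ≤ C * (nbS0 q F E / C) := mul_le_mul_of_nonneg_left hx hC.le
    _ = nbS0 q F E := by field_simp

theorem nbM_lt_one (x : E) (hx : x ∈ nbM q F E 0) : nrm q E x < 1 := by
  have h2 : nbRad q F E 0 = nbS0 q F E := by unfold nbRad; simp
  have h3 : nrm q E x ≤ 1 / 2 := by
    rw [← nbc_sum_self F E x]
    refine nrm_sum_le q E _ _ (by norm_num) (fun τ _ => ?_)
    rw [nrm_smul, IsGalois.normalBasis_apply τ, nrm_algEquiv]
    have h4 := hx τ
    rw [h2] at h4
    have h5 := nbS0_T q F E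
    have h6 := nrm_nonneg q E (IsGalois.normalBasis F E 1)
    calc nrm q F (nbc F E x τ) * nrm q E (IsGalois.normalBasis F E 1)
        ≤ nbS0 q F E * nrm q E (IsGalois.normalBasis F E 1) :=
          mul_le_mul_of_nonneg_right h4 h6
      _ ≤ 1 / 2 := h5
  linarith

/-- the normal basis lattice filtration -/
noncomputable def nbLat : NLat F E where
  M := nbM q F E
  anti := nbM_anti q F E
  mul_mem := nbM_mul_mem q F E
  sep := nbM_sep q F E
  complete := nbM_complete q F E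
  galois := nbM_galois q F E
  h0 := nbM_h0 q F E
  h1 := nbM_h1 q F E

end concrete3

theorem stmt_LatticeExists : Stmt_LatticeExists := by
  intro q _ F E _ _ _ _ _ _ _ _ _
  haveI : FiniteDimensional ℚ_[q] E := FiniteDimensional.trans ℚ_[q] F E
  obtain ⟨r, hr, hball⟩ := nbM_ball q F E
  exact ⟨nbLat q F E, r, hr, hball, nbM_lt_one q F E⟩

theorem stmt_TrivialUnits : Stmt_TrivialUnits :=
  trivialUnits_of_lattice stmt_LatticeExists stmt_TrivialOfLattice

end Fermat.Agent.S55.CFT.LOC.H68
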