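/-
S55/E4 island LOC, package LOC-3: the local norm index `[Fˣ : N Eˣ] = [E : F]` for cyclic
extensions of local fields (`stmt_LocalNormIndexCyclic`, `stmt_LocalNormIndex`), from the
cohomologically trivial subgroup `V` (`stmt_TrivialUnits`), the Herbrand index lemma applied to
`S = V · q^ℤ` (finite index in `Eˣ`), and Hilbert 90 (helper68).
-/
import Fermat.Agent.S55.CFT.LOC.H68_Conc2
import Fermat.Agent.S55.CFT.LOC.H68_Herbrand

set_option autoImplicit false
set_option linter.unusedSectionVars false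
set_option linter.style.haveILetI false

namespace Fermat.Agent.S55.CFT.LOC.H68

open Fermat.Agent.S55.CFT.LOC

section normIndex

variable (q : ℕ) [Fact q.Prime] (F E : Type) [Field F] [Field E] [Algebra ℚ_[q] F]
  [FiniteDimensional ℚ_[q] F] [Algebra ℚ_[q] E] [Algebra F E] [IsScalarTower ℚ_[q] F E]
  [FiniteDimensional F E] [IsGalois F E] [FiniteDimensional ℚ_[q] E]

theorem natCast_q_ne_zero : (q : E) ≠ 0 := by
  intro h
  have := nrm_natCast_q q E
  rw [h, nrm_zero] at this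
  have hq : (0 : ℝ) < q := by exact_mod_cast (Fact.out : q.Prime).pos
  have : (q : ℝ)⁻¹ = 0 := this.symm
  rw [inv_eq_zero] at this
  linarith

/-- the prime `q` as a unit of `E` -/
noncomputable def qU : Eˣ := Units.mk0 (q : E) (natCast_q_ne_zero q E)

@[simp] theorem qU_coe : ((qU q E : Eˣ) : E) = (q : E) := rfl

theorem nrm_qU_zpow (k : ℤ) : nrm q E (((qU q E) ^ k : Eˣ) : E) = ((q : ℝ)⁻¹) ^ k := by
  rw [Units.val_zpow_eq_zpow_val, nrm_zpow, qU_coe, nrm_natCast_q]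

theorem q_inv_zpow_inj {k m : ℤ} (h : ((q : ℝ)⁻¹) ^ k = ((q : ℝ)⁻¹) ^ m) : k = m := by
  have hq1 : (1 : ℝ) < q := by exact_mod_cast (Fact.out : q.Prime).one_lt
  have h0 : (0 : ℝ) < (q : ℝ)⁻¹ := by positivity
  have h1 : (q : ℝ)⁻¹ ≠ 1 := by
    intro h; rw [inv_eq_one] at h; linarith
  exact zpow_right_injective₀ h0 h1 h

theorem algEquiv_natCast (τ : E ≃ₐ[F] E) : τ (q : E) = (q : E) := map_natCast τ q

theorem nlD_qU (σ : E ≃ₐ[F] E) : nlD σ (qU q E) = 1 := by
  apply Units.ext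
  rw [nlD_coe, qU_coe, algEquiv_natCast, div_self (natCast_q_ne_zero q E)]
  rfl

theorem nlN_qU : nlN F E (qU q E) = (qU q E) ^ (Module.finrank F E) := by
  apply Units.ext
  rw [nlN_eq_norm, qU_coe, Units.val_pow_eq_pow_val, qU_coe]
  have : (q : E) = algebraMap F E (q : F) := by simp
  rw [this, Algebra.norm_algebraMap, map_pow]

theorem nlD_nlN (σ : E ≃ₐ[F] E) (x : Eˣ) : nlD σ (nlN F E x) = 1 := by
  apply Units.ext
  rw [nlD_coe, nlN_eq_norm, AlgEquiv.commutes, div_self]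
  · rfl
  · rw [← nlN_eq_norm]; exact (nlN F E x).ne_zero

theorem nlN_nlD (σ : E ≃ₐ[F] E) (x : Eˣ) : nlN F E (nlD σ x) = 1 := by
  rw [nlD_apply, map_div, div_eq_one]
  apply Units.ext
  rw [nlN_eq_norm, nlN_eq_norm]
  congr 1
  exact Algebra.norm_eq_of_algEquiv σ (x : E)

theorem nrm_nlN (x : Eˣ) : nrm q E ((nlN F E x : Eˣ) : E) = nrm q E (x : E) ^ Module.finrank F E := by
  rw [nlN_eq_norm, nrm_algebraMap, nrm_norm]

/-- the absolute value is `1` if the norm has absolute value `1` -/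
theorem nrm_eq_one_of_pow {a : ℝ} (ha : 0 ≤ a) {n : ℕ} (hn : n ≠ 0) (h : a ^ n = 1) : a = 1 := by
  exact (pow_eq_one_iff_of_nonneg ha hn).mp h

end normIndex


section finiteIndex

variable (q : ℕ) [Fact q.Prime] (F E : Type) [Field F] [Field E] [Algebra ℚ_[q] F]
  [FiniteDimensional ℚ_[q] F] [Algebra ℚ_[q] E] [Algebra F E] [IsScalarTower ℚ_[q] F E]
  [FiniteDimensional F E] [IsGalois F E] [FiniteDimensional ℚ_[q] E]

theorem finiteIndex_of_ball (r : ℝ) (hr : 0 < r) (V : Subgroup Eˣ)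
    (hV1 : ∀ u : Eˣ, nrm q E ((u : E) - 1) ≤ r → u ∈ V) :
    (V ⊔ Subgroup.zpowers (qU q E)).index ≠ 0 := by
  classical
  have hq1 : (1 : ℝ) < q := by exact_mod_cast (Fact.out : q.Prime).one_lt
  have hq0 : (0 : ℝ) < q := by linarith
  set r' := min r 1 with hr'
  have hr'pos : 0 < r' := lt_min hr one_pos
  have hr'1 : r' ≤ 1 := min_le_right _ _
  have hr'r : r' ≤ r := min_le_left _ _
  obtain ⟨T, _, hT2⟩ := stmt_FiniteResidue q E (r' * (q : ℝ)⁻¹) (by positivity)
  set S := V ⊔ Subgroup.zpowers (qU q E) with hS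
  let φ : T → Eˣ ⧸ S := fun t =>
    if h : (t : E) ≠ 0 then QuotientGroup.mk (Units.mk0 (t : E) h) else 1
  have hφ : Function.Surjective φ := by
    intro X
    induction X using QuotientGroup.induction_on with
    | H x =>
    have hxpos : 0 < nrm q E (x : E) := nrm_pos q E x.ne_zero
    obtain ⟨n, hn1, hn2⟩ := exists_mem_Ioc_zpow hxpos hq1
    -- y = x * q^(n+1)
    set y : Eˣ := x * (qU q E) ^ (n + 1) with hy
    have hny : nrm q E (y : E) = nrm q E (x : E) * ((q : ℝ)⁻¹) ^ (n + 1) := by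
      rw [hy, Units.val_mul, nrm_mul, nrm_qU_zpow]
    have hqn : (0 : ℝ) < (q : ℝ) ^ (n + 1) := zpow_pos hq0 _
    have hinv : ((q : ℝ)⁻¹) ^ (n + 1) = ((q : ℝ) ^ (n + 1))⁻¹ := inv_zpow _ _
    have hy_le : nrm q E (y : E) ≤ 1 := by
      rw [hny, hinv, ← div_eq_mul_inv, div_le_one hqn]
      exact hn2
    have hy_gt : (q : ℝ)⁻¹ < nrm q E (y : E) := by
      rw [hny, hinv, ← div_eq_mul_inv, lt_div_iff₀ hqn]
      calc (q : ℝ)⁻¹ * (q : ℝ) ^ (n + 1) = (q : ℝ) ^ n := by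
            rw [zpow_add_one₀ hq0.ne']; field_simp
        _ < nrm q E (x : E) := hn1
    obtain ⟨t, htT, hty⟩ := hT2 (y : E) hy_le
    have hlt : nrm q E ((y : E) - t) < nrm q E (y : E) := by
      calc nrm q E ((y : E) - t) ≤ r' * (q : ℝ)⁻¹ := hty
        _ ≤ 1 * (q : ℝ)⁻¹ := by gcongr
        _ = (q : ℝ)⁻¹ := one_mul _
        _ < nrm q E (y : E) := hy_gt
    have hnt : nrm q E t = nrm q E (y : E) := by
      have e : t = (y : E) + (-((y : E) - t)) := by ring
      have hne : nrm q E (y : E) ≠ nrm q E (-((y : E) - t)) := by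
        rw [nrm_neg]; exact hlt.ne'
      rw [e, nrm_add_eq_max_of_ne q E hne, nrm_neg, max_eq_left hlt.le]
    have ht0 : t ≠ 0 := by
      intro h0
      rw [h0, nrm_zero] at hnt
      have : (0 : ℝ) < (q : ℝ)⁻¹ := by positivity
      linarith
    refine ⟨⟨t, htT⟩, ?_⟩
    simp only [φ, ne_eq, ht0, not_false_eq_true, dite_true]
    rw [QuotientGroup.eq]
    -- (t⁻¹ * y) ∈ V and x = y * q^{-(n+1)}
    have hV : (Units.mk0 t ht0)⁻¹ * y ∈ V := by
      apply hV1
      have e : ((((Units.mk0 t ht0)⁻¹ * y : Eˣ) : E) - 1) = ((y : E) - t) / t := by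
        rw [Units.val_mul, Units.val_inv_eq_inv_val, Units.val_mk0]
        field_simp
      rw [e, nrm_div, hnt]
      have hypos : 0 < nrm q E (y : E) := lt_trans (by positivity) hy_gt
      rw [div_le_iff₀ hypos]
      calc nrm q E ((y : E) - t) ≤ r' * (q : ℝ)⁻¹ := hty
        _ ≤ r' * nrm q E (y : E) := by gcongr
        _ ≤ r * nrm q E (y : E) := by gcongr
    have e2 : (Units.mk0 t ht0)⁻¹ * x = ((Units.mk0 t ht0)⁻¹ * y) * ((qU q E) ^ (n + 1))⁻¹ := by
      rw [hy]; group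
    rw [e2]
    exact Subgroup.mul_mem_sup hV ((Subgroup.zpowers (qU q E)).inv_mem
      (Subgroup.zpow_mem_zpowers _ _))
  haveI : Finite (Eˣ ⧸ S) := Finite.of_surjective φ hφ
  exact Subgroup.index_ne_zero_of_finite

end finiteIndex


section main

variable (q : ℕ) [Fact q.Prime] (F E : Type) [Field F] [Field E] [Algebra ℚ_[q] F]
  [FiniteDimensional ℚ_[q] F] [Algebra ℚ_[q] E] [Algebra F E] [IsScalarTower ℚ_[q] F E]
  [FiniteDimensional F E] [IsGalois F E] [FiniteDimensional ℚ_[q] E]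

theorem units_map_pow_mem (σ : E ≃ₐ[F] E) (V : Subgroup Eˣ)
    (hV3 : ∀ u ∈ V, Units.map (σ : E →* E) u ∈ V) (i : ℕ) :
    ∀ u ∈ V, Units.map ((σ ^ i : E ≃ₐ[F] E) : E →* E) u ∈ V := by
  induction i with
  | zero =>
    intro u hu
    have : Units.map ((σ ^ 0 : E ≃ₐ[F] E) : E →* E) u = u := by
      apply Units.ext; simp
    rw [this]; exact hu
  | succ i ih =>
    intro u hu
    have : Units.map ((σ ^ (i + 1) : E ≃ₐ[F] E) : E →* E) u =
        Units.map (σ : E →* E) (Units.map ((σ ^ i : E ≃ₐ[F] E) : E →* E) u) := by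
      apply Units.ext
      simp [pow_succ', AlgEquiv.mul_apply]
    rw [this]
    exact hV3 _ (ih u hu)

theorem units_map_mem_of_gen (σ : E ≃ₐ[F] E) (hσ : ∀ τ : E ≃ₐ[F] E, τ ∈ Subgroup.zpowers σ)
    (V : Subgroup Eˣ) (hV3 : ∀ u ∈ V, Units.map (σ : E →* E) u ∈ V) (τ : E ≃ₐ[F] E) :
    ∀ u ∈ V, Units.map (τ : E →* E) u ∈ V := by
  have h1 : τ ∈ Submonoid.powers σ := mem_powers_iff_mem_zpowers.mpr (hσ τ)
  obtain ⟨i, rfl⟩ := Submonoid.mem_powers_iff _ _ |>.mp h1
  exact units_map_pow_mem F E σ V hV3 i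

theorem fixed_of_gen (σ : E ≃ₐ[F] E) (hσ : ∀ τ : E ≃ₐ[F] E, τ ∈ Subgroup.zpowers σ) {x : E}
    (hx : σ x = x) : ∃ a : F, algebraMap F E a = x := by
  have hfix : ∀ τ : E ≃ₐ[F] E, τ x = x := by
    intro τ
    obtain ⟨m, rfl⟩ := Subgroup.mem_zpowers_iff.mp (hσ τ)
    have hmem : σ ∈ MulAction.stabilizer (E ≃ₐ[F] E) x := hx
    exact (MulAction.stabilizer (E ≃ₐ[F] E) x).zpow_mem hmem m
  have : x ∈ (⊥ : IntermediateField F E) := by
    rw [← IsGalois.fixedField_top (F := F) (E := E)]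
    intro τ
    exact hfix τ.1
  exact IntermediateField.mem_bot.mp this

theorem normIndex_of_trivial (σ : E ≃ₐ[F] E) (hσ : ∀ τ : E ≃ₐ[F] E, τ ∈ Subgroup.zpowers σ)
    (r : ℝ) (V : Subgroup Eˣ) (hr : 0 < r)
    (hV1 : ∀ u : Eˣ, nrm q E ((u : E) - 1) ≤ r → u ∈ V)
    (hV2 : ∀ u ∈ V, nrm q E (u : E) = 1)
    (hV3 : ∀ u ∈ V, Units.map (σ : E →* E) u ∈ V)
    (hV4 : ∀ u ∈ V, σ (u : E) = u → ∃ w ∈ V, algebraMap F E (Algebra.norm F (w : E)) = u)
    (hV5 : ∀ u ∈ V, Algebra.norm F (u : E) = 1 → ∃ w ∈ V, (u : E) = σ (w : E) / w) :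
    (normSubgroup F E).index = Module.finrank F E := by
  classical
  haveI : IsCyclic (E ≃ₐ[F] E) := ⟨σ, hσ⟩
  set n := Module.finrank F E with hn
  have hnpos : 0 < n := Module.finrank_pos
  set π := qU q E with hπ
  set S := V ⊔ Subgroup.zpowers π with hS
  have hVS : V ≤ S := le_sup_left
  have hπS : π ∈ S := (le_sup_right : Subgroup.zpowers π ≤ S) (Subgroup.mem_zpowers π)
  have hSmem : ∀ x, x ∈ S ↔ ∃ v ∈ V, ∃ k : ℤ, v * π ^ k = x := by
    intro x
    rw [hS, Subgroup.mem_sup]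
    constructor
    · rintro ⟨v, hv, z, hz, rfl⟩
      obtain ⟨k, rfl⟩ := Subgroup.mem_zpowers_iff.mp hz
      exact ⟨v, hv, k, rfl⟩
    · rintro ⟨v, hv, k, rfl⟩
      exact ⟨v, hv, π ^ k, Subgroup.zpow_mem_zpowers π k, rfl⟩
  have hVτ := units_map_mem_of_gen F E σ hσ V hV3
  have hNV : ∀ v ∈ V, nlN F E v ∈ V := by
    intro v hv
    rw [nlN, MonoidHom.finsetProd_apply]
    exact V.prod_mem (fun τ _ => hVτ τ v hv)
  have hDV : ∀ v ∈ V, nlD σ v ∈ V := by
    intro v hv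
    rw [nlD_apply]
    exact V.div_mem (hV3 v hv) hv
  have hNπ : nlN F E π = π ^ n := nlN_qU q F E
  have hDπ : nlD σ π = 1 := nlD_qU q F E σ
  have hnrmS : ∀ v ∈ V, ∀ k : ℤ, nrm q E ((v * π ^ k : Eˣ) : E) = ((q : ℝ)⁻¹) ^ k := by
    intro v hv k
    rw [Units.val_mul, nrm_mul, hV2 v hv, one_mul, nrm_qU_zpow]
  -- stability
  have hDS : S.map (nlD σ) ≤ S := by
    rintro _ ⟨x, hx, rfl⟩
    obtain ⟨v, hv, k, rfl⟩ := (hSmem x).mp hx
    rw [map_mul, map_zpow, hDπ, one_zpow, mul_one]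
    exact hVS (hDV v hv)
  have hNS : S.map (nlN F E) ≤ S := by
    rintro _ ⟨x, hx, rfl⟩
    obtain ⟨v, hv, k, rfl⟩ := (hSmem x).mp hx
    rw [map_mul, map_zpow]
    exact S.mul_mem (hVS (hNV v hv)) (S.zpow_mem (hNπ ▸ S.pow_mem hπS n) k)
  have hfin : S.index ≠ 0 := finiteIndex_of_ball q E r hr V hV1
  have hherb := mhIdx_mul_eq_of_finiteIndex (nlD σ) (nlN F E) (nlD_nlN F E σ) (nlN_nlD F E σ) S hDS hNS hfin
  -- (1) mhIdx N D S = 1
  have h1 : mhIdx (nlN F E) (nlD σ) S = 1 := by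
    rw [mhIdx, Subgroup.relIndex_eq_one]
    rintro x ⟨hxN, hxS⟩
    obtain ⟨v, hv, k, rfl⟩ := (hSmem x).mp hxS
    have hN1 : nlN F E (v * π ^ k) = 1 := hxN
    have hk : k = 0 := by
      have h2 := nrm_nlN q F E (v * π ^ k)
      rw [hN1, Units.val_one, nrm_one, hnrmS v hv k] at h2
      have h3 : ((q : ℝ)⁻¹) ^ k = 1 :=
        nrm_eq_one_of_pow (zpow_nonneg (by positivity) _) hnpos.ne' h2.symm
      have h4 : ((q : ℝ)⁻¹) ^ k = ((q : ℝ)⁻¹) ^ (0 : ℤ) := by rw [h3, zpow_zero]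
      exact q_inv_zpow_inj q h4
    subst hk
    rw [zpow_zero, mul_one] at hN1 ⊢
    have hnorm : Algebra.norm F (v : E) = 1 := by
      have := congrArg (fun u : Eˣ => (u : E)) hN1
      simp only [nlN_eq_norm, Units.val_one] at this
      exact (algebraMap F E).injective (by rw [this, map_one])
    obtain ⟨w, hw, hwv⟩ := hV5 v hv hnorm
    refine ⟨w, hVS hw, ?_⟩
    apply Units.ext
    rw [nlD_coe, hwv]
  -- (2) mhIdx N D ⊤ = 1 (Hilbert 90)
  have h2 : mhIdx (nlN F E) (nlD σ) ⊤ = 1 := by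
    rw [mhIdx_top, Subgroup.relIndex_eq_one]
    intro x hx
    have hN1 : nlN F E x = 1 := hx
    have hnorm : Algebra.norm F (x : E) = 1 := by
      have := congrArg (fun u : Eˣ => (u : E)) hN1
      simp only [nlN_eq_norm, Units.val_one] at this
      exact (algebraMap F E).injective (by rw [this, map_one])
    obtain ⟨y, hy⟩ := groupCohomology.exists_div_of_norm_eq_one hσ hnorm
    refine ⟨y⁻¹, ?_⟩
    apply Units.ext
    rw [nlD_coe, ← hy, Units.val_inv_eq_inv_val, map_inv₀]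
    have hy0 : (y : E) ≠ 0 := y.ne_zero
    have hσy0 : σ (y : E) ≠ 0 := by
      intro h
      exact hy0 ((map_eq_zero σ).mp h)
    field_simp
  -- (3) mhIdx D N S = n
  have h3 : mhIdx (nlD σ) (nlN F E) S = n := by
    rw [mhIdx]
    have hle : S.map (nlN F E) ≤ (nlD σ).ker ⊓ S := by
      refine le_inf ?_ hNS
      rintro _ ⟨x, _, rfl⟩
      exact nlD_nlN F E σ x
    refine relIndex_eq_of_cyclic _ _ hle π ⟨hDπ, hπS⟩ n ?_ ?_
    · rintro x ⟨hxD, hxS⟩
      obtain ⟨v, hv, k, rfl⟩ := (hSmem x).mp hxS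
      refine ⟨k, ?_⟩
      rw [mul_div_cancel_right]
      have hDv : nlD σ v = 1 := by
        have : nlD σ (v * π ^ k) = 1 := hxD
        rwa [map_mul, map_zpow, hDπ, one_zpow, mul_one] at this
      have hσv : σ (v : E) = v := by
        have := congrArg (fun u : Eˣ => (u : E)) hDv
        simp only [nlD_coe, Units.val_one] at this
        exact (div_eq_one_iff_eq v.ne_zero).mp this
      obtain ⟨w, hw, hwv⟩ := hV4 v hv hσv
      refine ⟨w, hVS hw, ?_⟩
      apply Units.ext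
      rw [nlN_eq_norm, hwv]
    · intro k
      constructor
      · rintro ⟨x, hxS, hxk⟩
        obtain ⟨v, hv, m, rfl⟩ := (hSmem x).mp hxS
        have e1 : nlN F E (v * π ^ m) = nlN F E v * π ^ ((n : ℤ) * m) := by
          rw [map_mul, map_zpow, hNπ, zpow_mul, zpow_natCast]
        rw [e1] at hxk
        have e2 := hnrmS (nlN F E v) (hNV v hv) ((n : ℤ) * m)
        rw [hxk] at e2
        have e3 : nrm q E ((π ^ k : Eˣ) : E) = ((q : ℝ)⁻¹) ^ k := nrm_qU_zpow q E k
        rw [e3] at e2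
        exact ⟨m, q_inv_zpow_inj q e2⟩
      · rintro ⟨m, rfl⟩
        refine ⟨π ^ m, S.zpow_mem hπS m, ?_⟩
        rw [map_zpow, hNπ, zpow_mul, zpow_natCast]
  -- (4) mhIdx D N ⊤ = index of the norm subgroup
  have h4 : mhIdx (nlD σ) (nlN F E) ⊤ = (normSubgroup F E).index := by
    rw [mhIdx_top]
    let ι : Fˣ →* Eˣ := Units.map (algebraMap F E : F →* E)
    have hι : Function.Injective ι := by
      intro a b hab
      apply Units.ext
      apply (algebraMap F E).injective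
      have := congrArg (fun u : Eˣ => (u : E)) hab
      simpa [ι] using this
    have hker : (nlD σ).ker = Subgroup.map ι ⊤ := by
      ext x
      simp only [MonoidHom.mem_ker, Subgroup.mem_map, Subgroup.mem_top, true_and]
      constructor
      · intro hx
        have hσx : σ (x : E) = x := by
          have := congrArg (fun u : Eˣ => (u : E)) hx
          simp only [nlD_coe, Units.val_one] at this
          exact (div_eq_one_iff_eq x.ne_zero).mp this
        obtain ⟨a, ha⟩ := fixed_of_gen F E σ hσ hσx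
        have ha0 : a ≠ 0 := by
          rintro rfl
          rw [map_zero] at ha
          exact x.ne_zero ha.symm
        refine ⟨Units.mk0 a ha0, ?_⟩
        apply Units.ext
        simpa [ι] using ha
      · rintro ⟨a, rfl⟩
        apply Units.ext
        rw [nlD_coe]
        simp [ι]
    have hrange : (nlN F E).range = Subgroup.map ι (normSubgroup F E) := by
      ext x
      simp only [MonoidHom.mem_range, Subgroup.mem_map]
      constructor
      · rintro ⟨y, rfl⟩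
        refine ⟨Units.map (Algebra.norm F : E →* F) y, ⟨y, rfl⟩, ?_⟩
        apply Units.ext
        rw [nlN_eq_norm]
        simp [ι]
      · rintro ⟨a, ⟨y, rfl⟩, rfl⟩
        refine ⟨y, ?_⟩
        apply Units.ext
        rw [nlN_eq_norm]
        simp [ι]
    rw [hker, hrange, Subgroup.relIndex_map_map_of_injective _ _ hι, Subgroup.relIndex_top_right]
  rw [h1, h2, h3, h4, mul_one, mul_one] at hherb
  exact hherb

end main

theorem stmt_LocalNormIndexCyclic : Stmt_LocalNormIndexCyclic := by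
  intro q _ F E _ _ _ _ _ _ _ hcyc
  letI : Algebra ℚ_[q] E := ((algebraMap F E).comp (algebraMap ℚ_[q] F)).toAlgebra
  haveI : IsScalarTower ℚ_[q] F E := IsScalarTower.of_algebraMap_eq (fun _ => rfl)
  haveI : FiniteDimensional ℚ_[q] E := FiniteDimensional.trans ℚ_[q] F E
  obtain ⟨σ, hσ⟩ := hcyc.exists_generator
  obtain ⟨r, V, hr, hV1, hV2, hV3, hV4, hV5⟩ := stmt_TrivialUnits q F E σ hσ
  exact normIndex_of_trivial q F E σ hσ r V hr hV1 hV2 hV3 hV4 hV5

theorem stmt_LocalNormIndex : Fermat.Agent.S55.CFT.Stmt_LocalNormIndex := by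
  intro q _ F E _ _ _ _ _ _ _ ℓ hℓ hdeg
  have hcard : Nat.card (E ≃ₐ[F] E) = ℓ := by rw [IsGalois.card_aut_eq_finrank, hdeg]
  haveI : Fact ℓ.Prime := ⟨hℓ⟩
  have hcyc : IsCyclic (E ≃ₐ[F] E) := isCyclic_of_prime_card hcard
  rw [stmt_LocalNormIndexCyclic q F E hcyc, hdeg]

end Fermat.Agent.S55.CFT.LOC.H68
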