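/-
S55/E4 island LOC, package LOC-2b: in an unramified cyclic extension every unit is the norm of
a unit (`stmt_UnramNormUnits`), from the norm index (helper68).
-/
import Fermat.Agent.S55.CFT.LOC.H68_NormIndex

set_option autoImplicit false
set_option linter.unusedSectionVars false
set_option linter.style.haveILetI false

namespace Fermat.Agent.S55.CFT.LOC.H68

open Fermat.Agent.S55.CFT.LOC Fermat.Agent.S55.CFT

theorem zpow_inj_of_lt_one {a : ℝ} (h0 : 0 < a) (h1 : a < 1) {k m : ℤ} (h : a ^ k = a ^ m) :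
    k = m :=
  zpow_right_injective₀ h0 h1.ne h

theorem stmt_UnramNormUnits : Stmt_UnramNormUnits := by
  intro q _ F E _ _ _ _ _ _ _ _ _ hcyc hunr u hu
  classical
  haveI : FiniteDimensional ℚ_[q] E := FiniteDimensional.trans ℚ_[q] F E
  set n := Module.finrank F E with hn
  have hnpos : 0 < n := Module.finrank_pos
  have hidx : (normSubgroup F E).index = n := stmt_LocalNormIndexCyclic q F E hcyc
  obtain ⟨π, hπ0, hπ1, hπ⟩ := stmt_Uniformizer q F
  have hπne : π ≠ 0 := by
    rintro rfl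
    rw [nrm_zero] at hπ0
    exact lt_irrefl _ hπ0
  set ρ := nrm q F π with hρ
  -- the subgroup of elements of valuation divisible by n
  let H : Subgroup Fˣ :=
    { carrier := {x | ∃ k : ℤ, nrm q F (x : F) = ρ ^ ((n : ℤ) * k)}
      one_mem' := ⟨0, by simp⟩
      mul_mem' := by
        rintro a b ⟨k, hk⟩ ⟨m, hm⟩
        refine ⟨k + m, ?_⟩
        rw [Units.val_mul, nrm_mul, hk, hm, ← zpow_add₀ hπ0.ne', mul_add]
      inv_mem' := by
        rintro a ⟨k, hk⟩
        refine ⟨-k, ?_⟩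
        rw [Units.val_inv_eq_inv_val, nrm_inv, hk, ← zpow_neg, mul_neg] }
  have hHmem : ∀ x : Fˣ, x ∈ H ↔ ∃ k : ℤ, nrm q F (x : F) = ρ ^ ((n : ℤ) * k) := fun _ => Iff.rfl
  have hHidx : H.index = n := by
    rw [← Subgroup.relIndex_top_right]
    refine relIndex_eq_of_cyclic H ⊤ le_top (Units.mk0 π hπne) (Subgroup.mem_top _) n ?_ ?_
    · intro x _
      obtain ⟨m, hm⟩ := hπ (x : F) x.ne_zero
      refine ⟨m, (hHmem _).mpr ⟨0, ?_⟩⟩
      rw [Units.val_div_eq_div_val, nrm_div, Units.val_zpow_eq_zpow_val, nrm_zpow, Units.val_mk0,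
        hm, mul_zero, zpow_zero, div_self (zpow_ne_zero _ hπ0.ne')]
    · intro k
      rw [hHmem]
      have e : nrm q F (((Units.mk0 π hπne) ^ k : Fˣ) : F) = ρ ^ k := by
        rw [Units.val_zpow_eq_zpow_val, nrm_zpow, Units.val_mk0]
      rw [e]
      constructor
      · rintro ⟨j, hj⟩
        exact ⟨j, zpow_inj_of_lt_one hπ0 hπ1 hj⟩
      · rintro ⟨j, rfl⟩
        exact ⟨j, rfl⟩
  have hNH : normSubgroup F E ≤ H := by
    rintro _ ⟨y, rfl⟩
    rw [hHmem]
    obtain ⟨x, hx⟩ := hunr (y : E)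
    have hx0 : x ≠ 0 := by
      rintro rfl
      rw [nrm_zero] at hx
      exact y.ne_zero ((nrm_eq_zero_iff q E).mp hx)
    obtain ⟨m, hm⟩ := hπ x hx0
    refine ⟨m, ?_⟩
    have : ((Units.map (Algebra.norm F : E →* F) y : Fˣ) : F) = Algebra.norm F (y : E) := rfl
    rw [this, nrm_norm, hx, hm, zpow_mul', zpow_natCast]
  have hrel : (normSubgroup F E).relIndex H = 1 := by
    have := Subgroup.relIndex_mul_index hNH
    rw [hHidx, hidx] at this
    exact Nat.eq_of_mul_eq_mul_right hnpos (by rw [this, one_mul])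
  have hHN : H ≤ normSubgroup F E := Subgroup.relIndex_eq_one.mp hrel
  have hu0 : u ≠ 0 := by
    rintro rfl
    rw [nrm_zero] at hu
    exact zero_ne_one hu
  have huH : Units.mk0 u hu0 ∈ H := (hHmem _).mpr ⟨0, by simp [hu]⟩
  obtain ⟨y, hy⟩ := hHN huH
  have hyu : Algebra.norm F (y : E) = u := by
    have := congrArg (fun t : Fˣ => (t : F)) hy
    simpa using this
  refine ⟨(y : E), ?_, hyu⟩
  have h1 := nrm_norm q F E (y : E)
  rw [hyu, hu] at h1
  exact nrm_eq_one_of_pow (nrm_nonneg q E _) hnpos.ne' h1.symm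

end Fermat.Agent.S55.CFT.LOC.H68
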