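/-
S55/E4 island LOC (helper25), package LOC-2c, part 3 (abstract form):
`F ⊆ E ⊆ L`, `E' ⊆ L` with `E'/F` and `L/E` unramified, `L` and `E'` with the same residue
field, `[E':F] = n·a`, `[L:E] = n·f₀` (`n = [E:F]`).  Then `[L:E'] = e(E/F)`, `n·f₀ = e·a`, and
`x ^ a` is a norm from `L` to `E` for every `x ∈ Fˣ`.
-/
import Fermat.Agent.S55.CFT.LOC.H25_UCSpan
import Fermat.Agent.S55.CFT.LOC.H68_UnramNorm

set_option autoImplicit false
set_option linter.unusedSectionVars false
set_option linter.style.haveILetI false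

namespace Fermat.Agent.S55.CFT.LOC.H25

open Fermat.Agent.S55.CFT.LOC

section

variable (q : ℕ) [Fact q.Prime] (F E L : Type) [Field F] [Field E] [Field L]
  [Algebra ℚ_[q] F] [FiniteDimensional ℚ_[q] F]
  [Algebra ℚ_[q] E] [FiniteDimensional ℚ_[q] E]
  [Algebra ℚ_[q] L] [FiniteDimensional ℚ_[q] L]
  [Algebra F E] [Algebra F L] [Algebra E L]
  [IsScalarTower ℚ_[q] F E] [IsScalarTower ℚ_[q] F L] [IsScalarTower ℚ_[q] E L]
  [IsScalarTower F E L]
  [FiniteDimensional F E] [FiniteDimensional F L] [FiniteDimensional E L]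
  [IsGalois F L] [IsGalois E L]
  (E' : IntermediateField F L) [FiniteDimensional ℚ_[q] E']

/-- The abstract norm statement of LOC-2c. -/
theorem exists_norm_eq_pow (a f₀ : ℕ)
    (hE' : IsUnram q F E') (hL : IsUnram q E L)
    (hres : ∀ y : L, nrm q L y ≤ 1 → ∃ x : E', nrm q L (y - algebraMap E' L x) < 1)
    (hdegE' : Module.finrank F E' = Module.finrank F E * a)
    (hdegL : Module.finrank E L = Module.finrank F E * f₀)
    (hcyc : IsCyclic (L ≃ₐ[E] L))
    (x : F) (hx : x ≠ 0) : ∃ y : L, Algebra.norm E y = algebraMap F E x ^ a := by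
  classical
  haveI : IsScalarTower ℚ_[q] E' L := IsScalarTower.of_algebraMap_eq (fun r => by
    rw [IsScalarTower.algebraMap_apply ℚ_[q] F L, IsScalarTower.algebraMap_apply ℚ_[q] F E',
      ← IsScalarTower.algebraMap_apply F E' L])
  haveI : IsGalois E' L := IsGalois.tower_top_of_isGalois F E' L
  obtain ⟨πF, hπF0, hπF1, hπFv⟩ := H68.stmt_Uniformizer q F
  obtain ⟨πE, hπE0, hπE1, hπEv⟩ := H68.stmt_Uniformizer q E
  have hπF_ne : πF ≠ 0 := by
    rintro rfl
    rw [nrm_zero] at hπF0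
    exact lt_irrefl _ hπF0
  have hπE_ne : πE ≠ 0 := by
    rintro rfl
    rw [nrm_zero] at hπE0
    exact lt_irrefl _ hπE0
  set tE : ℝ := nrm q E πE with htE
  set tF : ℝ := nrm q F πF with htF
  -- the ramification index
  obtain ⟨e, he⟩ : ∃ e : ℤ, tF = tE ^ e := by
    obtain ⟨e, he⟩ := hπEv (algebraMap F E πF) ((map_ne_zero _).mpr hπF_ne)
    rw [nrm_algebraMap] at he
    exact ⟨e, he⟩
  have hepos : 0 < e := by
    have : tE ^ e < 1 := by rw [← he]; exact hπF1
    exact (zpow_lt_one_iff_right_of_lt_one₀ hπE0 hπE1).mp this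
  obtain ⟨e', rfl⟩ : ∃ e' : ℕ, e = (e' : ℤ) := ⟨e.toNat, (Int.toNat_of_nonneg hepos.le).symm⟩
  have he'pos : 0 < e' := by exact_mod_cast hepos
  rw [zpow_natCast] at he
  -- value groups
  have hvalL : ∀ y : L, y ≠ 0 → ∃ k : ℤ, nrm q L y = nrm q L (algebraMap E L πE) ^ k := by
    intro y hy
    obtain ⟨z, hz⟩ := hL y
    have hz0 : z ≠ 0 := by
      rintro rfl
      rw [nrm_zero] at hz
      exact hy ((nrm_eq_zero_iff q L).mp hz)
    obtain ⟨k, hk⟩ := hπEv z hz0
    exact ⟨k, by rw [hz, hk, nrm_algebraMap]⟩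
  have hvalE' : ∀ y : E', y ≠ 0 → ∃ k : ℤ, nrm q E' y = tE ^ ((e' : ℤ) * k) := by
    intro y hy
    obtain ⟨z, hz⟩ := hE' y
    have hz0 : z ≠ 0 := by
      rintro rfl
      rw [nrm_zero] at hz
      exact hy ((nrm_eq_zero_iff q E').mp hz)
    obtain ⟨k, hk⟩ := hπFv z hz0
    refine ⟨k, ?_⟩
    rw [hz, hk, he, zpow_mul, zpow_natCast]
  -- `[L : E'] ≤ e`
  have hπL : nrm q L (algebraMap E L πE) = tE := nrm_algebraMap q E L πE
  have hϖ : nrm q E' (algebraMap F E' πF) = tF := nrm_algebraMap q F E' πF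
  have hle : Module.finrank E' L ≤ e' := by
    refine finrank_le_of_residue_eq q E' L hres (algebraMap E L πE) (algebraMap F E' πF) e'
      (by rw [hπL]; exact hπE0) (by rw [hπL]; exact hπE1) (by rw [hπL, hϖ, he]) hvalL he'pos
  -- `e ∣ [L : E']`
  have hdvd : e' ≤ Module.finrank E' L := by
    have h1 := nrm_norm q E' L (algebraMap E L πE)
    rw [hπL] at h1
    have hN0 : Algebra.norm E' (algebraMap E L πE) ≠ 0 := by
      rw [Ne, Algebra.norm_eq_zero_iff]
      exact (map_ne_zero _).mpr hπE_ne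
    obtain ⟨k, hk⟩ := hvalE' _ hN0
    rw [hk, ← zpow_natCast] at h1
    have h2 : (e' : ℤ) * k = (Module.finrank E' L : ℤ) :=
      (zpow_right_inj₀ hπE0 hπE1.ne).mp h1
    have hd : 0 < Module.finrank E' L := Module.finrank_pos
    have hk0 : 0 < k := by
      by_contra hk0
      push Not at hk0
      have : (e' : ℤ) * k ≤ 0 := mul_nonpos_of_nonneg_of_nonpos (by positivity) hk0
      omega
    have : (e' : ℤ) ≤ (e' : ℤ) * k := le_mul_of_one_le_right (by positivity) hk0
    omega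
  have hd : Module.finrank E' L = e' := le_antisymm hle hdvd
  -- degrees
  have hn : 0 < Module.finrank F E := Module.finrank_pos
  have hdeg : Module.finrank F E * f₀ = a * e' := by
    have h1 := Module.finrank_mul_finrank F E L
    have h2 := Module.finrank_mul_finrank F E' L
    rw [hdegL] at h1
    rw [hdegE', hd] at h2
    have h3 : Module.finrank F E * (Module.finrank F E * f₀) =
        Module.finrank F E * (a * e') := by
      rw [h1, ← h2]
      ring
    exact Nat.eq_of_mul_eq_mul_left hn h3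
  -- the norm
  obtain ⟨v, hv⟩ := hπFv x hx
  set z : E := πE ^ v with hz
  have hz0 : z ≠ 0 := zpow_ne_zero _ hπE_ne
  have hzn : nrm q E z = tE ^ v := by rw [hz, nrm_zpow]
  set u : E := algebraMap F E x ^ a / z ^ (Module.finrank F E * f₀) with hu
  have hu1 : nrm q E u = 1 := by
    rw [hu, nrm_div, nrm_pow, nrm_pow, nrm_algebraMap, hv, hzn, he, hdeg]
    rw [← zpow_natCast (tE ^ v), ← zpow_mul, ← zpow_natCast tE e', ← zpow_mul,
      ← zpow_natCast (tE ^ _) a, ← zpow_mul]
    have : (e' : ℤ) * v * (a : ℤ) = v * ((a * e' : ℕ) : ℤ) := by push_cast; ring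
    rw [this]
    exact div_self (zpow_ne_zero _ hπE0.ne')
  obtain ⟨w, -, hw⟩ := H68.stmt_UnramNormUnits q E L hcyc hL u hu1
  refine ⟨algebraMap E L z * w, ?_⟩
  rw [map_mul, Algebra.norm_algebraMap, hw, hdegL, hu]
  field_simp

end

end Fermat.Agent.S55.CFT.LOC.H25
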