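/-
S55/E4 island LOC (helper25): the valuation ring and the residue field of an abstract finite
extension `F` of `ℚ_[q]` with respect to the absolute value `nrm q F`.

* `vring q F : ValuationSubring F`  (`x ∈ vring q F ↔ nrm q F x ≤ 1`)
* `resF q F` = residue field, a finite field of characteristic `q`
* `resMap q F E : resF q F →+* resF q E` for a tower, `resAut q F E σ` for `σ : E ≃ₐ[F] E`.
-/
import Fermat.Agent.S55.CFT.LOC.H68_LOC1

set_option autoImplicit false
set_option linter.unusedSectionVars false
set_option linter.style.haveILetI false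

namespace Fermat.Agent.S55.CFT.LOC.H25

open Fermat.Agent.S55.CFT.LOC

section basic

variable (q : ℕ) [Fact q.Prime] (F : Type) [Field F] [Algebra ℚ_[q] F]
  [FiniteDimensional ℚ_[q] F]

/-- The valuation ring `{x : |x| ≤ 1}` of `F`. -/
def vring : ValuationSubring F where
  carrier := {x | nrm q F x ≤ 1}
  mul_mem' := by
    intro a b ha hb
    simp only [Set.mem_ofPred_eq] at ha hb ⊢
    rw [nrm_mul]
    exact mul_le_one₀ ha (nrm_nonneg q F b) hb
  one_mem' := by simp
  add_mem' := by
    intro a b ha hb
    simp only [Set.mem_ofPred_eq] at ha hb ⊢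
    exact (nrm_add_le_max q F a b).trans (max_le ha hb)
  zero_mem' := by simp
  neg_mem' := by
    intro a ha
    simp only [Set.mem_ofPred_eq] at ha ⊢
    rwa [nrm_neg]
  mem_or_inv_mem' := by
    intro x
    simp only [Set.mem_ofPred_eq]
    by_cases hx : nrm q F x ≤ 1
    · exact Or.inl hx
    · right
      rw [nrm_inv]
      push Not at hx
      exact inv_le_one_of_one_le₀ hx.le

theorem mem_vring {x : F} : x ∈ vring q F ↔ nrm q F x ≤ 1 := Iff.rfl

theorem nrm_le_one (x : vring q F) : nrm q F (x : F) ≤ 1 := x.2

theorem isUnit_vring_iff (x : vring q F) : IsUnit x ↔ nrm q F (x : F) = 1 := by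
  constructor
  · rintro ⟨u, rfl⟩
    have h1 : nrm q F ((u : vring q F) : F) ≤ 1 := nrm_le_one q F _
    have h2 : nrm q F (((u⁻¹ : (vring q F)ˣ) : vring q F) : F) ≤ 1 := nrm_le_one q F _
    have h3 : ((u : vring q F) : F) * (((u⁻¹ : (vring q F)ˣ) : vring q F) : F) = 1 := by
      exact congrArg (fun z : vring q F => (z : F)) u.mul_inv
    have h4 := congrArg (nrm q F) h3
    rw [nrm_mul, nrm_one] at h4
    have h5 := nrm_nonneg q F ((u : vring q F) : F)
    have h6 := nrm_nonneg q F (((u⁻¹ : (vring q F)ˣ) : vring q F) : F)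
    nlinarith
  · intro h
    have hx0 : (x : F) ≠ 0 := by
      intro h0
      rw [h0, nrm_zero] at h
      exact zero_ne_one h
    have hinv : (x : F)⁻¹ ∈ vring q F := by
      rw [mem_vring, nrm_inv, h, inv_one]
    refine ⟨⟨x, ⟨(x : F)⁻¹, hinv⟩, ?_, ?_⟩, rfl⟩
    · apply Subtype.ext
      simp [mul_inv_cancel₀ hx0]
    · apply Subtype.ext
      simp [inv_mul_cancel₀ hx0]

theorem mem_maximalIdeal_iff (x : vring q F) :
    x ∈ IsLocalRing.maximalIdeal (vring q F) ↔ nrm q F (x : F) < 1 := by
  rw [IsLocalRing.mem_maximalIdeal, mem_nonunits_iff, isUnit_vring_iff]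
  constructor
  · intro h
    exact lt_of_le_of_ne (nrm_le_one q F x) h
  · intro h
    exact h.ne

/-- The residue field of `F`. -/
abbrev resF : Type := IsLocalRing.ResidueField (vring q F)

/-- The residue map. -/
noncomputable abbrev res : vring q F →+* resF q F := IsLocalRing.residue (vring q F)

theorem res_eq_zero_iff (x : vring q F) : res q F x = 0 ↔ nrm q F (x : F) < 1 := by
  rw [IsLocalRing.residue_eq_zero_iff, mem_maximalIdeal_iff]

theorem res_eq_iff (x y : vring q F) :
    res q F x = res q F y ↔ nrm q F ((x : F) - y) < 1 := by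
  rw [← sub_eq_zero, ← map_sub, res_eq_zero_iff]
  rfl

theorem res_surjective : Function.Surjective (res q F) := IsLocalRing.residue_surjective

/-- The residue field is finite. -/
instance finite_resF : Finite (resF q F) := by
  classical
  obtain ⟨T, hT1, hT2⟩ := H68.stmt_FiniteResidue q F (1 / 2) (by norm_num)
  let g : T → resF q F := fun t => res q F ⟨t.1, hT1 t.1 t.2⟩
  have hg : Function.Surjective g := by
    intro y
    obtain ⟨x, rfl⟩ := res_surjective q F y
    obtain ⟨t, ht, hxt⟩ := hT2 (x : F) (nrm_le_one q F x)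
    refine ⟨⟨t, ht⟩, ?_⟩
    change res q F ⟨t, hT1 t ht⟩ = res q F x
    rw [res_eq_iff]
    change nrm q F (t - (x : F)) < 1
    rw [nrm_sub_comm]
    linarith
  exact Finite.of_surjective g hg

noncomputable instance fintype_resF : Fintype (resF q F) := Fintype.ofFinite _

/-- The residue field has characteristic `q`. -/
instance charP_resF : CharP (resF q F) q := by
  have hq : (q : F) ∈ vring q F := by
    rw [mem_vring, nrm_natCast_q]
    have : (1 : ℝ) ≤ q := by exact_mod_cast (Fact.out : q.Prime).one_lt.le
    exact inv_le_one_of_one_le₀ this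
  have h0 : ((q : ℕ) : resF q F) = 0 := by
    have h1 : res q F ⟨(q : F), hq⟩ = 0 := by
      rw [res_eq_zero_iff]
      change nrm q F (q : F) < 1
      rw [nrm_natCast_q]
      have : (1 : ℝ) < q := by exact_mod_cast (Fact.out : q.Prime).one_lt
      exact inv_lt_one_of_one_lt₀ this
    have h2 : (⟨(q : F), hq⟩ : vring q F) = ((q : ℕ) : vring q F) := by
      apply Subtype.ext
      simp
    rw [h2, map_natCast] at h1
    exact h1
  exact (CharP.charP_iff_prime_eq_zero (Fact.out : q.Prime)).mpr h0

/-- `|m| = 1` for a natural number prime to `q`. -/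
theorem nrm_natCast_of_not_dvd {m : ℕ} (hm : ¬ q ∣ m) : nrm q F (m : F) = 1 := by
  have h : (m : F) = algebraMap ℚ_[q] F (m : ℚ_[q]) := by simp
  rw [h, nrm_algebraMap_padic, Padic.norm_natCast_eq_one_iff]
  exact ((Nat.Prime.coprime_iff_not_dvd (Fact.out : q.Prime)).mpr hm)

end basic

section tower

variable (q : ℕ) [Fact q.Prime] (F E : Type) [Field F] [Field E] [Algebra ℚ_[q] F]
  [FiniteDimensional ℚ_[q] F] [Algebra ℚ_[q] E] [FiniteDimensional ℚ_[q] E] [Algebra F E]
  [IsScalarTower ℚ_[q] F E]

/-- The inclusion of valuation rings in a tower. -/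
noncomputable def vringMap : vring q F →+* vring q E where
  toFun x := ⟨algebraMap F E x, by rw [mem_vring, nrm_algebraMap]; exact nrm_le_one q F x⟩
  map_one' := by apply Subtype.ext; simp
  map_mul' x y := by apply Subtype.ext; simp
  map_zero' := by apply Subtype.ext; simp
  map_add' x y := by apply Subtype.ext; simp

@[simp] theorem coe_vringMap (x : vring q F) :
    ((vringMap q F E x : vring q E) : E) = algebraMap F E (x : F) := rfl

instance isLocalHom_vringMap : IsLocalHom (vringMap q F E) := by
  constructor
  intro x hx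
  rw [isUnit_vring_iff] at hx ⊢
  rw [coe_vringMap, nrm_algebraMap] at hx
  exact hx

/-- The inclusion of residue fields in a tower. -/
noncomputable def resMap : resF q F →+* resF q E :=
  IsLocalRing.ResidueField.map (vringMap q F E)

theorem resMap_res (x : vring q F) :
    resMap q F E (res q F x) = res q E (vringMap q F E x) :=
  IsLocalRing.ResidueField.map_residue _ _

theorem resMap_comp_res :
    (resMap q F E).comp (res q F) = (res q E).comp (vringMap q F E) :=
  IsLocalRing.ResidueField.map_comp_residue _

/-- An automorphism of `E/F` restricted to the valuation ring. -/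
noncomputable def vringAut (σ : E ≃ₐ[F] E) : vring q E →+* vring q E where
  toFun x := ⟨σ x, by rw [mem_vring, nrm_algEquiv]; exact nrm_le_one q E x⟩
  map_one' := by apply Subtype.ext; simp
  map_mul' x y := by apply Subtype.ext; simp
  map_zero' := by apply Subtype.ext; simp
  map_add' x y := by apply Subtype.ext; simp

@[simp] theorem coe_vringAut (σ : E ≃ₐ[F] E) (x : vring q E) :
    ((vringAut q F E σ x : vring q E) : E) = σ (x : E) := rfl

instance isLocalHom_vringAut (σ : E ≃ₐ[F] E) : IsLocalHom (vringAut q F E σ) := by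
  constructor
  intro x hx
  rw [isUnit_vring_iff] at hx ⊢
  rw [coe_vringAut, nrm_algEquiv] at hx
  exact hx

/-- The endomorphism of the residue field induced by an automorphism of `E/F`. -/
noncomputable def resAut (σ : E ≃ₐ[F] E) : resF q E →+* resF q E :=
  IsLocalRing.ResidueField.map (vringAut q F E σ)

theorem resAut_res (σ : E ≃ₐ[F] E) (x : vring q E) :
    resAut q F E σ (res q E x) = res q E (vringAut q F E σ x) :=
  IsLocalRing.ResidueField.map_residue _ _

theorem vringAut_vringMap (σ : E ≃ₐ[F] E) (x : vring q F) :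
    vringAut q F E σ (vringMap q F E x) = vringMap q F E x := by
  apply Subtype.ext
  simp

theorem resAut_resMap (σ : E ≃ₐ[F] E) (a : resF q F) :
    resAut q F E σ (resMap q F E a) = resMap q F E a := by
  obtain ⟨x, rfl⟩ := res_surjective q F a
  rw [resMap_res, resAut_res, vringAut_vringMap]

theorem resAut_comp_resMap (σ : E ≃ₐ[F] E) :
    (resAut q F E σ).comp (resMap q F E) = resMap q F E :=
  RingHom.ext (fun a => resAut_resMap q F E σ a)

end tower

end Fermat.Agent.S55.CFT.LOC.H25
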