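/-
S55/E4 island LOC (helper25), package LOC-2a, finite field part:
Frobenius conjugates of a root of unity of order `N ^ n - 1` over a finite field with `N`
elements.
-/
import Mathlib.FieldTheory.Finite.Basic
import Mathlib.RingTheory.RootsOfUnity.PrimitiveRoots
import Mathlib.Algebra.Polynomial.Lifts
import Mathlib.Algebra.Polynomial.Expand
import Mathlib.Algebra.CharP.Lemmas
import Mathlib.Algebra.CharP.Algebra

set_option autoImplicit false
set_option linter.unusedSectionVars false
set_option linter.style.haveILetI false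

namespace Fermat.Agent.S55.CFT.LOC.H25

open Polynomial

section finite

variable {K L : Type*} [Field K] [Fintype K] [Field L] (φ : K →+* L)

/-- Frobenius: `f(x)^N = f(x^N)` for `f` with coefficients in a field with `N` elements. -/
theorem eval₂_pow_card (f : K[X]) (x : L) :
    (f.eval₂ φ x) ^ Fintype.card K = f.eval₂ φ (x ^ Fintype.card K) := by
  have h := FiniteField.expand_card f
  have h2 := congrArg (Polynomial.eval₂ φ x) h
  rw [Polynomial.eval₂_pow] at h2
  rw [← h2]
  letI := φ.toAlgebra
  have h3 := Polynomial.expand_aeval (Fintype.card K) f x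
  rw [Polynomial.aeval_def, Polynomial.aeval_def, RingHom.algebraMap_toAlgebra] at h3
  exact h3

theorem eval₂_pow_card_pow (f : K[X]) (x : L) (hx : f.eval₂ φ x = 0) (j : ℕ) :
    f.eval₂ φ (x ^ (Fintype.card K) ^ j) = 0 := by
  induction j with
  | zero => simpa using hx
  | succ j ih =>
    rw [pow_succ, pow_mul, ← eval₂_pow_card, ih, zero_pow Fintype.card_ne_zero]

omit [Fintype K] in
/-- The exponents `N ^ j`, `j < n`, are distinct modulo `N ^ n - 1`. -/
theorem pow_pow_injOn {N n : ℕ} (hN : 2 ≤ N) {z : L} (hz : IsPrimitiveRoot z (N ^ n - 1)) :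
    Set.InjOn (fun j : ℕ => z ^ N ^ j) (Finset.range n : Set ℕ) := by
  have key : ∀ i j : ℕ, i < j → j < n → z ^ N ^ i ≠ z ^ N ^ j := by
    intro i j hij hjn h
    have hmpos : 0 < N ^ n - 1 := by
      have h2 : N ^ 1 ≤ N ^ n := Nat.pow_le_pow_right (by omega) (by omega)
      rw [pow_one] at h2
      omega
    have hfin : IsOfFinOrder z := isOfFinOrder_iff_pow_eq_one.mpr ⟨_, hmpos, hz.pow_eq_one⟩
    rw [hfin.pow_eq_pow_iff_modEq, ← hz.eq_orderOf] at h
    have hle : N ^ i ≤ N ^ j := Nat.pow_le_pow_right (by omega) hij.le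
    have hdvd : N ^ n - 1 ∣ N ^ j - N ^ i := (Nat.modEq_iff_dvd' hle).mp h
    have hlt : N ^ i < N ^ j := Nat.pow_lt_pow_right (by omega) hij
    have hpos : 0 < N ^ j - N ^ i := by omega
    have h1 : N ^ n - 1 ≤ N ^ j - N ^ i := Nat.le_of_dvd hpos hdvd
    have h2 : N ^ j < N ^ n := Nat.pow_lt_pow_right (by omega) hjn
    have h3 : 0 < N ^ i := Nat.pow_pos (by omega)
    omega
  intro i hi j hj h
  simp only [Finset.coe_range, Set.mem_Iio] at hi hj
  rcases lt_trichotomy i j with hij | hij | hij
  · exact absurd h (key i j hij hj)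
  · exact hij
  · exact absurd h.symm (key j i hij hi)

/-- A nonzero polynomial over `K` vanishing at a primitive root of unity of order `N ^ n - 1`
has degree at least `n`. -/
theorem le_natDegree_of_root {n : ℕ} {z : L}
    (hz : IsPrimitiveRoot z (Fintype.card K ^ n - 1)) (f : K[X]) (hf : f ≠ 0)
    (h0 : f.eval₂ φ z = 0) : n ≤ f.natDegree := by
  classical
  have hN : 2 ≤ Fintype.card K := Fintype.one_lt_card
  have hmap : f.map φ ≠ 0 := (Polynomial.map_ne_zero_iff φ.injective).mpr hf
  let Z : Finset L := (Finset.range n).image (fun j : ℕ => z ^ (Fintype.card K) ^ j)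
  have hcard : Z.card = n := by
    rw [Finset.card_image_of_injOn (pow_pow_injOn hN hz), Finset.card_range]
  have hsub : Z.val ⊆ (f.map φ).roots := by
    intro y hy
    rw [Finset.mem_val, Finset.mem_image] at hy
    obtain ⟨j, -, rfl⟩ := hy
    rw [Polynomial.mem_roots hmap, Polynomial.IsRoot, Polynomial.eval_map]
    exact eval₂_pow_card_pow φ f z h0 j
  have h1 := Polynomial.card_le_degree_of_subset_roots hsub
  rw [hcard, Polynomial.natDegree_map] at h1
  exact h1

/-- An element of `L` fixed by `x ↦ x ^ N` comes from `K`. -/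
theorem mem_range_of_pow_card_eq (c : L) (hc : c ^ Fintype.card K = c) : c ∈ Set.range φ := by
  classical
  by_contra hnot
  have hN : 2 ≤ Fintype.card K := Fintype.one_lt_card
  let P : L[X] := X ^ Fintype.card K - X
  have hdeg : P.natDegree = Fintype.card K := by
    change (X ^ Fintype.card K - X : L[X]).natDegree = _
    rw [Polynomial.natDegree_sub_eq_left_of_natDegree_lt]
    · exact Polynomial.natDegree_X_pow _
    · rw [Polynomial.natDegree_X_pow, Polynomial.natDegree_X]
      omega
  have hP : P ≠ 0 := by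
    intro h
    rw [h, Polynomial.natDegree_zero] at hdeg
    omega
  let Z : Finset L := insert c (Finset.univ.image φ)
  have hcard : Z.card = Fintype.card K + 1 := by
    rw [Finset.card_insert_of_notMem, Finset.card_image_of_injective _ φ.injective,
      Finset.card_univ]
    intro h
    rw [Finset.mem_image] at h
    obtain ⟨a, -, ha⟩ := h
    exact hnot ⟨a, ha⟩
  have hsub : Z.val ⊆ P.roots := by
    intro y hy
    rw [Finset.mem_val, Finset.mem_insert, Finset.mem_image] at hy
    rw [Polynomial.mem_roots hP, Polynomial.IsRoot]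
    change eval y (X ^ Fintype.card K - X) = 0
    rw [Polynomial.eval_sub, Polynomial.eval_pow, Polynomial.eval_X, sub_eq_zero]
    rcases hy with rfl | ⟨a, -, rfl⟩
    · exact hc
    · rw [← map_pow, FiniteField.pow_card]
  have h1 := Polynomial.card_le_degree_of_subset_roots hsub
  rw [hcard, hdeg] at h1
  omega

/-- An endomorphism of `L` over `K` maps a primitive root of unity of order `N ^ n - 1` to
one of its Frobenius conjugates. -/
theorem exists_pow_of_hom {n : ℕ} (hn : 0 < n) {z : L}
    (hz : IsPrimitiveRoot z (Fintype.card K ^ n - 1)) (τ : L →+* L)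
    (hτ : τ.comp φ = φ) : ∃ j < n, τ z = z ^ (Fintype.card K) ^ j := by
  classical
  obtain ⟨p, hp, f, hpp, hcard⟩ := FiniteField.card' K
  haveI : CharP L p := charP_of_injective_ringHom φ.injective p
  haveI : Fact p.Prime := ⟨hpp⟩
  set N := Fintype.card K with hN
  have hN2 : 2 ≤ N := Fintype.one_lt_card
  -- the Frobenius of `L`
  let Fr : L →+* L := iterateFrobenius L p f
  have hFr : ∀ x : L, Fr x = x ^ N := by
    intro x
    change iterateFrobenius L p f x = x ^ N
    rw [iterateFrobenius_def, hcard]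
  -- `z ^ N ^ n = z`
  have hzn : z ^ N ^ n = z := by
    have h1 : 1 ≤ N ^ n := Nat.one_le_pow _ _ (by omega)
    have h2 : N ^ n = (N ^ n - 1) + 1 := by omega
    rw [h2, pow_succ, hz.pow_eq_one, one_mul]
  let g : ℕ → L[X] := fun j => X - C (z ^ N ^ j)
  let P : L[X] := ∏ j ∈ Finset.range n, g j
  have hgmap : ∀ j, (g j).map Fr = g (j + 1) := by
    intro j
    change (X - C (z ^ N ^ j)).map Fr = X - C (z ^ N ^ (j + 1))
    rw [Polynomial.map_sub, Polynomial.map_X, Polynomial.map_C, hFr, ← pow_mul, ← pow_succ]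
  have hg0 : g n = g 0 := by
    change X - C (z ^ N ^ n) = X - C (z ^ N ^ 0)
    rw [hzn, pow_zero, pow_one]
  have hPmap : P.map Fr = P := by
    change (∏ j ∈ Finset.range n, g j).map Fr = ∏ j ∈ Finset.range n, g j
    rw [Polynomial.map_prod]
    have h1 : ∏ j ∈ Finset.range n, (g j).map Fr = ∏ j ∈ Finset.range n, g (j + 1) :=
      Finset.prod_congr rfl (fun j _ => hgmap j)
    rw [h1]
    have h2 := Finset.prod_range_succ g n
    have h3 := Finset.prod_range_succ' g n
    rw [h2, hg0] at h3
    have hne : g 0 ≠ 0 := Polynomial.X_sub_C_ne_zero _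
    exact (mul_right_cancel₀ hne h3).symm
  have hcoeff : ∀ i, (P.coeff i) ^ N = P.coeff i := by
    intro i
    have := congrArg (fun Q : L[X] => Q.coeff i) hPmap
    simp only [Polynomial.coeff_map] at this
    rw [hFr] at this
    exact this
  have hlift : P ∈ Polynomial.lifts φ := by
    rw [Polynomial.lifts_iff_coeff_lifts]
    intro i
    exact mem_range_of_pow_card_eq φ _ (hcoeff i)
  obtain ⟨Q, hQ⟩ := (Polynomial.mem_lifts P).mp hlift
  have hPz : P.eval z = 0 := by
    change (∏ j ∈ Finset.range n, g j).eval z = 0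
    rw [Polynomial.eval_prod]
    apply Finset.prod_eq_zero (Finset.mem_range.mpr hn)
    change (X - C (z ^ N ^ 0)).eval z = 0
    simp
  have hQz : Q.eval₂ φ z = 0 := by
    rw [← Polynomial.eval_map, hQ]
    exact hPz
  have hQτ : Q.eval₂ φ (τ z) = 0 := by
    have := Polynomial.hom_eval₂ Q φ τ z
    rw [hQz, map_zero, hτ] at this
    exact this.symm
  have hPτ : P.eval (τ z) = 0 := by
    rw [← hQ, Polynomial.eval_map]
    exact hQτ
  change (∏ j ∈ Finset.range n, g j).eval (τ z) = 0 at hPτ
  rw [Polynomial.eval_prod, Finset.prod_eq_zero_iff] at hPτ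
  obtain ⟨j, hj, hj0⟩ := hPτ
  refine ⟨j, Finset.mem_range.mp hj, ?_⟩
  change (X - C (z ^ N ^ j)).eval (τ z) = 0 at hj0
  simpa [sub_eq_zero] using hj0

end finite

end Fermat.Agent.S55.CFT.LOC.H25
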