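/-
S55/E4 island LOC (helper25), package LOC-2a: existence of unramified cyclic extensions of
every degree `n` of a finite extension `F` of `ℚ_[q]`.

Route: `N = #k_F`, `m = N ^ n - 1`, `E = F(ζ)` with `ζ` a primitive `m`-th root of unity.
The Frobenius conjugates `ζ ^ N ^ j`, `j < n`, are distinct in the residue field, so a nonzero
polynomial of degree `< n` over `k_F` cannot vanish at the reduction of `ζ`; hence
`|Σ_{i<n} a_i ζ^i| = max |a_i|` (degree `≥ n` and unramifiedness).  Every automorphism maps `ζ`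
to a Frobenius conjugate (degree `≤ n`, cyclic Galois group).  No Hensel lemma is used.
-/
import Fermat.Agent.S55.CFT.LOC.H25_Residue
import Fermat.Agent.S55.CFT.LOC.H25_UnramFin
import Mathlib.NumberTheory.Cyclotomic.Gal
import Mathlib.NumberTheory.Cyclotomic.PrimitiveRoots

set_option autoImplicit false
set_option linter.unusedSectionVars false
set_option linter.style.haveILetI false

namespace Fermat.Agent.S55.CFT.LOC.H25

open Fermat.Agent.S55.CFT.LOC Polynomial

section roots

variable (q : ℕ) [Fact q.Prime] (F : Type) [Field F] [Algebra ℚ_[q] F]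
  [FiniteDimensional ℚ_[q] F]

/-- A root of unity of order prime to `q` which is congruent to `1` is `1`. -/
theorem eq_one_of_res_eq_one {m : ℕ} (hm : ¬ q ∣ m) (η : vring q F) (hη : η ^ m = 1)
    (h1 : res q F η = 1) : η = 1 := by
  by_contra hne
  have h2 : (∑ k ∈ Finset.range m, η ^ k) * (η - 1) = 0 := by
    rw [geom_sum_mul, hη, sub_self]
  have h3 : ∑ k ∈ Finset.range m, η ^ k = 0 := by
    rcases mul_eq_zero.mp h2 with h | h
    · exact h
    · exact absurd (sub_eq_zero.mp h) hne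
  have h4 := congrArg (res q F) h3
  rw [map_sum, map_zero] at h4
  simp only [map_pow, h1, one_pow, Finset.sum_const, Finset.card_range, nsmul_eq_mul,
    mul_one] at h4
  exact hm ((CharP.cast_eq_zero_iff (resF q F) q m).mp h4)

/-- Reduction is injective on roots of unity of order prime to `q`. -/
theorem eq_of_res_eq {m : ℕ} (hm : ¬ q ∣ m) (x y : vring q F) (hx : x ^ m = 1)
    (hy : y ^ m = 1) (h : res q F x = res q F y) : x = y := by
  have hm0 : m ≠ 0 := by
    rintro rfl
    exact hm (dvd_zero q)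
  obtain ⟨k, rfl⟩ : ∃ k, m = k + 1 := Nat.exists_eq_succ_of_ne_zero hm0
  have hyk : y ^ k * y = 1 := by
    rw [← pow_succ]
    exact hy
  have hη : (x * y ^ k) ^ (k + 1) = 1 := by
    rw [mul_pow, hx, one_mul, ← pow_mul, mul_comm, pow_mul, hy, one_pow]
  have h1 : res q F (x * y ^ k) = 1 := by
    rw [map_mul, h, ← map_mul, mul_comm, hyk, map_one]
  have h2 := eq_one_of_res_eq_one q F hm _ hη h1
  calc x = x * (y ^ k * y) := by rw [hyk, mul_one]
    _ = (x * y ^ k) * y := by ring
    _ = y := by rw [h2, one_mul]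

/-- The number of elements of the residue field. -/
noncomputable def resCard : ℕ := Fintype.card (resF q F)

theorem two_le_resCard : 2 ≤ resCard q F := Fintype.one_lt_card

theorem pow_resCard_sub_one_pos {n : ℕ} (hn : 0 < n) : 0 < resCard q F ^ n - 1 := by
  have h1 := two_le_resCard q F
  have h2 : resCard q F ^ 1 ≤ resCard q F ^ n := Nat.pow_le_pow_right (by omega) hn
  rw [pow_one] at h2
  omega

theorem not_dvd_pow_resCard_sub_one {n : ℕ} (hn : 0 < n) : ¬ q ∣ resCard q F ^ n - 1 := by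
  intro h
  obtain ⟨f, -, hf⟩ := FiniteField.card (resF q F) q
  have hq : q ∣ resCard q F := by
    change q ∣ Fintype.card (resF q F)
    rw [hf]
    exact dvd_pow_self q f.pos.ne'
  have h1 : q ∣ resCard q F ^ n := dvd_pow hq hn.ne'
  have h2 := pow_resCard_sub_one_pos q F hn
  have h3 : q ∣ resCard q F ^ n - (resCard q F ^ n - 1) := Nat.dvd_sub h1 h
  have h4 : resCard q F ^ n - (resCard q F ^ n - 1) = 1 := by omega
  rw [h4] at h3
  exact (Fact.out : q.Prime).one_lt.ne' (Nat.dvd_one.mp h3)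

theorem nrm_of_pow_eq_one {x : F} {m : ℕ} (hm : m ≠ 0) (h : x ^ m = 1) : nrm q F x = 1 := by
  have h1 := congrArg (nrm q F) h
  rw [nrm_pow, nrm_one] at h1
  exact (pow_eq_one_iff_of_nonneg (nrm_nonneg q F x) hm).mp h1

/-- The class of `N` as a unit modulo `N ^ n - 1`. -/
noncomputable def unitN {n : ℕ} (hn : 0 < n) : (ZMod (resCard q F ^ n - 1))ˣ :=
  Units.ofPowEqOne ((resCard q F : ℕ) : ZMod (resCard q F ^ n - 1)) n (by
    have h1 := pow_resCard_sub_one_pos q F hn
    have h2 : ((resCard q F ^ n - 1 + 1 : ℕ) : ZMod (resCard q F ^ n - 1)) = 1 := by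
      rw [Nat.cast_add, ZMod.natCast_self, zero_add, Nat.cast_one]
    rw [← Nat.cast_pow]
    have h3 : resCard q F ^ n = resCard q F ^ n - 1 + 1 := by omega
    rw [h3]
    exact h2) hn.ne'

theorem coe_unitN {n : ℕ} (hn : 0 < n) :
    ((unitN q F hn : (ZMod (resCard q F ^ n - 1))ˣ) : ZMod (resCard q F ^ n - 1)) =
      ((resCard q F : ℕ) : ZMod (resCard q F ^ n - 1)) := rfl

theorem unitN_pow {n : ℕ} (hn : 0 < n) : unitN q F hn ^ n = 1 := Units.pow_ofPowEqOne _ _

end roots

section main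

variable (q : ℕ) [Fact q.Prime] (F E : Type) [Field F] [Field E] [Algebra ℚ_[q] F]
  [FiniteDimensional ℚ_[q] F] [Algebra ℚ_[q] E] [FiniteDimensional ℚ_[q] E] [Algebra F E]
  [IsScalarTower ℚ_[q] F E]

variable {n : ℕ} (hn : 0 < n) {ζ : E} (hζ : IsPrimitiveRoot ζ (resCard q F ^ n - 1))

include hn hζ

theorem nrm_zeta : nrm q E ζ = 1 :=
  nrm_of_pow_eq_one q E (pow_resCard_sub_one_pos q F hn).ne' hζ.pow_eq_one

/-- `ζ` as an element of the valuation ring. -/
noncomputable def zO : vring q E := ⟨ζ, (nrm_zeta q F E hn hζ).le⟩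

theorem zO_pow : zO q F E hn hζ ^ (resCard q F ^ n - 1) = 1 := by
  apply Subtype.ext
  change ζ ^ (resCard q F ^ n - 1) = 1
  exact hζ.pow_eq_one

/-- The reduction of `ζ` is a primitive root of unity of the same order. -/
theorem isPrimitiveRoot_res :
    IsPrimitiveRoot (res q E (zO q F E hn hζ)) (Fintype.card (resF q F) ^ n - 1) := by
  change IsPrimitiveRoot (res q E (zO q F E hn hζ)) (resCard q F ^ n - 1)
  rw [IsPrimitiveRoot.iff_def]
  constructor
  · rw [← map_pow, zO_pow, map_one]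
  · intro l hl
    have h1 : zO q F E hn hζ ^ l = 1 := by
      refine eq_of_res_eq q E (not_dvd_pow_resCard_sub_one q F hn) _ _ ?_ (one_pow _) ?_
      · rw [← pow_mul, mul_comm, pow_mul, zO_pow, one_pow]
      · rw [map_pow, hl, map_one]
    have h2 : ζ ^ l = 1 := congrArg Subtype.val h1
    exact hζ.dvd_of_pow_eq_one l h2

/-- **Gauss norm.**  For a nonzero polynomial `p` of degree `< n` over `F`, the absolute value
of `p(ζ)` is the maximum of the absolute values of the coefficients. -/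
theorem exists_coeff_nrm_aeval_eq (p : F[X]) (hp : p ≠ 0) (hdeg : p.natDegree < n) :
    ∃ i0 : ℕ, p.coeff i0 ≠ 0 ∧ (∀ i, nrm q F (p.coeff i) ≤ nrm q F (p.coeff i0)) ∧
      nrm q E (aeval ζ p) = nrm q F (p.coeff i0) := by
  classical
  have hsupp : p.support.Nonempty := Polynomial.nonempty_support_iff.mpr hp
  obtain ⟨i0, hi0, hmax⟩ :=
    Finset.exists_max_image p.support (fun i => nrm q F (p.coeff i)) hsupp
  set c := p.coeff i0 with hc
  have hc0 : c ≠ 0 := Polynomial.mem_support_iff.mp hi0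
  have hcpos : 0 < nrm q F c := nrm_pos q F hc0
  have hle : ∀ i, nrm q F (c⁻¹ * p.coeff i) ≤ 1 := by
    intro i
    rw [nrm_mul, nrm_inv]
    by_cases hi : i ∈ p.support
    · have := hmax i hi
      rw [inv_mul_le_iff₀ hcpos, mul_one]
      exact this
    · rw [Polynomial.notMem_support_iff.mp hi, nrm_zero, mul_zero]
      exact zero_le_one
  let b : ℕ → vring q F := fun i => ⟨c⁻¹ * p.coeff i, hle i⟩
  let f : (resF q F)[X] := ∑ i ∈ Finset.range n, C (res q F (b i)) * X ^ i
  have hi0n : i0 < n := lt_of_le_of_lt (Polynomial.le_natDegree_of_mem_supp _ hi0) hdeg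
  have hb0 : b i0 = 1 := by
    apply Subtype.ext
    change c⁻¹ * p.coeff i0 = 1
    rw [← hc, inv_mul_cancel₀ hc0]
  have hfcoeff : f.coeff i0 = 1 := by
    change (∑ i ∈ Finset.range n, C (res q F (b i)) * X ^ i).coeff i0 = 1
    rw [Polynomial.finsetSum_coeff]
    rw [Finset.sum_eq_single i0]
    · rw [Polynomial.coeff_C_mul, Polynomial.coeff_X_pow, if_pos rfl, mul_one, hb0, map_one]
    · intro i _ hi
      rw [Polynomial.coeff_C_mul, Polynomial.coeff_X_pow, if_neg (Ne.symm hi), mul_zero]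
    · intro h
      exact absurd (Finset.mem_range.mpr hi0n) h
  have hf0 : f ≠ 0 := by
    intro h
    rw [h, Polynomial.coeff_zero] at hfcoeff
    exact zero_ne_one hfcoeff
  have hfdeg : f.natDegree ≤ n - 1 := by
    apply Polynomial.natDegree_sum_le_of_forall_le
    intro i hi
    have := Finset.mem_range.mp hi
    exact (Polynomial.natDegree_C_mul_X_pow_le _ _).trans (by omega)
  let y : vring q E := ∑ i ∈ Finset.range n, vringMap q F E (b i) * zO q F E hn hζ ^ i
  have hy : (y : E) = algebraMap F E c⁻¹ * aeval ζ p := by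
    rw [Polynomial.aeval_eq_sum_range' hdeg, Finset.mul_sum]
    change ((vring q E).subtype (∑ i ∈ Finset.range n,
      vringMap q F E (b i) * zO q F E hn hζ ^ i)) = _
    rw [map_sum]
    refine Finset.sum_congr rfl (fun i _ => ?_)
    rw [map_mul, map_pow]
    change algebraMap F E (c⁻¹ * p.coeff i) * ζ ^ i = _
    rw [map_mul, Algebra.smul_def, mul_assoc]
  have hres : res q E y = f.eval₂ (resMap q F E) (res q E (zO q F E hn hζ)) := by
    change res q E (∑ i ∈ Finset.range n, vringMap q F E (b i) * zO q F E hn hζ ^ i) =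
      (∑ i ∈ Finset.range n, C (res q F (b i)) * X ^ i).eval₂ (resMap q F E) _
    rw [map_sum, Polynomial.eval₂_finsetSum]
    refine Finset.sum_congr rfl (fun i _ => ?_)
    rw [map_mul, map_pow, Polynomial.eval₂_mul, Polynomial.eval₂_C, Polynomial.eval₂_pow,
      Polynomial.eval₂_X, resMap_res]
  have hy1 : nrm q E (y : E) = 1 := by
    by_contra hne
    have hlt : nrm q E (y : E) < 1 := lt_of_le_of_ne (nrm_le_one q E y) hne
    have h0 : res q E y = 0 := (res_eq_zero_iff q E y).mpr hlt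
    rw [hres] at h0
    have := le_natDegree_of_root (resMap q F E) (isPrimitiveRoot_res q F E hn hζ) f hf0 h0
    omega
  refine ⟨i0, hc0, ?_, ?_⟩
  · intro i
    by_cases hi : i ∈ p.support
    · exact hmax i hi
    · rw [Polynomial.notMem_support_iff.mp hi, nrm_zero]
      exact nrm_nonneg q F _
  rw [hy, nrm_mul, nrm_algebraMap, nrm_inv] at hy1
  have h5 : nrm q E (aeval ζ p) = nrm q F c * ((nrm q F c)⁻¹ * nrm q E (aeval ζ p)) := by
    rw [← mul_assoc, mul_inv_cancel₀ hcpos.ne', one_mul]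
  rw [h5, hy1, mul_one]

/-- **Gauss norm**, existence form. -/
theorem exists_nrm_aeval_eq (p : F[X]) (hp : p ≠ 0) (hdeg : p.natDegree < n) :
    ∃ a : F, a ≠ 0 ∧ nrm q E (aeval ζ p) = nrm q F a := by
  obtain ⟨i0, h0, -, h⟩ := exists_coeff_nrm_aeval_eq q F E hn hζ p hp hdeg
  exact ⟨_, h0, h⟩

/-- Every automorphism of `E/F` maps `ζ` to a Frobenius conjugate. -/
theorem exists_pow_of_aut (σ : E ≃ₐ[F] E) : ∃ j < n, σ ζ = ζ ^ (resCard q F) ^ j := by
  obtain ⟨j, hj, h⟩ := exists_pow_of_hom (resMap q F E) hn (isPrimitiveRoot_res q F E hn hζ)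
    (resAut q F E σ) (resAut_comp_resMap q F E σ)
  refine ⟨j, hj, ?_⟩
  rw [resAut_res, ← map_pow] at h
  have hx : (vringAut q F E σ (zO q F E hn hζ)) ^ (resCard q F ^ n - 1) = 1 := by
    rw [← map_pow, zO_pow, map_one]
  have hy : (zO q F E hn hζ ^ Fintype.card (resF q F) ^ j) ^ (resCard q F ^ n - 1) = 1 := by
    rw [← pow_mul, mul_comm, pow_mul, zO_pow, one_pow]
  have h3 := eq_of_res_eq q E (not_dvd_pow_resCard_sub_one q F hn) _ _ hx hy h
  exact congrArg Subtype.val h3

theorem le_natDegree_minpoly [FiniteDimensional F E] : n ≤ (minpoly F ζ).natDegree := by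
  by_contra h
  push Not at h
  have hint : IsIntegral F ζ := Algebra.IsIntegral.isIntegral ζ
  obtain ⟨a, ha, hnrm⟩ := exists_nrm_aeval_eq q F E hn hζ (minpoly F ζ) (minpoly.ne_zero hint) h
  rw [minpoly.aeval, nrm_zero] at hnrm
  exact (nrm_pos q F ha).ne hnrm

end main

section cyclo

variable (q : ℕ) [Fact q.Prime] (F E : Type) [Field F] [Field E] [Algebra ℚ_[q] F]
  [FiniteDimensional ℚ_[q] F] [Algebra ℚ_[q] E] [FiniteDimensional ℚ_[q] E] [Algebra F E]
  [IsScalarTower ℚ_[q] F E] [FiniteDimensional F E]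

variable {n : ℕ} (hn : 0 < n) {ζ : E} (hζ : IsPrimitiveRoot ζ (resCard q F ^ n - 1))
  [IsCyclotomicExtension {resCard q F ^ n - 1} F E]

include hn hζ

theorem autToPow_mem_zpowers (σ : E ≃ₐ[F] E) :
    haveI : NeZero (resCard q F ^ n - 1) := ⟨(pow_resCard_sub_one_pos q F hn).ne'⟩
    hζ.autToPow F σ ∈ Subgroup.zpowers (unitN q F hn) := by
  haveI : NeZero (resCard q F ^ n - 1) := ⟨(pow_resCard_sub_one_pos q F hn).ne'⟩
  obtain ⟨j, -, hj⟩ := exists_pow_of_aut q F E hn hζ σ
  refine ⟨(j : ℤ), ?_⟩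
  change unitN q F hn ^ (j : ℤ) = hζ.autToPow F σ
  rw [zpow_natCast]
  apply Units.ext
  rw [Units.val_pow_eq_pow_val, coe_unitN q F hn]
  have h1 := hζ.autToPow_spec F σ
  rw [hj] at h1
  have hfin : IsOfFinOrder ζ :=
    isOfFinOrder_iff_pow_eq_one.mpr ⟨_, pow_resCard_sub_one_pos q F hn, hζ.pow_eq_one⟩
  rw [hfin.pow_eq_pow_iff_modEq, ← hζ.eq_orderOf] at h1
  have h2 := (ZMod.natCast_eq_natCast_iff _ _ _).mpr h1
  rw [ZMod.natCast_zmod_val] at h2
  rw [h2, Nat.cast_pow]

/-- The Galois group of `F(ζ)/F` is cyclic. -/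
theorem isCyclic_aut : IsCyclic (E ≃ₐ[F] E) := by
  haveI : NeZero (resCard q F ^ n - 1) := ⟨(pow_resCard_sub_one_pos q F hn).ne'⟩
  let g : (E ≃ₐ[F] E) →* Subgroup.zpowers (unitN q F hn) :=
    (hζ.autToPow F).codRestrict _ (autToPow_mem_zpowers q F E hn hζ)
  have hg : Function.Injective g := by
    intro a b hab
    apply hζ.autToPow_injective F
    exact congrArg Subtype.val hab
  exact isCyclic_of_injective g hg

theorem card_aut_le : Nat.card (E ≃ₐ[F] E) ≤ n := by
  haveI : NeZero (resCard q F ^ n - 1) := ⟨(pow_resCard_sub_one_pos q F hn).ne'⟩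
  let g : (E ≃ₐ[F] E) →* Subgroup.zpowers (unitN q F hn) :=
    (hζ.autToPow F).codRestrict _ (autToPow_mem_zpowers q F E hn hζ)
  have hg : Function.Injective g := by
    intro a b hab
    apply hζ.autToPow_injective F
    exact congrArg Subtype.val hab
  have h1 : Nat.card (E ≃ₐ[F] E) ≤ Nat.card (Subgroup.zpowers (unitN q F hn)) :=
    Nat.card_le_card_of_injective g hg
  rw [Nat.card_zpowers] at h1
  have h2 : orderOf (unitN q F hn) ∣ n := orderOf_dvd_of_pow_eq_one (unitN_pow q F hn)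
  exact h1.trans (Nat.le_of_dvd hn h2)

theorem finrank_eq : Module.finrank F E = n := by
  haveI : NeZero (resCard q F ^ n - 1) := ⟨(pow_resCard_sub_one_pos q F hn).ne'⟩
  haveI : IsGalois F E := IsCyclotomicExtension.isGalois {resCard q F ^ n - 1} F E
  apply le_antisymm
  · rw [← IsGalois.card_aut_eq_finrank]
    exact card_aut_le q F E hn hζ
  · have h1 := le_natDegree_minpoly q F E hn hζ
    rw [← hζ.powerBasis_dim F, ← PowerBasis.finrank] at h1
    exact h1

/-- `F(ζ)/F` is unramified. -/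
theorem isUnram : IsUnram q F E := by
  haveI : NeZero (resCard q F ^ n - 1) := ⟨(pow_resCard_sub_one_pos q F hn).ne'⟩
  intro y
  by_cases hy : y = 0
  · exact ⟨0, by rw [hy, nrm_zero, nrm_zero]⟩
  obtain ⟨p, hpdeg, hp⟩ := (hζ.powerBasis F).exists_eq_aeval y
  rw [hζ.powerBasis_gen F] at hp
  have hdim : (hζ.powerBasis F).dim = n := by
    rw [← PowerBasis.finrank]
    exact finrank_eq q F E hn hζ
  rw [hdim] at hpdeg
  have hp0 : p ≠ 0 := by
    rintro rfl
    rw [map_zero] at hp
    exact hy hp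
  obtain ⟨a, -, ha⟩ := exists_nrm_aeval_eq q F E hn hζ p hp0 hpdeg
  exact ⟨a, by rw [hp, ha]⟩

end cyclo

end Fermat.Agent.S55.CFT.LOC.H25
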