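/-
S55/E4 island LOC (helper25), package LOC-2c, part 2: residue classes of `E(ζ)` are
represented in the ring generated by `ζ`, for `ζ` of order `#k_E ^ n - 1`.
-/
import Fermat.Agent.S55.CFT.LOC.H25_Unram
import Fermat.Agent.S55.CFT.LOC.H25_UCSpan

set_option autoImplicit false
set_option linter.unusedSectionVars false
set_option linter.style.haveILetI false

namespace Fermat.Agent.S55.CFT.LOC.H25

open Fermat.Agent.S55.CFT.LOC Polynomial

section gen

variable (q : ℕ) [Fact q.Prime] (F : Type) [Field F] [Algebra ℚ_[q] F]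
  [FiniteDimensional ℚ_[q] F]

/-- The reduction of a primitive root of unity of order prime to `q` is primitive. -/
theorem isPrimitiveRoot_res_gen {m : ℕ} (hm : ¬ q ∣ m) (η : vring q F)
    (hη : IsPrimitiveRoot (η : F) m) : IsPrimitiveRoot (res q F η) m := by
  have hηm : η ^ m = 1 := by
    apply Subtype.ext
    change (η : F) ^ m = 1
    exact hη.pow_eq_one
  rw [IsPrimitiveRoot.iff_def]
  constructor
  · rw [← map_pow, hηm, map_one]
  · intro l hl
    have h1 : η ^ l = 1 := by
      refine eq_of_res_eq q F hm _ _ ?_ (one_pow _) ?_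
      · rw [← pow_mul, mul_comm, pow_mul, hηm, one_pow]
      · rw [map_pow, hl, map_one]
    have h2 : (η : F) ^ l = 1 := congrArg Subtype.val h1
    exact hη.dvd_of_pow_eq_one l h2

end gen

section tower

variable (q : ℕ) [Fact q.Prime] (E L : Type) [Field E] [Field L] [Algebra ℚ_[q] E]
  [FiniteDimensional ℚ_[q] E] [Algebra ℚ_[q] L] [FiniteDimensional ℚ_[q] L] [Algebra E L]
  [IsScalarTower ℚ_[q] E L]

/-- A unit of `E` is congruent to a power of a primitive root of unity of order `#k_E - 1`. -/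
theorem exists_pow_congr {ξ : L} (hξ : IsPrimitiveRoot ξ (resCard q E - 1)) (c : E)
    (hc : nrm q E c = 1) : ∃ i : ℕ, nrm q L (algebraMap E L c - ξ ^ i) < 1 := by
  have hN := two_le_resCard q E
  haveI : NeZero (resCard q E - 1) := ⟨by omega⟩
  have hndvd : ¬ q ∣ resCard q E - 1 := by
    have := not_dvd_pow_resCard_sub_one q E (n := 1) one_pos
    rwa [pow_one] at this
  have hξ1 : nrm q L ξ = 1 := nrm_of_pow_eq_one q L (NeZero.ne _) hξ.pow_eq_one
  let ξO : vring q L := ⟨ξ, hξ1.le⟩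
  have hξO : IsPrimitiveRoot (res q L ξO) (resCard q E - 1) :=
    isPrimitiveRoot_res_gen q L hndvd ξO hξ
  let cO : vring q E := ⟨c, hc.le⟩
  have hc0 : res q E cO ≠ 0 := by
    intro h
    rw [res_eq_zero_iff] at h
    change nrm q E c < 1 at h
    rw [hc] at h
    exact lt_irrefl _ h
  have hc1 : res q E cO ^ (resCard q E - 1) = 1 :=
    FiniteField.pow_card_sub_one_eq_one _ hc0
  have hc2 : (resMap q E L (res q E cO)) ^ (resCard q E - 1) = 1 := by
    rw [← map_pow, hc1, map_one]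
  obtain ⟨i, -, hi⟩ := hξO.eq_pow_of_pow_eq_one hc2
  refine ⟨i, ?_⟩
  rw [resMap_res, ← map_pow, eq_comm, res_eq_iff] at hi
  exact hi

end tower

section main

variable (q : ℕ) [Fact q.Prime] (E L : Type) [Field E] [Field L] [Algebra ℚ_[q] E]
  [FiniteDimensional ℚ_[q] E] [Algebra ℚ_[q] L] [FiniteDimensional ℚ_[q] L] [Algebra E L]
  [IsScalarTower ℚ_[q] E L] [FiniteDimensional E L]

variable {n : ℕ} (hn : 0 < n) {ζ : L} (hζ : IsPrimitiveRoot ζ (resCard q E ^ n - 1))
  [IsCyclotomicExtension {resCard q E ^ n - 1} E L]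

include hn hζ

/-- Every residue class of `E(ζ)` is represented in any subring containing `ζ`. -/
theorem exists_mem_subring_congr (S : Subring L) (hS : ζ ∈ S) (y : L) (hy : nrm q L y ≤ 1) :
    ∃ y' ∈ S, nrm q L (y - y') < 1 := by
  classical
  haveI : NeZero (resCard q E ^ n - 1) := ⟨(pow_resCard_sub_one_pos q E hn).ne'⟩
  by_cases hy0 : y = 0
  · exact ⟨0, S.zero_mem, by rw [hy0, sub_zero, nrm_zero]; exact zero_lt_one⟩
  -- the root of unity of order `N - 1`
  have hN := two_le_resCard q E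
  obtain ⟨t, ht⟩ : resCard q E - 1 ∣ resCard q E ^ n - 1 := by
    simpa only [one_pow] using Nat.sub_dvd_pow_sub_pow (resCard q E) 1 n
  have hξ : IsPrimitiveRoot (ζ ^ t) (resCard q E - 1) :=
    hζ.pow (pow_resCard_sub_one_pos q E hn) (by rw [ht, mul_comm])
  have hζ1 : nrm q L ζ = 1 := nrm_zeta q E L hn hζ
  -- write `y` in the power basis
  obtain ⟨p, hpdeg, hp⟩ := (hζ.powerBasis E).exists_eq_aeval y
  rw [hζ.powerBasis_gen E] at hp
  have hdim : (hζ.powerBasis E).dim = n := by
    rw [← PowerBasis.finrank]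
    exact finrank_eq q E L hn hζ
  rw [hdim] at hpdeg
  have hp0 : p ≠ 0 := by
    rintro rfl
    rw [map_zero] at hp
    exact hy0 hp
  obtain ⟨i0, -, hmax, hnrm⟩ := exists_coeff_nrm_aeval_eq q E L hn hζ p hp0 hpdeg
  have hcoef : ∀ i, nrm q E (p.coeff i) ≤ 1 := fun i =>
    (hmax i).trans (by rw [← hnrm, ← hp]; exact hy)
  -- approximate the coefficients
  have happ : ∀ i, ∃ c' ∈ S, nrm q L (algebraMap E L (p.coeff i) - c') < 1 := by
    intro i
    by_cases h1 : nrm q E (p.coeff i) = 1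
    · obtain ⟨k, hk⟩ := exists_pow_congr q E L hξ (p.coeff i) h1
      exact ⟨(ζ ^ t) ^ k, S.pow_mem (S.pow_mem hS t) k, hk⟩
    · refine ⟨0, S.zero_mem, ?_⟩
      rw [sub_zero, nrm_algebraMap]
      exact lt_of_le_of_ne (hcoef i) h1
  choose c' hc'S hc' using happ
  refine ⟨∑ i ∈ Finset.range n, c' i * ζ ^ i, ?_, ?_⟩
  · exact S.sum_mem (fun i _ => S.mul_mem (hc'S i) (S.pow_mem hS i))
  · rw [hp, Polynomial.aeval_eq_sum_range' hpdeg, ← Finset.sum_sub_distrib]
    apply nrm_sum_lt q L _ _ zero_lt_one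
    intro i _
    rw [Algebra.smul_def, ← sub_mul, nrm_mul, nrm_pow, hζ1, one_pow, mul_one]
    exact hc' i

end main

end Fermat.Agent.S55.CFT.LOC.H25
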