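/-
S55/E4 island LOC (helper25), package LOC-2c: `Stmt_UnramCompositum`.
Construction: `N_F = q^f₀`, `N_E = q^a`, `n = [E:F]`, `M = N_F^(n·a) − 1 = N_E^(n·f₀) − 1`,
`ζ` a primitive `M`-th root of unity in the algebraic closure of `E`, `L = E(ζ)`, `E' = F(ζ)`,
`k = a`.
-/
import Fermat.Agent.S55.CFT.LOC.H25_UCRes
import Fermat.Agent.S55.CFT.LOC.H25_UCNorm
import Fermat.Agent.S55.CFT.LOC.Defs_FC

set_option autoImplicit false
set_option linter.unusedSectionVars false
set_option linter.style.haveILetI false

namespace Fermat.Agent.S55.CFT.LOC.H25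

open Fermat.Agent.S55.CFT.LOC

section galois

variable (F E : Type) [Field F] [Field E] [Algebra F E] [IsGalois F E] [CharZero F]

/-- `E(ζ)/F` is Galois for `E/F` Galois and `ζ` a root of unity. -/
theorem isGalois_adjoin_root {M : ℕ} [NeZero M] {ζ : AlgebraicClosure E}
    (hζ : IsPrimitiveRoot ζ M) :
    IsGalois F (IntermediateField.adjoin E {ζ}) := by
  classical
  let Ω := AlgebraicClosure E
  let φ : E →ₐ[F] Ω := IsScalarTower.toAlgHom F E Ω
  let E₁ : IntermediateField F Ω := φ.fieldRange
  let i : E ≃ₐ[F] E₁ := AlgEquiv.ofInjectiveField φ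
  haveI : Algebra.IsAlgebraic F Ω := Algebra.IsAlgebraic.trans F E Ω
  haveI : Algebra.IsIntegral F Ω := Algebra.IsAlgebraic.isIntegral
  have h1 : (IntermediateField.adjoin E {ζ}).restrictScalars F =
      E₁ ⊔ IntermediateField.adjoin F {ζ} := by
    rw [IntermediateField.restrictScalars_adjoin_of_algEquiv (F := F) (E := Ω) i (by rfl) {ζ},
      IntermediateField.restrictScalars_adjoin_eq_sup]
  haveI hn1 : Normal F E₁ := Normal.of_algEquiv i
  haveI hc : IsCyclotomicExtension {M} F (IntermediateField.adjoin F {ζ}) :=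
    hζ.intermediateField_adjoin_isCyclotomicExtension F
  haveI hn2 : Normal F (IntermediateField.adjoin F {ζ}) :=
    (IsCyclotomicExtension.isGalois {M} F (IntermediateField.adjoin F {ζ})).to_normal
  have hn3 : Normal F ((IntermediateField.adjoin E {ζ}).restrictScalars F) := by
    rw [h1]
    infer_instance
  have hn4 : Normal F (IntermediateField.adjoin E {ζ}) := hn3
  exact ⟨⟩

omit [IsGalois F E] [CharZero F] in
/-- `E(ζ) = E·F(ζ)`. -/
theorem sup_fieldRange_eq_top {ζ : AlgebraicClosure E} :
    IntermediateField.adjoin F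
        {(⟨ζ, IntermediateField.mem_adjoin_simple_self E ζ⟩ : IntermediateField.adjoin E {ζ})} ⊔
      (IsScalarTower.toAlgHom F E (IntermediateField.adjoin E {ζ})).fieldRange = ⊤ := by
  rw [eq_top_iff]
  rintro ⟨x, hx⟩ -
  set T := IntermediateField.adjoin F
        {(⟨ζ, IntermediateField.mem_adjoin_simple_self E ζ⟩ : IntermediateField.adjoin E {ζ})} ⊔
      (IsScalarTower.toAlgHom F E (IntermediateField.adjoin E {ζ})).fieldRange with hT
  induction hx using IntermediateField.adjoin_induction with
  | mem y hy =>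
    rw [Set.mem_singleton_iff] at hy
    subst hy
    exact (le_sup_left : _ ≤ T) (IntermediateField.mem_adjoin_simple_self F _)
  | algebraMap y =>
    refine (le_sup_right : _ ≤ T) ?_
    exact ⟨y, rfl⟩
  | add y z hy hz ihy ihz => exact T.add_mem ihy ihz
  | inv y hy ihy => exact T.inv_mem ihy
  | mul y z hy hz ihy ihz => exact T.mul_mem ihy ihz

end galois

/-- **LOC-2c**: the unramified compositum. -/
theorem stmt_UnramCompositum : Stmt_UnramCompositum := by
  intro q _ F E _ _ _ _ _ _ _ _ _
  classical
  haveI : CharZero F := charZero_of_injective_algebraMap (algebraMap ℚ_[q] F).injective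
  haveI : FiniteDimensional ℚ_[q] E := Module.Finite.trans F E
  haveI : CharZero E := charZero_of_injective_algebraMap (algebraMap F E).injective
  haveI : CharZero (AlgebraicClosure E) :=
    charZero_of_injective_algebraMap (algebraMap E (AlgebraicClosure E)).injective
  have hnpos : 0 < Module.finrank F E := Module.finrank_pos
  obtain ⟨f0, -, hf0⟩ := FiniteField.card (resF q F) q
  obtain ⟨a, -, ha⟩ := FiniteField.card (resF q E) q
  have hNF : resCard q F = q ^ (f0 : ℕ) := hf0
  have hNE : resCard q E = q ^ (a : ℕ) := ha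
  have hM : resCard q F ^ (Module.finrank F E * a) = resCard q E ^ (Module.finrank F E * f0) := by
    rw [hNF, hNE, ← pow_mul, ← pow_mul]
    congr 1
    ring
  have hna : 0 < Module.finrank F E * (a : ℕ) := Nat.mul_pos hnpos a.pos
  have hnf : 0 < Module.finrank F E * (f0 : ℕ) := Nat.mul_pos hnpos f0.pos
  haveI : NeZero (resCard q F ^ (Module.finrank F E * a) - 1) :=
    ⟨(pow_resCard_sub_one_pos q F hna).ne'⟩
  haveI : NeZero (resCard q E ^ (Module.finrank F E * f0) - 1) :=
    ⟨(pow_resCard_sub_one_pos q E hnf).ne'⟩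
  haveI : NeZero ((resCard q F ^ (Module.finrank F E * a) - 1 : ℕ) : AlgebraicClosure E) :=
    NeZero.charZero
  obtain ⟨ζ, hζ⟩ := HasEnoughRootsOfUnity.exists_primitiveRoot (AlgebraicClosure E)
    (resCard q F ^ (Module.finrank F E * a) - 1)
  let L : IntermediateField E (AlgebraicClosure E) := IntermediateField.adjoin E {ζ}
  let ζL : L := ⟨ζ, IntermediateField.mem_adjoin_simple_self E ζ⟩
  have hζL : IsPrimitiveRoot ζL (resCard q F ^ (Module.finrank F E * a) - 1) := by
    have h1 : IsPrimitiveRoot (algebraMap L (AlgebraicClosure E) ζL)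
        (resCard q F ^ (Module.finrank F E * a) - 1) := hζ
    exact IsPrimitiveRoot.of_map_of_injective (f := algebraMap L (AlgebraicClosure E)) h1
      (algebraMap L (AlgebraicClosure E)).injective
  have hζL' : IsPrimitiveRoot ζL (resCard q E ^ (Module.finrank F E * f0) - 1) := by
    rw [← hM]
    exact hζL
  haveI hcycL : IsCyclotomicExtension {resCard q E ^ (Module.finrank F E * f0) - 1} E L := by
    have := hζ.intermediateField_adjoin_isCyclotomicExtension E
    rw [hM] at this
    exact this
  haveI : FiniteDimensional E L :=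
    IsCyclotomicExtension.finiteDimensional {resCard q E ^ (Module.finrank F E * f0) - 1} E L
  haveI : FiniteDimensional F L := Module.Finite.trans E L
  haveI hST : IsScalarTower ℚ_[q] F L := IsScalarTower.of_algebraMap_eq (fun r => by
    rw [IsScalarTower.algebraMap_apply ℚ_[q] E L, IsScalarTower.algebraMap_apply ℚ_[q] F E,
      ← IsScalarTower.algebraMap_apply F E L])
  haveI : FiniteDimensional ℚ_[q] L := Module.Finite.trans F L
  haveI hGalFL : IsGalois F L := isGalois_adjoin_root F E hζ
  haveI hGalEL : IsGalois E L :=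
    IsCyclotomicExtension.isGalois {resCard q E ^ (Module.finrank F E * f0) - 1} E L
  let E' : IntermediateField F L := IntermediateField.adjoin F {ζL}
  haveI hcycE' : IsCyclotomicExtension {resCard q F ^ (Module.finrank F E * a) - 1} F E' :=
    hζL.intermediateField_adjoin_isCyclotomicExtension F
  haveI : FiniteDimensional ℚ_[q] E' := Module.Finite.trans F E'
  let ζE' : E' := ⟨ζL, IntermediateField.mem_adjoin_simple_self F ζL⟩
  have hζE' : IsPrimitiveRoot ζE' (resCard q F ^ (Module.finrank F E * a) - 1) := by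
    have h1 : IsPrimitiveRoot (algebraMap E' L ζE')
        (resCard q F ^ (Module.finrank F E * a) - 1) := hζL
    exact IsPrimitiveRoot.of_map_of_injective (f := algebraMap E' L) h1
      (algebraMap E' L).injective
  have hGalE' : IsGalois F E' :=
    IsCyclotomicExtension.isGalois {resCard q F ^ (Module.finrank F E * a) - 1} F E'
  have hcE' : IsCyclic (E' ≃ₐ[F] E') := isCyclic_aut q F E' hna hζE'
  have hdE' : Module.finrank F E' = Module.finrank F E * a := finrank_eq q F E' hna hζE'
  have huE' : IsUnram q F E' := isUnram q F E' hna hζE'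
  have hcL : IsCyclic (L ≃ₐ[E] L) := isCyclic_aut q E L hnf hζL'
  have hdL : Module.finrank E L = Module.finrank F E * f0 := finrank_eq q E L hnf hζL'
  have huL : IsUnram q E L := isUnram q E L hnf hζL'
  have hres : ∀ y : L, nrm q L y ≤ 1 → ∃ x : E', nrm q L (y - algebraMap E' L x) < 1 := by
    intro y hy
    obtain ⟨y', hy'S, hy'⟩ := exists_mem_subring_congr q E L hnf hζL' E'.toSubring
      (IntermediateField.mem_adjoin_simple_self F ζL) y hy
    exact ⟨⟨y', hy'S⟩, hy'⟩
  refine ⟨L, inferInstance, inferInstance, inferInstance, inferInstance, hST, inferInstance,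
    inferInstance, hGalFL, E', a, a.pos, hGalE', hcE', hdE', huE', sup_fieldRange_eq_top F E,
    hcL, ?_⟩
  intro x hx
  exact exists_norm_eq_pow q F E L E' a f0 huE' huL hres hdE' hdL hcL x hx

end Fermat.Agent.S55.CFT.LOC.H25
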