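/-
S55/E4 island LOC, package LOC-4d (helper68): the cyclic 2-cocycles.  For a finite cyclic group
`C` with generator `φ` of order `n`, the lift `cycLift : C → {0, …, n-1}`, the carry
`cycCarry σ τ = (ℓ σ + ℓ τ) / n`, and for an invariant `a` the 2-cocycle
`cycCocycle a (σ, τ) = cycCarry σ τ • a`:
* `isCocycle₂_cycCocycle`;
* `isCoboundary₂_cycCocycle_of_norm`, `exists_norm_of_isCoboundary₂`: it is a coboundary iff
  `a` is a norm;
* `cycCarry_comp`: compatibility with homomorphisms of cyclic groups `ψ ↦ φ ^ (n / m)`.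
-/
import Mathlib

set_option autoImplicit false
set_option linter.unusedSectionVars false

namespace Fermat.Agent.S55.CFT.LOC.H68

open groupCohomology

section cyclic

variable {C M : Type} [Group C] [Finite C] [AddCommGroup M] [DistribMulAction C M]

theorem exists_lt_pow_eq (φ : C) (hφ : ∀ σ : C, σ ∈ Subgroup.zpowers φ) (σ : C) :
    ∃ i, i < orderOf φ ∧ φ ^ i = σ := by
  classical
  have h1 : σ ∈ Submonoid.powers φ := mem_powers_iff_mem_zpowers.mpr (hφ σ)
  rw [mem_powers_iff_mem_range_orderOf] at h1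
  obtain ⟨i, hi, hiσ⟩ := Finset.mem_image.mp h1
  exact ⟨i, Finset.mem_range.mp hi, hiσ⟩

/-- the lift `ℓ : C → {0, …, n-1}` of a finite cyclic group with generator `φ` -/
noncomputable def cycLift (φ : C) (hφ : ∀ σ : C, σ ∈ Subgroup.zpowers φ) (σ : C) : ℕ :=
  (exists_lt_pow_eq φ hφ σ).choose

variable (φ : C) (hφ : ∀ σ : C, σ ∈ Subgroup.zpowers φ)

theorem cycLift_lt (σ : C) : cycLift φ hφ σ < orderOf φ :=
  (exists_lt_pow_eq φ hφ σ).choose_spec.1

theorem pow_cycLift (σ : C) : φ ^ cycLift φ hφ σ = σ :=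
  (exists_lt_pow_eq φ hφ σ).choose_spec.2

theorem cycLift_eq_of {σ : C} {i : ℕ} (hi : i < orderOf φ) (h : φ ^ i = σ) :
    cycLift φ hφ σ = i :=
  pow_injOn_Iio_orderOf (x := φ) (cycLift_lt φ hφ σ) hi ((pow_cycLift φ hφ σ).trans h.symm)

theorem cycLift_pow {i : ℕ} (hi : i < orderOf φ) : cycLift φ hφ (φ ^ i) = i :=
  cycLift_eq_of φ hφ hi rfl

theorem orderOf_pos_gen : 0 < orderOf φ := orderOf_pos φ

theorem cycLift_mul (σ τ : C) :
    cycLift φ hφ (σ * τ) = (cycLift φ hφ σ + cycLift φ hφ τ) % orderOf φ := by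
  apply cycLift_eq_of φ hφ (Nat.mod_lt _ (orderOf_pos φ))
  rw [pow_mod_orderOf, pow_add, pow_cycLift, pow_cycLift]

theorem cycLift_one : cycLift φ hφ 1 = 0 :=
  cycLift_eq_of φ hφ (orderOf_pos φ) (pow_zero φ)

/-- the carry -/
noncomputable def cycCarry (σ τ : C) : ℕ := (cycLift φ hφ σ + cycLift φ hφ τ) / orderOf φ

/-- the cyclic 2-cocycle attached to an invariant element `a` -/
noncomputable def cycCocycle (a : M) : C × C → M := fun p => cycCarry φ hφ p.1 p.2 • a

theorem cycCarry_cocycle (σ τ ρ : C) :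
    cycCarry φ hφ (σ * τ) ρ + cycCarry φ hφ σ τ =
      cycCarry φ hφ τ ρ + cycCarry φ hφ σ (τ * ρ) := by
  unfold cycCarry
  rw [cycLift_mul, cycLift_mul]
  set n := orderOf φ with hn
  have hnpos : 0 < n := orderOf_pos φ
  set x := cycLift φ hφ σ
  set y := cycLift φ hφ τ
  set z := cycLift φ hφ ρ
  have h1 : ((x + y) % n + z) / n + (x + y) / n = (x + y + z) / n := by
    conv_rhs => rw [← Nat.div_add_mod (x + y) n]
    rw [add_assoc, Nat.mul_add_div hnpos]
    ring
  have h2 : (y + z) / n + (x + (y + z) % n) / n = (x + y + z) / n := by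
    have e : x + y + z = n * ((y + z) / n) + (x + (y + z) % n) := by
      have := Nat.div_add_mod (y + z) n
      omega
    rw [e, Nat.mul_add_div hnpos]
  rw [h1, h2]

theorem isCocycle₂_cycCocycle (a : M) (ha : ∀ σ : C, σ • a = a) :
    IsCocycle₂ (cycCocycle φ hφ a) := by
  intro σ τ ρ
  simp only [cycCocycle]
  rw [smul_comm σ, ha σ, ← add_smul, ← add_smul, cycCarry_cocycle]

/-- partial sums of the orbit -/
noncomputable def cycPart (y : M) (m : ℕ) : M := ∑ j ∈ Finset.range m, φ ^ j • y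

theorem cycPart_add (y : M) (m k : ℕ) :
    cycPart φ y (m + k) = cycPart φ y m + φ ^ m • cycPart φ y k := by
  unfold cycPart
  rw [Finset.sum_range_add, Finset.smul_sum]
  congr 1
  refine Finset.sum_congr rfl (fun j _ => ?_)
  rw [← mul_smul, pow_add]

include hφ in
theorem smul_cycPart_orderOf (y : M) (σ : C) :
    σ • cycPart φ y (orderOf φ) = cycPart φ y (orderOf φ) := by
  -- it suffices to treat σ = φ
  have hφfix : φ • cycPart φ y (orderOf φ) = cycPart φ y (orderOf φ) := by
    have h1 := cycPart_add φ y 1 (orderOf φ)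
    have h2 := cycPart_add φ y (orderOf φ) 1
    rw [add_comm 1 (orderOf φ)] at h1
    rw [h1] at h2
    simp only [cycPart, Finset.sum_range_one, pow_zero, one_smul, pow_one, pow_orderOf_eq_one]
      at h2
    simp only [cycPart]
    linear_combination (norm := abel) h2
  obtain ⟨i, -, rfl⟩ := exists_lt_pow_eq φ hφ σ
  induction i with
  | zero => simp
  | succ i ih => rw [pow_succ, mul_smul, hφfix, ih]

theorem cycPart_eq (y : M) (m : ℕ) :
    cycPart φ y m = cycPart φ y (m % orderOf φ) + (m / orderOf φ) • cycPart φ y (orderOf φ) := by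
  set n := orderOf φ with hn
  induction' h : m / n with k ih generalizing m
  · have hlt : m < n := by
      rcases Nat.div_eq_zero_iff.mp h with h0 | h0
      · exact absurd h0 (orderOf_pos φ).ne'
      · exact h0
    rw [Nat.mod_eq_of_lt hlt, zero_smul, add_zero]
  · have hge : n ≤ m := by
      by_contra hlt
      rw [Nat.div_eq_of_lt (not_le.mp hlt)] at h
      exact absurd h (by omega)
    have hm : m = n + (m - n) := by omega
    have hdiv : (m - n) / n = k := by
      have h3 : (n + (m - n)) / n = (m - n) / n + 1 := Nat.add_div_left (m - n) (orderOf_pos φ)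
      rw [← hm, h] at h3
      omega
    have hmod : (m - n) % n = m % n := by
      conv_rhs => rw [hm, Nat.add_mod_left]
    have ih' := ih (m - n) hdiv
    rw [hm, cycPart_add, pow_orderOf_eq_one, one_smul, ih', ← hm, hmod, succ_nsmul]
    abel

/-- if `a` is a norm, the cyclic cocycle is a coboundary -/
theorem isCoboundary₂_cycCocycle_of_norm (y : M) :
    IsCoboundary₂ (cycCocycle φ hφ (cycPart φ y (orderOf φ))) := by
  refine ⟨fun σ => cycPart φ y (cycLift φ hφ σ), fun σ τ => ?_⟩
  simp only [cycCocycle, cycCarry]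
  have h1 := cycPart_add φ y (cycLift φ hφ σ) (cycLift φ hφ τ)
  rw [pow_cycLift] at h1
  have h2 := cycPart_eq φ y (cycLift φ hφ σ + cycLift φ hφ τ)
  rw [← cycLift_mul] at h2
  rw [h1] at h2
  linear_combination (norm := abel) h2

end cyclic


section cyclic2

variable {C M : Type} [Group C] [Fintype C] [AddCommGroup M] [DistribMulAction C M]
  (φ : C) (hφ : ∀ σ : C, σ ∈ Subgroup.zpowers φ)

include hφ in
theorem sum_univ_eq_sum_range_gen {X : Type} [AddCommMonoid X] (f : C → X) :
    ∑ σ : C, f σ = ∑ j ∈ Finset.range (orderOf φ), f (φ ^ j) := by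
  symm
  refine Finset.sum_bij (fun j _ => φ ^ j) (fun _ _ => Finset.mem_univ _) ?_ ?_ (fun _ _ => rfl)
  · intro i hi j hj h
    exact pow_injOn_Iio_orderOf (x := φ) (Finset.mem_range.mp hi) (Finset.mem_range.mp hj) h
  · intro τ _
    obtain ⟨i, hi, hiτ⟩ := exists_lt_pow_eq φ hφ τ
    exact ⟨i, Finset.mem_range.mpr hi, hiτ⟩

include hφ in
theorem cycPart_orderOf_eq_sum (y : M) : cycPart φ y (orderOf φ) = ∑ σ : C, σ • y := by
  rw [sum_univ_eq_sum_range_gen φ hφ (fun σ => σ • y)]
  rfl

/-- if the cyclic cocycle of an invariant `a` is a coboundary then `a` is a norm -/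
theorem exists_norm_of_isCoboundary₂ (a : M)
    (h : IsCoboundary₂ (cycCocycle φ hφ a)) : ∃ y : M, ∑ σ : C, σ • y = a := by
  classical
  obtain ⟨b, hb⟩ := h
  set n := orderOf φ with hn
  have hnpos : 0 < n := orderOf_pos φ
  rcases Nat.lt_or_ge 1 n with h1 | h1
  · -- n ≥ 2
    refine ⟨b φ, ?_⟩
    rw [sum_univ_eq_sum_range_gen φ hφ (fun σ => σ • b φ)]
    have hlφ : cycLift φ hφ φ = 1 := cycLift_eq_of φ hφ h1 (pow_one φ)
    have key : ∀ i, i < n → φ ^ i • b φ - b (φ ^ (i + 1)) + b (φ ^ i) =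
        (if i + 1 = n then a else 0) := by
      intro i hi
      have := hb (φ ^ i) φ
      rw [← pow_succ] at this
      rw [this]
      simp only [cycCocycle, cycCarry, cycLift_pow φ hφ hi, hlφ]
      split_ifs with hin
      · rw [hin, Nat.div_self hnpos, one_smul]
      · have : (i + 1) / n = 0 := Nat.div_eq_of_lt (by omega)
        rw [this, zero_smul]
    obtain ⟨m, hm⟩ : ∃ m, n = m + 1 := ⟨n - 1, by omega⟩
    have hsum : ∑ i ∈ Finset.range n, (φ ^ i • b φ - b (φ ^ (i + 1)) + b (φ ^ i)) = a := by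
      rw [Finset.sum_congr rfl (fun i hi => key i (Finset.mem_range.mp hi))]
      rw [hm, Finset.sum_range_succ, if_pos rfl]
      have : ∑ x ∈ Finset.range m, (if x + 1 = m + 1 then a else 0) = 0 := by
        apply Finset.sum_eq_zero
        intro i hi
        have := Finset.mem_range.mp hi
        rw [if_neg (by omega)]
      rw [this, zero_add]
    have htel : ∑ i ∈ Finset.range n, b (φ ^ (i + 1)) = ∑ i ∈ Finset.range n, b (φ ^ i) := by
      rw [hm, Finset.sum_range_succ, Finset.sum_range_succ' (fun i => b (φ ^ i)), ← hm, hn,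
        pow_orderOf_eq_one, pow_zero]
    rw [Finset.sum_add_distrib, Finset.sum_sub_distrib, htel] at hsum
    linear_combination (norm := abel) hsum
  · -- n = 1
    have hn1 : n = 1 := by omega
    refine ⟨a, ?_⟩
    rw [sum_univ_eq_sum_range_gen φ hφ (fun σ => σ • a), ← hn, hn1]
    simp

end cyclic2


section cyclic3

variable {C M : Type} [Group C] [Finite C] [AddCommGroup M] [DistribMulAction C M]
  (φ : C) (hφ : ∀ σ : C, σ ∈ Subgroup.zpowers φ)

theorem cycCocycle_add (a b : M) :
    cycCocycle φ hφ (a + b) = cycCocycle φ hφ a + cycCocycle φ hφ b := by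
  funext p
  simp [cycCocycle, smul_add]

theorem cycCocycle_zsmul (k : ℤ) (a : M) :
    cycCocycle φ hφ (k • a) = k • cycCocycle φ hφ a := by
  funext p
  simp only [cycCocycle, Pi.smul_apply]
  rw [smul_comm]

/-- compatibility of the cyclic cocycles with a homomorphism `ρ : D → C` of cyclic groups
sending the generator `ψ` to `φ ^ (n / m)` (`n, m` the orders of `φ, ψ`). -/
theorem cycCarry_comp {D : Type} [Group D] [Finite D] (ψ : D)
    (hψ : ∀ σ : D, σ ∈ Subgroup.zpowers ψ) (ρ : D →* C)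
    (hdvd : orderOf ψ ∣ orderOf φ) (hρ : ρ ψ = φ ^ (orderOf φ / orderOf ψ)) (σ τ : D) :
    cycCarry φ hφ (ρ σ) (ρ τ) = cycCarry ψ hψ σ τ := by
  set n := orderOf φ with hn
  set m := orderOf ψ with hm
  have hmpos : 0 < m := orderOf_pos ψ
  have hnpos : 0 < n := orderOf_pos φ
  obtain ⟨t, ht⟩ := hdvd
  have htpos : 0 < t := by
    rcases Nat.eq_zero_or_pos t with h0 | h0
    · rw [h0, mul_zero] at ht; omega
    · exact h0
  have hdiv : n / m = t := by rw [ht, Nat.mul_div_cancel_left _ hmpos]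
  have hlift : ∀ σ : D, cycLift φ hφ (ρ σ) = t * cycLift ψ hψ σ := by
    intro σ
    apply cycLift_eq_of φ hφ
    · have := cycLift_lt ψ hψ σ
      rw [← hn, ht, mul_comm m t]
      exact Nat.mul_lt_mul_of_pos_left this htpos
    · rw [pow_mul, ← hdiv, ← hρ, ← map_pow, pow_cycLift]
  unfold cycCarry
  rw [hlift, hlift, ← hn, ← hm, ← mul_add, ht, mul_comm m t, Nat.mul_div_mul_left _ _ htpos]

end cyclic3

end Fermat.Agent.S55.CFT.LOC.H68
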