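/-
S55/E4 island LOC, package LOC-4f step 1 (helper68): the Galois inflation datum.
For a tower `F ⊆ K ⊆ L`, `L/F` finite Galois, `K/F` normal:
`InfData (restrictNormalHom K : Gal(L/F) → Gal(K/F)) (Kˣ → Lˣ)` (additive notation on
`Additive Kˣ`, `Additive Lˣ` with the action `addDMA`).
-/
import Fermat.Agent.S55.CFT.LOC.Defs_FC
import Fermat.Agent.S55.CFT.LOC.H68_CycCocycle

set_option autoImplicit false
set_option linter.unusedSectionVars false
set_option linter.style.haveILetI false

namespace Fermat.Agent.S55.CFT.LOC.H68

open Fermat.Agent.S55.CFT.LOC Fermat.Agent.S55.CFT groupCohomology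

/-- The additive form of a `MulDistribMulAction` (definitionally the action of
`Rep.ofMulDistribMulAction`). -/
@[reducible] def addDMA (G M : Type) [Monoid G] [CommGroup M] [MulDistribMulAction G M] :
    DistribMulAction G (Additive M) where
  smul g a := Additive.ofMul (g • Additive.toMul a)
  one_smul a := by
    show Additive.ofMul ((1 : G) • Additive.toMul a) = a
    rw [one_smul]; rfl
  mul_smul g h a := by
    show Additive.ofMul ((g * h) • Additive.toMul a) =
      Additive.ofMul (g • Additive.toMul (Additive.ofMul (h • Additive.toMul a)))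
    rw [mul_smul]; rfl
  smul_zero g := by
    show Additive.ofMul (g • (1 : M)) = 0
    rw [smul_one]; rfl
  smul_add g a b := by
    show Additive.ofMul (g • (Additive.toMul a * Additive.toMul b)) = _
    rw [smul_mul']; rfl

attribute [local instance] addDMA

theorem addDMA_smul_def {G M : Type} [Monoid G] [CommGroup M] [MulDistribMulAction G M]
    (g : G) (a : Additive M) : g • a = Additive.ofMul (g • Additive.toMul a) := rfl

theorem unitsRep_ρ_eq_smul (F L : Type) [Field F] [Field L] [Algebra F L] (σ : L ≃ₐ[F] L)
    (u : Additive Lˣ) : (unitsRep F L).ρ σ u = σ • u := rfl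

section tower

variable (F K L : Type) [Field F] [Field K] [Field L] [Algebra F K] [Algebra F L] [Algebra K L]
  [IsScalarTower F K L]

/-- the inclusion `Kˣ → Lˣ`, additively -/
noncomputable def unitsIncl : Additive Kˣ →+ Additive Lˣ :=
  MonoidHom.toAdditive (Units.map (algebraMap K L : K →* L))

theorem unitsIncl_coe (u : Additive Kˣ) :
    ((Additive.toMul (unitsIncl K L u) : Lˣ) : L) = algebraMap K L ((Additive.toMul u : Kˣ) : K) :=
  rfl

theorem smul_coe (σ : L ≃ₐ[F] L) (u : Additive Lˣ) :
    ((Additive.toMul (σ • u) : Lˣ) : L) = σ ((Additive.toMul u : Lˣ) : L) := rfl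

theorem additive_units_ext {M : Type} [Field M] {u v : Additive Mˣ}
    (h : ((Additive.toMul u : Mˣ) : M) = ((Additive.toMul v : Mˣ) : M)) : u = v := by
  have : (Additive.toMul u : Mˣ) = Additive.toMul v := Units.ext h
  exact Additive.toMul.injective this

theorem unitsIncl_injective : Function.Injective (unitsIncl K L) := by
  intro u v h
  apply additive_units_ext
  have := congrArg (fun w : Additive Lˣ => ((Additive.toMul w : Lˣ) : L)) h
  simp only [unitsIncl_coe] at this
  exact (algebraMap K L).injective this

variable [Normal F K]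

theorem unitsIncl_equiv (g : L ≃ₐ[F] L) (b : Additive Kˣ) :
    unitsIncl K L (AlgEquiv.restrictNormalHom K g • b) = g • unitsIncl K L b := by
  apply additive_units_ext
  rw [unitsIncl_coe, smul_coe, smul_coe, unitsIncl_coe]
  exact AlgEquiv.restrictNormal_commutes g K _

/-- an element of the kernel of the restriction, as a `K`-automorphism -/
noncomputable def kerLift (n : L ≃ₐ[F] L) (hn : AlgEquiv.restrictNormalHom K n = 1) :
    L ≃ₐ[K] L :=
  AlgEquiv.ofRingEquiv (f := n.toRingEquiv) (by
    intro x
    have h := AlgEquiv.restrictNormal_commutes n K x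
    have h2 : n.restrictNormal K x = x := by
      show (AlgEquiv.restrictNormalHom K n) x = x
      rw [hn]; rfl
    rw [h2] at h
    exact h.symm)

theorem kerLift_apply (n : L ≃ₐ[F] L) (hn : AlgEquiv.restrictNormalHom K n = 1) (x : L) :
    kerLift F K L n hn x = n x := rfl

theorem restrictScalars_mem_ker (σ : L ≃ₐ[K] L) :
    AlgEquiv.restrictNormalHom K (σ.restrictScalars F) = 1 := by
  ext x
  apply (algebraMap K L).injective
  have h := AlgEquiv.restrictNormal_commutes (σ.restrictScalars F) K x
  rw [AlgEquiv.restrictNormalHom]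
  simp only [MonoidHom.mk'_apply]
  rw [h]
  simp

theorem kerLift_restrictScalars (n : L ≃ₐ[F] L) (hn : AlgEquiv.restrictNormalHom K n = 1) :
    (kerLift F K L n hn).restrictScalars F = n := by
  ext x
  rfl

theorem kerLift_mul (n n' : L ≃ₐ[F] L) (hn : AlgEquiv.restrictNormalHom K n = 1)
    (hn' : AlgEquiv.restrictNormalHom K n' = 1) :
    kerLift F K L (n * n') (by rw [map_mul, hn, hn', one_mul]) =
      kerLift F K L n hn * kerLift F K L n' hn' := by
  ext x
  rfl

theorem kerLift_smul (n : L ≃ₐ[F] L) (hn : AlgEquiv.restrictNormalHom K n = 1)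
    (u : Additive Lˣ) : kerLift F K L n hn • u = n • u := by
  apply additive_units_ext
  rfl

variable [FiniteDimensional F L] [IsGalois F L]

/-- **Galois inflation datum.** -/
theorem galois_infData :
    InfData (AlgEquiv.restrictNormalHom K : (L ≃ₐ[F] L) →* (K ≃ₐ[F] K)) (unitsIncl K L) := by
  haveI : FiniteDimensional K L := FiniteDimensional.right F K L
  haveI : IsGalois K L := IsGalois.tower_top_of_isGalois F K L
  refine ⟨AlgEquiv.restrictNormalHom_surjective L, unitsIncl_injective K L,
    unitsIncl_equiv F K L, ?_, ?_⟩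
  · -- image
    intro a ha
    have hfix : ∀ σ : L ≃ₐ[K] L, σ ((Additive.toMul a : Lˣ) : L) = ((Additive.toMul a : Lˣ) : L) := by
      intro σ
      have := ha (σ.restrictScalars F) (restrictScalars_mem_ker F K L σ)
      have h2 := congrArg (fun w : Additive Lˣ => ((Additive.toMul w : Lˣ) : L)) this
      exact h2
    have hmem : ((Additive.toMul a : Lˣ) : L) ∈ (⊥ : IntermediateField K L) := by
      rw [IsGalois.mem_bot_iff_fixed]
      exact hfix
    obtain ⟨x, hx⟩ := IntermediateField.mem_bot.1 hmem
    have hx0 : x ≠ 0 := by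
      rintro rfl
      rw [map_zero] at hx
      exact (Additive.toMul a : Lˣ).ne_zero hx.symm
    refine ⟨Additive.ofMul (Units.mk0 x hx0), ?_⟩
    apply additive_units_ext
    rw [unitsIncl_coe]
    exact hx
  · -- Hilbert 90
    intro f hf
    let f' : (L ≃ₐ[K] L) → Lˣ := fun σ => Additive.toMul (f (σ.restrictScalars F))
    have hf' : IsMulCocycle₁ f' := by
      intro g h
      have := hf (g.restrictScalars F) (h.restrictScalars F)
        (restrictScalars_mem_ker F K L g) (restrictScalars_mem_ker F K L h)
      have h2 := congrArg (fun w : Additive Lˣ => (Additive.toMul w : Lˣ)) this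
      exact h2
    obtain ⟨x, hx⟩ := isMulCoboundary₁_of_isMulCocycle₁_of_aut_to_units f' hf'
    refine ⟨Additive.ofMul x, fun n hn => ?_⟩
    have h := hx (kerLift F K L n hn)
    have h3 : f' (kerLift F K L n hn) = Additive.toMul (f n) := by
      show Additive.toMul (f ((kerLift F K L n hn).restrictScalars F)) = _
      rw [kerLift_restrictScalars]
    rw [h3] at h
    apply Additive.toMul.injective
    rw [← h]
    rfl

end tower

section inflation

variable {Γ Q A B : Type} [Group Γ] [Group Q] [AddCommGroup A] [AddCommGroup B]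
  [DistribMulAction Γ A] [DistribMulAction Q B] {π : Γ →* Q} {ι : B →+ A}

/-- the inflation of a cochain -/
def infl (π : Γ →* Q) (ι : B →+ A) (c : Q × Q → B) : Γ × Γ → A :=
  fun p => ι (c (π p.1, π p.2))

theorem isCocycle₂_infl (D : InfData π ι) {c : Q × Q → B} (hc : IsCocycle₂ c) :
    IsCocycle₂ (infl π ι c) := by
  intro g h j
  simp only [infl, map_mul]
  rw [← D.equiv, ← map_add, ← map_add, hc]

theorem infl_coboundary (D : InfData π ι) (w : Q → B) (g h : Γ) :
    ι (π g • w (π h) - w (π g * π h) + w (π g)) =
      g • ι (w (π h)) - ι (w (π (g * h))) + ι (w (π g)) := by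
  rw [map_add, map_sub, D.equiv, map_mul]

end inflation

end Fermat.Agent.S55.CFT.LOC.H68
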