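/-
S55/E4 island LOC, package LOC-4f (helper68): `Stmt_LocalH2Order` — for every finite Galois
extension `E/F` of local fields, `H²(Gal(E/F), Eˣ)` contains a class of order `[E:F]`.
Inputs: `H25.stmt_UnramCompositum` (LOC-2c), `H24.stmt_InfResExact`, `H68.inf_injective`,
the cyclic cocycles of `H68_CycCocycle.lean`, the Galois inflation datum `H68.galois_infData`.
-/
import Fermat.Agent.S55.CFT.LOC.H68_GI
import Fermat.Agent.S55.CFT.LOC.H68_LOC1
import Fermat.Agent.S55.CFT.LOC.H68_NormIndex
import Fermat.Agent.S55.CFT.LOC.H24_InfResExact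
import Fermat.Agent.S55.CFT.LOC.H25_UC

set_option autoImplicit false
set_option linter.unusedSectionVars false
set_option linter.style.haveILetI false
set_option linter.unusedVariables false

namespace Fermat.Agent.S55.CFT.LOC.H68

open Fermat.Agent.S55.CFT.LOC Fermat.Agent.S55.CFT groupCohomology

attribute [local instance] addDMA

/-- an injective homomorphism of finite cyclic groups maps a suitable generator `ψ` to
`φ ^ (n / m)`. -/
theorem exists_gen_map_eq {C D : Type} [Group C] [Group D] [Finite C] [Finite D]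
    (φ : C) (hφ : ∀ σ : C, σ ∈ Subgroup.zpowers φ)
    (ρ : D →* C) (hρ : Function.Injective ρ) :
    ∃ ψ : D, (∀ σ : D, σ ∈ Subgroup.zpowers ψ) ∧ orderOf ψ ∣ orderOf φ ∧
      ρ ψ = φ ^ (orderOf φ / orderOf ψ) := by
  classical
  haveI : Fintype C := Fintype.ofFinite C
  haveI : Fintype D := Fintype.ofFinite D
  haveI : IsCyclic C := ⟨⟨φ, hφ⟩⟩
  set n := orderOf φ with hn
  set m := Nat.card D with hm
  have hnC : n = Nat.card C := orderOf_eq_card_of_forall_mem_zpowers hφ
  have hmpos : 0 < m := Nat.card_pos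
  have hnpos : 0 < n := orderOf_pos φ
  have hmn : m ∣ n := by
    rw [hnC]
    exact Subgroup.card_dvd_of_injective ρ hρ
  obtain ⟨t, ht⟩ := hmn
  have htpos : 0 < t := by
    rcases Nat.eq_zero_or_pos t with h0 | h0
    · rw [h0, mul_zero] at ht; omega
    · exact h0
  have hdiv : n / m = t := by rw [ht, Nat.mul_div_cancel_left _ hmpos]
  -- the set of `m`-torsion elements
  let T : Finset C := Finset.univ.filter fun a : C => a ^ m = 1
  have hT : T.card ≤ m := IsCyclic.card_pow_eq_one_le hmpos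
  let R : Finset C := Finset.univ.image ρ
  have hRcard : R.card = m := by
    rw [Finset.card_image_of_injective _ hρ, Finset.card_univ, hm, Nat.card_eq_fintype_card]
  have hRT : R ⊆ T := by
    intro x hx
    obtain ⟨d, -, rfl⟩ := Finset.mem_image.1 hx
    refine Finset.mem_filter.2 ⟨Finset.mem_univ _, ?_⟩
    rw [← map_pow, hm, pow_card_eq_one', map_one]
  have hRT' : R = T := Finset.eq_of_subset_of_card_le hRT (by rw [hRcard]; exact hT)
  have hmem : φ ^ t ∈ T := by
    refine Finset.mem_filter.2 ⟨Finset.mem_univ _, ?_⟩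
    rw [← pow_mul, mul_comm, ← ht, hn, pow_orderOf_eq_one]
  rw [← hRT'] at hmem
  obtain ⟨ψ, -, hψ⟩ := Finset.mem_image.1 hmem
  have hord : orderOf ψ = m := by
    rw [← orderOf_injective ρ hρ ψ, hψ, orderOf_pow' φ htpos.ne', ← hn, ht,
      Nat.gcd_eq_right (Dvd.intro_left m rfl), Nat.mul_div_cancel _ htpos]
  refine ⟨ψ, ?_, ?_, ?_⟩
  · intro σ
    have : Subgroup.zpowers ψ = ⊤ := by
      apply Subgroup.eq_top_of_card_eq
      rw [Nat.card_zpowers, hord]
    rw [this]
    exact Subgroup.mem_top σ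
  · rw [hord]; exact ⟨t, ht⟩
  · rw [hord, hdiv, hψ]

section restr

variable (F E L : Type) [Field F] [Field E] [Field L] [Algebra F E] [Algebra F L] [Algebra E L]
  [IsScalarTower F E L] [FiniteDimensional F L] [IsGalois F L] [Normal F E]
  (E' : IntermediateField F L) [Normal F E']

/-- the restriction `Gal(L/E) → Gal(E'/F)` -/
noncomputable def resToSub : (L ≃ₐ[E] L) →* (E' ≃ₐ[F] E') :=
  (AlgEquiv.restrictNormalHom E').comp (AlgEquiv.restrictScalarsHom F)

theorem resToSub_apply (d : L ≃ₐ[E] L) :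
    resToSub F E L E' d = AlgEquiv.restrictNormalHom E' (d.restrictScalars F) := rfl

theorem resToSub_injective
    (hsup : E' ⊔ (IsScalarTower.toAlgHom F E L).fieldRange = ⊤) :
    Function.Injective (resToSub F E L E') := by
  rw [injective_iff_map_eq_one]
  intro d hd
  have h1 : d.restrictScalars F ∈ E'.fixingSubgroup := by
    rw [IntermediateField.mem_fixingSubgroup_iff]
    intro x hx
    have h := AlgEquiv.restrictNormal_commutes (d.restrictScalars F) E' ⟨x, hx⟩
    have h2 : (d.restrictScalars F).restrictNormal E' ⟨x, hx⟩ = ⟨x, hx⟩ := by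
      show (resToSub F E L E' d) ⟨x, hx⟩ = ⟨x, hx⟩
      rw [hd]; rfl
    rw [h2] at h
    exact h.symm
  have h2 : d.restrictScalars F ∈ (IsScalarTower.toAlgHom F E L).fieldRange.fixingSubgroup := by
    rw [IntermediateField.mem_fixingSubgroup_iff]
    rintro x ⟨e, rfl⟩
    exact d.commutes e
  have h3 : d.restrictScalars F ∈ (E' ⊔ (IsScalarTower.toAlgHom F E L).fieldRange).fixingSubgroup := by
    rw [IntermediateField.fixingSubgroup_sup]
    exact ⟨h1, h2⟩
  rw [hsup, IntermediateField.fixingSubgroup_top] at h3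
  have h4 : d.restrictScalars F = 1 := Subgroup.mem_bot.1 h3
  ext x
  have := congrArg (fun σ : L ≃ₐ[F] L => σ x) h4
  exact this

/-- **Step 3**: the inflation of the cyclic cocycle of `aL`, restricted to `Gal(L/E)`, is a
coboundary as soon as `aL` is a norm from `L` to `E`. -/
theorem exists_cobound_on_ker [FiniteDimensional E L]
    (hsup : E' ⊔ (IsScalarTower.toAlgHom F E L).fieldRange = ⊤)
    (φ : E' ≃ₐ[F] E') (hφ : ∀ σ : E' ≃ₐ[F] E', σ ∈ Subgroup.zpowers φ)
    (aL y : Additive Lˣ) (hy : ∑ d : L ≃ₐ[E] L, d • y = aL) :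
    ∃ z : (L ≃ₐ[F] L) → Additive Lˣ, ∀ n n' : L ≃ₐ[F] L,
      AlgEquiv.restrictNormalHom E n = 1 → AlgEquiv.restrictNormalHom E n' = 1 →
      n • z n' - z (n * n') + z n =
        cycCarry φ hφ (AlgEquiv.restrictNormalHom E' n) (AlgEquiv.restrictNormalHom E' n') • aL := by
  classical
  obtain ⟨ψ, hψ, hdvd, hρψ⟩ := exists_gen_map_eq φ hφ (resToSub F E L E')
    (resToSub_injective F E L E' hsup)
  have hcob := isCoboundary₂_cycCocycle_of_norm ψ hψ y
  rw [cycPart_orderOf_eq_sum ψ hψ y, hy] at hcob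
  obtain ⟨xD, hxD⟩ := hcob
  refine ⟨fun n => if h : AlgEquiv.restrictNormalHom E n = 1 then xD (kerLift F E L n h) else 0,
    fun n n' hn hn' => ?_⟩
  have hnn' : AlgEquiv.restrictNormalHom E (n * n') = 1 := by rw [map_mul, hn, hn', one_mul]
  simp only [dif_pos hn, dif_pos hn', dif_pos hnn']
  rw [kerLift_mul F E L n n' hn hn', ← kerLift_smul F E L n hn, hxD]
  simp only [cycCocycle]
  rw [← cycCarry_comp φ hφ ψ hψ (resToSub F E L E') hdvd hρψ]
  rw [resToSub_apply, resToSub_apply, kerLift_restrictScalars, kerLift_restrictScalars]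

end restr

section normElt

variable (E L : Type) [Field E] [Field L] [Algebra E L] [FiniteDimensional E L] [IsGalois E L]

/-- a norm equation in `E`, additively in `Additive Lˣ` -/
theorem exists_sum_smul_eq_of_norm (y : L) (b : E) (hb : b ≠ 0) (h : Algebra.norm E y = b) :
    ∃ y' : Additive Lˣ, ∑ d : L ≃ₐ[E] L, d • y' =
      Additive.ofMul (Units.mk0 (algebraMap E L b) (by simpa using hb)) := by
  classical
  have hy0 : y ≠ 0 := by
    rintro rfl
    rw [Algebra.norm_zero] at h
    exact hb h.symm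
  refine ⟨Additive.ofMul (Units.mk0 y hy0), ?_⟩
  apply additive_units_ext
  have h1 := Algebra.norm_eq_prod_automorphisms E y
  rw [h] at h1
  show ((Additive.toMul (∑ d : L ≃ₐ[E] L, d • Additive.ofMul (Units.mk0 y hy0)) : Lˣ) : L) =
    algebraMap E L b
  rw [h1]
  have h2 : (Additive.toMul (∑ d : L ≃ₐ[E] L, d • Additive.ofMul (Units.mk0 y hy0)) : Lˣ) =
      ∏ d : L ≃ₐ[E] L, d • Units.mk0 y hy0 := by
    rw [toMul_sum]
    rfl
  rw [h2, Units.coe_prod]
  rfl

end normElt

section sumNorm

variable (F K : Type) [Field F] [Field K] [Algebra F K] [FiniteDimensional F K] [IsGalois F K]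

/-- a sum over the Galois group in `Additive Kˣ` is a norm -/
theorem norm_eq_of_sum_smul (y a : Additive Kˣ) (h : ∑ σ : K ≃ₐ[F] K, σ • y = a) :
    algebraMap F K (Algebra.norm F ((Additive.toMul y : Kˣ) : K)) = ((Additive.toMul a : Kˣ) : K) := by
  classical
  rw [Algebra.norm_eq_prod_automorphisms, ← h]
  have h2 : (Additive.toMul (∑ d : K ≃ₐ[F] K, d • y) : Kˣ) =
      ∏ d : K ≃ₐ[F] K, d • (Additive.toMul y : Kˣ) := by
    rw [toMul_sum]
    rfl
  rw [h2, Units.coe_prod]
  rfl

end sumNorm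

end Fermat.Agent.S55.CFT.LOC.H68
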