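/-
S55/E4 island LOC, package LOC-4f (helper68), part 2: the class of order `[E:F]`.
-/
import Fermat.Agent.S55.CFT.LOC.H68_H2Order

set_option autoImplicit false
set_option linter.unusedSectionVars false
set_option linter.style.haveILetI false
set_option linter.unusedVariables false

namespace Fermat.Agent.S55.CFT.LOC.H68

open Fermat.Agent.S55.CFT.LOC Fermat.Agent.S55.CFT groupCohomology

attribute [local instance] addDMA

section order

variable (F E L : Type) [Field F] [Field E] [Field L] [Algebra F E] [Algebra F L] [Algebra E L]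
  [IsScalarTower F E L] [FiniteDimensional F L] [IsGalois F L] [FiniteDimensional F E]
  [IsGalois F E] [FiniteDimensional E L]
  (E' : IntermediateField F L) [IsGalois F E']

/-- **Steps 2–5, abstractly**: if the invariant element `a` of the cyclic extension `E'/F`
becomes a norm from `L = E·E'` to `E`, then `H²(Gal(E/F), Eˣ)` contains a class `γ` such that
`k'•γ = 0` implies that `k'•a` is a norm from `E'` to `F`. -/
theorem exists_class_order
    (hsup : E' ⊔ (IsScalarTower.toAlgHom F E L).fieldRange = ⊤)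
    (φ : E' ≃ₐ[F] E') (hφ : ∀ σ : E' ≃ₐ[F] E', σ ∈ Subgroup.zpowers φ)
    (a : Additive (↥E')ˣ) (ha : ∀ σ : E' ≃ₐ[F] E', σ • a = a)
    (y : Additive Lˣ) (hy : ∑ d : L ≃ₐ[E] L, d • y = unitsIncl E' L a) :
    ∃ γ : groupCohomology (unitsRep F E) 2, ∀ k' : ℤ, k' • γ = 0 →
      ∃ w : Additive (↥E')ˣ, ∑ σ : E' ≃ₐ[F] E', σ • w = k' • a := by
  classical
  have GI' := galois_infData F E' L
  have GIE := galois_infData F E L
  have hc₁ := isCocycle₂_cycCocycle φ hφ a ha
  have hc₂ : IsCocycle₂ (infl (AlgEquiv.restrictNormalHom E' : (L ≃ₐ[F] L) →* (E' ≃ₐ[F] E'))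
      (unitsIncl E' L) (cycCocycle φ hφ a)) := isCocycle₂_infl GI' hc₁
  obtain ⟨z, hz⟩ := exists_cobound_on_ker F E L E' hsup φ hφ (unitsIncl E' L a) y hy
  have hres : ∃ z : (L ≃ₐ[F] L) → Additive Lˣ, ∀ n n' : L ≃ₐ[F] L,
      (AlgEquiv.restrictNormalHom E : (L ≃ₐ[F] L) →* (E ≃ₐ[F] E)) n = 1 →
      (AlgEquiv.restrictNormalHom E : (L ≃ₐ[F] L) →* (E ≃ₐ[F] E)) n' = 1 →
      n • z n' - z (n * n') + z n =
        infl (AlgEquiv.restrictNormalHom E' : (L ≃ₐ[F] L) →* (E' ≃ₐ[F] E'))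
          (unitsIncl E' L) (cycCocycle φ hφ a) (n, n') := by
    refine ⟨z, fun n n' hn hn' => ?_⟩
    rw [hz n n' hn hn']
    simp only [infl, cycCocycle, map_nsmul]
  have key := H24.stmt_InfResExact (L ≃ₐ[F] L) (E ≃ₐ[F] E) (Additive Lˣ) (Additive Eˣ)
    (AlgEquiv.restrictNormalHom E : (L ≃ₐ[F] L) →* (E ≃ₐ[F] E)) (unitsIncl E L) GIE
    (infl (AlgEquiv.restrictNormalHom E' : (L ≃ₐ[F] L) →* (E' ≃ₐ[F] E'))
      (unitsIncl E' L) (cycCocycle φ hφ a)) hc₂ hres
  obtain ⟨c, hc, x, hx⟩ := key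
  have hmul : IsMulCocycle₂ (fun p : (E ≃ₐ[F] E) × (E ≃ₐ[F] E) => (Additive.toMul (c p) : Eˣ)) :=
    fun g h j => hc g h j
  have hmem : c ∈ cocycles₂ (unitsRep F E) := (cocyclesOfIsMulCocycle₂ hmul).2
  have step : ∀ k' : ℤ, k' • (H2π (unitsRep F E)) ⟨c, hmem⟩ = 0 →
      ∃ w : (E ≃ₐ[F] E) → Additive Eˣ, ∀ g h : E ≃ₐ[F] E,
        g • w h - w (g * h) + w g = k' • c (g, h) := by
    intro k' hk'
    have h0 : (H2π (unitsRep F E)) (k' • (⟨c, hmem⟩ : cocycles₂ (unitsRep F E))) = 0 := by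
      rw [map_zsmul]; exact hk'
    rw [H2π_eq_zero_iff] at h0
    obtain ⟨w, hw⟩ := h0
    refine ⟨w, fun g h => ?_⟩
    have := congrFun hw (g, h)
    exact this
  have fin : ∀ k' : ℤ, k' • (H2π (unitsRep F E)) ⟨c, hmem⟩ = 0 →
      ∃ w : Additive (↥E')ˣ, ∑ σ : E' ≃ₐ[F] E', σ • w = k' • a := by
    intro k' hk'
    obtain ⟨w, hw⟩ := step k' hk'
    have ha' : ∀ σ : E' ≃ₐ[F] E', σ • (k' • a) = k' • a := by
      intro σ
      rw [smul_comm, ha]
    have hcob : IsCoboundary₂ (cycCocycle φ hφ (k' • a)) := by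
      refine inf_injective GI' (cycCocycle φ hφ (k' • a))
        (isCocycle₂_cycCocycle φ hφ (k' • a) ha')
        (fun g => unitsIncl E L (w (AlgEquiv.restrictNormalHom E g)) + k' • x g) (fun g h => ?_)
      have h1 := infl_coboundary GIE w g h
      have h2 := hx g h
      have h3 := hw (AlgEquiv.restrictNormalHom E g) (AlgEquiv.restrictNormalHom E h)
      rw [h3, map_zsmul] at h1
      have h4 : unitsIncl E' L (cycCocycle φ hφ (k' • a)
          ((AlgEquiv.restrictNormalHom E') g, (AlgEquiv.restrictNormalHom E') h)) =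
          k' • infl (AlgEquiv.restrictNormalHom E' : (L ≃ₐ[F] L) →* (E' ≃ₐ[F] E'))
            (unitsIncl E' L) (cycCocycle φ hφ a) (g, h) := by
        rw [cycCocycle_zsmul]
        simp only [infl, Pi.smul_apply, map_zsmul]
      rw [h4, h2]
      have e1 : g • (unitsIncl E L (w (AlgEquiv.restrictNormalHom E h)) + k' • x h) =
          g • unitsIncl E L (w (AlgEquiv.restrictNormalHom E h)) + k' • (g • x h) := by
        rw [smul_add, smul_comm]
      have e2 : k' • (unitsIncl E L (c ((AlgEquiv.restrictNormalHom E) g,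
            (AlgEquiv.restrictNormalHom E) h)) + (g • x h - x (g * h) + x g)) =
          k' • unitsIncl E L (c ((AlgEquiv.restrictNormalHom E) g,
            (AlgEquiv.restrictNormalHom E) h)) +
            (k' • (g • x h) - k' • x (g * h) + k' • x g) := by
        rw [zsmul_add, zsmul_add, zsmul_sub]
      rw [e1, e2]
      linear_combination (norm := abel) -h1
    exact exists_norm_of_isCoboundary₂ φ hφ (k' • a) hcob
  exact ⟨(H2π (unitsRep F E)) ⟨c, hmem⟩, fin⟩

end order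

/-- **LOC-4f**: `H²(Gal(E/F), Eˣ)` contains a class of order `[E:F]`. -/
theorem stmt_LocalH2Order : Stmt_LocalH2Order := by
  intro q _ F E _ _ _ _ _ _ _
  classical
  letI : Algebra ℚ_[q] E := ((algebraMap F E).comp (algebraMap ℚ_[q] F)).toAlgebra
  haveI : IsScalarTower ℚ_[q] F E := IsScalarTower.of_algebraMap_eq (fun _ => rfl)
  obtain ⟨L, iField, iAlgQ, iAlgF, iAlgE, iTQ, iTF, iFD, iGal, E', k, hk, hGalE', hcycE', hdeg,
    hunr, hsup, hcycLE, hnorm⟩ := H25.stmt_UnramCompositum q F E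
  haveI : FiniteDimensional E L := FiniteDimensional.right F E L
  haveI : IsGalois E L := IsGalois.tower_top_of_isGalois F E L
  haveI : FiniteDimensional ℚ_[q] ↥E' := FiniteDimensional.trans ℚ_[q] F ↥E'
  obtain ⟨π, hπ0, hπ1, hπ⟩ := H68.stmt_Uniformizer q F
  have hπne : π ≠ 0 := by
    rintro rfl
    have : nrm q F (0 : F) = 0 := (nrm_eq_zero_iff q F).2 rfl
    rw [this] at hπ0
    exact lt_irrefl _ hπ0
  obtain ⟨φ, hφ⟩ := hcycE'.exists_generator
  have hne' : algebraMap F E' π ≠ 0 := by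
    rw [Ne, map_eq_zero_iff _ (algebraMap F ↥E').injective]
    exact hπne
  have hne : (algebraMap F E' π) ^ k ≠ 0 := pow_ne_zero _ hne'
  set a : Additive (↥E')ˣ := Additive.ofMul (Units.mk0 ((algebraMap F E' π) ^ k) hne) with hadef
  have ha : ∀ σ : E' ≃ₐ[F] E', σ • a = a := by
    intro σ
    apply additive_units_ext
    show σ ((algebraMap F E' π) ^ k) = _
    rw [map_pow, σ.commutes]
    rfl
  obtain ⟨y0, hy0⟩ := hnorm π hπne
  have hbne : algebraMap F E π ^ k ≠ 0 := by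
    apply pow_ne_zero
    rw [Ne, map_eq_zero_iff _ (algebraMap F E).injective]
    exact hπne
  obtain ⟨y, hy⟩ := exists_sum_smul_eq_of_norm E L y0 (algebraMap F E π ^ k) hbne hy0
  have hy' : ∑ d : L ≃ₐ[E] L, d • y = unitsIncl E' L a := by
    rw [hy]
    apply additive_units_ext
    show algebraMap E L (algebraMap F E π ^ k) = algebraMap E' L (algebraMap F E' π ^ k)
    rw [map_pow, map_pow, ← IsScalarTower.algebraMap_apply, ← IsScalarTower.algebraMap_apply]
  obtain ⟨γ, hγ⟩ := exists_class_order F E L E' hsup φ hφ a ha y hy'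
  refine ⟨γ, fun k' hk' => ?_⟩
  obtain ⟨w, hw⟩ := hγ k' hk'
  have hN := norm_eq_of_sum_smul F E' w (k' • a) hw
  set w₀ : ↥E' := ((Additive.toMul w : (↥E')ˣ) : ↥E') with hw₀
  have hw₀ne : w₀ ≠ 0 := (Additive.toMul w : (↥E')ˣ).ne_zero
  have hak : ((Additive.toMul (k' • a) : (↥E')ˣ) : ↥E') = algebraMap F E' ((π ^ k) ^ k') := by
    rw [toMul_zsmul, Units.val_zpow_eq_zpow_val, map_zpow₀, map_pow]
    rfl
  rw [hak] at hN
  have hN' : Algebra.norm F w₀ = (π ^ k) ^ k' := (algebraMap F ↥E').injective hN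
  have h1 := nrm_norm q F ↥E' w₀
  rw [hN', nrm_zpow, nrm_pow] at h1
  obtain ⟨x, hx⟩ := hunr w₀
  have hxne : x ≠ 0 := by
    rintro rfl
    have h0 : nrm q F (0 : F) = 0 := (nrm_eq_zero_iff q F).2 rfl
    rw [h0] at hx
    exact hw₀ne ((nrm_eq_zero_iff q ↥E').1 hx)
  obtain ⟨j, hj⟩ := hπ x hxne
  rw [hx, hj, hdeg] at h1
  -- `nrm π ^ (k * k') = nrm π ^ (j * (n * k))`
  have h2 : (nrm q F π) ^ ((k : ℤ) * k') = (nrm q F π) ^ (j * ((Module.finrank F E * k : ℕ) : ℤ)) := by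
    rw [zpow_mul, zpow_natCast, h1, zpow_mul, zpow_natCast]
  have h3 := zpow_right_injective₀ hπ0 (ne_of_lt hπ1) h2
  have hk0 : (k : ℤ) ≠ 0 := by exact_mod_cast hk.ne'
  have h4 : k' = j * (Module.finrank F E : ℤ) := by
    apply mul_left_cancel₀ hk0
    rw [h3]
    push_cast
    ring
  exact ⟨j, by rw [h4]; ring⟩

end Fermat.Agent.S55.CFT.LOC.H68
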