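/-
S55/E4 island LOC, package L5-ND (helper68): nondegeneracy of the local cup product
`H¹(F, 𝔽_p) × H¹(F, 𝔽_p) → H²(F, 𝔽_p)` (`Stmt_L5_CupND`).
Route: `g = kumΓ ζ a` (helper45's Kummer theory), `E_g = F(α)`, `α^p = a`, cyclic of degree `p`
with generator `φ`, `φ α = ζ α`; `β ∈ Fˣ` not a norm from `E_g` (LOC-3); `b = kumΓ ζ β`;
`b ∪ g = d f` ⟹ the cyclic cocycle of `(φ, β)` is a coboundary at a finite level `L` ⟹
(`inf_injective`, `exists_norm_of_isCoboundary₂`) `β` is a norm.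
-/
import Fermat.Agent.S55.CFT.LOC.H45_Kummer
import Fermat.Agent.S55.CFT.LOC.H68_FL
import Fermat.Agent.S55.CFT.LOC.H68_H2Order2
import Fermat.Agent.S55.CFT.LOC.H68_NormIndex

set_option autoImplicit false
set_option linter.unusedSectionVars false
set_option linter.style.haveILetI false
set_option linter.unusedVariables false

namespace Fermat.Agent.S55.CFT.LOC.H68

open Fermat.Agent.S55.CFT.LOC Fermat.Agent.S55.CFT Fermat.Agent.S55.Top groupCohomology

attribute [local instance] addDMA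

section kummerField

variable {k Ω : Type} [Field k] [Field Ω] [Algebra k Ω] [IsAlgClosed Ω] [IsGalois k Ω]
variable {p : ℕ} [Fact p.Prime] (F : IntermediateField k Ω)
variable {ζ : Ω} (a : (↥F)ˣ)

/-- the chosen `p`-th root of `a` -/
noncomputable def kumRoot : Ω := H45.root p ((a : ↥F) : Ω)

theorem kumRoot_pow : kumRoot (p := p) F a ^ p = ((a : ↥F) : Ω) := H45.root_pow _

theorem kumRoot_ne_zero : kumRoot (p := p) F a ≠ 0 := by
  intro h
  have := kumRoot_pow (p := p) F a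
  rw [h, zero_pow (Fact.out : p.Prime).ne_zero] at this
  exact H45.unit_ne_zero a this.symm

/-- the Kummer extension `F(α)`, `α^p = a` -/
noncomputable def kumField : IntermediateField ↥F Ω :=
  IntermediateField.adjoin ↥F {kumRoot (p := p) F a}

theorem kumRoot_mem : kumRoot (p := p) F a ∈ kumField (p := p) F a :=
  IntermediateField.mem_adjoin_simple_self ↥F _

theorem zeta_mem_of_le (hζF : ζ ∈ F) (L : IntermediateField ↥F Ω) : ζ ∈ L := by
  have : algebraMap ↥F Ω ⟨ζ, hζF⟩ ∈ L := L.algebraMap_mem ⟨ζ, hζF⟩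
  exact this

theorem ze_mem (hζF : ζ ∈ F) (L : IntermediateField ↥F Ω) (j : ZMod p) : H45.ze ζ j ∈ L :=
  pow_mem (zeta_mem_of_le F hζF L) _

/-- the action of `Γ` on the root -/
theorem smul_kumRoot (hζ : IsPrimitiveRoot ζ p) (hζF : ζ ∈ F) (σ : ↥F.fixingSubgroup) :
    (σ : Ω ≃ₐ[k] Ω) (kumRoot (p := p) F a) =
      H45.ze ζ (H45.kumΓ (p := p) F ζ a σ) * kumRoot (p := p) F a :=
  H45.kumΓ_spec hζ hζF a σ (kumRoot_pow F a)

instance kumField_finiteDimensional : FiniteDimensional ↥F ↥(kumField (p := p) F a) :=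
  IntermediateField.adjoin.finiteDimensional
    (Algebra.IsIntegral.isIntegral (R := ↥F) (kumRoot (p := p) F a))

theorem kumField_normal (hζ : IsPrimitiveRoot ζ p) (hζF : ζ ∈ F) :
    Normal ↥F ↥(kumField (p := p) F a) := by
  rw [IntermediateField.normal_iff_forall_map_le']
  intro σ
  unfold kumField
  rw [IntermediateField.adjoin_map, IntermediateField.adjoin_le_iff]
  rintro x ⟨y, hy, rfl⟩
  rw [Set.mem_singleton_iff] at hy
  subst hy
  have h := smul_kumRoot F a hζ hζF ((IntermediateField.fixingSubgroupEquiv F).symm σ)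
  have h2 : σ (kumRoot (p := p) F a) =
      H45.ze ζ (H45.kumΓ (p := p) F ζ a ((IntermediateField.fixingSubgroupEquiv F).symm σ)) *
        kumRoot (p := p) F a := h
  show σ (kumRoot (p := p) F a) ∈ IntermediateField.adjoin ↥F {kumRoot (p := p) F a}
  rw [h2]
  exact mul_mem (ze_mem F hζF _ _) (IntermediateField.mem_adjoin_simple_self ↥F _)

/-- an automorphism fixing the root fixes the Kummer field -/
theorem fix_kumField_of_fix_root (τ : ↥F.fixingSubgroup)
    (hτ : (τ : Ω ≃ₐ[k] Ω) (kumRoot (p := p) F a) = kumRoot (p := p) F a) :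
    ∀ x ∈ kumField (p := p) F a, (τ : Ω ≃ₐ[k] Ω) x = x := by
  let τ' : Ω ≃ₐ[↥F] Ω := IntermediateField.fixingSubgroupEquiv F τ
  let T : IntermediateField ↥F Ω := IntermediateField.fixedField (Subgroup.zpowers τ')
  have hα : kumRoot (p := p) F a ∈ T := by
    rw [IntermediateField.mem_fixedField_iff]
    intro h hh
    have hle : Subgroup.zpowers τ' ≤ MulAction.stabilizer (Ω ≃ₐ[↥F] Ω) (kumRoot (p := p) F a) := by
      rw [Subgroup.zpowers_le]
      exact hτ
    exact hle hh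
  have hle : kumField (p := p) F a ≤ T := by
    unfold kumField
    rw [IntermediateField.adjoin_simple_le_iff]
    exact hα
  intro x hx
  have hxT := hle hx
  rw [IntermediateField.mem_fixedField_iff] at hxT
  exact hxT τ' (Subgroup.mem_zpowers τ')

/-- additivity of a homomorphism `Γ → 𝔽_p` given by `tOne g = 0` -/
theorem add_of_tOne {Δ : Type} [Group Δ] {g : Δ → ZMod p} (hg : tOne g = 0) (σ τ : Δ) :
    g (σ * τ) = g σ + g τ := by
  have := congrFun hg (σ, τ)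
  simp only [tOne, Pi.zero_apply] at this
  linear_combination -this

theorem one_of_tOne {Δ : Type} [Group Δ] {g : Δ → ZMod p} (hg : tOne g = 0) : g 1 = 0 := by
  have := add_of_tOne hg 1 1
  rw [mul_one] at this
  linear_combination -this

theorem pow_of_tOne {Δ : Type} [Group Δ] {g : Δ → ZMod p} (hg : tOne g = 0) (σ : Δ) (n : ℕ) :
    g (σ ^ n) = n * g σ := by
  induction n with
  | zero => rw [pow_zero, one_of_tOne hg]; simp
  | succ n ih => rw [pow_succ, add_of_tOne hg, ih]; push_cast; ring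

theorem inv_of_tOne {Δ : Type} [Group Δ] {g : Δ → ZMod p} (hg : tOne g = 0) (σ : Δ) :
    g σ⁻¹ = - g σ := by
  have := add_of_tOne hg σ σ⁻¹
  rw [mul_inv_cancel, one_of_tOne hg] at this
  linear_combination -this

/-- two elements of `Γ` with the same value of the Kummer character restrict to the same
automorphism of the Kummer field -/
theorem resΓ_eq_of_kum (hζ : IsPrimitiveRoot ζ p) (hζF : ζ ∈ F)
    [Normal ↥F ↥(kumField (p := p) F a)] (σ σ' : ↥F.fixingSubgroup)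
    (h : H45.kumΓ (p := p) F ζ a σ = H45.kumΓ (p := p) F ζ a σ') :
    resΓ F (kumField (p := p) F a) σ = resΓ F (kumField (p := p) F a) σ' := by
  rw [resΓ_eq_iff]
  have hg := H45.tOne_kumΓ (p := p) hζ hζF a
  have h0 : H45.kumΓ (p := p) F ζ a (σ⁻¹ * σ') = 0 := by
    rw [add_of_tOne hg, inv_of_tOne hg, h]; ring
  have hfix : ((σ⁻¹ * σ' : ↥F.fixingSubgroup) : Ω ≃ₐ[k] Ω) (kumRoot (p := p) F a) =
      kumRoot (p := p) F a := by
    rw [smul_kumRoot F a hζ hζF, h0, H45.ze_zero, one_mul]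
  intro x hx
  have := fix_kumField_of_fix_root F a (σ⁻¹ * σ') hfix x hx
  rw [Subgroup.coe_mul, Subgroup.coe_inv, AlgEquiv.mul_apply] at this
  have h2 := congrArg (σ : Ω ≃ₐ[k] Ω) this
  rw [← h2]
  exact AlgEquiv.apply_symm_apply (σ : Ω ≃ₐ[k] Ω) _

/-- the generator of the Galois group of the Kummer field -/
theorem exists_kum_generator (hζ : IsPrimitiveRoot ζ p) (hζF : ζ ∈ F)
    [Normal ↥F ↥(kumField (p := p) F a)] (hg : H45.kumΓ (p := p) F ζ a ≠ 0) :
    ∃ (φ : ↥(kumField (p := p) F a) ≃ₐ[↥F] ↥(kumField (p := p) F a))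
      (hφ : ∀ τ : ↥(kumField (p := p) F a) ≃ₐ[↥F] ↥(kumField (p := p) F a),
        τ ∈ Subgroup.zpowers φ),
      orderOf φ = p ∧ ∀ σ : ↥F.fixingSubgroup,
        cycLift φ hφ (resΓ F (kumField (p := p) F a) σ) = (H45.kumΓ (p := p) F ζ a σ).val := by
  classical
  have hp : p.Prime := Fact.out
  haveI : NeZero p := ⟨hp.ne_zero⟩
  have hg0 := H45.tOne_kumΓ (p := p) hζ hζF a
  set g := H45.kumΓ (p := p) F ζ a with hgdef
  -- an element with `g σ₀ = 1`
  obtain ⟨σ₁, hσ₁⟩ : ∃ σ₁, g σ₁ ≠ 0 := by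
    by_contra hcon
    push Not at hcon
    exact hg (funext hcon)
  set σ₀ := σ₁ ^ ((g σ₁)⁻¹).val with hσ₀
  have hgσ₀ : g σ₀ = 1 := by
    rw [hσ₀, pow_of_tOne hg0, ZMod.natCast_zmod_val]
    exact inv_mul_cancel₀ hσ₁
  set E := kumField (p := p) F a with hE
  set φ : ↥E ≃ₐ[↥F] ↥E := resΓ F E σ₀ with hφdef
  have hpow : ∀ (σ : ↥F.fixingSubgroup) (n : ℕ), (n : ZMod p) = g σ → φ ^ n = resΓ F E σ := by
    intro σ n hn
    rw [hφdef, ← map_pow]
    apply resΓ_eq_of_kum F a hζ hζF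
    rw [← hgdef, pow_of_tOne hg0, hgσ₀, mul_one, hn]
  have hφ : ∀ τ : ↥E ≃ₐ[↥F] ↥E, τ ∈ Subgroup.zpowers φ := by
    intro τ
    obtain ⟨σ, rfl⟩ := resΓ_surjective F E τ
    rw [← hpow σ (g σ).val (ZMod.natCast_zmod_val _)]
    exact Subgroup.npow_mem_zpowers φ _
  have hφp : φ ^ p = 1 := by
    rw [hpow 1 p (by rw [one_of_tOne hg0]; exact ZMod.natCast_self p), map_one]
  have hφ1 : φ ≠ 1 := by
    intro h1
    have h2 := (resΓ_eq_one_iff F E σ₀).1 h1 _ (kumRoot_mem F a)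
    rw [smul_kumRoot F a hζ hζF, ← hgdef, hgσ₀] at h2
    have h3 : H45.ze ζ (1 : ZMod p) = 1 := by
      have := mul_right_cancel₀ (kumRoot_ne_zero F a) (h2.trans (one_mul _).symm)
      exact this
    rw [H45.ze_eq_one_iff hζ] at h3
    exact one_ne_zero h3
  have hord : orderOf φ = p := orderOf_eq_prime hφp hφ1
  refine ⟨φ, hφ, hord, fun σ => ?_⟩
  apply cycLift_eq_of φ hφ
  · rw [hord]; exact ZMod.val_lt _
  · exact hpow σ _ (ZMod.natCast_zmod_val _)

theorem ze_pow_nat (hζ : IsPrimitiveRoot ζ p) (j : ZMod p) (n : ℕ) :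
    H45.ze ζ j ^ n = H45.ze ζ ((n : ZMod p) * j) := by
  induction n with
  | zero => simp [H45.ze_zero]
  | succ n ih =>
    rw [pow_succ, ih, ← H45.ze_add hζ]
    congr 1
    push_cast
    ring

/-- the cochain `X σ = B^{g̃(σ)} ζ^{-f(σ)}`, `B^p = β` -/
noncomputable def kumX (ζ : Ω) (a β : (↥F)ˣ) (f : ↥F.fixingSubgroup → ZMod p)
    (σ : ↥F.fixingSubgroup) : Ω :=
  kumRoot (p := p) F β ^ (H45.kumΓ (p := p) F ζ a σ).val * H45.ze ζ (- f σ)

theorem kumX_ne_zero (hζ : IsPrimitiveRoot ζ p) (a β : (↥F)ˣ) (f : ↥F.fixingSubgroup → ZMod p)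
    (σ : ↥F.fixingSubgroup) : kumX F ζ a β f σ ≠ 0 :=
  mul_ne_zero (pow_ne_zero _ (kumRoot_ne_zero F β)) (H45.ze_ne_zero hζ _)

/-- **the cochain identity**: `σ(X τ) · X σ = β^{carry(σ,τ)} · X(στ)` if `d f = b ∪ g`. -/
theorem kum_cochain_identity (hζ : IsPrimitiveRoot ζ p) (hζF : ζ ∈ F) (a β : (↥F)ˣ)
    (f : ↥F.fixingSubgroup → ZMod p)
    (hf : ∀ σ τ : ↥F.fixingSubgroup, f τ - f (σ * τ) + f σ =
      H45.kumΓ (p := p) F ζ β σ * H45.kumΓ (p := p) F ζ a τ)
    (σ τ : ↥F.fixingSubgroup) :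
    (σ : Ω ≃ₐ[k] Ω) (kumX F ζ a β f τ) * kumX F ζ a β f σ =
      ((β : ↥F) : Ω) ^ (((H45.kumΓ (p := p) F ζ a σ).val +
        (H45.kumΓ (p := p) F ζ a τ).val) / p) * kumX F ζ a β f (σ * τ) := by
  have hp : p.Prime := Fact.out
  haveI : NeZero p := ⟨hp.ne_zero⟩
  have hg0 := H45.tOne_kumΓ (p := p) hζ hζF a
  set g := H45.kumΓ (p := p) F ζ a with hgdef
  set b := H45.kumΓ (p := p) F ζ β with hbdef
  set B := kumRoot (p := p) F β with hBdef
  have hB : B ^ p = ((β : ↥F) : Ω) := kumRoot_pow F β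
  have hσB : (σ : Ω ≃ₐ[k] Ω) B = H45.ze ζ (b σ) * B := smul_kumRoot F β hζ hζF σ
  have hgst : (g (σ * τ)).val = ((g σ).val + (g τ).val) % p := by
    rw [add_of_tOne hg0, ZMod.val_add]
  have hsplit : p * (((g σ).val + (g τ).val) / p) + (g (σ * τ)).val = (g σ).val + (g τ).val := by
    rw [hgst]
    exact Nat.div_add_mod _ _
  unfold kumX
  rw [← hgdef, ← hBdef]
  rw [map_mul, map_pow, hσB, H45.map_ze (H45.fix_of_mem F σ hζF), mul_pow,
    ze_pow_nat hζ, ZMod.natCast_zmod_val, ← hB, ← pow_mul]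
  have e1 : H45.ze ζ (g τ * b σ) * B ^ (g τ).val * H45.ze ζ (-f τ) *
      (B ^ (g σ).val * H45.ze ζ (-f σ)) =
      B ^ ((g σ).val + (g τ).val) * H45.ze ζ (g τ * b σ + -f τ + -f σ) := by
    rw [H45.ze_add hζ, H45.ze_add hζ, pow_add]
    ring
  have e2 : B ^ (p * (((g σ).val + (g τ).val) / p)) *
      (B ^ (g (σ * τ)).val * H45.ze ζ (-f (σ * τ))) =
      B ^ ((g σ).val + (g τ).val) * H45.ze ζ (-f (σ * τ)) := by
    rw [← mul_assoc, ← pow_add, hsplit]
  rw [e1, e2]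
  congr 2
  have := hf σ τ
  linear_combination -this

/-- **Symbol ⟹ norm.**  If `b ∪ g = d f` (`b = kumΓ β`, `g = kumΓ a ≠ 0`, `f` locally level
constant), then `β` is a norm from the Kummer field `F(a^{1/p})`. -/
theorem norm_of_cup_coboundary (hζ : IsPrimitiveRoot ζ p) (hζF : ζ ∈ F) (a β : (↥F)ˣ)
    [Normal ↥F ↥(kumField (p := p) F a)] [IsGalois ↥F ↥(kumField (p := p) F a)]
    (hg : H45.kumΓ (p := p) F ζ a ≠ 0)
    (f : ↥F.fixingSubgroup → ZMod p) (Ef : IntermediateField k Ω) [FiniteDimensional k ↥Ef]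
    (hfloc : ∀ g s : ↥F.fixingSubgroup, (s : Ω ≃ₐ[k] Ω) ∈ Ef.fixingSubgroup → f (g * s) = f g)
    (hf : ∀ σ τ : ↥F.fixingSubgroup, f τ - f (σ * τ) + f σ =
      H45.kumΓ (p := p) F ζ β σ * H45.kumΓ (p := p) F ζ a τ) :
    β ∈ normSubgroup ↥F ↥(kumField (p := p) F a) := by
  classical
  have hp : p.Prime := Fact.out
  haveI : NeZero p := ⟨hp.ne_zero⟩
  obtain ⟨φ, hφ, hord, hlift⟩ := exists_kum_generator F a hζ hζF hg
  have hg0 := H45.tOne_kumΓ (p := p) hζ hζF a
  -- the finite level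
  have hαint : IsIntegral k (kumRoot (p := p) F a) := Algebra.IsIntegral.isIntegral _
  have hBint : IsIntegral k (kumRoot (p := p) F β) := Algebra.IsIntegral.isIntegral _
  haveI : FiniteDimensional k ↥(IntermediateField.adjoin k {kumRoot (p := p) F a}) :=
    IntermediateField.adjoin.finiteDimensional hαint
  haveI : FiniteDimensional k ↥(IntermediateField.adjoin k {kumRoot (p := p) F β}) :=
    IntermediateField.adjoin.finiteDimensional hBint
  let E₀ : IntermediateField k Ω := Ef ⊔ IntermediateField.adjoin k {kumRoot (p := p) F a} ⊔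
    IntermediateField.adjoin k {kumRoot (p := p) F β}
  haveI : FiniteDimensional k ↥E₀ := IntermediateField.finiteDimensional_sup _ _
  obtain ⟨L, hLfd, hLgal, hE₀L⟩ := exists_finLevel F E₀
  haveI := hLfd
  haveI := hLgal
  have hαE₀ : kumRoot (p := p) F a ∈ E₀ :=
    (le_sup_left.trans' le_sup_right : IntermediateField.adjoin k {kumRoot (p := p) F a} ≤ E₀)
      (IntermediateField.mem_adjoin_simple_self k _)
  have hαL : kumRoot (p := p) F a ∈ L := hE₀L _ hαE₀
  have hBL : kumRoot (p := p) F β ∈ L := hE₀L _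
    ((le_sup_right : IntermediateField.adjoin k {kumRoot (p := p) F β} ≤ E₀)
      (IntermediateField.mem_adjoin_simple_self k _))
  have hEL : kumField (p := p) F a ≤ L := by
    unfold kumField
    rw [IntermediateField.adjoin_simple_le_iff]
    exact hαL
  -- the tower `F ⊆ E ⊆ L`
  letI : Algebra ↥(kumField (p := p) F a) ↥L := (IntermediateField.inclusion hEL).toRingHom.toAlgebra
  haveI : IsScalarTower ↥F ↥(kumField (p := p) F a) ↥L :=
    IsScalarTower.of_algebraMap_eq (fun x => rfl)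
  have GI := galois_infData ↥F ↥(kumField (p := p) F a) ↥L
  -- compatibility of the restrictions
  have hcompat : ∀ σ : ↥F.fixingSubgroup,
      (AlgEquiv.restrictNormalHom ↥(kumField (p := p) F a) :
        (↥L ≃ₐ[↥F] ↥L) →* (↥(kumField (p := p) F a) ≃ₐ[↥F] ↥(kumField (p := p) F a)))
          (resΓ F L σ) = resΓ F (kumField (p := p) F a) σ := by
    intro σ
    ext x
    have h1 := AlgEquiv.restrictNormal_commutes (resΓ F L σ) ↥(kumField (p := p) F a) x
    have h2 := congrArg (Subtype.val : ↥L → Ω) h1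
    have h4 : (((resΓ F L σ) (algebraMap ↥(kumField (p := p) F a) ↥L x) : ↥L) : Ω) =
        (σ : Ω ≃ₐ[k] Ω) (x : Ω) :=
      resΓ_apply F L σ (algebraMap ↥(kumField (p := p) F a) ↥L x)
    rw [resΓ_apply]
    exact h2.trans h4
  -- the cochain `X` at level `L`
  have hXL : ∀ σ : ↥F.fixingSubgroup, kumX F ζ a β f σ ∈ L := fun σ =>
    mul_mem (pow_mem hBL _) (ze_mem F hζF L _)
  let Xfun : ↥F.fixingSubgroup → Additive (↥L)ˣ := fun σ =>
    Additive.ofMul (Units.mk0 ⟨kumX F ζ a β f σ, hXL σ⟩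
      (fun h => kumX_ne_zero F hζ a β f σ (congrArg Subtype.val h)))
  have hXloc : ∀ σ s : ↥F.fixingSubgroup, (s : Ω ≃ₐ[k] Ω) ∈ E₀.fixingSubgroup →
      Xfun (σ * s) = Xfun σ := by
    intro σ s hs
    have hs1 : (s : Ω ≃ₐ[k] Ω) ∈ Ef.fixingSubgroup :=
      IntermediateField.fixingSubgroup_antitone (le_sup_left.trans le_sup_left : Ef ≤ E₀) hs
    have hs2 : H45.kumΓ (p := p) F ζ a s = 0 := by
      have hfix : (s : Ω ≃ₐ[k] Ω) (kumRoot (p := p) F a) = kumRoot (p := p) F a :=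
        (IntermediateField.mem_fixingSubgroup_iff E₀ _).1 hs (kumRoot (p := p) F a) hαE₀
      refine H45.kumΓ_unique hζ hζF a s (kumRoot_pow F a) ?_
      rw [H45.ze_zero, one_mul]
      exact hfix
    have e1 : kumX F ζ a β f (σ * s) = kumX F ζ a β f σ := by
      unfold kumX
      rw [add_of_tOne hg0, hs2, add_zero, hfloc σ s hs1]
    apply additive_units_ext
    exact Subtype.ext e1
  obtain ⟨Xbar, hXbar⟩ := exists_factor₁ F L E₀ hE₀L Xfun hXloc
  -- the invariant element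
  let βE : Additive (↥(kumField (p := p) F a))ˣ :=
    Additive.ofMul (Units.map (algebraMap ↥F ↥(kumField (p := p) F a) :
      ↥F →* ↥(kumField (p := p) F a)) β)
  have hβinv : ∀ τ : ↥(kumField (p := p) F a) ≃ₐ[↥F] ↥(kumField (p := p) F a), τ • βE = βE := by
    intro τ
    apply additive_units_ext
    show τ (algebraMap ↥F ↥(kumField (p := p) F a) (β : ↥F)) =
      algebraMap ↥F ↥(kumField (p := p) F a) (β : ↥F)
    exact τ.commutes _
  have hcob : IsCoboundary₂ (cycCocycle φ hφ βE) := by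
    refine inf_injective GI (cycCocycle φ hφ βE) (isCocycle₂_cycCocycle φ hφ βE hβinv) Xbar
      (fun s t => ?_)
    obtain ⟨σ, rfl⟩ := resΓ_surjective F L s
    obtain ⟨τ, rfl⟩ := resΓ_surjective F L t
    rw [← map_mul, ← hXbar, ← hXbar, ← hXbar, hcompat, hcompat]
    simp only [cycCocycle, cycCarry, hlift, hord, map_nsmul]
    apply additive_units_ext
    apply Subtype.ext
    have hid := kum_cochain_identity F hζ hζF a β f hf σ τ
    have hne : kumX F ζ a β f (σ * τ) ≠ 0 := kumX_ne_zero F hζ a β f (σ * τ)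
    -- unfold the additive expression
    show ((resΓ F L σ) ⟨kumX F ζ a β f τ, hXL τ⟩ : Ω) * (kumX F ζ a β f (σ * τ))⁻¹ *
        kumX F ζ a β f σ = (((β : ↥F) : Ω)) ^ (((H45.kumΓ (p := p) F ζ a σ).val +
          (H45.kumΓ (p := p) F ζ a τ).val) / p)
    rw [resΓ_apply]
    show (σ : Ω ≃ₐ[k] Ω) (kumX F ζ a β f τ) * (kumX F ζ a β f (σ * τ))⁻¹ *
        kumX F ζ a β f σ = (((β : ↥F) : Ω)) ^ (((H45.kumΓ (p := p) F ζ a σ).val +
          (H45.kumΓ (p := p) F ζ a τ).val) / p)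
    rw [mul_right_comm, hid]
    field_simp
  obtain ⟨y, hy⟩ := exists_norm_of_isCoboundary₂ φ hφ βE hcob
  have hN := norm_eq_of_sum_smul ↥F ↥(kumField (p := p) F a) y βE hy
  have hN' : Algebra.norm ↥F ((Additive.toMul y : (↥(kumField (p := p) F a))ˣ) :
      ↥(kumField (p := p) F a)) = (β : ↥F) :=
    (algebraMap ↥F ↥(kumField (p := p) F a)).injective hN
  refine ⟨Additive.toMul y, ?_⟩
  apply Units.ext
  exact hN'

end kummerField

/-- **L5-ND**: nondegeneracy of the local cup product. -/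
theorem stmt_L5_CupND : Stmt_L5_CupND := by
  intro q _ p _ F hFfd hζ g hg hgloc hgne
  classical
  obtain ⟨ζ, hζF, hζ⟩ := hζ
  haveI := hFfd
  have hp : p.Prime := Fact.out
  obtain ⟨a, ha⟩ := H45.exists_kumΓ_eq (k := ℚ_[q]) (Ω := PadicAlgCl q) (F := F) hζ hζF g hg hgloc
  have hgne' : H45.kumΓ (p := p) F ζ a ≠ 0 := by rw [ha]; exact hgne
  haveI : Normal ↥F ↥(kumField (p := p) F a) := kumField_normal F a hζ hζF
  haveI : Algebra.IsSeparable ↥F ↥(kumField (p := p) F a) :=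
    Algebra.isSeparable_tower_bot_of_isSeparable ↥F ↥(kumField (p := p) F a) (PadicAlgCl q)
  haveI : IsGalois ↥F ↥(kumField (p := p) F a) := ⟨⟩
  obtain ⟨φ, hφ, hord, -⟩ := exists_kum_generator F a hζ hζF hgne'
  have hcyc : IsCyclic (↥(kumField (p := p) F a) ≃ₐ[↥F] ↥(kumField (p := p) F a)) := ⟨⟨φ, hφ⟩⟩
  have hidx := stmt_LocalNormIndexCyclic q ↥F ↥(kumField (p := p) F a) hcyc
  have hfin : Module.finrank ↥F ↥(kumField (p := p) F a) = p := by
    rw [← IsGalois.card_aut_eq_finrank, ← orderOf_eq_card_of_forall_mem_zpowers hφ, hord]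
  rw [hfin] at hidx
  obtain ⟨β, hβ⟩ : ∃ β : (↥F)ˣ, β ∉ normSubgroup ↥F ↥(kumField (p := p) F a) := by
    by_contra hcon
    push Not at hcon
    have htop : normSubgroup ↥F ↥(kumField (p := p) F a) = ⊤ := (Subgroup.eq_top_iff' _).2 hcon
    rw [htop, Subgroup.index_top] at hidx
    exact hp.one_lt.ne hidx
  obtain ⟨Eg, hEgfd, hgl⟩ := H45.isLocA_kumΓ (k := ℚ_[q]) (p := p) (F := F) hζ hζF a
  obtain ⟨Eb, hEbfd, hbl⟩ := H45.isLocA_kumΓ (k := ℚ_[q]) (p := p) (F := F) hζ hζF β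
  refine ⟨H45.kumΓ (p := p) F ζ β, H45.tOne_kumΓ hζ hζF β, ⟨Eb, hEbfd, hbl⟩, ?_⟩
  rintro ⟨f, ⟨Ef, hEffd, hfloc⟩, hf⟩
  apply hβ
  haveI := hEffd
  haveI := hEgfd
  haveI := hEbfd
  haveI : FiniteDimensional ℚ_[q] ↥(Ef ⊔ Eg) := IntermediateField.finiteDimensional_sup _ _
  haveI : FiniteDimensional ℚ_[q] ↥(Ef ⊔ Eg ⊔ Eb) := IntermediateField.finiteDimensional_sup _ _
  have hga := H45.tOne_kumΓ (p := p) hζ hζF a
  have hgb := H45.tOne_kumΓ (p := p) hζ hζF β
  refine norm_of_cup_coboundary F hζ hζF a β hgne'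
    (fun σ => -(H45.kumΓ (p := p) F ζ a σ * H45.kumΓ (p := p) F ζ β σ) - f σ)
    (Ef ⊔ Eg ⊔ Eb) ?_ ?_
  · intro σ s hs
    have hs1 : (s : PadicAlgCl q ≃ₐ[ℚ_[q]] PadicAlgCl q) ∈ Ef.fixingSubgroup :=
      IntermediateField.fixingSubgroup_antitone (le_sup_left.trans le_sup_left) hs
    have hs2 : (s : PadicAlgCl q ≃ₐ[ℚ_[q]] PadicAlgCl q) ∈ Eg.fixingSubgroup :=
      IntermediateField.fixingSubgroup_antitone (le_sup_right.trans le_sup_left) hs
    have hs3 : (s : PadicAlgCl q ≃ₐ[ℚ_[q]] PadicAlgCl q) ∈ Eb.fixingSubgroup :=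
      IntermediateField.fixingSubgroup_antitone le_sup_right hs
    show -(H45.kumΓ (p := p) F ζ a (σ * s) * H45.kumΓ (p := p) F ζ β (σ * s)) - f (σ * s) =
      -(H45.kumΓ (p := p) F ζ a σ * H45.kumΓ (p := p) F ζ β σ) - f σ
    rw [hfloc σ s hs1, hgl σ s hs2, hbl σ s hs3]
  · intro σ τ
    have h1 := congrFun hf (σ, τ)
    simp only [tOne] at h1
    rw [← ha] at h1
    show -(H45.kumΓ (p := p) F ζ a τ * H45.kumΓ (p := p) F ζ β τ) - f τ -
        (-(H45.kumΓ (p := p) F ζ a (σ * τ) * H45.kumΓ (p := p) F ζ β (σ * τ)) - f (σ * τ)) +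
        (-(H45.kumΓ (p := p) F ζ a σ * H45.kumΓ (p := p) F ζ β σ) - f σ) =
      H45.kumΓ (p := p) F ζ β σ * H45.kumΓ (p := p) F ζ a τ
    rw [add_of_tOne hga, add_of_tOne hgb]
    linear_combination -h1

end Fermat.Agent.S55.CFT.LOC.H68
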