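import Mathlib

/-!
# CFT LOC-4b (helper58), part 1: field theory

For a finite Galois extension `E/F` with group `G`, a normal subgroup `N` and `M = E^N`:
* `exists_invFun_of_norm` : the norm `N_{M/F} m` of a unit of `M` is the product over `G ⧸ N` of
  the `G`-invariant function `g N ↦ g m`;
* `exists_unit_of_fixed` : the `G`-invariant units of `E` come from `F`.
-/

set_option autoImplicit false
set_option linter.unusedSectionVars false

noncomputable section

namespace Fermat.Agent.S55.CFT.LOC.H58

open IntermediateField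

variable {F E : Type} [Field F] [Field E] [Algebra F E] [FiniteDimensional F E] [IsGalois F E]

lemma smul_quot_eq_mul (N : Subgroup (E ≃ₐ[F] E)) [N.Normal] (g : E ≃ₐ[F] E)
    (x : (E ≃ₐ[F] E) ⧸ N) : g • x = (g : (E ≃ₐ[F] E) ⧸ N) * x := by
  induction x using QuotientGroup.induction_on with
  | H a => rfl

/-- The norm from `M = E^N` to `F` as a product of a `G`-invariant function on `G ⧸ N`. -/
lemma exists_invFun_of_norm (N : Subgroup (E ≃ₐ[F] E)) [N.Normal]
    [Fintype ((E ≃ₐ[F] E) ⧸ N)] (m : (fixedField N)ˣ) :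
    ∃ f : (E ≃ₐ[F] E) ⧸ N → Eˣ,
      (∀ (g : E ≃ₐ[F] E) (x : (E ≃ₐ[F] E) ⧸ N), Units.map (g : E →* E) (f (g⁻¹ • x)) = f x) ∧
      ∏ x, f x = Units.map (algebraMap F E : F →* E)
        (Units.map (Algebra.norm F : (fixedField N) →* F) m) := by
  classical
  let e := IsGalois.normalAutEquivQuotient N
  refine ⟨fun x => Units.map (algebraMap (fixedField N) E : (fixedField N) →* E)
    (Units.map ((e x : (fixedField N) ≃ₐ[F] (fixedField N)) : (fixedField N) →* (fixedField N)) m),
    ?_, ?_⟩
  · intro g x
    apply Units.ext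
    simp only [Units.coe_map, MonoidHom.coe_coe]
    rw [smul_quot_eq_mul, map_mul]
    have h1 : e ((g⁻¹ : E ≃ₐ[F] E) : (E ≃ₐ[F] E) ⧸ N) =
        (AlgEquiv.restrictNormalHom (fixedField N) g)⁻¹ := by
      rw [IsGalois.normalAutEquivQuotient_apply, map_inv]
    rw [h1, AlgEquiv.mul_apply]
    have h2 := AlgEquiv.restrictNormal_commutes g (fixedField N)
      ((AlgEquiv.restrictNormalHom (fixedField N) g)⁻¹ ((e x) (m : fixedField N)))
    rw [← h2]
    congr 1
    show (AlgEquiv.restrictNormalHom (fixedField N) g)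
      ((AlgEquiv.restrictNormalHom (fixedField N) g)⁻¹ ((e x) (m : fixedField N))) = _
    rw [← AlgEquiv.mul_apply, mul_inv_cancel, AlgEquiv.one_apply]
  · apply Units.ext
    rw [Units.coe_prod]
    simp only [Units.coe_map, MonoidHom.coe_coe]
    rw [IsScalarTower.algebraMap_apply F (fixedField N) E, Algebra.norm_eq_prod_automorphisms,
      map_prod]
    exact Fintype.prod_equiv e.toEquiv _ _ (fun x => rfl)

/-- The `Gal(E/F)`-invariant units of `E` come from `F`. -/
lemma exists_unit_of_fixed (u : Eˣ) (hu : ∀ g : E ≃ₐ[F] E, Units.map (g : E →* E) u = u) :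
    ∃ v : Fˣ, Units.map (algebraMap F E : F →* E) v = u := by
  have h : (u : E) ∈ Set.range (algebraMap F E) := by
    rw [IsGalois.mem_range_algebraMap_iff_fixed]
    intro g
    have := congrArg Units.val (hu g)
    simpa using this
  obtain ⟨x, hx⟩ := h
  have hx0 : x ≠ 0 := by
    rintro rfl
    rw [map_zero] at hx
    exact u.ne_zero hx.symm
  exact ⟨Units.mk0 x hx0, Units.ext hx⟩

end Fermat.Agent.S55.CFT.LOC.H58
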