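import Fermat.Agent.S55.CFT.H58_Layer
import Fermat.Agent.S55.CFT.LOC.H58_H2LeField
import Fermat.Agent.S55.CFT.LOC.H68_NormIndex
import Fermat.Agent.S55.CFT.Defs_LOC

/-!
# CFT LOC-4b (helper58): the second inequality for local `p`-extensions

`stmt_LocalH2Le : Stmt_LocalH2Le`: for `E/F` Galois with `p`-group `G` (finite extensions of
`ℚ_q`), `H²(G, Eˣ)` is finite of order at most `[E : F]`.

Induction on `#G` over the base field: for `N` normal of index `p` and `M = E^N`, the layer lemma
(`H58.card_H2_dvd`) gives `#H²(G, Eˣ) ∣ [Fˣ : N_{M/F} Mˣ] · #H²(N, Eˣ)`, using Hilbert 90 for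
`E/M`; the index is `p` by the local norm index (LOC-3, helper68).
-/

set_option autoImplicit false
set_option linter.unusedSectionVars false

noncomputable section

namespace Fermat.Agent.S55.CFT.LOC.H58

open CategoryTheory CategoryTheory.Limits groupCohomology IntermediateField

section Transport

variable {F E : Type} [Field F] [Field E] [Algebra F E] [FiniteDimensional F E]

/-- `N ≃* Gal(E / E^N)`. -/
def subgroupEquivGal (N : Subgroup (E ≃ₐ[F] E)) : N ≃* (E ≃ₐ[fixedField N] E) :=
  (MulEquiv.subgroupCongr (fixingSubgroup_fixedField N).symm).trans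
    (fixingSubgroupEquiv (fixedField N))

lemma subgroupEquivGal_apply (N : Subgroup (E ≃ₐ[F] E)) (n : N) (x : E) :
    subgroupEquivGal N n x = n.1 x := rfl

/-- `Hⁿ(N, Eˣ) ≅ Hⁿ(Gal(E / E^N), Eˣ)`. -/
def resIso (N : Subgroup (E ≃ₐ[F] E)) (n : ℕ) :
    groupCohomology (Rep.res N.subtype (unitsRep F E)) n ≅
      groupCohomology (unitsRep (fixedField N) E) n :=
  mapIso (B := Rep.res N.subtype (unitsRep F E)) (A := unitsRep (fixedField N) E)
    (subgroupEquivGal N) (LinearEquiv.refl ℤ (Additive Eˣ)) (fun g => by
      ext a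
      rfl) n

end Transport

section Layer

/-- One layer: `N` normal of prime index `p` in `G = Gal(E/F)`, `M = E^N`:
`#H²(G, Eˣ) ≤ p · #H²(Gal(E/M), Eˣ)`. -/
theorem card_H2_le_layer (q : ℕ) [Fact q.Prime] {F E : Type} [Field F] [Field E]
    [Algebra ℚ_[q] F] [FiniteDimensional ℚ_[q] F] [Algebra F E] [FiniteDimensional F E]
    [IsGalois F E] (p : ℕ) (hp : p.Prime) (N : Subgroup (E ≃ₐ[F] E)) [N.Normal]
    (hidx : N.index = p) [Finite (groupCohomology (unitsRep (fixedField N) E) 2)] :
    Finite (groupCohomology (unitsRep F E) 2) ∧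
      Nat.card (groupCohomology (unitsRep F E) 2) ≤
        p * Nat.card (groupCohomology (unitsRep (fixedField N) E) 2) := by
  classical
  have : Fact p.Prime := ⟨hp⟩
  have hcardQ : Nat.card ((E ≃ₐ[F] E) ⧸ N) = p := by rw [← Subgroup.index_eq_card, hidx]
  have hcyc : IsCyclic ((E ≃ₐ[F] E) ⧸ N) := isCyclic_of_prime_card hcardQ
  obtain ⟨c, hc⟩ := hcyc.exists_generator
  let _ : Fintype ((E ≃ₐ[F] E) ⧸ N) := Fintype.ofFinite _
  -- Hilbert 90 for `E / M`
  have h1 : IsZero (groupCohomology (Rep.res N.subtype (unitsRep F E)) 1) := by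
    have hU : Subsingleton (groupCohomology (unitsRep (fixedField N) E) 1) :=
      (groupCohomology.H1ofAutOnUnitsUnique (fixedField N) E).instSubsingleton
    exact (ModuleCat.isZero_of_subsingleton _).of_iso (resIso N 1)
  -- finiteness of `H²(N, Eˣ)`
  have e2 : groupCohomology (Rep.res N.subtype (unitsRep F E)) 2 ≃ₗ[ℤ]
      groupCohomology (unitsRep (fixedField N) E) 2 := (resIso N 2).toLinearEquiv
  have hfin2 : Finite (groupCohomology (Rep.res N.subtype (unitsRep F E)) 2) :=
    Finite.of_equiv _ e2.symm.toEquiv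
  -- the norm index of `M / F`
  have hdeg : Module.finrank F (fixedField N) = p := by
    rw [← IsGalois.card_aut_eq_finrank, ← Nat.card_congr (IsGalois.normalAutEquivQuotient N).toEquiv,
      hcardQ]
  have hindex : (normSubgroup F (fixedField N)).index = p :=
    H68.stmt_LocalNormIndex q F (fixedField N) p hp hdeg
  have hFI : (normSubgroup F (fixedField N)).FiniteIndex := ⟨by rw [hindex]; exact hp.ne_zero⟩
  have hfinQ : Finite (Additive (Fˣ ⧸ normSubgroup F (fixedField N))) :=
    inferInstanceAs (Finite (Fˣ ⧸ normSubgroup F (fixedField N)))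
  have hcardQ' : Nat.card (Additive (Fˣ ⧸ normSubgroup F (fixedField N))) = p := by
    rw [← hindex, Subgroup.index_eq_card]
    rfl
  -- the layer lemma
  let ψ : Additive Fˣ →+ Additive Eˣ := MonoidHom.toAdditive (Units.map (algebraMap F E : F →* E))
  let π : Additive Fˣ →+ Additive (Fˣ ⧸ normSubgroup F (fixedField N)) :=
    MonoidHom.toAdditive (QuotientGroup.mk' (normSubgroup F (fixedField N)))
  obtain ⟨hfin, hdvd⟩ := Fermat.Agent.S55.CFT.H58.card_H2_dvd (unitsRep F E) N c hc h1
    (Additive Fˣ) ψ
    (fun u g => by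
      show Additive.ofMul (Units.map (g : E →* E)
        (Units.map (algebraMap F E : F →* E) u.toMul)) =
        Additive.ofMul (Units.map (algebraMap F E : F →* E) u.toMul)
      apply congrArg Additive.ofMul
      apply Units.ext
      simp)
    (fun a ha => by
      obtain ⟨v, hv⟩ := exists_unit_of_fixed (F := F) (Additive.toMul a) (fun g => by
        have := ha g
        exact congrArg Additive.toMul this)
      exact ⟨Additive.ofMul v, congrArg Additive.ofMul hv⟩)
    (Additive (Fˣ ⧸ normSubgroup F (fixedField N))) π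
    (fun u hu => by
      have hu' : (QuotientGroup.mk' (normSubgroup F (fixedField N))) u.toMul = 1 := hu
      rw [QuotientGroup.mk'_apply, QuotientGroup.eq_one_iff] at hu'
      obtain ⟨m, hm⟩ := hu'
      obtain ⟨f, hf1, hf2⟩ := exists_invFun_of_norm N m
      refine ⟨fun x => Additive.ofMul (f x), fun g => ?_, ?_⟩
      · funext x
        exact congrArg Additive.ofMul (hf1 g x)
      · show Additive.ofMul (Units.map (algebraMap F E : F →* E) u.toMul) =
          ∑ x, Additive.ofMul (f x)
        rw [← ofMul_prod, hf2, hm])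
  refine ⟨hfin, ?_⟩
  have hpos : 0 < Nat.card (groupCohomology (Rep.res N.subtype (unitsRep F E)) 2) :=
    Nat.card_pos
  have h3 := Nat.le_of_dvd (Nat.mul_pos (by rw [hcardQ']; exact hp.pos) hpos) hdvd
  rw [hcardQ', Nat.card_congr e2.toEquiv] at h3
  exact h3

end Layer

section Induction

/-- The induction over the base field (with `E` fixed). -/
theorem localH2Le_aux (q : ℕ) [Fact q.Prime] (p : ℕ) [Fact p.Prime] (E : Type) [Field E]
    (n : ℕ) :
    ∀ (F : Type) [Field F] [Algebra ℚ_[q] F] [FiniteDimensional ℚ_[q] F] [Algebra F E]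
      [FiniteDimensional F E] [IsGalois F E],
      IsPGroup p (E ≃ₐ[F] E) → Nat.card (E ≃ₐ[F] E) = n →
      Finite (groupCohomology (unitsRep F E) 2) ∧
        Nat.card (groupCohomology (unitsRep F E) 2) ≤ Module.finrank F E := by
  induction n using Nat.strong_induction_on with
  | _ n ih =>
    intro F _ _ _ _ _ _ hP hcard
    have hp : p.Prime := Fact.out
    obtain ⟨e, he⟩ := (IsPGroup.iff_card (p := p) (G := (E ≃ₐ[F] E))).mp hP
    rcases Nat.eq_zero_or_pos e with rfl | hepos
    · -- trivial group
      have hsub : Subsingleton (E ≃ₐ[F] E) := by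
        rw [pow_zero] at he
        exact (Nat.card_eq_one_iff_unique.mp he).1
      have hz : IsZero (groupCohomology (unitsRep F E) 2) :=
        isZero_groupCohomology_succ_of_subsingleton (unitsRep F E) 1
      have hs : Subsingleton (groupCohomology (unitsRep F E) 2) :=
        ModuleCat.subsingleton_of_isZero hz
      refine ⟨inferInstance, ?_⟩
      rw [Nat.card_unique]
      exact Module.finrank_pos
    · obtain ⟨e', rfl⟩ : ∃ e', e = e' + 1 := ⟨e - 1, by omega⟩
      -- a subgroup of index `p`
      obtain ⟨N, hN⟩ := Sylow.exists_subgroup_card_pow_prime (G := (E ≃ₐ[F] E)) p (n := e')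
        (by rw [he]; exact pow_dvd_pow p (Nat.le_succ e'))
      have hidx : N.index = p := by
        have h1 := N.card_mul_index
        rw [hN, he, pow_succ] at h1
        exact Nat.eq_of_mul_eq_mul_left (pow_pos hp.pos e') h1
      have hnorm : N.Normal := by
        apply Subgroup.normal_of_index_eq_minFac_card
        rw [hidx, he, hp.pow_minFac (Nat.succ_ne_zero e')]
      -- the field `M = E^N` as a finite extension of `ℚ_q`
      let algM : Algebra ℚ_[q] (fixedField N) :=
        ((algebraMap F (fixedField N)).comp (algebraMap ℚ_[q] F)).toAlgebra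
      have tower : IsScalarTower ℚ_[q] F (fixedField N) :=
        IsScalarTower.of_algebraMap_eq (fun _ => rfl)
      have fdM : FiniteDimensional ℚ_[q] (fixedField N) := FiniteDimensional.trans ℚ_[q] F _
      have hPM : IsPGroup p (E ≃ₐ[fixedField N] E) :=
        (hP.to_subgroup N).of_equiv (subgroupEquivGal N)
      have hcardM : Nat.card (E ≃ₐ[fixedField N] E) = p ^ e' := by
        rw [← Nat.card_congr (subgroupEquivGal N).toEquiv, hN]
      obtain ⟨hfinM, hleM⟩ := ih (p ^ e')
        (by rw [← hcard, he]; exact Nat.pow_lt_pow_right hp.one_lt (Nat.lt_succ_self e'))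
        (fixedField N) hPM hcardM
      obtain ⟨hfin, hle⟩ := card_H2_le_layer q p hp N hidx
      refine ⟨hfin, hle.trans ?_⟩
      have h2 : Module.finrank (fixedField N) E = p ^ e' := by
        rw [IntermediateField.finrank_fixedField_eq_card, hN]
      have h3 : Module.finrank F E = p ^ (e' + 1) := by
        rw [← IsGalois.card_aut_eq_finrank, he]
      rw [h3, pow_succ, mul_comm (p ^ e') p]
      rw [h2] at hleM
      exact Nat.mul_le_mul_left p hleM

end Induction

/-- **LOC-4b**: the second inequality for local `p`-extensions. -/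
theorem stmt_LocalH2Le : Stmt_LocalH2Le := by
  intro q _ p _ F E _ _ _ _ _ _ _ hP
  exact localH2Le_aux q p E _ F hP rfl

end Fermat.Agent.S55.CFT.LOC.H58
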