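import Fermat.Agent.S55.CFT.LOC.H72_FundResAbs
import Fermat.Agent.S55.CFT.LOC.H58_H2Le
import Fermat.Agent.S55.CFT.LOC.Defs_FC
import Fermat.Agent.S55.CFT.H13_TateFinal

/-!
# S55/E4 island LOC, packages LOC-4g and LOC-4' (helper72)

* `stmt_LocalFundClass_of : Stmt_LocalH2CyclicP → Stmt_LocalFundClass` (LOC-4g): for a Galois
  `p`-extension `E/F` of local fields with group `G`, a generator `γ` of `H²(G, Eˣ)` restricts
  to a generator of `H²(H, Eˣ)` (of order `#H`) for every subgroup `H`.
* `stmt_LocalH3_of : Stmt_LocalFundClass → Stmt_LocalH3` (LOC-4'): `H³(G, Eˣ) = 0`, by Tate's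
  theorem (TN-2, helper13) and Hilbert 90.

Transport to the fixed fields: helper58's `H58.resIso`; abstract induction:
`H72.res_surjective_of_fundHyp` (`LOC/H72_FundResAbs.lean`).
-/

set_option autoImplicit false
set_option linter.unusedSectionVars false

noncomputable section

namespace Fermat.Agent.S55.CFT.LOC.H72

open CategoryTheory CategoryTheory.Limits groupCohomology Rep IntermediateField

/-- Hilbert 90 for every subgroup of the Galois group. -/
theorem subsingleton_H1_resSub {F E : Type} [Field F] [Field E] [Algebra F E]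
    [FiniteDimensional F E] (H : Subgroup (E ≃ₐ[F] E)) :
    Subsingleton (groupCohomology (resSub (unitsRep F E) H) 1) := by
  have hU : Subsingleton (groupCohomology (unitsRep (fixedField H) E) 1) :=
    (groupCohomology.H1ofAutOnUnitsUnique (fixedField H) E).instSubsingleton
  exact (H58.resIso H 1).toLinearEquiv.toEquiv.subsingleton

/-- The units of a local Galois `p`-extension satisfy `FundHyp`, given LOC-4f'. -/
theorem fundHyp_unitsRep (hC : Stmt_LocalH2CyclicP) (q : ℕ) [Fact q.Prime] (p : ℕ)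
    [Fact p.Prime] (F E : Type) [Field F] [Field E] [Algebra ℚ_[q] F]
    [FiniteDimensional ℚ_[q] F] [Algebra F E] [FiniteDimensional F E] [IsGalois F E]
    (hP : IsPGroup p (E ≃ₐ[F] E)) : FundHyp (unitsRep F E) := by
  intro K _ φ hφ
  -- the fixed field of the image, as a finite extension of `ℚ_q`
  let algM : Algebra ℚ_[q] (fixedField φ.range) :=
    ((algebraMap F (fixedField φ.range)).comp (algebraMap ℚ_[q] F)).toAlgebra
  have tower : IsScalarTower ℚ_[q] F (fixedField φ.range) :=
    IsScalarTower.of_algebraMap_eq (fun _ => rfl)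
  have fdM : FiniteDimensional ℚ_[q] (fixedField φ.range) := FiniteDimensional.trans ℚ_[q] F _
  have hPM : IsPGroup p (E ≃ₐ[fixedField φ.range] E) :=
    (hP.to_subgroup φ.range).of_equiv (H58.subgroupEquivGal φ.range)
  obtain ⟨hcard, γ, hγ⟩ := hC q p (fixedField φ.range) E hPM
  have I1 : ∀ n, groupCohomology (res φ (unitsRep F E)) n ≃ₗ[ℤ]
      groupCohomology (unitsRep (fixedField φ.range) E) n := fun n =>
    (rangeIso (unitsRep F E) φ hφ n ≪≫ H58.resIso φ.range n).toLinearEquiv
  refine ⟨?_, ?_, ?_⟩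
  · have hU : Subsingleton (groupCohomology (unitsRep (fixedField φ.range) E) 1) :=
      (groupCohomology.H1ofAutOnUnitsUnique (fixedField φ.range) E).instSubsingleton
    exact (I1 1).toEquiv.subsingleton
  · rw [Nat.card_congr (I1 2).toEquiv, hcard, IntermediateField.finrank_fixedField_eq_card]
    exact Nat.card_congr (MonoidHom.ofInjective hφ).toEquiv.symm
  · refine ⟨(I1 2).symm γ, fun x => ?_⟩
    obtain ⟨n, hn⟩ := hγ ((I1 2) x)
    refine ⟨n, ?_⟩
    rw [← map_zsmul, ← hn, LinearEquiv.symm_apply_apply]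

/-- **LOC-4g**: the local fundamental class on `p`-extensions, from LOC-4f'. -/
theorem stmt_LocalFundClass_of (hC : Stmt_LocalH2CyclicP) : Stmt_LocalFundClass := by
  intro q _ p _ F E _ _ _ _ _ _ _ hP
  have hA := fundHyp_unitsRep hC q p F E hP
  obtain ⟨-, -, γ, hγ⟩ := hA (E ≃ₐ[F] E) (MonoidHom.id _) Function.injective_id
  refine ⟨γ, fun H => ?_⟩
  obtain ⟨-, hcard, -⟩ := hA H H.subtype H.subtype_injective
  refine ⟨hcard, fun x => ?_⟩
  have hs := res_surjective_of_fundHyp p _ (E ≃ₐ[F] E) rfl hP (unitsRep F E) hA H H.subtype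
    H.subtype_injective
  obtain ⟨y, rfl⟩ := hs x
  obtain ⟨n, rfl⟩ := hγ y
  exact ⟨n, map_zsmul _ _ _⟩

/-- **LOC-4'**: `H³(Gal(E/F), Eˣ) = 0` for local `p`-extensions, from LOC-4. -/
theorem stmt_LocalH3_of (hFC : Stmt_LocalFundClass) : Stmt_LocalH3 := by
  intro q _ p _ F E _ _ _ _ _ _ _ hP
  obtain ⟨γ, hγ⟩ := hFC q p F E hP
  have h3 := H13.stmt_TateH3 (E ≃ₐ[F] E) (unitsRep F E) γ
    (fun H => subsingleton_H1_resSub H) hγ ⊤
  have hb := map_bijective_of_bijective (unitsRep F E) (⊤ : Subgroup (E ≃ₐ[F] E)).subtype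
    ⟨Subtype.val_injective, fun g => ⟨⟨g, Subgroup.mem_top g⟩, rfl⟩⟩ 3
  exact hb.1.subsingleton

end Fermat.Agent.S55.CFT.LOC.H72
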