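/-
S55/E4 island LOC, package LOC-4 (helper68): the unconditional statements
`Stmt_LocalH2CyclicP`, `Stmt_LocalFundClass`, `Stmt_LocalH3`, `Stmt_BrauerPTors`.
(`H58.stmt_LocalH2Le` + `H68.stmt_LocalH2Order` ⟹ cyclic of order `[E:F]`; then helper72's
`H72.stmt_LocalFundClass_of`, `H72.stmt_LocalH3_of`, `H72.stmt_BrauerPTors_of`.)
-/
import Fermat.Agent.S55.CFT.LOC.H68_H2Order2
import Fermat.Agent.S55.CFT.LOC.H58_H2Le
import Fermat.Agent.S55.CFT.LOC.H72_FundRes
import Fermat.Agent.S55.CFT.LOC.H72_BrauerPTors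

set_option autoImplicit false
set_option linter.unusedSectionVars false
set_option linter.style.haveILetI false
set_option linter.unusedVariables false

namespace Fermat.Agent.S55.CFT.LOC.H68

open Fermat.Agent.S55.CFT.LOC Fermat.Agent.S55.CFT groupCohomology

/-- a finite abelian group of order `≤ n` with an element of order divisible by `n` is cyclic
of order `n`, generated by that element -/
theorem cyclic_of_card_le_of_order {X : Type} [AddCommGroup X] [Finite X] (n : ℕ) (hn : 0 < n)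
    (hle : Nat.card X ≤ n) (γ : X) (hγ : ∀ k : ℤ, k • γ = 0 → (n : ℤ) ∣ k) :
    Nat.card X = n ∧ ∀ x : X, ∃ m : ℤ, x = m • γ := by
  classical
  have hord : n ∣ addOrderOf γ := by
    have h := hγ (addOrderOf γ : ℤ) (by rw [natCast_zsmul]; exact addOrderOf_nsmul_eq_zero γ)
    exact_mod_cast h
  have hpos : 0 < addOrderOf γ := addOrderOf_pos γ
  have h1 : n ≤ addOrderOf γ := Nat.le_of_dvd hpos hord
  have h2 : addOrderOf γ ≤ Nat.card X := addOrderOf_le_card
  have hcard : Nat.card X = n := le_antisymm hle (le_trans h1 h2)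
  have hordeq : addOrderOf γ = Nat.card X := le_antisymm h2 (by rw [hcard]; exact h1)
  refine ⟨hcard, fun x => ?_⟩
  have htop : AddSubgroup.zmultiples γ = ⊤ := by
    apply AddSubgroup.eq_top_of_card_eq
    rw [Nat.card_zmultiples, hordeq]
  have hx : x ∈ AddSubgroup.zmultiples γ := by rw [htop]; exact AddSubgroup.mem_top x
  obtain ⟨m, hm⟩ := AddSubgroup.mem_zmultiples_iff.1 hx
  exact ⟨m, hm.symm⟩

/-- **LOC-4f'**: `H²(Gal(E/F), Eˣ)` is cyclic of order `[E:F]` for `p`-extensions. -/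
theorem stmt_LocalH2CyclicP : Stmt_LocalH2CyclicP := by
  intro q _ p _ F E _ _ _ _ _ _ _ hp
  obtain ⟨hfin, hle⟩ := H58.stmt_LocalH2Le q p F E hp
  obtain ⟨γ, hγ⟩ := stmt_LocalH2Order q F E
  haveI := hfin
  obtain ⟨h1, h2⟩ := cyclic_of_card_le_of_order (Module.finrank F E) Module.finrank_pos hle γ hγ
  exact ⟨h1, γ, h2⟩

/-- **LOC-4**: the local fundamental class on `p`-extensions. -/
theorem stmt_LocalFundClass : Stmt_LocalFundClass :=
  H72.stmt_LocalFundClass_of stmt_LocalH2CyclicP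

/-- **LOC-4'**: `H³(Gal(E/F), Eˣ) = 0` for `p`-extensions. -/
theorem stmt_LocalH3 : Stmt_LocalH3 :=
  H72.stmt_LocalH3_of stmt_LocalFundClass

/-- **L5-H2a**: the `p`-torsion of `H²(Gal(E/F), Eˣ)` is cyclic. -/
theorem stmt_BrauerPTors : Stmt_BrauerPTors :=
  H72.stmt_BrauerPTors_of stmt_LocalH2CyclicP

end Fermat.Agent.S55.CFT.LOC.H68
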