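import Fermat.Agent.S55.CFT.LOC.H72_H2DimB
import Fermat.Agent.S55.CFT.LOC.H68_FundClass

/-!
# S55/E4 island LOC, package L5-H2 (helper72): `dim H²(F, 𝔽_p) ≤ 1`, unconditional

`stmt_L5_H2Dim : Stmt_L5_H2Dim`, from `H72.stmt_L5_H2Dim_of` and helper68's unconditional
`H68.stmt_BrauerPTors`.
-/

set_option autoImplicit false

namespace Fermat.Agent.S55.CFT.LOC.H72

/-- **L5-H2**: `dim H²(F, 𝔽_p) ≤ 1` at the local groups. -/
theorem stmt_L5_H2Dim : Stmt_L5_H2Dim := stmt_L5_H2Dim_of H68.stmt_BrauerPTors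

end Fermat.Agent.S55.CFT.LOC.H72
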