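/-
S55/E4 island LOC, package LOC-5 (helper5): **`Top.Stmt_I1`, unconditional.**
All leaves: `H5.stmt_L5_Krasner`, `H45P.stmt_L5_Places`, `H45.stmt_L5_Kummer`,
`H68.stmt_L5_CupND`, `H72.stmt_L5_H2Dim`, `H72.stmt_LocalPowIndex`; assembly `H5.stmt_I1_of`.
-/
import Fermat.Agent.S55.CFT.LOC.H5_L5Asm2
import Fermat.Agent.S55.CFT.LOC.H45_Places
import Fermat.Agent.S55.CFT.LOC.H68_CupND
import Fermat.Agent.S55.CFT.LOC.H72_H2DimFinal

set_option autoImplicit false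

namespace Fermat.Agent.S55.CFT.LOC.H5

/-- **LOC-5 = I1**: the local inputs of the `K`-level counting argument. -/
theorem stmt_I1 : Top.Stmt_I1 :=
  stmt_I1_of' H45P.stmt_L5_Places H68.stmt_L5_CupND H72.stmt_L5_H2Dim

end Fermat.Agent.S55.CFT.LOC.H5
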