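import Fermat.Agent.S55.CFT.H24_InfRes2
import Fermat.Agent.S55.CFT.H58_TwinInd

/-!
# S55/E4 island LOC, package LOC-4g (helper72), abstract part

For a finite `p`-group `G` and `A : Rep ℤ G` such that, on every group `K` mapping injectively to
`G`, `H¹(K, A) = 0` and `H²(K, A)` is cyclic of order `#K` (`FundHyp A`), every restriction map
`H²(G, A) → H²(K, A)` is surjective (`res_surjective_of_fundHyp`).

Route (no corestriction): for `N` normal in `G`, a class `x` with `res x = 0` is inflated from
`G ⧸ N` (helper24, `H24.res₂_eq_zero_iff`), hence killed by `[G : N]` (the order of a finite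
group kills its cohomology: helper58, `H58.index_smul_eq_zero`); in the cyclic group `H²(G, A)`
at most `[G : N]` elements are killed by `[G : N]`, so the image of `res` has at least
`#G / [G : N] = #N = #H²(N, A)` elements.  Then induction along a chain of index-`p` normal
subgroups.
-/

set_option autoImplicit false
set_option linter.unusedSectionVars false

noncomputable section

namespace Fermat.Agent.S55.CFT.LOC.H72

open CategoryTheory CategoryTheory.Limits groupCohomology Rep

/-- The order of a finite group kills its cohomology in degree 2. -/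
theorem card_nsmul_H2 {Q : Type} [Group Q] [Finite Q] (B : Rep.{0} ℤ Q)
    (y : groupCohomology B 2) : Nat.card Q • y = 0 := by
  have h := Fermat.Agent.S55.CFT.H58.index_smul_eq_zero B (⊥ : Subgroup Q) 2
    (isZero_groupCohomology_succ_of_subsingleton _ 1) y
  rwa [Subgroup.index_bot] at h

/-- A class in `H²(G, A)` whose restriction to the normal subgroup `S` (of finite index, with
`H¹(S, A) = 0`) vanishes is killed by the index of `S`. -/
theorem index_nsmul_eq_zero_of_res {G : Type} [Group G] [Finite G] (A : Rep.{0} ℤ G)
    (S : Subgroup G) [S.Normal]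
    (h1 : Subsingleton (groupCohomology (res S.subtype A) 1)) (x : groupCohomology A 2)
    (hx : Fermat.Agent.S55.CFT.H24.res₂ A S x = 0) : S.index • x = 0 := by
  obtain ⟨y, rfl⟩ := (Fermat.Agent.S55.CFT.H24.res₂_eq_zero_iff A S h1 x).1 hx
  have hy := card_nsmul_H2 (A.quotientToInvariants S) y
  rw [← Subgroup.index_eq_card] at hy
  rw [← map_nsmul, hy, map_zero]

/-- In a finite cyclic additive group at most `d` elements are killed by `d > 0`. -/
theorem card_le_of_forall_nsmul_eq_zero {X : Type} [AddCommGroup X] [Finite X]
    (hcyc : ∃ γ : X, ∀ x : X, ∃ n : ℤ, x = n • γ) (K : AddSubgroup X) (d : ℕ) (hd : 0 < d)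
    (hK : ∀ x ∈ K, d • x = 0) : Nat.card K ≤ d := by
  classical
  let _ : Fintype X := Fintype.ofFinite X
  have : IsAddCyclic X := by
    obtain ⟨γ, hγ⟩ := hcyc
    exact ⟨⟨γ, fun x => by
      obtain ⟨n, rfl⟩ := hγ x
      exact ⟨n, rfl⟩⟩⟩
  have h1 := IsAddCyclic.card_nsmul_eq_zero_le (α := X) hd
  have h2 : Nat.card K ≤ (Finset.univ.filter (fun a : X => d • a = 0)).card := by
    rw [Nat.card_eq_fintype_card, ← Finset.card_univ]
    apply Finset.card_le_card_of_injOn (fun k : K => (k : X))
    · intro k _
      rw [Finset.mem_coe, Finset.mem_filter]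
      exact ⟨Finset.mem_univ _, hK k k.2⟩
    · intro a _ b _ hab
      exact Subtype.ext hab
  exact h2.trans h1

/-- **Normal step.**  If `S` is normal in the finite group `G`, `H¹(S, A) = 0`, `H²(G, A)` is
cyclic of order `#G` and `H²(S, A)` has order `#S`, then restriction
`H²(G, A) → H²(S, A)` is surjective. -/
theorem res_surjective_of_normal {G : Type} [Group G] [Finite G] (A : Rep.{0} ℤ G)
    (S : Subgroup G) [S.Normal]
    (h1 : Subsingleton (groupCohomology (res S.subtype A) 1))
    (hG : Nat.card (groupCohomology A 2) = Nat.card G)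
    (hcyc : ∃ γ : groupCohomology A 2, ∀ x : groupCohomology A 2, ∃ n : ℤ, x = n • γ)
    (hS : Nat.card (groupCohomology (res S.subtype A) 2) = Nat.card S) :
    Function.Surjective (Fermat.Agent.S55.CFT.H24.res₂ A S) := by
  classical
  have hfinX : Finite (groupCohomology A 2) :=
    Nat.finite_of_card_ne_zero (by rw [hG]; exact Nat.card_pos.ne')
  have hfinY : Finite (groupCohomology (res S.subtype A) 2) :=
    Nat.finite_of_card_ne_zero (by rw [hS]; exact Nat.card_pos.ne')
  set f : groupCohomology A 2 →+ groupCohomology (res S.subtype A) 2 :=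
    (Fermat.Agent.S55.CFT.H24.res₂ A S).hom.toAddMonoidHom with hf
  have hidx : 0 < S.index := Nat.pos_of_ne_zero Subgroup.index_ne_zero_of_finite
  have hker : Nat.card f.ker ≤ S.index := by
    apply card_le_of_forall_nsmul_eq_zero hcyc f.ker S.index hidx
    intro x hx
    exact index_nsmul_eq_zero_of_res A S h1 x (AddMonoidHom.mem_ker.1 hx)
  have hmul : Nat.card f.ker * Nat.card f.range = Nat.card (groupCohomology A 2) := by
    rw [← AddSubgroup.index_ker]
    exact AddSubgroup.card_mul_index _
  have hle : Nat.card S ≤ Nat.card f.range := by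
    have h2 : Nat.card S * S.index = Nat.card G := S.card_mul_index
    have h3 : Nat.card S * S.index ≤ S.index * Nat.card f.range := by
      rw [h2, ← hG, ← hmul]
      exact Nat.mul_le_mul_right _ hker
    rw [mul_comm] at h3
    exact Nat.le_of_mul_le_mul_left h3 hidx
  have htop : f.range = ⊤ := AddSubgroup.eq_top_of_le_card _ (by rw [hS]; exact hle)
  intro y
  have hy : y ∈ f.range := by rw [htop]; exact AddSubgroup.mem_top y
  obtain ⟨x, hx⟩ := hy
  exact ⟨x, hx⟩

/-! ### Transport along a bijective homomorphism -/

/-- Restriction along a bijective homomorphism is bijective on cohomology. -/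
theorem map_bijective_of_bijective {G K : Type} [Group G] [Group K] (A : Rep.{0} ℤ G)
    (φ : K →* G) (hφ : Function.Bijective φ) (n : ℕ) :
    Function.Bijective (map φ (𝟙 (res φ A)) n) := by
  let e : K ≃* G := MulEquiv.ofBijective φ hφ
  let I := mapIso (B := res φ A) (A := A) e (@LinearEquiv.refl ℤ A.V _ _ A.hV2)
    (fun _ => rfl) n
  have hI : I.inv = map φ (𝟙 (res φ A)) n := by
    apply groupCohomology.map_congr
    · ext k
      rfl
    · rfl
  rw [← hI]
  exact I.symm.toLinearEquiv.bijective

/-- Restriction along a bijective homomorphism is surjective on cohomology. -/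
theorem map_surjective_of_bijective {G K : Type} [Group G] [Group K] (A : Rep.{0} ℤ G)
    (φ : K →* G) (hφ : Function.Bijective φ) (n : ℕ) :
    Function.Surjective (map φ (𝟙 (res φ A)) n) :=
  (map_bijective_of_bijective A φ hφ n).2

/-- Transport of cohomology from a group `K` embedded in `G` to its image. -/
def rangeIso {G K : Type} [Group G] [Group K] (A : Rep.{0} ℤ G) (φ : K →* G)
    (hφ : Function.Injective φ) (n : ℕ) :
    groupCohomology (res φ A) n ≅ groupCohomology (res φ.range.subtype A) n :=
  mapIso (B := res φ A) (A := res φ.range.subtype A) (MonoidHom.ofInjective hφ)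
    (@LinearEquiv.refl ℤ A.V _ _ A.hV2) (fun _ => rfl) n

/-! ### The hypothesis and the induction -/

/-- The hypothesis of the fundamental class theorem, in homomorphism form: on every group
mapping injectively to `G`, `H¹` vanishes and `H²` is cyclic of the order of the group. -/
def FundHyp {G : Type} [Group G] (A : Rep.{0} ℤ G) : Prop :=
  ∀ (K : Type) [Group K] (φ : K →* G), Function.Injective φ →
    Subsingleton (groupCohomology (res φ A) 1) ∧
    Nat.card (groupCohomology (res φ A) 2) = Nat.card K ∧
    ∃ γ : groupCohomology (res φ A) 2, ∀ x : groupCohomology (res φ A) 2, ∃ n : ℤ, x = n • γ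

theorem FundHyp.res {G : Type} [Group G] {A : Rep.{0} ℤ G} (h : FundHyp A) {K : Type}
    [Group K] (φ : K →* G) (hφ : Function.Injective φ) : FundHyp (res φ A) :=
  fun L _ ψ hψ => h L (φ.comp ψ) (hφ.comp hψ)

/-- **LOC-4g, abstract form**: under `FundHyp`, restriction to any subgroup is surjective on
`H²`, for finite `p`-groups. -/
theorem res_surjective_of_fundHyp (p : ℕ) [Fact p.Prime] :
    ∀ (m : ℕ) (G : Type) [Group G] [Finite G], Nat.card G = m → IsPGroup p G →
      ∀ A : Rep.{0} ℤ G, FundHyp A → ∀ (K : Type) [Group K] (φ : K →* G),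
        Function.Injective φ → Function.Surjective (map φ (𝟙 (res φ A)) 2) := by
  intro m
  induction m using Nat.strong_induction_on with
  | _ m ih =>
    intro G _ _ hcard hP A hA K _ φ hφ
    have hp : p.Prime := Fact.out
    by_cases hsurj : Function.Surjective φ
    · exact map_surjective_of_bijective A φ ⟨hφ, hsurj⟩ 2
    · -- the image is a proper subgroup
      obtain ⟨e, he⟩ := (IsPGroup.iff_card (p := p) (G := G)).mp hP
      have hPH : IsPGroup p φ.range := hP.to_subgroup _
      obtain ⟨n, hn⟩ := (IsPGroup.iff_card (p := p) (G := φ.range)).mp hPH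
      have hne : φ.range ≠ ⊤ := fun h => hsurj (MonoidHom.range_eq_top.1 h)
      have hlt : n < e := by
        by_contra hcon
        rw [not_lt] at hcon
        apply hne
        apply Subgroup.eq_top_of_le_card
        rw [hn, he]
        exact Nat.pow_le_pow_right hp.pos hcon
      obtain ⟨e', rfl⟩ : ∃ e', e = e' + 1 := ⟨e - 1, by omega⟩
      obtain ⟨N, hN, hHN⟩ := Sylow.exists_subgroup_card_pow_prime_le (G := G) p (m := e')
        (by rw [he]; exact pow_dvd_pow p (Nat.le_succ e')) φ.range hn (by omega)
      have hidx : N.index = p := by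
        have h1 := N.card_mul_index
        rw [hN, he, pow_succ] at h1
        exact Nat.eq_of_mul_eq_mul_left (pow_pos hp.pos e') h1
      have hnorm : N.Normal := by
        apply Subgroup.normal_of_index_eq_minFac_card
        rw [hidx, he, hp.pow_minFac (Nat.succ_ne_zero e')]
      -- factor `φ` through `N`
      let φ' : K →* N := φ.codRestrict N (fun k => hHN ⟨k, rfl⟩)
      have hφ' : Function.Injective φ' := by
        intro a b hab
        exact hφ (congrArg Subtype.val hab)
      -- the two steps
      have hstep1 : Function.Surjective (map N.subtype (𝟙 (res N.subtype A)) 2) := by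
        obtain ⟨-, hG2, hG3⟩ := hA G (MonoidHom.id G) Function.injective_id
        obtain ⟨hN1, hN2, -⟩ := hA N N.subtype N.subtype_injective
        exact res_surjective_of_normal A N hN1 hG2 hG3 hN2
      have hstep2 : Function.Surjective
          (map φ' (𝟙 (res φ' (res N.subtype A))) 2) :=
        ih (p ^ e') (by rw [← hcard, he]; exact Nat.pow_lt_pow_right hp.one_lt (Nat.lt_succ_self e'))
          N hN (hP.to_subgroup N) (res N.subtype A) (hA.res N.subtype N.subtype_injective)
          K φ' hφ'
      have hcomp : map φ (𝟙 (res φ A)) 2 =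
          map N.subtype (𝟙 (res N.subtype A)) 2 ≫ map φ' (𝟙 (res φ' (res N.subtype A))) 2 := by
        rw [← map_comp]
        apply groupCohomology.map_congr
        · rfl
        · rfl
      rw [hcomp]
      intro y
      obtain ⟨x, hx⟩ := hstep2 y
      obtain ⟨w, hw⟩ := hstep1 x
      refine ⟨w, ?_⟩
      have h3 : (map N.subtype (𝟙 (res N.subtype A)) 2 ≫
          map φ' (𝟙 (res φ' (res N.subtype A))) 2) w =
          (map φ' (𝟙 (res φ' (res N.subtype A))) 2)
            ((map N.subtype (𝟙 (res N.subtype A)) 2) w) := rfl
      exact h3.trans ((congrArg _ hw).trans hx)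

end Fermat.Agent.S55.CFT.LOC.H72
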