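/-
S55/E4 island LOC, package LOC-4c' (helper24): exactness of inflation–restriction at
`H²(Γ, A)` in the shape `InfData` (explicit cocycles, no quotient groups).
Adapts the three-stage cocycle modification of `CFT/H24_InfRes2.lean`
(via `Rep.ofDistribMulAction ℤ Γ A` and `S = ker π`).
-/
import Fermat.Agent.S55.CFT.LOC.Defs_FC
import Fermat.Agent.S55.CFT.H24_InfRes2

set_option autoImplicit false

open groupCohomology

namespace Fermat.Agent.S55.CFT.LOC.H24

open Fermat.Agent.S55.CFT.H24 in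
/-- Exactness of inflation–restriction at `H²(Γ, R)` for `R : Rep ℤ Γ`, with the quotient
presented by a surjection `π : Γ ↠ Q` and the invariants by an embedding `ι : B ↪ R`. -/
theorem infResExact_rep {Γ Q B : Type} [Group Γ] [Group Q] [AddCommGroup B]
    [DistribMulAction Q B] (R : Rep ℤ Γ) (π : Γ →* Q) (ι : B →+ R)
    (surj : Function.Surjective π) (inj : Function.Injective ι)
    (equiv : ∀ (g : Γ) (b : B), ι (π g • b) = R.ρ g (ι b))
    (image : ∀ a : R, (∀ n : Γ, π n = 1 → R.ρ n a = a) → ∃ b : B, ι b = a)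
    (h1 : ∀ f : Γ → R, (∀ n n' : Γ, π n = 1 → π n' = 1 → f (n * n') = R.ρ n (f n') + f n) →
      ∃ a : R, ∀ n : Γ, π n = 1 → R.ρ n a - a = f n)
    (c' : Γ × Γ → R) (hf : IsCoc R c') (z : Γ → R)
    (hz : ∀ n n' : Γ, π n = 1 → π n' = 1 → R.ρ n (z n') - z (n * n') + z n = c' (n, n')) :
    ∃ c : Q × Q → B, IsCocycle₂ c ∧
      ∃ x : Γ → R, ∀ g h : Γ,
        c' (g, h) = ι (c (π g, π h)) + (R.ρ g (x h) - x (g * h) + x g) := by
  classical
  let S : Subgroup Γ := π.ker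
  have hmem : ∀ g : Γ, g ∈ S ↔ π g = 1 := fun g => MonoidHom.mem_ker
  -- `H¹(S, A) = 0`
  have hH1 : H1Vanishes R S := by
    intro c hc
    obtain ⟨a, ha⟩ := h1 (fun g => if h : g ∈ S then c ⟨g, h⟩ else 0) (by
      intro n n' hn hn'
      have hnS : n ∈ S := (hmem n).2 hn
      have hn'S : n' ∈ S := (hmem n').2 hn'
      simp only [dif_pos hnS, dif_pos hn'S, dif_pos (S.mul_mem hnS hn'S)]
      exact hc ⟨n, hnS⟩ ⟨n', hn'S⟩)
    refine ⟨a, fun s => ?_⟩
    have := ha s ((hmem _).1 s.2)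
    simp only [dif_pos s.2] at this
    exact this.symm
  -- stage 1
  set b₁ : Γ → R := fun g => if π g = 1 then -z g else 0 with hb₁
  have hf₁ : IsCoc R (c' + dB R b₁) := hf.add (isCoc_dB b₁)
  have h1' : ∀ s ∈ S, ∀ t ∈ S, (c' + dB R b₁) (s, t) = 0 := by
    intro s hs t ht
    have hs' := (hmem s).1 hs
    have ht' := (hmem t).1 ht
    have hst' : π (s * t) = 1 := (hmem _).1 (S.mul_mem hs ht)
    have := hz s t hs' ht'
    simp only [Pi.add_apply, dB, hb₁, if_pos hs', if_pos ht', if_pos hst', map_neg]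
    rw [← this]
    abel
  -- stage 2
  obtain ⟨b₂, h2⟩ := stage2 S hf₁ h1'
  have hf₂ : IsCoc R (c' + dB R b₁ + dB R b₂) := hf₁.add (isCoc_dB b₂)
  -- stage 3
  obtain ⟨b₃, h3, h3'⟩ := stage3 S hH1 hf₂ h2
  have hf₃ : IsCoc R (c' + dB R b₁ + dB R b₂ + dB R b₃) := hf₂.add (isCoc_dB b₃)
  set f₃ : Γ × Γ → R := c' + dB R b₁ + dB R b₂ + dB R b₃ with hf₃def
  -- stage 4
  have h4 := fun x y n (hn : n ∈ S) => stage4 S hf₃ h3 h3' x y hn
  have h4a : ∀ x y n : Γ, π n = 1 → f₃ (x, y * n) = f₃ (x, y) :=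
    fun x y n hn => (h4 x y n ((hmem n).2 hn)).1
  have h4b : ∀ x y n : Γ, π n = 1 → f₃ (x * n, y) = f₃ (x, y) :=
    fun x y n hn => (h4 x y n ((hmem n).2 hn)).2.1
  have h4c : ∀ x y n : Γ, π n = 1 → R.ρ n (f₃ (x, y)) = f₃ (x, y) :=
    fun x y n hn => (h4 x y n ((hmem n).2 hn)).2.2
  -- descend the values to `B`
  choose y hy using fun p : Γ × Γ => image (f₃ p) (fun n hn => h4c p.1 p.2 n hn)
  let s : Q → Γ := Function.surjInv surj
  have hs : ∀ q, π (s q) = q := Function.surjInv_eq surj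
  have hker : ∀ g : Γ, π (g⁻¹ * s (π g)) = 1 := by
    intro g
    rw [map_mul, map_inv, hs, inv_mul_cancel]
  have hsec : ∀ g h : Γ, f₃ (s (π g), s (π h)) = f₃ (g, h) := by
    intro g h
    have e1 : s (π g) = g * (g⁻¹ * s (π g)) := by simp
    have e2 : s (π h) = h * (h⁻¹ * s (π h)) := by simp
    rw [e1, e2, h4a _ _ _ (hker h), h4b _ _ _ (hker g)]
  let c : Q × Q → B := fun p => y (s p.1, s p.2)
  have hιc : ∀ g h : Γ, ι (c (π g, π h)) = f₃ (g, h) := by
    intro g h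
    show ι (y (s (π g), s (π h))) = _
    rw [hy, hsec]
  refine ⟨c, ?_, fun g => -(b₁ g + b₂ g + b₃ g), ?_⟩
  · intro q r t
    obtain ⟨g, rfl⟩ := surj q
    obtain ⟨h, rfl⟩ := surj r
    obtain ⟨j, rfl⟩ := surj t
    apply inj
    rw [map_add, map_add, equiv, ← map_mul, ← map_mul, hιc, hιc, hιc, hιc]
    exact hf₃ g h j
  · intro g h
    rw [hιc]
    simp only [hf₃def, Pi.add_apply, dB, map_neg, map_add]
    abel

/-- **LOC-4c'**: exactness of inflation–restriction at `H²(Γ, A)`, shape `InfData`. -/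
theorem stmt_InfResExact : Stmt_InfResExact := by
  intro Γ Q A B _ _ _ _ _ _ π ι D c' hc' hz
  obtain ⟨z, hz⟩ := hz
  exact infResExact_rep (Rep.ofDistribMulAction ℤ Γ A) π ι D.surj D.inj D.equiv D.image D.h1
    c' hc' z hz

end Fermat.Agent.S55.CFT.LOC.H24
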