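/-
S55/E4 island LOC, package LTO (`Stmt_LocalThetaOnto`, owner helper25): interfaces of the
sub-packages that can be done independently.  Route R25 (tested by helper62):
board note "Route R25 for Stmt_LocalThetaOnto".
-/
import Fermat.Agent.S55.CFT.LOC.Basic
import Fermat.Agent.S55.CFT.Defs_CF

set_option autoImplicit false

namespace Fermat.Agent.S55.CFT.LOC

open Fermat.Agent.S55.CFT

/-- **LTO-N** (the absolute value of a norm, any finite extension, not necessarily Galois):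
`|N_{E/F} y|_F = |y|_E ^ [E : F]`.
(Galois case: `LOC.nrm_norm`.  Route: `Algebra.norm_eq_prod_embeddings` into a normal closure,
and `nrm` is invariant under `ℚ_q`-embeddings because it only depends on the minimal polynomial
over `ℚ_q`; or `Algebra.norm_eq_norm_adjoin` + `spectralNorm_eq_norm_coeff_zero_rpow`.) -/
def Stmt_NrmNormGen : Prop :=
  ∀ (q : ℕ) [Fact q.Prime] (F E : Type) [Field F] [Field E] [Algebra ℚ_[q] F] [Algebra ℚ_[q] E]
    [Algebra F E] [IsScalarTower ℚ_[q] F E] [FiniteDimensional ℚ_[q] F]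
    [FiniteDimensional ℚ_[q] E] (y : E),
    nrm q F (Algebra.norm F y) = nrm q E y ^ Module.finrank F E

/-- **LTO-S** (the local symbol at `p` is onto): `thetaLoc p M p : ℚ_pˣ → (ℤ/p^M)ˣ` is
surjective.  (The unit part of a natural number `a` prime to `p` is `a`.) -/
def Stmt_ThetaLocSurj : Prop :=
  ∀ (p : Nat.Primes) (M : ℕ), Function.Surjective (thetaLoc p M p)

/-- **LTO-C1** (a unit of `ℚ_p(ζ_{p^c})` whose norm is not `≡ 1 mod p^(c+1)`): for `p` odd,
`c ≥ 1` and a finite extension `E` of `ℚ_p` generated by a primitive `p^c`-th root of unity,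
there is `x ∈ Eˣ` with `|x| = 1` and `θ_{c+1}(N_{E/ℚ_p} x) ≠ 1`.
(`E/ℚ_p` is cyclic of degree `φ(p^c)` (`H25.finrank_adjoin_zeta`), so the norm group has index
`φ(p^c)` (`H68.stmt_LocalNormIndexCyclic`), while `ker θ_{c+1}` has index `φ(p^(c+1))` (LTO-S):
some norm `N y` has `θ_{c+1}(N y) ≠ 1`; `x := y / (ζ - 1)^v` with `N(ζ - 1) = p`,
`θ_{c+1}(p) = 1`.) -/
def Stmt_CycUnitTheta : Prop :=
  ∀ (p : Nat.Primes) (c : ℕ) (E : Type) [Field E] [Algebra (Qp p) E]
    [FiniteDimensional (Qp p) E] (ζ : E), (p : ℕ) ≠ 2 → 1 ≤ c →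
    IsPrimitiveRoot ζ ((p : ℕ) ^ c) → IntermediateField.adjoin (Qp p) {ζ} = ⊤ →
    ∃ x : Eˣ, (haveI := fact_primes p; nrm (p : ℕ) E (x : E) = 1) ∧
      thetaLoc p (c + 1) p (Units.map (Algebra.norm (Qp p) : E →* Qp p) x) ≠ 1

end Fermat.Agent.S55.CFT.LOC
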