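/-
S55/E4 island LOC, package LTO (`Stmt_LocalThetaOnto`, owner helper25): the base field `F'`
(leaf LTO-B).
-/
import Fermat.Agent.S55.CFT.LOC.Basic
import Fermat.Agent.S55.CFT.LOC.Defs_LTO

set_option autoImplicit false

namespace Fermat.Agent.S55.CFT.LOC

open Fermat.Agent.S55.CFT

/-- **LTO-B** (the base field): let `F` be a finite extension of `ℚ_p`, `p` odd, containing a
primitive `p^c`-th root of unity `ζ`, `c ≥ 1`.  Then there is an intermediate field `F'` of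
`F/ℚ_p` with `ζ ∈ F'`, with the same residue field as `F`, and with a unit `u` such that
`θ_{c+1}(N_{F'/ℚ_p} u) ≠ 1`.
(Route: `F₁ = ℚ_p(ζ)`, `N₁ = #k_{F₁}`, `N = #k_F = N₁^d` (`H25.resMap`, finite fields);
`ξ ∈ F` a primitive root of unity of order `N - 1` (exists: `H25.finrank_eq` with `n = 1` for
`F(ξ̄) ⊆ AlgebraicClosure F`); `F' = F₁(ξ)` is unramified cyclic over `F₁`
(`H25.isUnram`, `H25.isCyclic_aut`, cyclotomic); `x₁ ∈ F₁` from LTO-C1 (`H41.stmt_CycUnitTheta`),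
`N_{F'/F₁} w = x₁` by LOC-2b (`H68.stmt_UnramNormUnits`), `u = w`, transitivity of norms;
same residue field: `H25.exists_pow_congr` with `E = L = F`.) -/
def Stmt_LTOBase : Prop :=
  ∀ (p : Nat.Primes) (c : ℕ) (F : Type) [Field F] [Algebra (Qp p) F]
    [FiniteDimensional (Qp p) F], (p : ℕ) ≠ 2 → 1 ≤ c →
    (∃ ζ : F, IsPrimitiveRoot ζ ((p : ℕ) ^ c)) →
    ∃ F' : IntermediateField (Qp p) F,
      (∃ ζ : F', IsPrimitiveRoot ζ ((p : ℕ) ^ c)) ∧
      (haveI := fact_primes p;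
        ∀ y : F, nrm (p : ℕ) F y ≤ 1 → ∃ x : F', nrm (p : ℕ) F (y - (x : F)) < 1) ∧
      ∃ u : (↥F')ˣ,
        thetaLoc p (c + 1) p (Units.map (Algebra.norm (Qp p) : ↥F' →* Qp p) u) ≠ 1

end Fermat.Agent.S55.CFT.LOC
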