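/-
S55/E4 island LOC (helper25), package LTO (`Stmt_LocalThetaOnto`), part C0a:
the local cyclotomic field `ℚ_p(ζ_{p^M})` has degree `φ(p^M)` over `ℚ_p`
(`|1 - ζ|^φ = |p|` and `|N x| = |x|^n`).
-/
import Fermat.Agent.S55.CFT.LOC.H25_Unram
import Fermat.Agent.S55.CFT.LOC.H25_UCSpan

set_option autoImplicit false
set_option linter.unusedSectionVars false
set_option linter.style.haveILetI false

namespace Fermat.Agent.S55.CFT.LOC.H25

open Fermat.Agent.S55.CFT.LOC Polynomial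

section cyc

variable (p : ℕ) [Fact p.Prime] (E : Type) [Field E] [Algebra ℚ_[p] E]
  [FiniteDimensional ℚ_[p] E]

/-- `|1 - ζ^a| ≤ |1 - ζ|` for a root of unity `ζ`. -/
theorem nrm_one_sub_pow_le {ζ : E} {m : ℕ} (hm : m ≠ 0) (hζ : ζ ^ m = 1) (a : ℕ) :
    nrm p E (1 - ζ ^ a) ≤ nrm p E (1 - ζ) := by
  have h1 : (1 - ζ) * ∑ i ∈ Finset.range a, ζ ^ i = 1 - ζ ^ a := mul_neg_geom_sum ζ a
  rw [← h1, nrm_mul]
  have h2 : nrm p E (∑ i ∈ Finset.range a, ζ ^ i) ≤ 1 := by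
    apply nrm_sum_le p E _ _ zero_le_one
    intro i _
    rw [nrm_pow, nrm_of_pow_eq_one p E hm hζ, one_pow]
  exact mul_le_of_le_one_right (nrm_nonneg p E _) h2

/-- Two primitive roots of the same order: `|1 - μ| = |1 - ζ|`. -/
theorem nrm_one_sub_eq {ζ μ : E} {m : ℕ} [NeZero m] (hζ : IsPrimitiveRoot ζ m)
    (hμ : IsPrimitiveRoot μ m) : nrm p E (1 - μ) = nrm p E (1 - ζ) := by
  have hm : m ≠ 0 := NeZero.ne m
  obtain ⟨a, -, ha⟩ := hζ.eq_pow_of_pow_eq_one hμ.pow_eq_one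
  obtain ⟨b, -, hb⟩ := hμ.eq_pow_of_pow_eq_one hζ.pow_eq_one
  apply le_antisymm
  · rw [← ha]
    exact nrm_one_sub_pow_le p E hm hζ.pow_eq_one a
  · rw [← hb]
    exact nrm_one_sub_pow_le p E hm hμ.pow_eq_one b

omit [FiniteDimensional ℚ_[p] E] in
include p in
theorem charZero_of_padic : CharZero E :=
  charZero_of_injective_algebraMap (algebraMap ℚ_[p] E).injective

/-- `|1 - ζ| ^ φ(p^M) = 1/p` for a primitive `p^M`-th root of unity, `M ≥ 1`. -/
theorem nrm_one_sub_zeta_pow {ζ : E} {M : ℕ} (hM : M ≠ 0)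
    (hζ : IsPrimitiveRoot ζ (p ^ M)) :
    nrm p E (1 - ζ) ^ Nat.totient (p ^ M) = (p : ℝ)⁻¹ := by
  classical
  haveI : CharZero E := charZero_of_padic p E
  haveI : NeZero (p ^ M) := ⟨pow_ne_zero _ (Fact.out : p.Prime).ne_zero⟩
  obtain ⟨k, rfl⟩ := Nat.exists_eq_succ_of_ne_zero hM
  have h1 : (cyclotomic (p ^ (k + 1)) E).eval 1 = (p : E) := eval_one_cyclotomic_prime_pow k
  rw [cyclotomic_eq_prod_X_sub_primitiveRoots hζ, eval_prod] at h1
  simp only [eval_sub, eval_X, eval_C] at h1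
  have h2 := congrArg (nrm p E) h1
  rw [nrm_natCast_q] at h2
  rw [← h2, ← hζ.card_primitiveRoots]
  have h3 : ∀ s : Finset E, (∀ μ ∈ s, nrm p E (1 - μ) = nrm p E (1 - ζ)) →
      nrm p E (∏ μ ∈ s, (1 - μ)) = nrm p E (1 - ζ) ^ s.card := by
    intro s
    induction s using Finset.induction_on with
    | empty => intro _; simp
    | insert a s ha ih =>
      intro h
      rw [Finset.prod_insert ha, nrm_mul, ih (fun μ hμ => h μ (Finset.mem_insert_of_mem hμ)),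
        h a (Finset.mem_insert_self a s), Finset.card_insert_of_notMem ha, pow_succ, mul_comm]
  symm
  apply h3
  intro μ hμ
  exact nrm_one_sub_eq p E hζ ((mem_primitiveRoots (NeZero.pos _)).mp hμ)

end cyc

section degree

variable (p : ℕ) [Fact p.Prime] (E : Type) [Field E] [Algebra ℚ_[p] E]
  [FiniteDimensional ℚ_[p] E]

/-- The value of a `p`-adic number is an integral power of `p`. -/
theorem exists_norm_eq_zpow {x : ℚ_[p]} (hx : x ≠ 0) : ∃ v : ℤ, ‖x‖ = (p : ℝ) ^ (-v) :=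
  ⟨x.valuation, Padic.norm_eq_zpow_neg_valuation hx⟩

/-- If `E/ℚ_p` is Galois and contains a primitive `p^M`-th root of unity then `φ(p^M)` divides
the degree. -/
theorem totient_dvd_finrank [IsGalois ℚ_[p] E] {ζ : E} {M : ℕ} (hM : M ≠ 0)
    (hζ : IsPrimitiveRoot ζ (p ^ M)) :
    Nat.totient (p ^ M) ∣ Module.finrank ℚ_[p] E := by
  have hp1 : (1 : ℝ) < p := by exact_mod_cast (Fact.out : p.Prime).one_lt
  have hp0 : (0 : ℝ) < p := by linarith
  haveI : CharZero E := charZero_of_padic p E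
  have hne : (1 - ζ) ≠ 0 := by
    intro h
    have h1 : ζ = 1 := (sub_eq_zero.mp h).symm
    have h2 := hζ.unique (h1 ▸ IsPrimitiveRoot.one)
    have h3 : 1 < p ^ M := Nat.one_lt_pow hM (Fact.out : p.Prime).one_lt
    omega
  have hN : Algebra.norm ℚ_[p] (1 - ζ) ≠ 0 := Algebra.norm_ne_zero_iff.mpr hne
  obtain ⟨v, hv⟩ := exists_norm_eq_zpow p hN
  have h1 := nrm_norm p ℚ_[p] E (1 - ζ)
  have h0 : nrm p ℚ_[p] (Algebra.norm ℚ_[p] (1 - ζ)) = ‖Algebra.norm ℚ_[p] (1 - ζ)‖ := by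
    have := nrm_algebraMap_padic p ℚ_[p] (Algebra.norm ℚ_[p] (1 - ζ))
    simpa using this
  rw [h0, hv] at h1
  have h2 := nrm_one_sub_zeta_pow p E hM hζ
  set n := Module.finrank ℚ_[p] E with hn
  set φ := Nat.totient (p ^ M) with hφ
  -- `p ^ (-v φ) = |1 - ζ| ^ (n φ) = p ^ (-n)`
  have h3 : ((p : ℝ) ^ (-v)) ^ φ = ((p : ℝ)⁻¹) ^ n := by
    rw [h1, ← h2, ← pow_mul, ← pow_mul, mul_comm]
  rw [← zpow_natCast, ← zpow_mul, ← zpow_natCast, ← zpow_neg_one, ← zpow_mul] at h3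
  have h4 := zpow_right_injective₀ hp0 hp1.ne' h3
  have h5 : (n : ℤ) = v * φ := by linarith
  exact Int.natCast_dvd_natCast.mp ⟨v, by rw [h5, mul_comm]⟩

/-- The primitive root as an element of `ℚ_p(ζ)`. -/
theorem isPrimitiveRoot_adjoin {ζ : E} {m : ℕ} (hζ : IsPrimitiveRoot ζ m) :
    IsPrimitiveRoot (⟨ζ, IntermediateField.mem_adjoin_simple_self ℚ_[p] ζ⟩ :
      IntermediateField.adjoin ℚ_[p] {ζ}) m :=
  IsPrimitiveRoot.of_map_of_injective
    (f := algebraMap (IntermediateField.adjoin ℚ_[p] {ζ}) E) hζ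
    (algebraMap (IntermediateField.adjoin ℚ_[p] {ζ}) E).injective

/-- `[ℚ_p(ζ_{p^M}) : ℚ_p] = φ(p^M)`. -/
theorem finrank_adjoin_zeta {ζ : E} {M : ℕ} (hM : M ≠ 0) (hζ : IsPrimitiveRoot ζ (p ^ M)) :
    Module.finrank ℚ_[p] (IntermediateField.adjoin ℚ_[p] {ζ}) = Nat.totient (p ^ M) := by
  classical
  haveI : NeZero (p ^ M) := ⟨pow_ne_zero _ (Fact.out : p.Prime).ne_zero⟩
  haveI : CharZero E := charZero_of_padic p E
  haveI : IsCyclotomicExtension {p ^ M} ℚ_[p] (IntermediateField.adjoin ℚ_[p] {ζ}) :=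
    hζ.intermediateField_adjoin_isCyclotomicExtension ℚ_[p]
  haveI : IsGalois ℚ_[p] (IntermediateField.adjoin ℚ_[p] {ζ}) :=
    IsCyclotomicExtension.isGalois {p ^ M} ℚ_[p] (IntermediateField.adjoin ℚ_[p] {ζ})
  have h1 := totient_dvd_finrank p (IntermediateField.adjoin ℚ_[p] {ζ}) hM
    (isPrimitiveRoot_adjoin p E hζ)
  have hint : IsIntegral ℚ_[p] ζ := Algebra.IsIntegral.isIntegral ζ
  have h2 : Module.finrank ℚ_[p] (IntermediateField.adjoin ℚ_[p] {ζ}) =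
      (minpoly ℚ_[p] ζ).natDegree := IntermediateField.adjoin.finrank hint
  have h3 : minpoly ℚ_[p] ζ ∣ cyclotomic (p ^ M) ℚ_[p] := by
    apply minpoly.dvd
    have h := hζ.isRoot_cyclotomic (NeZero.pos _)
    rw [IsRoot.def, ← map_cyclotomic (p ^ M) (algebraMap ℚ_[p] E), eval_map] at h
    exact h
  have h4 : (minpoly ℚ_[p] ζ).natDegree ≤ Nat.totient (p ^ M) := by
    have := natDegree_le_of_dvd h3 (cyclotomic_ne_zero _ _)
    rwa [natDegree_cyclotomic] at this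
  have h5 : 0 < Module.finrank ℚ_[p] (IntermediateField.adjoin ℚ_[p] {ζ}) := Module.finrank_pos
  exact le_antisymm (h2 ▸ h4) (Nat.le_of_dvd h5 h1)

end degree

end Fermat.Agent.S55.CFT.LOC.H25
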