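/-
S55/E4 island LOC, package LTO (`Stmt_LocalThetaOnto`, owner helper25): second set of small
independent leaves (exact statements).  The core (`H25.not_norm_core`, H25_LTO_Core.lean) and the
assembly are helper25's.
-/
import Fermat.Agent.S55.CFT.LOC.Basic
import Fermat.Agent.S55.CFT.LOC.Defs_LTO

set_option autoImplicit false

namespace Fermat.Agent.S55.CFT.LOC

/-- **LTO-TR** (the norm of a uniformizer in a totally ramified extension is a uniformizer):
`L/K` finite extensions of `ℚ_q` with the same residue field, `π` a generator of the value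
group of `L`; then `|N_{L/K} π|` generates the value group of `K`.
(Route: `ϖ` a uniformizer of `K` (`H68.stmt_Uniformizer`), `|ϖ| = |π|^e`, `e ≥ 1`;
`[L:K] ≤ e` by `H25.finrank_le_of_residue_eq`; `|N π| = |π|^[L:K]` by LTO-N
(`H20.stmt_NrmNormGen`) is `|ϖ|^m = |π|^(e m)`, so `[L:K] = e m`, `m = 1`.) -/
def Stmt_TotRamNorm : Prop :=
  ∀ (q : ℕ) [Fact q.Prime] (K L : Type) [Field K] [Field L] [Algebra ℚ_[q] K]
    [FiniteDimensional ℚ_[q] K] [Algebra ℚ_[q] L] [FiniteDimensional ℚ_[q] L] [Algebra K L]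
    [IsScalarTower ℚ_[q] K L],
    (∀ y : L, nrm q L y ≤ 1 → ∃ x : K, nrm q L (y - algebraMap K L x) < 1) →
    ∀ π : L, 0 < nrm q L π → nrm q L π < 1 →
      (∀ y : L, y ≠ 0 → ∃ k : ℤ, nrm q L y = nrm q L π ^ k) →
      ∀ x : K, x ≠ 0 → ∃ k : ℤ, nrm q K x = nrm q K (Algebra.norm K π) ^ k

/-- **LTO-CK** (the character of a cyclic extension of degree `p`; pure Galois theory):
for `M/K` finite Galois and an intermediate field `E`, Galois of degree `p` over `K`, there is
a character `χ : Gal(M/K) → ℤ/p` whose kernel has fixed field `E`.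
(`H = E.fixingSubgroup` is normal of index `p`, `G/H ≅ ℤ/p`.) -/
def Stmt_CharKer : Prop :=
  ∀ (p : ℕ) [Fact p.Prime] (K M : Type) [Field K] [Field M] [Algebra K M]
    [FiniteDimensional K M] [IsGalois K M] (E : IntermediateField K M),
    IsGalois K E → Module.finrank K E = p →
    ∃ χ : (M ≃ₐ[K] M) →* Multiplicative (ZMod p), IntermediateField.fixedField χ.ker = E

/-- **LTO-KD** (Kummer degree): if `K` contains a primitive `p^c`-th root of unity, `c ≥ 1`,
and no primitive `p^(c+1)`-th root of unity, then `[K(ζ) : K] = p` for every primitive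
`p^(c+1)`-th root of unity `ζ` in an extension.
(`ζ^p = a ∈ K`; `X^p - a` is irreducible by `X_pow_sub_C_irreducible_of_prime`, since a `p`-th
root of `a` in `K` would be `ζ · ω`, `ω^p = 1`, a primitive `p^(c+1)`-th root of unity.) -/
def Stmt_KummerDeg : Prop :=
  ∀ (p : ℕ) [Fact p.Prime] (c : ℕ) (K M : Type) [Field K] [Field M] [Algebra K M], 1 ≤ c →
    (∃ ζ : K, IsPrimitiveRoot ζ (p ^ c)) → (¬ ∃ ζ : K, IsPrimitiveRoot ζ (p ^ (c + 1))) →
    ∀ ζ : M, IsPrimitiveRoot ζ (p ^ (c + 1)) →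
      Module.finrank K (IntermediateField.adjoin K {ζ}) = p

/-- **LTO-UN** (uniformizers generate `Fˣ`): a proper subgroup of `Fˣ` misses some
uniformizer (= generator of the value group).
(`π` a uniformizer (`H68.stmt_Uniformizer`), `u ∉ H`: one of `π`, `u π` is not in `H`.) -/
def Stmt_UnifNotIn : Prop :=
  ∀ (q : ℕ) [Fact q.Prime] (F : Type) [Field F] [Algebra ℚ_[q] F] [FiniteDimensional ℚ_[q] F]
    (H : Subgroup Fˣ), H ≠ ⊤ →
    ∃ b : Fˣ, b ∉ H ∧ 0 < nrm q F (b : F) ∧ nrm q F (b : F) < 1 ∧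
      ∀ y : F, y ≠ 0 → ∃ k : ℤ, nrm q F y = nrm q F (b : F) ^ k

end Fermat.Agent.S55.CFT.LOC
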