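/-
S55/E4 island LOC (helper25), package LTO (`Stmt_LocalThetaOnto`), part C4a (pure algebra):
carry cocycles.  For a group `Γ`, a `Γ`-module `A`, an invariant `a ∈ A`, and a function
`ℓ : Γ → ℤ` which is additive modulo `n`, the carry cocycle
`carryC n ℓ a (g, h) = ((ℓ g + ℓ h - ℓ (g h)) / n) • a`.  It is additive in `ℓ`, and its
class only depends on `ℓ` modulo `n`.
-/
import Mathlib

set_option autoImplicit false
set_option linter.unusedSectionVars false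

namespace Fermat.Agent.S55.CFT.LOC.H25

open groupCohomology

section carry

variable {Γ A : Type} [Group Γ] [AddCommGroup A] [DistribMulAction Γ A]

/-- `ℓ : Γ → ℤ` is additive modulo `n`. -/
def IsAddMod (n : ℤ) (ℓ : Γ → ℤ) : Prop := ∀ g h : Γ, n ∣ ℓ g + ℓ h - ℓ (g * h)

/-- The carry cocycle. -/
def carryC (n : ℤ) (ℓ : Γ → ℤ) (a : A) : Γ × Γ → A :=
  fun gh => ((ℓ gh.1 + ℓ gh.2 - ℓ (gh.1 * gh.2)) / n) • a

theorem IsAddMod.add {n : ℤ} {ℓ ℓ' : Γ → ℤ} (h : IsAddMod n ℓ) (h' : IsAddMod n ℓ') :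
    IsAddMod n (ℓ + ℓ') := by
  intro g k
  have e : (ℓ + ℓ') g + (ℓ + ℓ') k - (ℓ + ℓ') (g * k) =
      (ℓ g + ℓ k - ℓ (g * k)) + (ℓ' g + ℓ' k - ℓ' (g * k)) := by
    simp only [Pi.add_apply]
    ring
  rw [e]
  exact dvd_add (h g k) (h' g k)

theorem IsAddMod.zsmul {n : ℤ} {ℓ : Γ → ℤ} (h : IsAddMod n ℓ) (k : ℤ) :
    IsAddMod n (k • ℓ) := by
  intro g j
  have e : (k • ℓ) g + (k • ℓ) j - (k • ℓ) (g * j) = k * (ℓ g + ℓ j - ℓ (g * j)) := by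
    simp only [Pi.smul_apply, smul_eq_mul]
    ring
  rw [e]
  exact Dvd.dvd.mul_left (h g j) k

theorem carryC_add {n : ℤ} {ℓ ℓ' : Γ → ℤ} (h : IsAddMod n ℓ) (_h' : IsAddMod n ℓ') (a : A) :
    carryC n (ℓ + ℓ') a = carryC n ℓ a + carryC n ℓ' a := by
  funext gh
  simp only [carryC, Pi.add_apply]
  rw [← add_smul, ← Int.add_ediv_of_dvd_left (h gh.1 gh.2)]
  congr 2
  ring

theorem carryC_zsmul {n : ℤ} {ℓ : Γ → ℤ} (h : IsAddMod n ℓ) (k : ℤ) (a : A) :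
    carryC n (k • ℓ) a = k • carryC n ℓ a := by
  funext gh
  simp only [carryC, Pi.smul_apply, smul_eq_mul]
  rw [smul_smul, ← Int.mul_ediv_assoc k (h gh.1 gh.2)]
  congr 2
  ring

/-- Coboundaries form a subgroup. -/
theorem isCoboundary₂_zero : IsCoboundary₂ (0 : Γ × Γ → A) :=
  ⟨0, fun g h => by simp⟩

theorem isCoboundary₂_add {f f' : Γ × Γ → A} (h : IsCoboundary₂ f) (h' : IsCoboundary₂ f') :
    IsCoboundary₂ (f + f') := by
  obtain ⟨x, hx⟩ := h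
  obtain ⟨x', hx'⟩ := h'
  refine ⟨x + x', fun g k => ?_⟩
  simp only [Pi.add_apply, smul_add]
  rw [← hx g k, ← hx' g k]
  abel

theorem isCoboundary₂_neg {f : Γ × Γ → A} (h : IsCoboundary₂ f) : IsCoboundary₂ (-f) := by
  obtain ⟨x, hx⟩ := h
  refine ⟨-x, fun g k => ?_⟩
  simp only [Pi.neg_apply, smul_neg]
  rw [← hx g k]
  abel

theorem isCoboundary₂_sub {f f' : Γ × Γ → A} (h : IsCoboundary₂ f) (h' : IsCoboundary₂ f') :
    IsCoboundary₂ (f - f') := by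
  rw [sub_eq_add_neg]
  exact isCoboundary₂_add h (isCoboundary₂_neg h')

theorem isCoboundary₂_nsmul {f : Γ × Γ → A} (h : IsCoboundary₂ f) (k : ℕ) :
    IsCoboundary₂ (k • f) := by
  induction k with
  | zero => rw [zero_smul]; exact isCoboundary₂_zero
  | succ k ih => rw [succ_nsmul]; exact isCoboundary₂_add ih h

theorem isCoboundary₂_zsmul {f : Γ × Γ → A} (h : IsCoboundary₂ f) (k : ℤ) :
    IsCoboundary₂ (k • f) := by
  cases k with
  | ofNat k =>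
    rw [Int.ofNat_eq_natCast, natCast_zsmul]
    exact isCoboundary₂_nsmul h k
  | negSucc k =>
    rw [negSucc_zsmul]
    exact isCoboundary₂_neg (isCoboundary₂_nsmul h (k + 1))

/-- The class of the carry cocycle only depends on `ℓ` modulo `n`. -/
theorem isCoboundary₂_carryC_sub {n : ℤ} {ℓ ℓ' : Γ → ℤ} (h : IsAddMod n ℓ)
    (h' : IsAddMod n ℓ') (hc : ∀ g, n ∣ ℓ g - ℓ' g) (a : A) (ha : ∀ g : Γ, g • a = a) :
    IsCoboundary₂ (carryC n ℓ a - carryC n ℓ' a) := by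
  refine ⟨fun g => ((ℓ g - ℓ' g) / n) • a, fun g k => ?_⟩
  simp only [carryC, Pi.sub_apply]
  rw [smul_comm g, ha g, ← sub_smul, ← sub_smul, ← add_smul]
  congr 1
  obtain ⟨u, hu⟩ := h g k
  obtain ⟨u', hu'⟩ := h' g k
  obtain ⟨v1, hv1⟩ := hc g
  obtain ⟨v2, hv2⟩ := hc k
  obtain ⟨v3, hv3⟩ := hc (g * k)
  rcases eq_or_ne n 0 with hn | hn
  · subst hn
    simp
  rw [hu, hu', hv1, hv2, hv3, Int.mul_ediv_cancel_left _ hn, Int.mul_ediv_cancel_left _ hn,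
    Int.mul_ediv_cancel_left _ hn, Int.mul_ediv_cancel_left _ hn,
    Int.mul_ediv_cancel_left _ hn]
  have : n * (v2 - v3 + v1) = n * (u - u') := by
    rw [mul_sub, ← hu, ← hu', mul_add, mul_sub, ← hv1, ← hv2, ← hv3]
    ring
  exact mul_left_cancel₀ hn this

/-- If `ℓ₃ ≡ i ℓ₁ + j ℓ₂` modulo `n`, then the carry cocycle of `ℓ₃` is cohomologous to
`i c₁ + j c₂`. -/
theorem isCoboundary₂_carryC_comb {n : ℤ} {ℓ₁ ℓ₂ ℓ₃ : Γ → ℤ} (h₁ : IsAddMod n ℓ₁)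
    (h₂ : IsAddMod n ℓ₂) (h₃ : IsAddMod n ℓ₃) (i j : ℤ)
    (hc : ∀ g, n ∣ ℓ₃ g - (i * ℓ₁ g + j * ℓ₂ g)) (a : A) (ha : ∀ g : Γ, g • a = a) :
    IsCoboundary₂ (carryC n ℓ₃ a - (i • carryC n ℓ₁ a + j • carryC n ℓ₂ a)) := by
  have h := isCoboundary₂_carryC_sub h₃ ((h₁.zsmul i).add (h₂.zsmul j))
    (fun g => by simpa using hc g) a ha
  rwa [carryC_add (h₁.zsmul i) (h₂.zsmul j), carryC_zsmul h₁, carryC_zsmul h₂] at h

/-- If `ℓ ≡ 0` modulo `n`, the carry cocycle is a coboundary. -/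
theorem isCoboundary₂_carryC_of_dvd {n : ℤ} {ℓ : Γ → ℤ} (h : IsAddMod n ℓ)
    (hc : ∀ g, n ∣ ℓ g) (a : A) (ha : ∀ g : Γ, g • a = a) :
    IsCoboundary₂ (carryC n ℓ a) := by
  have h0 : IsAddMod n (0 : Γ → ℤ) := fun g k => by simp
  have h1 := isCoboundary₂_carryC_sub h h0 (fun g => by simpa using hc g) a ha
  have h2 : carryC n (0 : Γ → ℤ) a = 0 := by
    funext gh
    simp [carryC]
  rwa [h2, sub_zero] at h1

end carry

end Fermat.Agent.S55.CFT.LOC.H25
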