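/-
S55/E4 island LOC (helper25), package LTO (`Stmt_LocalThetaOnto`), part C4b:
the symbol cocycle `symC χ a` of a character `χ : Gal(Ω/K) → ℤ/p` and `a ∈ Kˣ`
(`= χ ∪ a`, the class of the cyclic algebra `(χ, a)`):
* it is additive in `χ` modulo coboundaries (`isCoboundary₂_symC_comb`);
* it is a coboundary iff `a` is a norm from the fixed field of `ker χ`
  (`symC_coboundary_iff`).
-/
import Fermat.Agent.S55.CFT.LOC.H68_GI
import Fermat.Agent.S55.CFT.LOC.H25_LTO_Carry

set_option autoImplicit false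
set_option linter.unusedSectionVars false
set_option linter.style.haveILetI false

namespace Fermat.Agent.S55.CFT.LOC.H25

open groupCohomology Fermat.Agent.S55.CFT.LOC

attribute [local instance] H68.addDMA

section char

variable {Γ : Type} [Group Γ] (p : ℕ) [Fact p.Prime]

/-- The lift `Γ → {0, …, p-1} ⊆ ℤ` of a character `χ : Γ → ℤ/p`. -/
def charLift (χ : Γ →* Multiplicative (ZMod p)) : Γ → ℤ :=
  fun g => ((Multiplicative.toAdd (χ g)).val : ℤ)

theorem charLift_cast (χ : Γ →* Multiplicative (ZMod p)) (g : Γ) :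
    ((charLift p χ g : ℤ) : ZMod p) = Multiplicative.toAdd (χ g) := by
  rw [charLift, Int.cast_natCast, ZMod.natCast_val, ZMod.cast_id]

theorem dvd_charLift_sub_iff (χ : Γ →* Multiplicative (ZMod p)) (g : Γ) (m : ℤ) :
    (p : ℤ) ∣ charLift p χ g - m ↔ Multiplicative.toAdd (χ g) = (m : ZMod p) := by
  rw [← ZMod.intCast_eq_intCast_iff_dvd_sub, charLift_cast]
  exact eq_comm

theorem isAddMod_charLift (χ : Γ →* Multiplicative (ZMod p)) :
    IsAddMod (p : ℤ) (charLift p χ) := by
  intro g h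
  rw [← ZMod.intCast_zmod_eq_zero_iff_dvd]
  push_cast
  rw [charLift_cast, charLift_cast, charLift_cast, map_mul, toAdd_mul]
  ring

/-- `χ₃ = χ₁ ^ i * χ₂ ^ j` gives `ℓ₃ ≡ i ℓ₁ + j ℓ₂`. -/
theorem charLift_comb (χ₁ χ₂ : Γ →* Multiplicative (ZMod p)) (i j : ℤ) (g : Γ)
    (χ₃ : Γ →* Multiplicative (ZMod p))
    (h : ∀ g, Multiplicative.toAdd (χ₃ g) =
      (i : ZMod p) * Multiplicative.toAdd (χ₁ g) + (j : ZMod p) * Multiplicative.toAdd (χ₂ g)) :
    (p : ℤ) ∣ charLift p χ₃ g - (i * charLift p χ₁ g + j * charLift p χ₂ g) := by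
  rw [dvd_charLift_sub_iff, h g]
  push_cast
  rw [charLift_cast, charLift_cast]

end char

section field

variable (K Ω : Type) [Field K] [Field Ω] [Algebra K Ω] [FiniteDimensional K Ω] [IsGalois K Ω]
  (p : ℕ) [Fact p.Prime]

/-- `a ∈ Kˣ` as an element of `Additive Ωˣ`. -/
noncomputable def baseUnit (a : Kˣ) : Additive Ωˣ :=
  Additive.ofMul (Units.map (algebraMap K Ω : K →* Ω) a)

omit [FiniteDimensional K Ω] [IsGalois K Ω] in
theorem smul_baseUnit (g : Ω ≃ₐ[K] Ω) (a : Kˣ) : g • baseUnit K Ω a = baseUnit K Ω a := by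
  apply H68.additive_units_ext
  change g (algebraMap K Ω (a : K)) = algebraMap K Ω (a : K)
  exact g.commutes _

/-- The symbol cocycle `χ ∪ a`. -/
noncomputable def symC (χ : (Ω ≃ₐ[K] Ω) →* Multiplicative (ZMod p)) (a : Kˣ) :
    (Ω ≃ₐ[K] Ω) × (Ω ≃ₐ[K] Ω) → Additive Ωˣ :=
  carryC (p : ℤ) (charLift p χ) (baseUnit K Ω a)

omit [FiniteDimensional K Ω] [IsGalois K Ω] in
/-- Additivity in the character. -/
theorem isCoboundary₂_symC_comb (χ₁ χ₂ χ₃ : (Ω ≃ₐ[K] Ω) →* Multiplicative (ZMod p)) (i j : ℤ)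
    (h : ∀ g, Multiplicative.toAdd (χ₃ g) =
      (i : ZMod p) * Multiplicative.toAdd (χ₁ g) + (j : ZMod p) * Multiplicative.toAdd (χ₂ g))
    (a : Kˣ) :
    IsCoboundary₂ (symC K Ω p χ₃ a - (i • symC K Ω p χ₁ a + j • symC K Ω p χ₂ a)) :=
  isCoboundary₂_carryC_comb (isAddMod_charLift p χ₁) (isAddMod_charLift p χ₂)
    (isAddMod_charLift p χ₃) i j (fun g => charLift_comb p χ₁ χ₂ i j g χ₃ h) _
    (fun g => smul_baseUnit K Ω g a)

omit [FiniteDimensional K Ω] [IsGalois K Ω] in
/-- `p` times the symbol cocycle is a coboundary. -/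
theorem isCoboundary₂_smul_symC (χ : (Ω ≃ₐ[K] Ω) →* Multiplicative (ZMod p)) (a : Kˣ) :
    IsCoboundary₂ ((p : ℤ) • symC K Ω p χ a) := by
  rw [symC, ← carryC_zsmul (isAddMod_charLift p χ)]
  apply isCoboundary₂_carryC_of_dvd ((isAddMod_charLift p χ).zsmul _)
  · intro g
    simp only [Pi.smul_apply, smul_eq_mul]
    exact dvd_mul_right _ _
  · exact fun g => smul_baseUnit K Ω g a

end field

section kerfield

variable (K Ω : Type) [Field K] [Field Ω] [Algebra K Ω] [FiniteDimensional K Ω] [IsGalois K Ω]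
  (p : ℕ) [Fact p.Prime] (χ : (Ω ≃ₐ[K] Ω) →* Multiplicative (ZMod p))

/-- The fixed field of the kernel of a character. -/
noncomputable abbrev kerField : IntermediateField K Ω := IntermediateField.fixedField χ.ker

theorem isGalois_kerField : IsGalois K (kerField K Ω p χ) :=
  IsGalois.of_fixedField_normal_subgroup χ.ker

theorem normal_kerField : Normal K (kerField K Ω p χ) :=
  haveI := isGalois_kerField K Ω p χ
  inferInstance

theorem restrictNormalHom_eq_one_iff (g : Ω ≃ₐ[K] Ω) :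
    haveI := normal_kerField K Ω p χ
    AlgEquiv.restrictNormalHom (kerField K Ω p χ) g = 1 ↔ χ g = 1 := by
  haveI := normal_kerField K Ω p χ
  rw [← MonoidHom.mem_ker, IntermediateField.restrictNormalHom_ker,
    IntermediateField.fixingSubgroup_fixedField, MonoidHom.mem_ker]

omit [FiniteDimensional K Ω] [IsGalois K Ω] in
theorem exists_char_gen (hχ : χ ≠ 1) : ∃ g₁, χ g₁ = Multiplicative.ofAdd 1 := by
  have h1 : ∃ g₀, χ g₀ ≠ 1 := by
    by_contra h
    push Not at h
    exact hχ (MonoidHom.ext h)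
  obtain ⟨g₀, hg₀⟩ := h1
  set u : ZMod p := Multiplicative.toAdd (χ g₀) with hu
  have hu0 : u ≠ 0 := by
    intro h
    apply hg₀
    have : χ g₀ = Multiplicative.ofAdd u := rfl
    rw [this, h]
    rfl
  refine ⟨g₀ ^ (u⁻¹).val, ?_⟩
  rw [map_pow]
  have h2 : χ g₀ = Multiplicative.ofAdd u := rfl
  rw [h2, ← ofAdd_nsmul, nsmul_eq_mul, ZMod.natCast_val, ZMod.cast_id,
    inv_mul_cancel₀ hu0]

theorem char_eq_pow (g₁ : Ω ≃ₐ[K] Ω) (hg₁ : χ g₁ = Multiplicative.ofAdd 1) (h : Ω ≃ₐ[K] Ω) :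
    haveI := normal_kerField K Ω p χ
    AlgEquiv.restrictNormalHom (kerField K Ω p χ) h =
      AlgEquiv.restrictNormalHom (kerField K Ω p χ) g₁ ^ (Multiplicative.toAdd (χ h)).val := by
  haveI := normal_kerField K Ω p χ
  rw [← map_pow, ← mul_inv_eq_one, ← map_inv, ← map_mul, restrictNormalHom_eq_one_iff,
    map_mul, map_inv, map_pow, hg₁, mul_inv_eq_one, ← ofAdd_nsmul, nsmul_eq_mul, mul_one,
    ZMod.natCast_val, ZMod.cast_id]
  rfl

/-- `a ∈ Kˣ` as an element of `Additive Lˣ`, `L` the fixed field of `ker χ`. -/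
noncomputable def baseUnitL (a : Kˣ) : Additive (kerField K Ω p χ)ˣ :=
  Additive.ofMul (Units.map (algebraMap K (kerField K Ω p χ) : K →* kerField K Ω p χ) a)

omit [FiniteDimensional K Ω] [IsGalois K Ω] in
theorem unitsIncl_baseUnitL (a : Kˣ) :
    H68.unitsIncl (kerField K Ω p χ) Ω (baseUnitL K Ω p χ a) = baseUnit K Ω a := by
  apply H68.additive_units_ext
  rfl

omit [FiniteDimensional K Ω] [IsGalois K Ω] in
theorem smul_baseUnitL (σ : kerField K Ω p χ ≃ₐ[K] kerField K Ω p χ) (a : Kˣ) :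
    σ • baseUnitL K Ω p χ a = baseUnitL K Ω p χ a := by
  apply H68.additive_units_ext
  change σ (algebraMap K (kerField K Ω p χ) (a : K)) = algebraMap K (kerField K Ω p χ) (a : K)
  exact σ.commutes _

/-- The carry of the lifts. -/
theorem charLift_carry (g h : Ω ≃ₐ[K] Ω) :
    (charLift p χ g + charLift p χ h - charLift p χ (g * h)) / (p : ℤ) =
      (((Multiplicative.toAdd (χ g)).val + (Multiplicative.toAdd (χ h)).val) / p : ℕ) := by
  have hp : (p : ℤ) ≠ 0 := by exact_mod_cast (Fact.out : p.Prime).ne_zero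
  simp only [charLift]
  rw [map_mul, toAdd_mul, ZMod.val_add]
  set x := (Multiplicative.toAdd (χ g)).val
  set y := (Multiplicative.toAdd (χ h)).val
  have h1 : ((x : ℤ) + y - ((x + y) % p : ℕ)) = (p : ℤ) * (((x + y) / p : ℕ) : ℤ) := by
    have := Nat.div_add_mod (x + y) p
    push_cast
    have h2 : ((p : ℤ) * (((x + y) / p : ℕ) : ℤ) + (((x + y) % p : ℕ) : ℤ)) = (x : ℤ) + y := by
      exact_mod_cast this
    push_cast at h2
    linarith
  rw [h1, Int.mul_ediv_cancel_left _ hp]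

section gen

variable (g₁ : Ω ≃ₐ[K] Ω) (hg₁ : χ g₁ = Multiplicative.ofAdd 1)

include hg₁

theorem mem_zpowers_gen :
    haveI := normal_kerField K Ω p χ
    ∀ σ : kerField K Ω p χ ≃ₐ[K] kerField K Ω p χ,
      σ ∈ Subgroup.zpowers (AlgEquiv.restrictNormalHom (kerField K Ω p χ) g₁) := by
  haveI := normal_kerField K Ω p χ
  intro σ
  obtain ⟨h, rfl⟩ := AlgEquiv.restrictNormalHom_surjective Ω σ
  rw [char_eq_pow K Ω p χ g₁ hg₁ h]
  exact Subgroup.pow_mem _ (Subgroup.mem_zpowers _) _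

theorem orderOf_gen :
    haveI := normal_kerField K Ω p χ
    orderOf (AlgEquiv.restrictNormalHom (kerField K Ω p χ) g₁) = p := by
  haveI := normal_kerField K Ω p χ
  apply orderOf_eq_prime
  · rw [← map_pow, restrictNormalHom_eq_one_iff, map_pow, hg₁, ← ofAdd_nsmul, nsmul_eq_mul,
      mul_one, ZMod.natCast_self]
    rfl
  · rw [Ne, restrictNormalHom_eq_one_iff, hg₁]
    intro h
    have h2 : (1 : ZMod p) = 0 := h
    haveI : Fact (1 < p) := ⟨(Fact.out : p.Prime).one_lt⟩
    exact one_ne_zero h2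

theorem cycLift_gen (h : Ω ≃ₐ[K] Ω) :
    haveI := normal_kerField K Ω p χ
    H68.cycLift (AlgEquiv.restrictNormalHom (kerField K Ω p χ) g₁)
      (mem_zpowers_gen K Ω p χ g₁ hg₁) (AlgEquiv.restrictNormalHom (kerField K Ω p χ) h) =
      (Multiplicative.toAdd (χ h)).val := by
  haveI := normal_kerField K Ω p χ
  apply H68.cycLift_eq_of
  · rw [orderOf_gen K Ω p χ g₁ hg₁]
    exact ZMod.val_lt _
  · exact (char_eq_pow K Ω p χ g₁ hg₁ h).symm

/-- The symbol cocycle is the inflation of the cyclic cocycle of the fixed field. -/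
theorem symC_eq_infl (a : Kˣ) :
    haveI := normal_kerField K Ω p χ
    symC K Ω p χ a =
      H68.infl (AlgEquiv.restrictNormalHom (kerField K Ω p χ))
        (H68.unitsIncl (kerField K Ω p χ) Ω)
        (H68.cycCocycle (AlgEquiv.restrictNormalHom (kerField K Ω p χ) g₁)
          (mem_zpowers_gen K Ω p χ g₁ hg₁) (baseUnitL K Ω p χ a)) := by
  haveI := normal_kerField K Ω p χ
  funext gh
  obtain ⟨g, h⟩ := gh
  simp only [symC, carryC, H68.infl, H68.cycCocycle, H68.cycCarry]
  rw [charLift_carry, cycLift_gen K Ω p χ g₁ hg₁, cycLift_gen K Ω p χ g₁ hg₁,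
    orderOf_gen K Ω p χ g₁ hg₁, map_nsmul, unitsIncl_baseUnitL, natCast_zsmul]

end gen

end kerfield

section norm

variable (K L : Type) [Field K] [Field L] [Algebra K L] [FiniteDimensional K L] [IsGalois K L]

theorem sum_smul_ofMul_coe (y : Lˣ) :
    ((Additive.toMul (∑ σ : L ≃ₐ[K] L, σ • (Additive.ofMul y : Additive Lˣ)) : Lˣ) : L) =
      algebraMap K L (Algebra.norm K (y : L)) := by
  rw [Algebra.norm_eq_prod_automorphisms, toMul_sum, Units.coe_prod]
  rfl

end norm

section main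

variable (K Ω : Type) [Field K] [Field Ω] [Algebra K Ω] [FiniteDimensional K Ω] [IsGalois K Ω]
  (p : ℕ) [Fact p.Prime] (χ : (Ω ≃ₐ[K] Ω) →* Multiplicative (ZMod p))

theorem finrank_kerField_one : Module.finrank K (kerField K Ω p (1 : _ →* _)) = 1 := by
  have h1 : (1 : (Ω ≃ₐ[K] Ω) →* Multiplicative (ZMod p)).ker = ⊤ := MonoidHom.ker_one
  have h2 : kerField K Ω p (1 : _ →* _) = ⊥ := by
    rw [kerField, h1]
    exact IsGalois.fixedField_top
  rw [h2]
  exact IntermediateField.finrank_bot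

/-- **The symbol cocycle `χ ∪ a` is a coboundary iff `a` is a norm from the fixed field of
`ker χ`.** -/
theorem symC_coboundary_iff (a : Kˣ) :
    IsCoboundary₂ (symC K Ω p χ a) ↔ ∃ y : kerField K Ω p χ, Algebra.norm K y = (a : K) := by
  classical
  haveI := normal_kerField K Ω p χ
  haveI := isGalois_kerField K Ω p χ
  by_cases hχ : χ = 1
  · subst hχ
    constructor
    · intro _
      refine ⟨algebraMap K _ (a : K), ?_⟩
      rw [Algebra.norm_algebraMap, finrank_kerField_one, pow_one]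
    · intro _
      apply isCoboundary₂_carryC_of_dvd (isAddMod_charLift p 1)
      · intro g
        simp [charLift]
      · exact fun g => smul_baseUnit K Ω g a
  · obtain ⟨g₁, hg₁⟩ := exists_char_gen K Ω p χ hχ
    have D := H68.galois_infData K (kerField K Ω p χ) Ω
    rw [symC_eq_infl K Ω p χ g₁ hg₁ a]
    have hφ := mem_zpowers_gen K Ω p χ g₁ hg₁
    constructor
    · rintro ⟨x, hx⟩
      have hc := H68.isCocycle₂_cycCocycle (AlgEquiv.restrictNormalHom (kerField K Ω p χ) g₁)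
        hφ (baseUnitL K Ω p χ a) (fun σ => smul_baseUnitL K Ω p χ σ a)
      have h1 := H68.inf_injective D _ hc x hx
      obtain ⟨y, hy⟩ := H68.exists_norm_of_isCoboundary₂
        (AlgEquiv.restrictNormalHom (kerField K Ω p χ) g₁) hφ _ h1
      refine ⟨((Additive.toMul y : (kerField K Ω p χ)ˣ) : kerField K Ω p χ), ?_⟩
      have h2 := sum_smul_ofMul_coe K (kerField K Ω p χ) (Additive.toMul y)
      rw [show (Additive.ofMul (Additive.toMul y) : Additive (kerField K Ω p χ)ˣ) = y from rfl,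
        hy] at h2
      exact (algebraMap K (kerField K Ω p χ)).injective h2.symm
    · rintro ⟨y, hy⟩
      have hy0 : y ≠ 0 := by
        rintro rfl
        rw [Algebra.norm_zero] at hy
        exact a.ne_zero hy.symm
      have h1 : H68.cycPart (AlgEquiv.restrictNormalHom (kerField K Ω p χ) g₁)
          (Additive.ofMul (Units.mk0 y hy0) : Additive (kerField K Ω p χ)ˣ)
          (orderOf (AlgEquiv.restrictNormalHom (kerField K Ω p χ) g₁)) =
          baseUnitL K Ω p χ a := by
        rw [H68.cycPart_orderOf_eq_sum _ hφ]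
        apply H68.additive_units_ext
        rw [sum_smul_ofMul_coe, Units.val_mk0, hy]
        rfl
      have h2 := H68.isCoboundary₂_cycCocycle_of_norm
        (AlgEquiv.restrictNormalHom (kerField K Ω p χ) g₁) hφ
        (Additive.ofMul (Units.mk0 y hy0) : Additive (kerField K Ω p χ)ˣ)
      rw [h1] at h2
      obtain ⟨w, hw⟩ := h2
      refine ⟨fun g => H68.unitsIncl _ _ (w (AlgEquiv.restrictNormalHom _ g)), fun g h => ?_⟩
      have h3 := H68.infl_coboundary D w g h
      simp only [H68.infl]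
      rw [← hw, h3, map_mul]

end main

end Fermat.Agent.S55.CFT.LOC.H25
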