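/-
S55/E4 island LOC (helper25), package LTO (`Stmt_LocalThetaOnto`), part C4c: norm descent for
symbol cocycles.  `K' ⊆ K`, `Ω/K` finite Galois, `M' ⊆ Ω` finite Galois over `K'`,
`res : Gal(Ω/K) → Gal(M'/K')`, `χ'` a character of `Gal(M'/K')`: if `(χ' ∘ res) ∪ b` is a
coboundary then `χ' ∪ N_{K/K'} b` is a coboundary  ("projection formula", proved with norms).
-/
import Fermat.Agent.S55.CFT.LOC.H25_LTO_GL

set_option autoImplicit false
set_option linter.unusedSectionVars false
set_option linter.style.haveILetI false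

namespace Fermat.Agent.S55.CFT.LOC.H25

open groupCohomology Fermat.Agent.S55.CFT.LOC

attribute [local instance] H68.addDMA

section descent

variable (K' K Ω : Type) [Field K'] [Field K] [Field Ω] [Algebra K' K] [Algebra K Ω]
  [Algebra K' Ω] [IsScalarTower K' K Ω] (M' : IntermediateField K' Ω) [Normal K' M']

/-- The restriction `Gal(Ω/K) → Gal(M'/K')`. -/
noncomputable def resGal : (Ω ≃ₐ[K] Ω) →* (M' ≃ₐ[K'] M') :=
  (AlgEquiv.restrictNormalHom M').comp (AlgEquiv.restrictScalarsHom K')

theorem resGal_commutes (g : Ω ≃ₐ[K] Ω) (x : M') :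
    algebraMap M' Ω (resGal K' K Ω M' g x) = g (algebraMap M' Ω x) :=
  AlgEquiv.restrictNormal_commutes (g.restrictScalars K') M' x

variable [FiniteDimensional K' K] [FiniteDimensional K Ω] [IsGalois K Ω]
  [FiniteDimensional K' M'] [IsGalois K' M'] (p : ℕ) [Fact p.Prime]
  (χ' : (M' ≃ₐ[K'] M') →* Multiplicative (ZMod p))

/-- The embedding of the fixed field of `ker χ'` into the fixed field of `ker (χ' ∘ res)`. -/
noncomputable def kerFieldHom :
    kerField K' M' p χ' →+* kerField K Ω p (χ'.comp (resGal K' K Ω M')) where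
  toFun x := ⟨algebraMap M' Ω (x : M'), by
    rw [kerField, IntermediateField.mem_fixedField_iff]
    intro g hg
    have hg' : resGal K' K Ω M' g ∈ χ'.ker := hg
    have hx := (IntermediateField.mem_fixedField_iff _ (x : M')).mp x.2 _ hg'
    rw [← resGal_commutes, hx]⟩
  map_one' := by
    apply Subtype.ext
    simp
  map_mul' x y := by
    apply Subtype.ext
    simp
  map_zero' := by
    apply Subtype.ext
    simp
  map_add' x y := by
    apply Subtype.ext
    simp

/-- **Norm descent for symbol cocycles.** -/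
theorem symC_descent (b : Kˣ)
    (h : IsCoboundary₂ (symC K Ω p (χ'.comp (resGal K' K Ω M')) b)) :
    IsCoboundary₂ (symC K' M' p χ' (Units.map (Algebra.norm K' : K →* K') b)) := by
  rw [symC_coboundary_iff] at h ⊢
  obtain ⟨y, hy⟩ := h
  letI : Algebra (kerField K' M' p χ') (kerField K Ω p (χ'.comp (resGal K' K Ω M'))) :=
    (kerFieldHom K' K Ω M' p χ').toAlgebra
  haveI : IsScalarTower K' (kerField K' M' p χ')
      (kerField K Ω p (χ'.comp (resGal K' K Ω M'))) := by
    refine IsScalarTower.of_algebraMap_eq (fun x => ?_)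
    apply Subtype.ext
    change algebraMap K' Ω x = algebraMap M' Ω (algebraMap K' M' x)
    rw [← IsScalarTower.algebraMap_apply]
  refine ⟨Algebra.norm (kerField K' M' p χ') y, ?_⟩
  rw [Algebra.norm_norm, Units.coe_map, ← hy, Algebra.norm_norm]

end descent

end Fermat.Agent.S55.CFT.LOC.H25
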