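/-
S55/E4 island LOC (helper25), package LTO (`Stmt_LocalThetaOnto`), part C4d: the core.
* symbol cocycles are cocycles; two symbol classes are linearly dependent modulo `p`
  (`symC_dep`, from the cyclicity of the `p`-torsion of the local Brauer group,
  `H68.stmt_BrauerPTors`);
* **norm limitation, core** (`not_norm_core`): `K' ⊆ K` local fields, `Ω/K` finite Galois,
  `M' ⊆ Ω` Galois over `K'`, `χ₀', χ_U'` characters of `Gal(M'/K')`, `b ∈ Kˣ`: if `b` is not a
  norm from the fixed field of `ker (χ₀' ∘ res)` and `N_{K/K'} b` is not a norm from the fixed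
  field of `ker χ_U'`, then `N_{K/K'} b` is not a norm from the fixed field of `ker χ₀'`.
-/
import Fermat.Agent.S55.CFT.LOC.H25_LTO_Desc
import Fermat.Agent.S55.CFT.LOC.H68_FundClass

set_option autoImplicit false
set_option linter.unusedSectionVars false
set_option linter.style.haveILetI false

namespace Fermat.Agent.S55.CFT.LOC.H25

open groupCohomology Fermat.Agent.S55.CFT.LOC

attribute [local instance] H68.addDMA

section carry

variable {Γ A : Type} [Group Γ] [AddCommGroup A] [DistribMulAction Γ A]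

theorem isCocycle₂_carryC {n : ℤ} {ℓ : Γ → ℤ} (h : IsAddMod n ℓ) (a : A)
    (ha : ∀ g : Γ, g • a = a) : IsCocycle₂ (carryC n ℓ a) := by
  intro g k j
  simp only [carryC]
  rw [smul_comm g, ha g, ← add_smul, ← add_smul]
  congr 1
  rcases eq_or_ne n 0 with hn | hn
  · subst hn
    simp
  obtain ⟨u1, hu1⟩ := h (g * k) j
  obtain ⟨u2, hu2⟩ := h g k
  obtain ⟨u3, hu3⟩ := h k j
  obtain ⟨u4, hu4⟩ := h g (k * j)
  rw [hu1, hu2, hu3, hu4, Int.mul_ediv_cancel_left _ hn, Int.mul_ediv_cancel_left _ hn,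
    Int.mul_ediv_cancel_left _ hn, Int.mul_ediv_cancel_left _ hn]
  have : n * (u1 + u2) = n * (u3 + u4) := by
    rw [mul_add, mul_add, ← hu1, ← hu2, ← hu3, ← hu4, mul_assoc]
    ring
  exact mul_left_cancel₀ hn this

/-- If `i • f` and `p • f` are coboundaries and `p ∤ i`, then `f` is a coboundary. -/
theorem isCoboundary₂_of_smul_of_not_dvd {p : ℕ} (hp : p.Prime) {f : Γ × Γ → A} {i : ℤ}
    (hi : ¬ (p : ℤ) ∣ i) (h1 : IsCoboundary₂ (i • f)) (h2 : IsCoboundary₂ ((p : ℤ) • f)) :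
    IsCoboundary₂ f := by
  have hcop : IsCoprime i (p : ℤ) := by
    rw [isCoprime_comm]
    exact (Nat.prime_iff_prime_int.mp hp).coprime_iff_not_dvd.mpr hi
  obtain ⟨u, v, huv⟩ := hcop
  have e : f = u • (i • f) + v • ((p : ℤ) • f) := by
    rw [smul_smul, smul_smul, ← add_smul, huv, one_smul]
  rw [e]
  exact isCoboundary₂_add (isCoboundary₂_zsmul h1 u) (isCoboundary₂_zsmul h2 v)

end carry

section dep

variable (q : ℕ) [Fact q.Prime] (p : ℕ) [Fact p.Prime] (K Ω : Type) [Field K] [Field Ω]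
  [Algebra ℚ_[q] K] [FiniteDimensional ℚ_[q] K] [Algebra K Ω] [FiniteDimensional K Ω]
  [IsGalois K Ω]

omit [FiniteDimensional K Ω] [IsGalois K Ω] [Algebra ℚ_[q] K] [FiniteDimensional ℚ_[q] K] in
theorem isCocycle₂_symC (χ : (Ω ≃ₐ[K] Ω) →* Multiplicative (ZMod p)) (a : Kˣ) :
    IsCocycle₂ (symC K Ω p χ a) :=
  isCocycle₂_carryC (isAddMod_charLift p χ) _ (fun g => smul_baseUnit K Ω g a)

include q in
/-- Two symbol classes are linearly dependent modulo `p`. -/
theorem symC_dep (χ₁ χ₂ : (Ω ≃ₐ[K] Ω) →* Multiplicative (ZMod p)) (a : Kˣ) :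
    ∃ i j : ℤ, (¬ (p : ℤ) ∣ i ∨ ¬ (p : ℤ) ∣ j) ∧
      IsCoboundary₂ (i • symC K Ω p χ₁ a + j • symC K Ω p χ₂ a) := by
  classical
  have mk : ∀ c : (Ω ≃ₐ[K] Ω) × (Ω ≃ₐ[K] Ω) → Additive Ωˣ, IsCocycle₂ c →
      c ∈ cocycles₂ (unitsRep K Ω) := by
    intro c hc
    have hmul : IsMulCocycle₂ (fun x : (Ω ≃ₐ[K] Ω) × (Ω ≃ₐ[K] Ω) => (Additive.toMul (c x) : Ωˣ)) :=
      fun g h j => hc g h j
    exact (cocyclesOfIsMulCocycle₂ hmul).2
  have hm₁ := mk _ (isCocycle₂_symC p K Ω χ₁ a)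
  have hm₂ := mk _ (isCocycle₂_symC p K Ω χ₂ a)
  have tors : ∀ (c : (Ω ≃ₐ[K] Ω) × (Ω ≃ₐ[K] Ω) → Additive Ωˣ) (hc : c ∈ cocycles₂ (unitsRep K Ω)),
      IsCoboundary₂ ((p : ℤ) • c) → (p : ℤ) • (H2π (unitsRep K Ω)) ⟨c, hc⟩ = 0 := by
    intro c hc hcob
    rw [← map_zsmul, H2π_eq_zero_iff]
    obtain ⟨w, hw⟩ := hcob
    refine ⟨w, ?_⟩
    funext gh
    exact hw gh.1 gh.2
  obtain ⟨i, j, hij, h0⟩ := H68.stmt_BrauerPTors q p K Ω _ _
    (tors _ hm₁ (isCoboundary₂_smul_symC K Ω p χ₁ a))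
    (tors _ hm₂ (isCoboundary₂_smul_symC K Ω p χ₂ a))
  refine ⟨i, j, hij, ?_⟩
  rw [← map_zsmul, ← map_zsmul, ← map_add, H2π_eq_zero_iff] at h0
  obtain ⟨w, hw⟩ := h0
  refine ⟨w, fun g h => ?_⟩
  have := congrFun hw (g, h)
  exact this

end dep

section core

variable (q : ℕ) [Fact q.Prime] (p : ℕ) [Fact p.Prime]
  (K' K Ω : Type) [Field K'] [Field K] [Field Ω] [Algebra K' K] [Algebra K Ω]
  [Algebra K' Ω] [IsScalarTower K' K Ω] (M' : IntermediateField K' Ω) [Normal K' M']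
  [Algebra ℚ_[q] K] [FiniteDimensional ℚ_[q] K]
  [FiniteDimensional K' K] [FiniteDimensional K Ω] [IsGalois K Ω]
  [FiniteDimensional K' M'] [IsGalois K' M']

omit [Normal K' M'] [FiniteDimensional K' M'] [IsGalois K' M'] [Algebra K' K] [Algebra K Ω]
  [IsScalarTower K' K Ω] [FiniteDimensional K' K] [FiniteDimensional K Ω] [IsGalois K Ω]
  [Algebra ℚ_[q] K] [FiniteDimensional ℚ_[q] K] [Field K] [Algebra K' Ω] [Field K']
  [Field Ω] in
theorem toAdd_comb {Γ : Type} [Group Γ] (χ₁ χ₂ : Γ →* Multiplicative (ZMod p)) (i j : ℤ)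
    (g : Γ) :
    Multiplicative.toAdd ((χ₁ ^ i * χ₂ ^ j) g) =
      (i : ZMod p) * Multiplicative.toAdd (χ₁ g) + (j : ZMod p) * Multiplicative.toAdd (χ₂ g) := by
  rw [MonoidHom.mul_apply, toAdd_mul]
  have e : ∀ (χ : Γ →* Multiplicative (ZMod p)) (k : ℤ),
      Multiplicative.toAdd ((χ ^ k) g) = (k : ZMod p) * Multiplicative.toAdd (χ g) := by
    intro χ k
    have : (χ ^ k) g = (χ g) ^ k := rfl
    rw [this, toAdd_zpow, zsmul_eq_mul]
  rw [e, e]

include q in
/-- **Norm limitation, core.** -/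
theorem not_norm_core (χ₀' χU' : (M' ≃ₐ[K'] M') →* Multiplicative (ZMod p)) (b : Kˣ)
    (h1 : ¬ ∃ y : kerField K Ω p (χ₀'.comp (resGal K' K Ω M')), Algebra.norm K y = (b : K))
    (h2 : ¬ ∃ y : kerField K' M' p χU', Algebra.norm K' y = Algebra.norm K' (b : K)) :
    ¬ ∃ y : kerField K' M' p χ₀', Algebra.norm K' y = Algebra.norm K' (b : K) := by
  intro h3
  have hp : p.Prime := Fact.out
  set a : K'ˣ := Units.map (Algebra.norm K' : K →* K') b with ha
  have hacoe : (a : K') = Algebra.norm K' (b : K) := rfl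
  rw [← hacoe] at h2 h3
  rw [← symC_coboundary_iff] at h1 h2 h3
  obtain ⟨i, j, hij, hdep⟩ := symC_dep q p K Ω (χ₀'.comp (resGal K' K Ω M'))
    (χU'.comp (resGal K' K Ω M')) b
  by_cases hj : (p : ℤ) ∣ j
  · -- then `p ∤ i` and `b` is a norm: contradiction with `h1`
    have hi : ¬ (p : ℤ) ∣ i := by
      rcases hij with h | h
      · exact h
      · exact absurd hj h
    obtain ⟨j', rfl⟩ := hj
    have hc2 : IsCoboundary₂ (((p : ℤ) * j') • symC K Ω p (χU'.comp (resGal K' K Ω M')) b) := by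
      rw [mul_comm, mul_smul]
      exact isCoboundary₂_zsmul (isCoboundary₂_smul_symC K Ω p _ b) j'
    have hc1 : IsCoboundary₂ (i • symC K Ω p (χ₀'.comp (resGal K' K Ω M')) b) := by
      have := isCoboundary₂_sub hdep hc2
      rwa [add_sub_cancel_right] at this
    exact h1 (isCoboundary₂_of_smul_of_not_dvd hp hi hc1 (isCoboundary₂_smul_symC K Ω p _ b))
  · -- descent
    set χ₃' : (M' ≃ₐ[K'] M') →* Multiplicative (ZMod p) := χ₀' ^ i * χU' ^ j with hχ₃
    have hcombK := isCoboundary₂_symC_comb K Ω p (χ₀'.comp (resGal K' K Ω M'))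
      (χU'.comp (resGal K' K Ω M')) (χ₃'.comp (resGal K' K Ω M')) i j
      (fun g => toAdd_comb p χ₀' χU' i j (resGal K' K Ω M' g)) b
    have hc3 : IsCoboundary₂ (symC K Ω p (χ₃'.comp (resGal K' K Ω M')) b) := by
      have := isCoboundary₂_add hcombK hdep
      rwa [sub_add_cancel] at this
    have hd := symC_descent K' K Ω M' p χ₃' b hc3
    rw [← ha] at hd
    have hcombK' := isCoboundary₂_symC_comb K' M' p χ₀' χU' χ₃' i j
      (fun g => toAdd_comb p χ₀' χU' i j g) a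
    have hc4 : IsCoboundary₂ (i • symC K' M' p χ₀' a + j • symC K' M' p χU' a) := by
      have := isCoboundary₂_sub hd hcombK'
      rwa [sub_sub_cancel] at this
    have hc5 : IsCoboundary₂ (j • symC K' M' p χU' a) := by
      have := isCoboundary₂_sub hc4 (isCoboundary₂_zsmul h3 i)
      rwa [add_sub_cancel_left] at this
    exact h2 (isCoboundary₂_of_smul_of_not_dvd hp hj hc5 (isCoboundary₂_smul_symC K' M' p _ a))

end core

end Fermat.Agent.S55.CFT.LOC.H25
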