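/-
S55/E4 island LOC (helper25), package LTO (`Stmt_LocalThetaOnto`), part C5a: auxiliary lemmas
for the assembly (index argument, norm groups of fixed fields of characters).
-/
import Fermat.Agent.S55.CFT.LOC.H25_LTO_Core
import Fermat.Agent.S55.CFT.LOC.H68_NormIndex

set_option autoImplicit false
set_option linter.unusedSectionVars false
set_option linter.style.haveILetI false

namespace Fermat.Agent.S55.CFT.LOC.H25

open groupCohomology Fermat.Agent.S55.CFT.LOC Fermat.Agent.S55.CFT

/-- A subgroup of prime index is maximal: a proper subgroup containing it is equal to it. -/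
theorem le_of_index_prime {G : Type*} [Group G] {H K : Subgroup G} {p : ℕ} (hp : p.Prime)
    (hHK : H ≤ K) (hH : H.index = p) (hK : K ≠ ⊤) : K ≤ H := by
  have h1 := Subgroup.relIndex_mul_index hHK
  rw [hH] at h1
  have h2 : K.index ∣ p := Dvd.intro_left _ h1
  have h3 : K.index ≠ 1 := fun h => hK (Subgroup.index_eq_one.mp h)
  have h4 : K.index = p := (Nat.dvd_prime hp).mp h2 |>.resolve_left h3
  rw [h4] at h1
  have h5 : H.relIndex K = 1 := by
    have hp0 : 0 < p := hp.pos
    exact Nat.eq_of_mul_eq_mul_right hp0 (by rw [h1, one_mul])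
  exact Subgroup.relIndex_eq_one.mp h5

theorem exists_norm_congr {K M : Type*} [Field K] [Field M] [Algebra K M]
    {E₁ E₂ : IntermediateField K M} (h : E₁ = E₂) (a : K) :
    (∃ y : E₁, Algebra.norm K y = a) ↔ ∃ y : E₂, Algebra.norm K y = a := by
  subst h
  rfl

/-- membership in the norm subgroup -/
theorem mem_normSubgroup_iff {F E : Type} [Field F] [Field E] [Algebra F E]
    [FiniteDimensional F E] (a : Fˣ) :
    a ∈ normSubgroup F E ↔ ∃ y : E, Algebra.norm F y = (a : F) := by
  constructor
  · rintro ⟨y, rfl⟩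
    exact ⟨(y : E), rfl⟩
  · rintro ⟨y, hy⟩
    have hy0 : y ≠ 0 := by
      rintro rfl
      rw [Algebra.norm_zero] at hy
      exact a.ne_zero hy.symm
    exact ⟨Units.mk0 y hy0, Units.ext hy⟩

section idx

variable (q : ℕ) [Fact q.Prime] (p : ℕ) [Fact p.Prime] (K Ω : Type) [Field K] [Field Ω]
  [Algebra ℚ_[q] K] [FiniteDimensional ℚ_[q] K] [Algebra K Ω] [FiniteDimensional K Ω]
  [IsGalois K Ω]

include q in
/-- The norm group of the fixed field of the kernel of a nontrivial character is proper. -/
theorem normSubgroup_kerField_ne_top (χ : (Ω ≃ₐ[K] Ω) →* Multiplicative (ZMod p)) (hχ : χ ≠ 1) :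
    normSubgroup K (kerField K Ω p χ) ≠ ⊤ := by
  intro htop
  haveI := isGalois_kerField K Ω p χ
  haveI := normal_kerField K Ω p χ
  obtain ⟨g₁, hg₁⟩ := exists_char_gen K Ω p χ hχ
  have hcyc : IsCyclic (kerField K Ω p χ ≃ₐ[K] kerField K Ω p χ) :=
    ⟨⟨_, mem_zpowers_gen K Ω p χ g₁ hg₁⟩⟩
  have hidx := H68.stmt_LocalNormIndexCyclic q K (kerField K Ω p χ) hcyc
  rw [htop, Subgroup.index_top] at hidx
  have hbot : kerField K Ω p χ = ⊥ := IntermediateField.finrank_eq_one_iff.mp hidx.symm
  have hker : χ.ker = ⊤ := by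
    have h1 := IntermediateField.fixingSubgroup_fixedField (F := K) (E := Ω) χ.ker
    have h2 : IntermediateField.fixedField χ.ker = ⊥ := hbot
    rw [h2, IntermediateField.fixingSubgroup_bot] at h1
    exact h1.symm
  apply hχ
  ext g
  have : g ∈ χ.ker := by rw [hker]; exact Subgroup.mem_top g
  exact congrArg _ (MonoidHom.mem_ker.mp this)

end idx

end Fermat.Agent.S55.CFT.LOC.H25
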