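/-
S55/E4 island LOC (helper25), package LTO (`Stmt_LocalThetaOnto`), part C5b: the statement for
a given tower `ℚ_p ⊆ F' ⊆ F ⊆ Ω ⊇ M' ⊇ F'`.
-/
import Fermat.Agent.S55.CFT.LOC.H25_LTO_Aux
import Fermat.Agent.S55.CFT.LOC.Defs_LTO2
import Fermat.Agent.S55.CFT.H25_LTO_ThetaLoc
import Fermat.Agent.S55.CFT.LOC.H25_Unram
import Fermat.Agent.S55.CFT.H56_ThetaUnits

set_option autoImplicit false
set_option linter.unusedSectionVars false
set_option linter.style.haveILetI false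

namespace Fermat.Agent.S55.CFT.LOC.H25

open groupCohomology Fermat.Agent.S55.CFT.LOC Fermat.Agent.S55.CFT

section unram

variable (q : ℕ) [Fact q.Prime] (K E : Type) [Field K] [Field E] [Algebra ℚ_[q] K]
  [FiniteDimensional ℚ_[q] K] [Algebra ℚ_[q] E] [FiniteDimensional ℚ_[q] E] [Algebra K E]
  [IsScalarTower ℚ_[q] K E] [FiniteDimensional K E]

/-- Norms from the unramified extension of degree `n` have valuation divisible by `n`. -/
theorem unram_facts {n : ℕ} (hn : 0 < n) {ξ : E} (hξ : IsPrimitiveRoot ξ (resCard q K ^ n - 1))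
    [IsCyclotomicExtension {resCard q K ^ n - 1} K E] :
    IsGalois K E ∧ Module.finrank K E = n ∧
      ∀ y : E, ∃ x : K, nrm q K (Algebra.norm K y) = nrm q K x ^ n := by
  haveI : NeZero (resCard q K ^ n - 1) := ⟨(pow_resCard_sub_one_pos q K hn).ne'⟩
  haveI hgal : IsGalois K E := IsCyclotomicExtension.isGalois {resCard q K ^ n - 1} K E
  have hfr := finrank_eq q K E hn hξ
  refine ⟨hgal, hfr, fun y => ?_⟩
  obtain ⟨x, hx⟩ := isUnram q K E hn hξ y
  exact ⟨x, by rw [nrm_norm q K E y, hx, hfr]⟩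

end unram

section cyc

variable (p : Nat.Primes) (c : ℕ) (K E : Type) [Field K] [Field E] [Algebra (Qp p) K]
  [FiniteDimensional (Qp p) K] [Algebra (Qp p) E] [FiniteDimensional (Qp p) E] [Algebra K E]
  [IsScalarTower (Qp p) K E] [FiniteDimensional K E] [IsGalois K E]

/-- The symbol `θ_{c+1} ∘ N_{K/ℚ_p}` on `Kˣ`. -/
noncomputable def kappa : Kˣ →* (ZMod ((p : ℕ) ^ (c + 1)))ˣ :=
  (H56.thetaLocHom p (c + 1) p).comp (Units.map (Algebra.norm (Qp p) : K →* Qp p))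

omit [FiniteDimensional (Qp p) K] in
theorem kappa_apply (a : Kˣ) :
    kappa p c K a = thetaLoc p (c + 1) p (Units.map (Algebra.norm (Qp p) : K →* Qp p) a) := rfl

/-- If `E/K` is Galois of degree `p`, `ζ_{p^(c+1)} ∈ E` and `θ_{c+1} ∘ N_{K/ℚ_p}` is not
trivial, then its kernel is the norm group of `E/K`. -/
theorem mem_normSubgroup_of_kappa (hp2 : (p : ℕ) ≠ 2)
    (hfr : Module.finrank K E = (p : ℕ))
    (hζ : ∃ ζ : E, IsPrimitiveRoot ζ ((p : ℕ) ^ (c + 1)))
    (hu : ∃ u : Kˣ, thetaLoc p (c + 1) p (Units.map (Algebra.norm (Qp p) : K →* Qp p) u) ≠ 1)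
    (a : Kˣ)
    (ha : thetaLoc p (c + 1) p (Units.map (Algebra.norm (Qp p) : K →* Qp p) a) = 1) :
    a ∈ normSubgroup K E := by
  haveI := fact_primes p
  have hle : normSubgroup K E ≤ (kappa p c K).ker := by
    rintro _ ⟨y, rfl⟩
    rw [MonoidHom.mem_ker, kappa_apply]
    have h1 := Fermat.Agent.S55.CFT.H25.thetaLoc_norm_local p (c + 1) E hp2 hζ y
    have h2 : Units.map (Algebra.norm (Qp p) : K →* Qp p)
        (Units.map (Algebra.norm K : E →* K) y) =
        Units.map (Algebra.norm (Qp p) : E →* Qp p) y := by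
      apply Units.ext
      simp only [Units.coe_map]
      exact Algebra.norm_norm (R := Qp p) (S := K)
    rw [h2]
    exact h1
  have hcard : Nat.card (E ≃ₐ[K] E) = (p : ℕ) := by
    rw [IsGalois.card_aut_eq_finrank, hfr]
  have hcyc : IsCyclic (E ≃ₐ[K] E) := isCyclic_of_prime_card hcard
  have hidx := H68.stmt_LocalNormIndexCyclic (p : ℕ) K E hcyc
  rw [hfr] at hidx
  have hne : (kappa p c K).ker ≠ ⊤ := by
    obtain ⟨u, hu⟩ := hu
    intro htop
    apply hu
    have : u ∈ (kappa p c K).ker := by rw [htop]; exact Subgroup.mem_top u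
    exact MonoidHom.mem_ker.mp this
  exact le_of_index_prime p.2 hle hidx hne (MonoidHom.mem_ker.mpr ha)

end cyc

section tower

variable (p : Nat.Primes) (c : ℕ) (F' F Ω : Type) [Field F'] [Field F] [Field Ω]
  [Algebra (Qp p) F'] [Algebra (Qp p) F] [Algebra (Qp p) Ω] [Algebra F' F] [Algebra F Ω]
  [Algebra F' Ω] [IsScalarTower (Qp p) F' F] [IsScalarTower (Qp p) F' Ω] [IsScalarTower F' F Ω]
  [FiniteDimensional (Qp p) F'] [FiniteDimensional (Qp p) F] [FiniteDimensional F Ω]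
  [IsGalois F Ω]
  (M' : IntermediateField F' Ω) [FiniteDimensional F' M'] [IsGalois F' M']

/-- **`Stmt_LocalThetaOnto` for a given tower.** -/
theorem lto_tower (hTR : Stmt_TotRamNorm) (hCK : Stmt_CharKer) (hKD : Stmt_KummerDeg)
    (hUN : Stmt_UnifNotIn) (hp2 : (p : ℕ) ≠ 2) (hc : 1 ≤ c)
    (hζc : ∃ ζ : F', IsPrimitiveRoot ζ ((p : ℕ) ^ c))
    (hno : ¬ ∃ ζ : F, IsPrimitiveRoot ζ ((p : ℕ) ^ (c + 1)))
    (hres : haveI := fact_primes p
      ∀ y : F, nrm (p : ℕ) F y ≤ 1 → ∃ x : F', nrm (p : ℕ) F (y - algebraMap F' F x) < 1)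
    (hu : ∃ u : F'ˣ,
      thetaLoc p (c + 1) p (Units.map (Algebra.norm (Qp p) : F' →* Qp p) u) ≠ 1)
    (ζ : M') (hζ : IsPrimitiveRoot ζ ((p : ℕ) ^ (c + 1)))
    (ξ : M') (hξ : haveI := fact_primes p
      IsPrimitiveRoot ξ (resCard (p : ℕ) F' ^ (p : ℕ) - 1)) :
    ∃ b : Fˣ, thetaLoc p (c + 1) p (Units.map (Algebra.norm (Qp p) : F →* Qp p) b) ≠ 1 := by
  classical
  haveI hpF : Fact ((p : ℕ).Prime) := fact_primes p
  haveI : FiniteDimensional F' F := FiniteDimensional.right (Qp p) F' F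
  have hp0 : 0 < (p : ℕ) := p.2.pos
  -- the field `E₀ = F'(ζ)`
  set E₀ : IntermediateField F' M' := IntermediateField.adjoin F' {ζ} with hE₀
  haveI : NeZero ((p : ℕ) ^ (c + 1)) := ⟨pow_ne_zero _ p.2.ne_zero⟩
  haveI hcycE₀ : IsCyclotomicExtension {(p : ℕ) ^ (c + 1)} F' E₀ :=
    hζ.intermediateField_adjoin_isCyclotomicExtension F'
  haveI hgalE₀ : IsGalois F' E₀ := IsCyclotomicExtension.isGalois {(p : ℕ) ^ (c + 1)} F' E₀
  have hno' : ¬ ∃ ζ : F', IsPrimitiveRoot ζ ((p : ℕ) ^ (c + 1)) := by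
    rintro ⟨z, hz⟩
    exact hno ⟨algebraMap F' F z, hz.map_of_injective (algebraMap F' F).injective⟩
  have hfrE₀ : Module.finrank F' E₀ = (p : ℕ) := hKD (p : ℕ) c F' M' hc hζc hno' ζ hζ
  obtain ⟨χ₀', hχ₀'⟩ := hCK (p : ℕ) F' M' E₀ hgalE₀ hfrE₀
  have hζE₀ : ζ ∈ E₀ := IntermediateField.mem_adjoin_simple_self F' ζ
  -- the field `E_U = F'(ξ)`
  set EU : IntermediateField F' M' := IntermediateField.adjoin F' {ξ} with hEU
  haveI : NeZero (resCard (p : ℕ) F' ^ (p : ℕ) - 1) :=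
    ⟨(pow_resCard_sub_one_pos (p : ℕ) F' hp0).ne'⟩
  haveI hcycEU : IsCyclotomicExtension {resCard (p : ℕ) F' ^ (p : ℕ) - 1} F' EU :=
    hξ.intermediateField_adjoin_isCyclotomicExtension F'
  haveI : FiniteDimensional (Qp p) EU := Module.Finite.trans F' EU
  let ξE : EU := ⟨ξ, IntermediateField.mem_adjoin_simple_self F' ξ⟩
  have hξE : IsPrimitiveRoot ξE (resCard (p : ℕ) F' ^ (p : ℕ) - 1) :=
    IsPrimitiveRoot.of_map_of_injective (f := algebraMap EU M') hξ (algebraMap EU M').injective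
  obtain ⟨hgalEU, hfrEU, hnormEU⟩ := unram_facts (p : ℕ) F' EU hp0 hξE
  obtain ⟨χU', hχU'⟩ := hCK (p : ℕ) F' M' EU hgalEU hfrEU
  -- the character `χ₀` of `Gal(Ω/F)` is not trivial
  have hχ₀ne : χ₀'.comp (resGal F' F Ω M') ≠ 1 := by
    intro h1
    apply hno
    have hfix : ∀ g : Ω ≃ₐ[F] Ω, g (algebraMap M' Ω ζ) = algebraMap M' Ω ζ := by
      intro g
      have hg : resGal F' F Ω M' g ∈ χ₀'.ker := by
        rw [MonoidHom.mem_ker]
        exact congrArg (fun f => f g) h1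
      have hmem : ζ ∈ IntermediateField.fixedField χ₀'.ker := by
        rw [hχ₀']
        exact hζE₀
      have := (IntermediateField.mem_fixedField_iff _ ζ).mp hmem _ hg
      rw [← resGal_commutes, this]
    obtain ⟨z, hz⟩ := (IsGalois.mem_range_algebraMap_iff_fixed (F := F) (E := Ω) _).mpr hfix
    refine ⟨z, IsPrimitiveRoot.of_map_of_injective (f := algebraMap F Ω) ?_
      (algebraMap F Ω).injective⟩
    rw [hz]
    exact hζ.map_of_injective (algebraMap M' Ω).injective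
  -- a uniformizer `b` of `F` which is not a norm from the fixed field of `ker χ₀`
  have hNtop := normSubgroup_kerField_ne_top (p : ℕ) (p : ℕ) F Ω _ hχ₀ne
  obtain ⟨b, hbH, hb0, hb1, hbgen⟩ := hUN (p : ℕ) F _ hNtop
  have h1 : ¬ ∃ y : kerField F Ω (p : ℕ) (χ₀'.comp (resGal F' F Ω M')),
      Algebra.norm F y = (b : F) := by
    rw [← mem_normSubgroup_iff]
    exact hbH
  -- the norm `a` of `b` is a uniformizer of `F'`
  set a : F' := Algebra.norm F' (b : F) with ha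
  have ha0 : a ≠ 0 := Algebra.norm_ne_zero_iff.mpr b.ne_zero
  have hagen := hTR (p : ℕ) F' F hres (b : F) hb0 hb1 hbgen
  have hapos : 0 < nrm (p : ℕ) F' a := nrm_pos _ _ ha0
  haveI : CharZero F' := charZero_of_padic (p : ℕ) F'
  have hane1 : nrm (p : ℕ) F' a ≠ 1 := by
    intro h
    have hpne : (((p : ℕ) : ℕ) : F') ≠ 0 := Nat.cast_ne_zero.mpr p.2.ne_zero
    obtain ⟨k, hk⟩ := hagen _ hpne
    rw [h, one_zpow, nrm_natCast_q] at hk
    have h5 : ((p : ℕ) : ℝ) = 1 := inv_eq_one.mp hk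
    exact p.2.ne_one (by exact_mod_cast h5)
  have h2 : ¬ ∃ y : kerField F' M' (p : ℕ) χU', Algebra.norm F' y = Algebra.norm F' (b : F) := by
    rw [exists_norm_congr hχU']
    rintro ⟨y, hy⟩
    obtain ⟨x, hx⟩ := hnormEU y
    rw [hy] at hx
    have hx0 : x ≠ 0 := by
      rintro rfl
      rw [nrm_zero, zero_pow p.2.ne_zero] at hx
      exact hapos.ne' hx
    obtain ⟨k, hk⟩ := hagen x hx0
    rw [hk, ← zpow_natCast, ← zpow_mul] at hx
    have h3 : nrm (p : ℕ) F' a ^ (1 : ℤ) = nrm (p : ℕ) F' a ^ (k * ((p : ℕ) : ℤ)) := by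
      rw [zpow_one]
      exact hx
    have h4 := zpow_right_injective₀ hapos hane1 h3
    have h5 : (((p : ℕ) : ℤ)) ∣ ((1 : ℕ) : ℤ) := ⟨k, by rw [Nat.cast_one, h4]; ring⟩
    have h6 := Int.natCast_dvd_natCast.mp h5
    exact p.2.one_lt.ne' (Nat.dvd_one.mp h6)
  -- the core
  have h3 := not_norm_core (p : ℕ) (p : ℕ) F' F Ω M' χ₀' χU' b h1 h2
  rw [exists_norm_congr hχ₀'] at h3
  -- the index argument
  haveI : FiniteDimensional (Qp p) E₀ := Module.Finite.trans F' E₀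
  refine ⟨b, fun hb => ?_⟩
  have hb' : thetaLoc p (c + 1) p (Units.map (Algebra.norm (Qp p) : F' →* Qp p)
      (Units.map (Algebra.norm F' : F →* F') b)) = 1 := by
    have e : Units.map (Algebra.norm (Qp p) : F' →* Qp p)
        (Units.map (Algebra.norm F' : F →* F') b) =
        Units.map (Algebra.norm (Qp p) : F →* Qp p) b := by
      apply Units.ext
      simp only [Units.coe_map]
      exact Algebra.norm_norm (R := Qp p) (S := F')
    rw [e]
    exact hb
  have hζ' : ∃ z : E₀, IsPrimitiveRoot z ((p : ℕ) ^ (c + 1)) :=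
    ⟨⟨ζ, hζE₀⟩, IsPrimitiveRoot.of_map_of_injective (f := algebraMap E₀ M') hζ
      (algebraMap E₀ M').injective⟩
  have hmem := mem_normSubgroup_of_kappa p c F' E₀ hp2 hfrE₀ hζ' hu _ hb'
  rw [mem_normSubgroup_iff] at hmem
  exact h3 hmem

end tower

end Fermat.Agent.S55.CFT.LOC.H25
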