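/-
S55/E4 island LOC (helper25), package LOC-2a: `Stmt_UnramExists`.
-/
import Fermat.Agent.S55.CFT.LOC.H25_Unram

set_option autoImplicit false
set_option linter.unusedSectionVars false
set_option linter.style.haveILetI false

namespace Fermat.Agent.S55.CFT.LOC.H25

open Fermat.Agent.S55.CFT.LOC

/-- **LOC-2a**: for every `n ≥ 1` there is an unramified cyclic Galois extension of `F` of
degree `n` (namely `F(ζ)`, `ζ` a primitive root of unity of order `N ^ n - 1`, `N = #k_F`). -/
theorem stmt_UnramExists : Stmt_UnramExists := by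
  intro q _ F _ _ _ n hn
  haveI hne : NeZero (resCard q F ^ n - 1) := ⟨(pow_resCard_sub_one_pos q F hn).ne'⟩
  haveI : CharZero F := charZero_of_injective_algebraMap (algebraMap ℚ_[q] F).injective
  haveI : CharZero (AlgebraicClosure F) :=
    charZero_of_injective_algebraMap (algebraMap F (AlgebraicClosure F)).injective
  haveI : NeZero ((resCard q F ^ n - 1 : ℕ) : AlgebraicClosure F) := NeZero.charZero
  obtain ⟨ζ, hζ⟩ :=
    HasEnoughRootsOfUnity.exists_primitiveRoot (AlgebraicClosure F) (resCard q F ^ n - 1)
  let E : IntermediateField F (AlgebraicClosure F) := IntermediateField.adjoin F {ζ}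
  haveI hcyc : IsCyclotomicExtension {resCard q F ^ n - 1} F E :=
    hζ.intermediateField_adjoin_isCyclotomicExtension F
  haveI hfd : FiniteDimensional F E :=
    IsCyclotomicExtension.finiteDimensional {resCard q F ^ n - 1} F E
  haveI : FiniteDimensional ℚ_[q] E := Module.Finite.trans F E
  let ζE : E := ⟨ζ, IntermediateField.mem_adjoin_simple_self F ζ⟩
  have hζE : IsPrimitiveRoot ζE (resCard q F ^ n - 1) := by
    have h1 : IsPrimitiveRoot (algebraMap E (AlgebraicClosure F) ζE) (resCard q F ^ n - 1) := hζ
    exact IsPrimitiveRoot.of_map_of_injective (f := algebraMap E (AlgebraicClosure F)) h1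
      (algebraMap E (AlgebraicClosure F)).injective
  exact ⟨E, hfd, IsCyclotomicExtension.isGalois {resCard q F ^ n - 1} F E,
    finrank_eq q F E hn hζE, isCyclic_aut q F E hn hζE, isUnram q F E hn hζE⟩

end Fermat.Agent.S55.CFT.LOC.H25
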