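import Fermat.Agent.S55.CFT.LOC.Defs_LTO
import Fermat.Agent.S55.CFT.H56_ThetaUnits

/-!
# S55 / E4 / CFT / LOC, leaf LTO-S (helper20): the local symbol at `p` is onto
-/

set_option autoImplicit false

noncomputable section

namespace Fermat.Agent.S55.CFT.LOC.H20

open Fermat.Agent.S55.CFT

/-- **LTO-S**: `thetaLoc p M p : ℚ_pˣ → (ℤ/p^M)ˣ` is surjective. -/
theorem stmt_ThetaLocSurj : Stmt_ThetaLocSurj := by
  intro p M y
  have hfact : Fact ((p : ℕ).Prime) := fact_primes p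
  rcases Nat.eq_zero_or_pos M with hM | hM
  · subst hM
    refine ⟨1, ?_⟩
    have hsub : Subsingleton (ZMod ((p : ℕ) ^ 0))ˣ := by
      rw [pow_zero]
      infer_instance
    exact Subsingleton.elim _ _
  · have hne : NeZero ((p : ℕ) ^ M) := ⟨pow_ne_zero _ p.2.ne_zero⟩
    set a : ℕ := ((y⁻¹ : (ZMod ((p : ℕ) ^ M))ˣ) : ZMod ((p : ℕ) ^ M)).val with ha
    have hcop : Nat.Coprime a ((p : ℕ) ^ M) := ZMod.val_coe_unit_coprime _
    have hcop' : Nat.Coprime (p : ℕ) a :=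
      (Nat.Coprime.coprime_dvd_right (dvd_pow_self _ hM.ne') hcop).symm
    have hnorm : ‖((a : ℕ) : ℚ_[(p : ℕ)])‖ = 1 := Padic.norm_natCast_eq_one_iff.mpr hcop'
    have ha0 : ((a : ℕ) : Qp p) ≠ 0 := by
      intro h
      rw [h, norm_zero] at hnorm
      exact zero_ne_one hnorm
    have hval : Padic.valuation ((a : ℕ) : ℚ_[(p : ℕ)]) = 0 := by
      rw [Padic.valuation_natCast]
      have : padicValNat (p : ℕ) a = 0 := by
        apply padicValNat.eq_zero_of_not_dvd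
        intro hd
        exact (Nat.Prime.coprime_iff_not_dvd p.2).mp hcop' hd
      simp [this]
    refine ⟨Units.mk0 ((a : ℕ) : Qp p) ha0, ?_⟩
    rw [H56.thetaLoc_self, inv_eq_iff_eq_inv]
    apply Units.ext
    have hu : ((unitPart p (Units.mk0 ((a : ℕ) : Qp p) ha0) : ℤ_[(p : ℕ)]ˣ) : ℤ_[(p : ℕ)])
        = ((a : ℕ) : ℤ_[(p : ℕ)]) := by
      apply Subtype.ext
      rw [H56.unitPart_val, Units.val_mk0, hval]
      simp
    change (PadicInt.toZModPow M) ((unitPart p _ : ℤ_[(p : ℕ)]ˣ) : ℤ_[(p : ℕ)]) = _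
    rw [hu, map_natCast, ha, ZMod.natCast_zmod_val]

end Fermat.Agent.S55.CFT.LOC.H20
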