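import Fermat.Agent.S55.CFT.LOC.Defs_LTO
import Fermat.Agent.S55.CFT.LOC.H25_LTO_Cyc
import Fermat.Agent.S55.CFT.LOC.H20_ThetaLocSurj
import Fermat.Agent.S55.CFT.LOC.H68_NormIndex
import Fermat.Agent.S55.CFT.H56_ThetaUnits
import Mathlib.RingTheory.ZMod.UnitsCyclic
import Mathlib.NumberTheory.Cyclotomic.Gal
import Mathlib.NumberTheory.Cyclotomic.PrimitiveRoots

/-!
# S55 / E4 / CFT / LOC, leaf LTO-C1 (helper41)

`stmt_CycUnitTheta : Stmt_CycUnitTheta`: for `p` odd, `c ≥ 1` and `E = ℚ_p(ζ_{p^c})` there is a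
unit `x` of `E` (`|x| = 1`) with `θ_{c+1}(N_{E/ℚ_p} x) ≠ 1`.

Route: `E/ℚ_p` is cyclic of degree `φ(p^c)`, so the norm group has index `φ(p^c)`
(`H68.stmt_LocalNormIndexCyclic`), while the kernel of `θ_{c+1}` has index `φ(p^(c+1))`
(`H20.stmt_ThetaLocSurj`): some norm `N y` has `θ_{c+1}(N y) ≠ 1`; then
`x := y / (ζ - 1)^v` with `v = v_p(N y)`, since `N(ζ - 1) = p` and `θ_{c+1}(p) = 1`.
-/

set_option autoImplicit false
set_option linter.unusedSectionVars false
set_option linter.style.haveILetI false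

noncomputable section

namespace Fermat.Agent.S55.CFT.LOC.H41

open Fermat.Agent.S55.CFT Fermat.Agent.S55.CFT.LOC Polynomial

section

variable (p : Nat.Primes) (E : Type) [Field E] [Algebra (Qp p) E] [FiniteDimensional (Qp p) E]

/-- The prime `p` as a unit of `ℚ_p`. -/
def pUnit : (Qp p)ˣ := Units.mk0 (((p : ℕ) : Qp p)) (by
  haveI := fact_primes p
  exact_mod_cast p.2.ne_zero)

theorem pUnit_eq : pUnit p = H56.ratU p (H56.primeQ p) := by
  apply Units.ext
  show (((p : ℕ) : Qp p)) = (((p : ℕ) : ℚ) : Qp p)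
  rw [Rat.cast_natCast]

theorem thetaLoc_pUnit (M : ℕ) : thetaLoc p M p (pUnit p) = 1 := by
  rw [pUnit_eq, H56.thetaLoc_primeQ_self]
  simp

/-- `E = ℚ_p(ζ)` is a cyclotomic extension. -/
theorem isCyclotomicExtension_of_adjoin {n : ℕ} [NeZero n] {ζ : E} (hζ : IsPrimitiveRoot ζ n)
    (htop : IntermediateField.adjoin (Qp p) {ζ} = ⊤) : IsCyclotomicExtension {n} (Qp p) E := by
  haveI := fact_primes p
  haveI : IsCyclotomicExtension {n} (Qp p) (IntermediateField.adjoin (Qp p) {ζ}) :=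
    hζ.intermediateField_adjoin_isCyclotomicExtension (Qp p)
  exact IsCyclotomicExtension.equiv {n} (Qp p) (IntermediateField.adjoin (Qp p) {ζ})
    ((IntermediateField.equivOfEq htop).trans IntermediateField.topEquiv)

/-- `[E : ℚ_p] = φ(p^c)`. -/
theorem finrank_of_adjoin {c : ℕ} (hc : c ≠ 0) {ζ : E} (hζ : IsPrimitiveRoot ζ ((p : ℕ) ^ c))
    (htop : IntermediateField.adjoin (Qp p) {ζ} = ⊤) :
    Module.finrank (Qp p) E = Nat.totient ((p : ℕ) ^ c) := by
  haveI := fact_primes p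
  rw [← H25.finrank_adjoin_zeta (p : ℕ) E hc hζ]
  exact (LinearEquiv.finrank_eq
    ((IntermediateField.equivOfEq htop).trans IntermediateField.topEquiv).toLinearEquiv).symm

/-- The cyclotomic polynomial is irreducible over `ℚ_p`. -/
theorem irreducible_cyclotomic {c : ℕ} (hc : c ≠ 0) {ζ : E}
    (hζ : IsPrimitiveRoot ζ ((p : ℕ) ^ c)) :
    Irreducible (cyclotomic ((p : ℕ) ^ c) (Qp p)) := by
  haveI := fact_primes p
  haveI : NeZero ((p : ℕ) ^ c) := ⟨pow_ne_zero _ p.2.ne_zero⟩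
  haveI : CharZero E := H25.charZero_of_padic (p : ℕ) E
  have hint : IsIntegral (Qp p) ζ := Algebra.IsIntegral.isIntegral ζ
  have h2 : Module.finrank (Qp p) (IntermediateField.adjoin (Qp p) {ζ}) =
      (minpoly (Qp p) ζ).natDegree := IntermediateField.adjoin.finrank hint
  rw [H25.finrank_adjoin_zeta (p : ℕ) E hc hζ] at h2
  have h3 : minpoly (Qp p) ζ ∣ cyclotomic ((p : ℕ) ^ c) (Qp p) := by
    apply minpoly.dvd
    have h := hζ.isRoot_cyclotomic (NeZero.pos _)
    rw [IsRoot.def, ← map_cyclotomic ((p : ℕ) ^ c) (algebraMap (Qp p) E), eval_map] at h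
    exact h
  have h4 : cyclotomic ((p : ℕ) ^ c) (Qp p) = minpoly (Qp p) ζ :=
    eq_of_monic_of_dvd_of_natDegree_le (minpoly.monic hint) (cyclotomic.monic _ _) h3
      (by rw [natDegree_cyclotomic, h2])
  rw [h4]
  exact minpoly.irreducible hint

end

/-- **LTO-C1.** -/
theorem stmt_CycUnitTheta : Stmt_CycUnitTheta := by
  intro p c E _ _ _ ζ hp2 hc hζ htop
  classical
  haveI := fact_primes p
  have hc0 : c ≠ 0 := by omega
  haveI : NeZero ((p : ℕ) ^ c) := ⟨pow_ne_zero _ p.2.ne_zero⟩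
  haveI : CharZero E := H25.charZero_of_padic (p : ℕ) E
  haveI hcycl : IsCyclotomicExtension {(p : ℕ) ^ c} (Qp p) E :=
    isCyclotomicExtension_of_adjoin p E hζ htop
  have hirr := irreducible_cyclotomic p E hc0 hζ
  haveI : IsGalois (Qp p) E := IsCyclotomicExtension.isGalois {(p : ℕ) ^ c} (Qp p) E
  have hfin := finrank_of_adjoin p E hc0 hζ htop
  -- the Galois group is cyclic
  haveI : IsCyclic (ZMod ((p : ℕ) ^ c))ˣ := ZMod.isCyclic_units_of_prime_pow p p.2 hp2 c
  have hcyc : IsCyclic (E ≃ₐ[Qp p] E) :=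
    isCyclic_of_injective (hζ.autToPow (Qp p)) (hζ.autToPow_injective (Qp p))
  -- the norm index
  have hidx : (normSubgroup (Qp p) E).index = Module.finrank (Qp p) E :=
    H68.stmt_LocalNormIndexCyclic (p : ℕ) (Qp p) E hcyc
  obtain ⟨k, rfl⟩ : ∃ k, c = k + 1 := ⟨c - 1, by omega⟩
  -- the norm of `ζ - 1`
  have hN : Algebra.norm (Qp p) (ζ - 1) = ((p : ℕ) : Qp p) :=
    hζ.norm_sub_one_of_prime_ne_two hirr hp2
  have hn0 : Module.finrank (Qp p) E ≠ 0 := Module.finrank_pos.ne'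
  have hp0 : ((p : ℕ) : ℝ) ≠ 0 := by exact_mod_cast p.2.ne_zero
  by_contra hcon
  push Not at hcon
  have hle : normSubgroup (Qp p) E ≤ (H56.thetaLocHom p (k + 1 + 1) p).ker := by
    rintro _ ⟨y, rfl⟩
    rw [MonoidHom.mem_ker]
    set u : (Qp p)ˣ := Units.map (Algebra.norm (Qp p) : E →* Qp p) y with hu
    set v : ℤ := Padic.valuation (u : Qp p) with hv
    have hz0 : ζ - 1 ≠ 0 := by
      intro h
      have h1 : ζ = 1 := sub_eq_zero.mp h
      have h2 := hζ.unique (h1 ▸ IsPrimitiveRoot.one)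
      have h3 : 1 < (p : ℕ) ^ (k + 1) := Nat.one_lt_pow (Nat.succ_ne_zero k) p.2.one_lt
      omega
    set z : Eˣ := Units.mk0 (ζ - 1) hz0 with hz
    have hNz : Units.map (Algebra.norm (Qp p) : E →* Qp p) z = pUnit p := Units.ext hN
    set x : Eˣ := y * z ^ (-v) with hx
    have hNx : Units.map (Algebra.norm (Qp p) : E →* Qp p) x = u * pUnit p ^ (-v) := by
      rw [hx, map_mul, map_zpow, hNz]
    have hnx : nrm (p : ℕ) E (x : E) = 1 := by
      have h1 := nrm_norm (p : ℕ) (Qp p) E (x : E)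
      have h2 : Algebra.norm (Qp p) (x : E) = (u : Qp p) * ((p : ℕ) : Qp p) ^ (-v) := by
        have h := congrArg Units.val hNx
        rw [Units.val_mul, Units.val_zpow_eq_zpow_val] at h
        exact h
      have h3 : nrm (p : ℕ) (Qp p) (Algebra.norm (Qp p) (x : E)) = 1 := by
        rw [h2]
        have h := nrm_algebraMap_padic (p : ℕ) (Qp p) ((u : Qp p) * ((p : ℕ) : Qp p) ^ (-v))
        rw [Algebra.algebraMap_self, RingHom.id_apply] at h
        rw [h, norm_mul, norm_zpow, Padic.norm_p, Padic.norm_eq_zpow_neg_valuation u.ne_zero,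
          inv_zpow', neg_neg, ← zpow_add₀ hp0]
        simp [hv]
      rw [h3] at h1
      exact (pow_eq_one_iff_of_nonneg (nrm_nonneg _ _ _) hn0).mp h1.symm
    have h4 := hcon x hnx
    have h5 : H56.thetaLocHom p (k + 1 + 1) p (u * pUnit p ^ (-v)) = 1 := by
      rw [← hNx]
      exact h4
    have h6 : H56.thetaLocHom p (k + 1 + 1) p (pUnit p) = 1 := thetaLoc_pUnit p (k + 1 + 1)
    rw [map_mul, map_zpow, h6, one_zpow, mul_one] at h5
    exact h5
  have hdvd := Subgroup.index_dvd_of_le hle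
  have hsurj : Function.Surjective (H56.thetaLocHom p (k + 1 + 1) p) :=
    H20.stmt_ThetaLocSurj p (k + 1 + 1)
  haveI : NeZero ((p : ℕ) ^ (k + 1 + 1)) := ⟨pow_ne_zero _ p.2.ne_zero⟩
  have hrange : Nat.card (H56.thetaLocHom p (k + 1 + 1) p).range
      = Nat.totient ((p : ℕ) ^ (k + 1 + 1)) := by
    rw [MonoidHom.range_eq_top.mpr hsurj, Subgroup.card_top, Nat.card_eq_fintype_card,
      ZMod.card_units_eq_totient]
  rw [hidx, hfin, Subgroup.index_ker, hrange, Nat.totient_prime_pow_succ p.2,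
    Nat.totient_prime_pow_succ p.2] at hdvd
  have hp1 : 1 < (p : ℕ) := p.2.one_lt
  have hpos : 0 < (p : ℕ) ^ k * ((p : ℕ) - 1) :=
    Nat.mul_pos (pow_pos p.2.pos k) (by omega)
  have hle2 := Nat.le_of_dvd hpos hdvd
  rw [pow_succ, mul_assoc] at hle2
  have h7 : (p : ℕ) ^ k * ((p : ℕ) - 1) * 2 ≤ (p : ℕ) ^ k * ((p : ℕ) * ((p : ℕ) - 1)) := by
    rw [mul_assoc]
    apply Nat.mul_le_mul_left
    rw [mul_comm]
    exact Nat.mul_le_mul_right _ hp1
  omega

end Fermat.Agent.S55.CFT.LOC.H41
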