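import Fermat.Agent.S55.CFT.LOC.Defs_LTO3
import Fermat.Agent.S55.CFT.LOC.H41_CycUnitTheta
import Fermat.Agent.S55.CFT.LOC.H25_UCRes
import Fermat.Agent.S55.CFT.LOC.H25_UnramExists
import Fermat.Agent.S55.CFT.LOC.H68_UnramNorm
import Mathlib.RingTheory.Norm.Transitivity
import Mathlib.FieldTheory.Finiteness

/-!
# S55 / E4 / CFT / LOC, leaf LTO-B (helper41)

`stmt_LTOBase : Stmt_LTOBase`: the base field `F' = ℚ_p(ζ, ξ)` inside `F`
(`ξ` a root of unity of order `#k_F - 1`).
-/

set_option autoImplicit false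
set_option linter.unusedSectionVars false
set_option linter.style.haveILetI false

noncomputable section

namespace Fermat.Agent.S55.CFT.LOC.H41

open Fermat.Agent.S55.CFT Fermat.Agent.S55.CFT.LOC Polynomial

section teich

variable (q : ℕ) [Fact q.Prime] (F : Type) [Field F] [Algebra ℚ_[q] F]
  [FiniteDimensional ℚ_[q] F]

/-- `F` contains a primitive root of unity of order `#k_F - 1`. -/
theorem exists_primitiveRoot_resCard :
    ∃ ξ : F, IsPrimitiveRoot ξ (H25.resCard q F - 1) := by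
  have hn : 0 < 1 := one_pos
  haveI hne : NeZero (H25.resCard q F ^ 1 - 1) := ⟨(H25.pow_resCard_sub_one_pos q F hn).ne'⟩
  haveI : CharZero F := charZero_of_injective_algebraMap (algebraMap ℚ_[q] F).injective
  haveI : CharZero (AlgebraicClosure F) :=
    charZero_of_injective_algebraMap (algebraMap F (AlgebraicClosure F)).injective
  haveI : NeZero ((H25.resCard q F ^ 1 - 1 : ℕ) : AlgebraicClosure F) := NeZero.charZero
  obtain ⟨ζ, hζ⟩ :=
    HasEnoughRootsOfUnity.exists_primitiveRoot (AlgebraicClosure F) (H25.resCard q F ^ 1 - 1)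
  let E : IntermediateField F (AlgebraicClosure F) := IntermediateField.adjoin F {ζ}
  haveI hcyc : IsCyclotomicExtension {H25.resCard q F ^ 1 - 1} F E :=
    hζ.intermediateField_adjoin_isCyclotomicExtension F
  haveI hfd : FiniteDimensional F E :=
    IsCyclotomicExtension.finiteDimensional {H25.resCard q F ^ 1 - 1} F E
  haveI : FiniteDimensional ℚ_[q] E := Module.Finite.trans F E
  let ζE : E := ⟨ζ, IntermediateField.mem_adjoin_simple_self F ζ⟩
  have hζE : IsPrimitiveRoot ζE (H25.resCard q F ^ 1 - 1) := by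
    have h1 : IsPrimitiveRoot (algebraMap E (AlgebraicClosure F) ζE)
        (H25.resCard q F ^ 1 - 1) := hζ
    exact IsPrimitiveRoot.of_map_of_injective (f := algebraMap E (AlgebraicClosure F)) h1
      (algebraMap E (AlgebraicClosure F)).injective
  have hfin : Module.finrank F E = 1 := H25.finrank_eq q F E hn hζE
  have hbot : E = ⊥ := IntermediateField.finrank_eq_one_iff.mp hfin
  have hmem : ζ ∈ (⊥ : IntermediateField F (AlgebraicClosure F)) := by
    rw [← hbot]
    exact IntermediateField.mem_adjoin_simple_self F ζ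
  obtain ⟨ξ, hξ⟩ := IntermediateField.mem_bot.mp hmem
  refine ⟨ξ, ?_⟩
  rw [← hξ, pow_one] at hζ
  exact hζ.of_map_of_injective (algebraMap F (AlgebraicClosure F)).injective

end teich

section tower

variable (q : ℕ) [Fact q.Prime] (F E : Type) [Field F] [Field E] [Algebra ℚ_[q] F]
  [FiniteDimensional ℚ_[q] F] [Algebra ℚ_[q] E] [FiniteDimensional ℚ_[q] E] [Algebra F E]
  [IsScalarTower ℚ_[q] F E]

/-- `#k_E` is a power of `#k_F`. -/
theorem exists_resCard_eq_pow :
    ∃ d : ℕ, 0 < d ∧ H25.resCard q E = H25.resCard q F ^ d := by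
  letI : Algebra (H25.resF q F) (H25.resF q E) := (H25.resMap q F E).toAlgebra
  refine ⟨Module.finrank (H25.resF q F) (H25.resF q E), Module.finrank_pos, ?_⟩
  exact Module.card_eq_pow_finrank (K := H25.resF q F) (V := H25.resF q E)

end tower

/-- **LTO-B.** -/
theorem stmt_LTOBase : Stmt_LTOBase := by
  intro p c F _ _ _ hp2 hc hex
  obtain ⟨ζ, hζ⟩ := hex
  classical
  haveI := fact_primes p
  have hc0 : c ≠ 0 := by omega
  haveI : CharZero F := H25.charZero_of_padic (p : ℕ) F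
  -- the root of unity of order `#k_F - 1`
  obtain ⟨ξ, hξ⟩ := exists_primitiveRoot_resCard (p : ℕ) F
  -- the field `F₁ = ℚ_p(ζ)`
  let F₁ : IntermediateField (Qp p) F := IntermediateField.adjoin (Qp p) {ζ}
  let ζ₁ : F₁ := ⟨ζ, IntermediateField.mem_adjoin_simple_self (Qp p) ζ⟩
  have hζ₁ : IsPrimitiveRoot ζ₁ ((p : ℕ) ^ c) := H25.isPrimitiveRoot_adjoin (p : ℕ) F hζ
  have hint : IsIntegral (Qp p) ζ := Algebra.IsIntegral.isIntegral ζ
  have htop : IntermediateField.adjoin (Qp p) {ζ₁} = ⊤ := by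
    apply IntermediateField.adjoin_eq_top_of_algebra
    exact (IntermediateField.adjoin.powerBasis hint).adjoin_gen_eq_top
  -- the unit of `F₁`
  obtain ⟨x₁, hx₁n, hx₁θ⟩ := stmt_CycUnitTheta p c F₁ ζ₁ hp2 hc hζ₁ htop
  -- the residue fields
  obtain ⟨d, hd, hNd⟩ := exists_resCard_eq_pow (p : ℕ) F₁ F
  have hξ0 := hξ
  rw [hNd] at hξ
  -- the field `F'' = F₁(ξ)`
  let F'' : IntermediateField F₁ F := IntermediateField.adjoin F₁ {ξ}
  haveI hne : NeZero (H25.resCard (p : ℕ) F₁ ^ d - 1) :=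
    ⟨(H25.pow_resCard_sub_one_pos (p : ℕ) F₁ hd).ne'⟩
  haveI hcyc : IsCyclotomicExtension {H25.resCard (p : ℕ) F₁ ^ d - 1} F₁ F'' :=
    hξ.intermediateField_adjoin_isCyclotomicExtension F₁
  haveI hfd : FiniteDimensional F₁ F'' :=
    IsCyclotomicExtension.finiteDimensional {H25.resCard (p : ℕ) F₁ ^ d - 1} F₁ F''
  haveI : FiniteDimensional (Qp p) F'' := Module.Finite.trans F₁ F''
  haveI : IsGalois F₁ F'' :=
    IsCyclotomicExtension.isGalois {H25.resCard (p : ℕ) F₁ ^ d - 1} F₁ F''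
  let ξE : F'' := ⟨ξ, IntermediateField.mem_adjoin_simple_self F₁ ξ⟩
  have hξE : IsPrimitiveRoot ξE (H25.resCard (p : ℕ) F₁ ^ d - 1) := by
    have h1 : IsPrimitiveRoot (algebraMap F'' F ξE) (H25.resCard (p : ℕ) F₁ ^ d - 1) := hξ
    exact IsPrimitiveRoot.of_map_of_injective (f := algebraMap F'' F) h1
      (algebraMap F'' F).injective
  have hcycG : IsCyclic (F'' ≃ₐ[F₁] F'') := H25.isCyclic_aut (p : ℕ) F₁ F'' hd hξE
  have hunr : IsUnram (p : ℕ) F₁ F'' := H25.isUnram (p : ℕ) F₁ F'' hd hξE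
  obtain ⟨w, hw1, hwN⟩ := H68.stmt_UnramNormUnits (p : ℕ) F₁ F'' hcycG hunr (x₁ : F₁) hx₁n
  have hw0 : w ≠ 0 := by
    intro h
    rw [h, nrm_zero] at hw1
    exact zero_ne_one hw1
  let F' : IntermediateField (Qp p) F := F''.restrictScalars (Qp p)
  let w' : F' := ⟨w.1, w.2⟩
  have hw'0 : w' ≠ 0 := fun h => hw0 (Subtype.ext (congrArg Subtype.val h))
  refine ⟨F', ⟨⟨ζ, F''.algebraMap_mem ζ₁⟩, ?_⟩, ?_, Units.mk0 w' hw'0, ?_⟩
  · exact IsPrimitiveRoot.of_map_of_injective (f := algebraMap F' F) hζ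
      (algebraMap F' F).injective
  · intro y hy
    by_cases h1 : nrm (p : ℕ) F y = 1
    · obtain ⟨i, hi⟩ := H25.exists_pow_congr (p : ℕ) F F hξ0 y h1
      refine ⟨⟨ξ ^ i, pow_mem (IntermediateField.mem_adjoin_simple_self F₁ ξ) i⟩, ?_⟩
      exact hi
    · refine ⟨0, ?_⟩
      have : ((0 : F') : F) = 0 := rfl
      rw [this, sub_zero]
      exact lt_of_le_of_ne hy h1
  · have hnorm : Algebra.norm (Qp p) w' = Algebra.norm (Qp p) (x₁ : F₁) := by
      rw [← hwN]
      exact (Algebra.norm_norm (R := Qp p) (S := F₁) (a := w)).symm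
    intro h
    apply hx₁θ
    rw [← h]
    congr 1
    apply Units.ext
    exact hnorm.symm

end Fermat.Agent.S55.CFT.LOC.H41
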