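import Fermat.Agent.S55.CFT.LOC.Defs_LTO

/-!
# S55 / E4 / CFT / LOC, leaf LTO-N (helper20): the absolute value of a norm, general case
-/

set_option autoImplicit false

noncomputable section

namespace Fermat.Agent.S55.CFT.LOC.H20

open Fermat.Agent.S55.CFT IntermediateField

/-- The absolute value of a norm, given a finite Galois extension `N/F` containing `E`. -/
theorem nrm_norm_of_galois (q : ℕ) [Fact q.Prime] (F E N : Type) [Field F] [Field E] [Field N]
    [Algebra ℚ_[q] F] [Algebra ℚ_[q] E] [Algebra ℚ_[q] N] [Algebra F E] [Algebra F N]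
    [Algebra E N] [IsScalarTower ℚ_[q] F E] [IsScalarTower ℚ_[q] F N]
    [IsScalarTower ℚ_[q] E N] [IsScalarTower F E N] [FiniteDimensional ℚ_[q] F]
    [FiniteDimensional ℚ_[q] E] [FiniteDimensional ℚ_[q] N] [FiniteDimensional F N]
    [IsGalois F N] (y : E) :
    nrm q F (Algebra.norm F y) = nrm q E y ^ Module.finrank F E := by
  have hFE : FiniteDimensional F E := FiniteDimensional.right ℚ_[q] F E
  have hEN : FiniteDimensional E N := FiniteDimensional.right F E N
  have hd : 0 < Module.finrank E N := Module.finrank_pos
  have h1 := nrm_norm q F N (algebraMap E N y)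
  have h2 : Algebra.norm F (algebraMap E N y) = (Algebra.norm F y) ^ Module.finrank E N := by
    rw [← Algebra.norm_norm (R := F) (S := E) (A := N), Algebra.norm_algebraMap, map_pow]
  rw [h2, nrm_pow, nrm_algebraMap q E N, ← Module.finrank_mul_finrank F E N, pow_mul] at h1
  exact (pow_left_inj₀ (nrm_nonneg q F _) (pow_nonneg (nrm_nonneg q E _) _) hd.ne').mp h1

end Fermat.Agent.S55.CFT.LOC.H20

namespace Fermat.Agent.S55.CFT.LOC.H20

open Fermat.Agent.S55.CFT IntermediateField

/-- **LTO-N**: `|N_{E/F} y|_F = |y|_E ^ [E : F]` for any finite extension `E/F` of finite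
extensions of `ℚ_q`. -/
theorem stmt_NrmNormGen : Stmt_NrmNormGen := by
  intro q _ F E _ _ _ _ _ _ _ _ y
  have hFE : FiniteDimensional F E := FiniteDimensional.right ℚ_[q] F E
  have hchar : CharZero F := charZero_of_injective_algebraMap (algebraMap ℚ_[q] F).injective
  let L := AlgebraicClosure E
  let N : IntermediateField F L := normalClosure F E L
  have hFN : FiniteDimensional F N := inferInstance
  have hQN : FiniteDimensional ℚ_[q] N := FiniteDimensional.trans ℚ_[q] F N
  have hnorm : Normal F N := inferInstance
  have hgal : IsGalois F N := ⟨⟩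
  have htower : IsScalarTower ℚ_[q] E N := by
    refine IsScalarTower.of_algebraMap_eq fun x => ?_
    apply Subtype.ext
    change algebraMap ℚ_[q] L x = algebraMap E L (algebraMap ℚ_[q] E x)
    rw [← IsScalarTower.algebraMap_apply]
  exact nrm_norm_of_galois q F E N y

end Fermat.Agent.S55.CFT.LOC.H20
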