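import Fermat.Agent.S55.CFT.LOC.Defs_LTO2
import Fermat.Agent.S55.CFT.LOC.H68_LOC1
import Fermat.Agent.S55.CFT.LOC.H25_UCSpan
import Fermat.Agent.S55.CFT.LOC.H20_NrmNormGen

/-!
# S55 / E4 / CFT / LOC, leaf LTO-TR (helper41)

`stmt_TotRamNorm : Stmt_TotRamNorm`: the norm of a uniformizer in a totally ramified extension
is a uniformizer.
-/

set_option autoImplicit false

noncomputable section

namespace Fermat.Agent.S55.CFT.LOC.H41

open Fermat.Agent.S55.CFT Fermat.Agent.S55.CFT.LOC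

/-- **LTO-TR.** -/
theorem stmt_TotRamNorm : Stmt_TotRamNorm := by
  intro q _ K L _ _ _ _ _ _ _ _ hres π hπ0 hπ1 hval x hx
  have hKL : FiniteDimensional K L := FiniteDimensional.right ℚ_[q] K L
  obtain ⟨ϖ, hϖ0, hϖ1, hϖ⟩ := H68.stmt_Uniformizer q K
  have hϖne : ϖ ≠ 0 := by
    intro h
    rw [h, (nrm_eq_zero_iff q K).mpr rfl] at hϖ0
    exact lt_irrefl _ hϖ0
  have hπne : π ≠ 0 := by
    intro h
    rw [h, (nrm_eq_zero_iff q L).mpr rfl] at hπ0
    exact lt_irrefl _ hπ0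
  obtain ⟨e', he'⟩ := hval (algebraMap K L ϖ)
    ((map_ne_zero_iff _ (algebraMap K L).injective).mpr hϖne)
  rw [nrm_algebraMap] at he'
  have he'pos : 0 < e' := by
    by_contra h
    push Not at h
    have h1 : 1 ≤ nrm q L π ^ e' := one_le_zpow_of_nonpos₀ hπ0 hπ1.le h
    rw [← he'] at h1
    linarith
  obtain ⟨e, rfl⟩ : ∃ e : ℕ, e' = e := ⟨e'.toNat, (Int.toNat_of_nonneg he'pos.le).symm⟩
  have he : 0 < e := by exact_mod_cast he'pos
  have hπe : nrm q L π ^ e = nrm q K ϖ := by rw [he', zpow_natCast]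
  have hle := H25.finrank_le_of_residue_eq q K L hres π ϖ e hπ0 hπ1 hπe hval he
  have hN := H20.stmt_NrmNormGen q K L π
  have hNne : Algebra.norm K π ≠ 0 := Algebra.norm_ne_zero_iff.mpr hπne
  obtain ⟨m, hm⟩ := hϖ (Algebra.norm K π) hNne
  have h1 : nrm q L π ^ ((Module.finrank K L : ℕ) : ℤ) = nrm q L π ^ ((e : ℤ) * m) := by
    rw [zpow_natCast, ← hN, hm, ← hπe, zpow_mul, zpow_natCast]
  have h2 : ((Module.finrank K L : ℕ) : ℤ) = (e : ℤ) * m :=
    zpow_right_injective₀ hπ0 hπ1.ne h1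
  have hn : 0 < Module.finrank K L := Module.finrank_pos
  have hm1 : m = 1 := by
    have hnZ : (0 : ℤ) < (Module.finrank K L : ℕ) := by exact_mod_cast hn
    have hleZ : ((Module.finrank K L : ℕ) : ℤ) ≤ (e : ℤ) := by exact_mod_cast hle
    have heZ : (0 : ℤ) < (e : ℤ) := by exact_mod_cast he
    have hmpos : 0 < m := by
      by_contra h
      push Not at h
      have : (e : ℤ) * m ≤ 0 := mul_nonpos_of_nonneg_of_nonpos heZ.le h
      omega
    by_contra hne
    have hm2 : 2 ≤ m := by omega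
    have : (e : ℤ) * 2 ≤ (e : ℤ) * m := mul_le_mul_of_nonneg_left hm2 heZ.le
    omega
  obtain ⟨k, hk⟩ := hϖ x hx
  refine ⟨k, ?_⟩
  rw [hk, hm, hm1, zpow_one]

end Fermat.Agent.S55.CFT.LOC.H41
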