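import Fermat.Agent.S55.CFT.LOC.Defs_LTO2
import Fermat.Agent.S55.CFT.LOC.H68_LOC1

/-!
# S55 / E4 / CFT / LOC, leaf LTO-UN (helper41)

`stmt_UnifNotIn : Stmt_UnifNotIn`: a proper subgroup of `Fˣ` misses some uniformizer.
-/

set_option autoImplicit false

noncomputable section

namespace Fermat.Agent.S55.CFT.LOC.H41

open Fermat.Agent.S55.CFT Fermat.Agent.S55.CFT.LOC

/-- **LTO-UN.** -/
theorem stmt_UnifNotIn : Stmt_UnifNotIn := by
  intro q _ F _ _ _ H hH
  obtain ⟨π, hπ0, hπ1, hπ⟩ := H68.stmt_Uniformizer q F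
  have hπne : π ≠ 0 := by
    intro h
    rw [h, (nrm_eq_zero_iff q F).mpr rfl] at hπ0
    exact lt_irrefl _ hπ0
  set πu : Fˣ := Units.mk0 π hπne with hπu
  by_cases hπH : πu ∈ H
  · obtain ⟨u, hu⟩ : ∃ u : Fˣ, u ∉ H := by
      by_contra hcon
      push Not at hcon
      exact hH (eq_top_iff.mpr fun x _ => hcon x)
    obtain ⟨k, hk⟩ := hπ (u : F) u.ne_zero
    set b : Fˣ := u * πu ^ (1 - k) with hb
    have hbH : b ∉ H := by
      intro h
      apply hu
      have h1 : u = b * πu ^ (k - 1) := by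
        rw [hb, mul_assoc, ← zpow_add]
        have : (1 - k) + (k - 1) = 0 := by ring
        rw [this, zpow_zero, mul_one]
      rw [h1]
      exact H.mul_mem h (H.zpow_mem hπH _)
    have hnb : nrm q F (b : F) = nrm q F π := by
      rw [hb, Units.val_mul, Units.val_zpow_eq_zpow_val, nrm_mul, nrm_zpow, hk]
      show nrm q F π ^ k * nrm q F π ^ (1 - k) = nrm q F π
      rw [← zpow_add₀ hπ0.ne']
      have : k + (1 - k) = 1 := by ring
      rw [this, zpow_one]
    refine ⟨b, hbH, ?_, ?_, ?_⟩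
    · rw [hnb]; exact hπ0
    · rw [hnb]; exact hπ1
    · intro y hy
      rw [hnb]
      exact hπ y hy
  · exact ⟨πu, hπH, hπ0, hπ1, hπ⟩

end Fermat.Agent.S55.CFT.LOC.H41
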