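import Fermat.Agent.S55.CFT.LOC.Defs_LTO2

/-!
# LTO-CK (the character of a cyclic extension of degree `p`), helper78

For `M/K` finite Galois and `E` an intermediate field, Galois of degree `p` over `K`, the
restriction `Gal(M/K) → Gal(E/K) ≃ ℤ/p` is a character whose kernel has fixed field `E`.
-/

set_option autoImplicit false
set_option linter.style.haveILetI false

namespace Fermat.Agent.S55.CFT.LOC.H78

/-- **LTO-CK.** -/
theorem stmt_CharKer : Stmt_CharKer := by
  intro p hp K M _ _ _ _ _ E hE hdeg
  haveI : IsGalois K E := hE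
  haveI : Normal K E := hE.to_normal
  have h1 : Nat.card (E ≃ₐ[K] E) = p := by
    rw [IsGalois.card_aut_eq_finrank, hdeg]
  have h2 : Nat.card (Multiplicative (ZMod p)) = p := by
    rw [Nat.card_eq_fintype_card]
    exact (Fintype.card_congr Multiplicative.toAdd).trans (ZMod.card p)
  let e : (E ≃ₐ[K] E) ≃* Multiplicative (ZMod p) := mulEquivOfPrimeCardEq h1 h2
  refine ⟨e.toMonoidHom.comp (AlgEquiv.restrictNormalHom E), ?_⟩
  have hker : (e.toMonoidHom.comp (AlgEquiv.restrictNormalHom (F := K) (K₁ := M) E)).ker =
      E.fixingSubgroup := by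
    rw [← IntermediateField.restrictNormalHom_ker]
    ext x
    simp only [MonoidHom.mem_ker, MonoidHom.comp_apply, MulEquiv.coe_toMonoidHom]
    exact e.map_eq_one_iff
  rw [hker]
  exact IsGalois.fixedField_fixingSubgroup E

end Fermat.Agent.S55.CFT.LOC.H78
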