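/-
S55/E4 island LOC (helper25), package LTO (`Stmt_LocalThetaOnto`), part C5c: construction of
the tower and the final statement.
-/
import Fermat.Agent.S55.CFT.LOC.H25_LTO_Tower
import Fermat.Agent.S55.CFT.LOC.Defs_LTO3
import Fermat.Agent.S55.CFT.Defs_BR2
import Fermat.Agent.S55.CFT.LOC.H41_TotRamNorm
import Fermat.Agent.S55.CFT.LOC.H41_UnifNotIn
import Fermat.Agent.S55.CFT.LOC.H41_LTOBase
import Fermat.Agent.S55.CFT.LOC.H78_CharKer
import Fermat.Agent.S55.CFT.LOC.H78_KummerDeg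

set_option autoImplicit false
set_option linter.unusedSectionVars false
set_option linter.style.haveILetI false

namespace Fermat.Agent.S55.CFT.LOC.H25

open groupCohomology Fermat.Agent.S55.CFT.LOC Fermat.Agent.S55.CFT

section base

variable (p : Nat.Primes) (c : ℕ) (F' F : Type) [Field F'] [Field F]
  [Algebra (Qp p) F'] [Algebra (Qp p) F] [Algebra F' F] [IsScalarTower (Qp p) F' F]
  [FiniteDimensional (Qp p) F'] [FiniteDimensional (Qp p) F]

/-- **`Stmt_LocalThetaOnto` for a given base field `F' ⊆ F`.** -/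
theorem lto_of_base (hTR : Stmt_TotRamNorm) (hCK : Stmt_CharKer) (hKD : Stmt_KummerDeg)
    (hUN : Stmt_UnifNotIn) (hp2 : (p : ℕ) ≠ 2) (hc : 1 ≤ c)
    (hζc : ∃ ζ : F', IsPrimitiveRoot ζ ((p : ℕ) ^ c))
    (hno : ¬ ∃ ζ : F, IsPrimitiveRoot ζ ((p : ℕ) ^ (c + 1)))
    (hres : haveI := fact_primes p
      ∀ y : F, nrm (p : ℕ) F y ≤ 1 → ∃ x : F', nrm (p : ℕ) F (y - algebraMap F' F x) < 1)
    (hu : ∃ u : F'ˣ,
      thetaLoc p (c + 1) p (Units.map (Algebra.norm (Qp p) : F' →* Qp p) u) ≠ 1) :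
    ∃ b : Fˣ, thetaLoc p (c + 1) p (Units.map (Algebra.norm (Qp p) : F →* Qp p) b) ≠ 1 := by
  classical
  haveI hpF : Fact ((p : ℕ).Prime) := fact_primes p
  have hp0 : 0 < (p : ℕ) := p.2.pos
  set N' : ℕ := resCard (p : ℕ) F' with hN'
  have hNpos : 0 < N' ^ (p : ℕ) - 1 := pow_resCard_sub_one_pos (p : ℕ) F' hp0
  set m : ℕ := (p : ℕ) ^ (c + 1) * (N' ^ (p : ℕ) - 1) with hm
  have hmpos : 0 < m := Nat.mul_pos (pow_pos hp0 _) hNpos
  haveI : NeZero m := ⟨hmpos.ne'⟩
  haveI : CharZero F := charZero_of_padic (p : ℕ) F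
  haveI : CharZero (AlgebraicClosure F) :=
    charZero_of_injective_algebraMap (algebraMap F (AlgebraicClosure F)).injective
  haveI : NeZero ((m : ℕ) : AlgebraicClosure F) := NeZero.charZero
  obtain ⟨η, hη⟩ := HasEnoughRootsOfUnity.exists_primitiveRoot (AlgebraicClosure F) m
  -- the field `Ω = F(η)`
  let Ω : IntermediateField F (AlgebraicClosure F) := IntermediateField.adjoin F {η}
  haveI hcycΩ : IsCyclotomicExtension {m} F Ω :=
    hη.intermediateField_adjoin_isCyclotomicExtension F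
  haveI : FiniteDimensional F Ω := IsCyclotomicExtension.finiteDimensional {m} F Ω
  haveI : IsGalois F Ω := IsCyclotomicExtension.isGalois {m} F Ω
  haveI : IsScalarTower (Qp p) F' Ω := IsScalarTower.of_algebraMap_eq (fun x => by
    apply Subtype.ext
    exact IsScalarTower.algebraMap_apply (Qp p) F' (AlgebraicClosure F) x)
  let ηΩ : Ω := ⟨η, IntermediateField.mem_adjoin_simple_self F η⟩
  have hηΩ : IsPrimitiveRoot ηΩ m :=
    IsPrimitiveRoot.of_map_of_injective (f := algebraMap Ω (AlgebraicClosure F)) hη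
      (algebraMap Ω (AlgebraicClosure F)).injective
  haveI : FiniteDimensional F' F := FiniteDimensional.right (Qp p) F' F
  haveI : FiniteDimensional F' Ω := Module.Finite.trans F Ω
  -- the field `M' = F'(η)`
  let M' : IntermediateField F' Ω := IntermediateField.adjoin F' {ηΩ}
  haveI hcycM : IsCyclotomicExtension {m} F' M' :=
    hηΩ.intermediateField_adjoin_isCyclotomicExtension F'
  haveI : FiniteDimensional F' M' := IsCyclotomicExtension.finiteDimensional {m} F' M'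
  haveI : IsGalois F' M' := IsCyclotomicExtension.isGalois {m} F' M'
  let ηM : M' := ⟨ηΩ, IntermediateField.mem_adjoin_simple_self F' ηΩ⟩
  have hηM : IsPrimitiveRoot ηM m :=
    IsPrimitiveRoot.of_map_of_injective (f := algebraMap M' Ω) hηΩ (algebraMap M' Ω).injective
  have hζ : IsPrimitiveRoot (ηM ^ (N' ^ (p : ℕ) - 1)) ((p : ℕ) ^ (c + 1)) :=
    hηM.pow hmpos (by rw [hm, mul_comm])
  have hξ : IsPrimitiveRoot (ηM ^ ((p : ℕ) ^ (c + 1))) (N' ^ (p : ℕ) - 1) :=
    hηM.pow hmpos hm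
  exact lto_tower p c F' F Ω M' hTR hCK hKD hUN hp2 hc hζc hno hres hu _ hζ _ hξ

end base

/-- **The local input at the places above `p`** (`Stmt_LocalThetaOnto`): if `F/ℚ_p` is finite,
`p` odd, `ζ_{p^c} ∈ F`, `c ≥ 1`, `ζ_{p^(c+1)} ∉ F`, then `θ_{c+1}(N_{F/ℚ_p} b) ≠ 1` for some
`b ∈ Fˣ`. -/
theorem stmt_LocalThetaOnto : Stmt_LocalThetaOnto := by
  intro p c F _ _ _ hp2 hc hζ hno
  obtain ⟨F', hζc, hres, hu⟩ := H41.stmt_LTOBase p c F hp2 hc hζ
  exact lto_of_base p c F' F H41.stmt_TotRamNorm H78.stmt_CharKer H78.stmt_KummerDeg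
    H41.stmt_UnifNotIn hp2 hc hζc hno hres hu

end Fermat.Agent.S55.CFT.LOC.H25

namespace Fermat.Agent.S55.CFT.H25

/-- `Stmt_LocalThetaOnto`, in the namespace of the CFT island. -/
theorem stmt_LocalThetaOnto : Stmt_LocalThetaOnto :=
  Fermat.Agent.S55.CFT.LOC.H25.stmt_LocalThetaOnto

end Fermat.Agent.S55.CFT.H25
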