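/-
S55/E4 island GLB/LOC (helper25), leaf THL-P (`Stmt_THL_GenP`), part 1 (pure arithmetic):
in `(ℤ/p^M)ˣ`, `p` odd, an element `t ≡ 1 mod p^c`, `t ≢ 1 mod p^(c+1)` (`1 ≤ c < M`) generates
the group of all `s ≡ 1 mod p^c`.
-/
import Mathlib.RingTheory.ZMod.UnitsCyclic
import Mathlib.GroupTheory.Index
import Mathlib.Data.ZMod.Units

set_option autoImplicit false
set_option linter.style.haveILetI false

namespace Fermat.Agent.S55.CFT.LOC.H25

section zmod

variable {p : ℕ}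

/-- The kernel of `(ℤ/p^(n+c))ˣ → (ℤ/p^c)ˣ` has `p^n` elements (`c ≥ 1`). -/
theorem card_ker_unitsMap (hp : p.Prime) {c : ℕ} (hc : 1 ≤ c) (n : ℕ) :
    Nat.card (ZMod.unitsMap (pow_dvd_pow p (Nat.le_add_left c n))).ker = p ^ n := by
  haveI : NeZero (p ^ (n + c)) := ⟨pow_ne_zero _ hp.ne_zero⟩
  haveI : NeZero (p ^ c) := ⟨pow_ne_zero _ hp.ne_zero⟩
  set f := ZMod.unitsMap (pow_dvd_pow p (Nat.le_add_left c n)) with hf
  have hsurj : Function.Surjective f := ZMod.unitsMap_surjective _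
  have h1 := Subgroup.card_mul_index f.ker
  have hG : Nat.card (ZMod (p ^ (n + c)))ˣ = p ^ (n + c - 1) * (p - 1) := by
    rw [Nat.card_eq_fintype_card, ZMod.card_units_eq_totient,
      Nat.totient_prime_pow hp (by omega : 0 < n + c)]
  have hQ : Nat.card (ZMod (p ^ c))ˣ = p ^ (c - 1) * (p - 1) := by
    rw [Nat.card_eq_fintype_card, ZMod.card_units_eq_totient,
      Nat.totient_prime_pow hp (by omega : 0 < c)]
  rw [Subgroup.index_ker, MonoidHom.range_eq_top.mpr hsurj, Subgroup.card_top, hG, hQ] at h1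
  have h2 : p ^ (n + c - 1) * (p - 1) = p ^ n * (p ^ (c - 1) * (p - 1)) := by
    rw [← mul_assoc, ← pow_add]
    congr 2
    omega
  rw [h2] at h1
  have hpos : 0 < p ^ (c - 1) * (p - 1) :=
    Nat.mul_pos (pow_pos hp.pos _) (Nat.sub_pos_of_lt hp.one_lt)
  exact Nat.eq_of_mul_eq_mul_right hpos h1

/-- **LTE in `(ℤ/p^M)ˣ`.** -/
theorem mem_zpowers_of_unitsMap (hp : p.Prime) (hp2 : p ≠ 2) {c : ℕ} (hc : 1 ≤ c) (n : ℕ)
    (hn : 1 ≤ n) (t : (ZMod (p ^ (n + c)))ˣ)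
    (h1 : ZMod.unitsMap (pow_dvd_pow p (Nat.le_add_left c n)) t = 1)
    (h2 : ZMod.unitsMap (pow_dvd_pow p (by omega : c + 1 ≤ n + c)) t ≠ 1)
    (s : (ZMod (p ^ (n + c)))ˣ)
    (hs : ZMod.unitsMap (pow_dvd_pow p (Nat.le_add_left c n)) s = 1) :
    s ∈ Subgroup.zpowers t := by
  haveI : NeZero (p ^ (n + c)) := ⟨pow_ne_zero _ hp.ne_zero⟩
  haveI : NeZero (p ^ c) := ⟨pow_ne_zero _ hp.ne_zero⟩
  haveI : NeZero (p ^ (c + 1)) := ⟨pow_ne_zero _ hp.ne_zero⟩
  set f := ZMod.unitsMap (pow_dvd_pow p (Nat.le_add_left c n)) with hf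
  -- the value of `t`
  set v : ℕ := (t : ZMod (p ^ (n + c))).val with hv
  have hcast : ∀ (k : ℕ) (hk : p ^ k ∣ p ^ (n + c)),
      ((ZMod.unitsMap hk t : (ZMod (p ^ k))ˣ) : ZMod (p ^ k)) = ((v : ℤ) : ZMod (p ^ k)) := by
    intro k hk
    rw [ZMod.unitsMap_def, Units.coe_map, MonoidHom.coe_coe, ZMod.castHom_apply,
      Int.cast_natCast, hv, ZMod.natCast_val]
  have hd1 : ((p ^ c : ℕ) : ℤ) ∣ (v : ℤ) - 1 := by
    have h3 := hcast c (pow_dvd_pow p (Nat.le_add_left c n))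
    rw [← hf, h1, Units.val_one] at h3
    have h4 : (((v : ℤ) - 1 : ℤ) : ZMod (p ^ c)) = 0 := by
      rw [Int.cast_sub, ← h3, Int.cast_one, sub_self]
    exact (ZMod.intCast_zmod_eq_zero_iff_dvd _ _).mp h4
  obtain ⟨a, ha⟩ := hd1
  have hpa : ¬ (p : ℤ) ∣ a := by
    rintro ⟨a', rfl⟩
    apply h2
    apply Units.ext
    rw [hcast (c + 1), Units.val_one]
    have h5 : (v : ℤ) = 1 + ((p ^ (c + 1) : ℕ) : ℤ) * a' := by
      have : (v : ℤ) = 1 + ((p ^ c : ℕ) : ℤ) * ((p : ℤ) * a') := by linarith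
      rw [this]
      push_cast
      ring
    rw [h5, Int.cast_add, Int.cast_mul, Int.cast_natCast, ZMod.natCast_self, zero_mul, add_zero,
      Int.cast_one]
  have htval : (t : ZMod (p ^ (n + c))) = 1 + (p : ZMod (p ^ (n + c))) ^ c * (a : ZMod (p ^ (n + c))) := by
    have h6 : (v : ℤ) = 1 + ((p ^ c : ℕ) : ℤ) * a := by linarith
    have h7 : (t : ZMod (p ^ (n + c))) = ((v : ℤ) : ZMod (p ^ (n + c))) := by
      rw [Int.cast_natCast, hv, ZMod.natCast_val, ZMod.cast_id]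
    rw [h7, h6]
    push_cast
    rfl
  have hpm : c + 2 ≤ p * c := by
    have h3 : 3 ≤ p := by
      have := hp.two_le
      omega
    nlinarith
  have hord : orderOf t = p ^ n := by
    rw [← orderOf_units, htval]
    exact ZMod.orderOf_one_add_mul_prime_pow hp c (by omega) hpm a hpa n
  have hle : Subgroup.zpowers t ≤ f.ker := by
    rw [Subgroup.zpowers_le]
    exact MonoidHom.mem_ker.mpr h1
  have heq : Subgroup.zpowers t = f.ker := by
    apply Subgroup.eq_of_le_of_card_ge hle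
    rw [Nat.card_zpowers, hord, hf, card_ker_unitsMap hp hc n]
  rw [heq]
  exact MonoidHom.mem_ker.mpr hs

end zmod

end Fermat.Agent.S55.CFT.LOC.H25
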