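/-
S55/E4 island GLB/LOC (helper25), leaf THL-P: `Stmt_THL_GenP` (abstract local statement at
`q = p`), from `Stmt_LocalThetaOnto`.
-/
import Fermat.Agent.S55.CFT.LOC.H25_THLP_ZMod
import Fermat.Agent.S55.CFT.LOC.H25_LTO_Final
import Fermat.Agent.S55.CFT.Defs_THL

set_option autoImplicit false
set_option linter.unusedSectionVars false
set_option linter.style.haveILetI false

namespace Fermat.Agent.S55.CFT.LOC.H25

open Fermat.Agent.S55.CFT.LOC Fermat.Agent.S55.CFT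

/-- The symbols `thetaLoc p M p` are compatible with the reductions
`(ℤ/p^M)ˣ → (ℤ/p^c)ˣ`. -/
theorem thetaLoc_unitsMap (p : Nat.Primes) {c M : ℕ} (h : c ≤ M) (x : (Qp p)ˣ) :
    ZMod.unitsMap (pow_dvd_pow (p : ℕ) h) (thetaLoc p M p x) = thetaLoc p c p x := by
  haveI := fact_primes p
  rw [H56.thetaLoc_self, H56.thetaLoc_self, map_inv]
  congr 1
  apply Units.ext
  rw [ZMod.unitsMap_def]
  simp only [Units.coe_map, RingHom.toMonoidHom_eq_coe, MonoidHom.coe_coe]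
  exact RingHom.congr_fun (PadicInt.zmod_cast_comp_toZModPow c M h) _

section main

variable (p : Nat.Primes) (F E : Type) [Field F] [Field E]
  [Algebra (Qp p) F] [FiniteDimensional (Qp p) F] [Algebra F E] [FiniteDimensional F E]

omit [FiniteDimensional (Qp p) F] [Algebra (Qp p) F] [FiniteDimensional F E] in
/-- an automorphism of `E/F` fixes the roots of unity whose order is realized in `F` -/
theorem aut_fix_of_primitive {m : ℕ} (hm : 0 < m) {z : F} (hz : IsPrimitiveRoot z m) {w : E}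
    (hw : w ^ m = 1) (σ : E ≃ₐ[F] E) : σ w = w := by
  haveI : NeZero m := ⟨hm.ne'⟩
  have hz' : IsPrimitiveRoot (algebraMap F E z) m :=
    hz.map_of_injective (algebraMap F E).injective
  obtain ⟨i, -, rfl⟩ := hz'.eq_pow_of_pow_eq_one hw
  rw [map_pow, σ.commutes]

/-- The core of THL-P for `M = n + c`, `c ≥ 1`, `n ≥ 1`, `ζ_{p^c} ∈ F`, `ζ_{p^(c+1)} ∉ F`. -/
theorem thlP_core (hp2 : (p : ℕ) ≠ 2) {c : ℕ} (hc : 1 ≤ c) (n : ℕ) (hn : 1 ≤ n)
    (hPc : ∃ z : F, IsPrimitiveRoot z ((p : ℕ) ^ c))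
    (hno : ¬ ∃ z : F, IsPrimitiveRoot z ((p : ℕ) ^ (c + 1)))
    (ζ : E) (hζ : IsPrimitiveRoot ζ ((p : ℕ) ^ (n + c))) :
    ∃ β : Fˣ, ∀ σ : E ≃ₐ[F] E, ∃ j : ℕ,
      σ ζ = ζ ^ (((thetaAlg p (n + c) p F β) ^ j : (ZMod ((p : ℕ) ^ (n + c)))ˣ) :
        ZMod ((p : ℕ) ^ (n + c))).val := by
  classical
  haveI := fact_primes p
  have hp := p.2
  haveI : NeZero ((p : ℕ) ^ (n + c)) := ⟨pow_ne_zero _ hp.ne_zero⟩
  haveI : NeZero ((p : ℕ) ^ c) := ⟨pow_ne_zero _ hp.ne_zero⟩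
  obtain ⟨b, hb⟩ := stmt_LocalThetaOnto p c F hp2 hc hPc hno
  refine ⟨b, fun σ => ?_⟩
  set t := thetaAlg p (n + c) p F b with ht
  have h1 : ZMod.unitsMap (pow_dvd_pow (p : ℕ) (Nat.le_add_left c n)) t = 1 := by
    rw [ht, thetaAlg, thetaLoc_unitsMap p (Nat.le_add_left c n)]
    exact Fermat.Agent.S55.CFT.H25.thetaLoc_norm_local p c F hp2 hPc b
  have h2 : ZMod.unitsMap (pow_dvd_pow (p : ℕ) (by omega : c + 1 ≤ n + c)) t ≠ 1 := by
    rw [ht, thetaAlg, thetaLoc_unitsMap p (by omega : c + 1 ≤ n + c)]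
    exact hb
  -- the exponent of `σ`
  set a := hζ.autToPow F σ with ha
  have hspec : ζ ^ (a : ZMod ((p : ℕ) ^ (n + c))).val = σ ζ := hζ.autToPow_spec F σ
  have hs : ZMod.unitsMap (pow_dvd_pow (p : ℕ) (Nat.le_add_left c n)) a = 1 := by
    have hpos : 0 < (p : ℕ) ^ (n + c) := pow_pos hp.pos _
    have hζc : IsPrimitiveRoot (ζ ^ ((p : ℕ) ^ n)) ((p : ℕ) ^ c) :=
      hζ.pow hpos (pow_add _ _ _)
    have hfix : σ (ζ ^ ((p : ℕ) ^ n)) = ζ ^ ((p : ℕ) ^ n) := by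
      obtain ⟨z, hz⟩ := hPc
      exact aut_fix_of_primitive F E (pow_pos hp.pos _) hz hζc.pow_eq_one σ
    have h3 : (ζ ^ ((p : ℕ) ^ n)) ^ (a : ZMod ((p : ℕ) ^ (n + c))).val =
        (ζ ^ ((p : ℕ) ^ n)) ^ 1 := by
      rw [pow_one, ← pow_mul, mul_comm, pow_mul, hspec, ← map_pow, hfix]
    have hfin : IsOfFinOrder (ζ ^ ((p : ℕ) ^ n)) :=
      isOfFinOrder_iff_pow_eq_one.mpr ⟨_, pow_pos hp.pos c, hζc.pow_eq_one⟩
    rw [hfin.pow_eq_pow_iff_modEq, ← hζc.eq_orderOf] at h3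
    apply Units.ext
    rw [ZMod.unitsMap_def, Units.coe_map, MonoidHom.coe_coe, ZMod.castHom_apply,
      Units.val_one, ← ZMod.natCast_val]
    have h4 := (ZMod.natCast_eq_natCast_iff _ _ _).mpr h3
    rw [h4, Nat.cast_one]
  have hmem := mem_zpowers_of_unitsMap hp hp2 hc n hn t h1 h2 a hs
  obtain ⟨j, hj⟩ := mem_powers_iff_mem_zpowers.mpr hmem
  refine ⟨j, ?_⟩
  have hj' : t ^ j = a := hj
  rw [hj']
  exact hspec.symm

/-- **THL-P.** -/
theorem stmt_THL_GenP : Stmt_THL_GenP := by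
  intro p M F E _ _ _ _ _ _ hp2 hη ζ hζ
  classical
  haveI := fact_primes p
  have hp := p.2
  rcases Nat.eq_zero_or_pos M with hM0 | hMpos
  · subst hM0
    refine ⟨1, fun σ => ⟨0, ?_⟩⟩
    have h1 : ζ = 1 := by
      rw [pow_zero] at hζ
      exact IsPrimitiveRoot.one_right_iff.mp hζ
    rw [h1, map_one, one_pow]
  -- the maximal `c`
  obtain ⟨c, hcM, hc1, hPc, hmax⟩ : ∃ c, c ≤ M ∧ 1 ≤ c ∧
      (∃ z : F, IsPrimitiveRoot z ((p : ℕ) ^ c)) ∧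
      ∀ k, c < k → k ≤ M → ¬ ∃ z : F, IsPrimitiveRoot z ((p : ℕ) ^ k) := by
    have hP1 : ∃ z : F, IsPrimitiveRoot z ((p : ℕ) ^ 1) := by
      rw [pow_one]
      exact hη
    refine ⟨Nat.findGreatest (fun c => ∃ z : F, IsPrimitiveRoot z ((p : ℕ) ^ c)) M,
      Nat.findGreatest_le M, Nat.le_findGreatest hMpos hP1,
      Nat.findGreatest_spec (P := fun c => ∃ z : F, IsPrimitiveRoot z ((p : ℕ) ^ c)) hMpos hP1,
      fun k hk hkM => Nat.findGreatest_is_greatest hk hkM⟩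
  rcases Nat.eq_or_lt_of_le hcM with hcM' | hcM'
  · -- `ζ_{p^M} ∈ F`
    subst hcM'
    haveI : Fact (1 < (p : ℕ) ^ c) := ⟨Nat.one_lt_pow (by omega) hp.one_lt⟩
    refine ⟨1, fun σ => ⟨0, ?_⟩⟩
    obtain ⟨z, hz⟩ := hPc
    rw [pow_zero, Units.val_one, ZMod.val_one, pow_one]
    exact aut_fix_of_primitive F E (pow_pos hp.pos _) hz hζ.pow_eq_one σ
  · obtain ⟨n, rfl⟩ : ∃ n, M = n + c := ⟨M - c, by omega⟩
    exact thlP_core p F E hp2 hc1 n (by omega) hPc (hmax (c + 1) (by omega) (by omega)) ζ hζ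

end main

end Fermat.Agent.S55.CFT.LOC.H25

namespace Fermat.Agent.S55.CFT.H25

/-- **THL-P**, in the namespace of the CFT island. -/
theorem stmt_THL_GenP : Stmt_THL_GenP := Fermat.Agent.S55.CFT.LOC.H25.stmt_THL_GenP

end Fermat.Agent.S55.CFT.H25
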