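/-
S55/E4 island LOC (helper25): the Frobenius of the unramified extension `F(ζ)`, `ζ` of order
`N ^ n - 1`, and the residue field of `ℚ_q`.

* `exists_frobenius` : there is `τ ∈ Gal(F(ζ)/F)` with `τ ζ = ζ ^ N`, `N = #k_F`.
* `resCard_padic : resCard q ℚ_[q] = q`.
-/
import Fermat.Agent.S55.CFT.LOC.H25_Unram
import Mathlib.NumberTheory.Padics.RingHoms

set_option autoImplicit false
set_option linter.unusedSectionVars false
set_option linter.style.haveILetI false

namespace Fermat.Agent.S55.CFT.LOC.H25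

open Fermat.Agent.S55.CFT.LOC

section frob

variable (q : ℕ) [Fact q.Prime] (F E : Type) [Field F] [Field E] [Algebra ℚ_[q] F]
  [FiniteDimensional ℚ_[q] F] [Algebra ℚ_[q] E] [FiniteDimensional ℚ_[q] E] [Algebra F E]
  [IsScalarTower ℚ_[q] F E] [FiniteDimensional F E]

variable {n : ℕ} (hn : 0 < n) {ζ : E} (hζ : IsPrimitiveRoot ζ (resCard q F ^ n - 1))
  [IsCyclotomicExtension {resCard q F ^ n - 1} F E]

include hn hζ

/-- The order of `N` modulo `N ^ n - 1` is `n`. -/
theorem orderOf_unitN : orderOf (unitN q F hn) = n := by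
  have hN := two_le_resCard q F
  have hpos := pow_resCard_sub_one_pos q F hn
  refine le_antisymm (Nat.le_of_dvd hn (orderOf_dvd_of_pow_eq_one (unitN_pow q F hn))) ?_
  by_contra hlt
  push Not at hlt
  set k := orderOf (unitN q F hn) with hk
  have hk0 : 0 < k := orderOf_pos_iff.mpr (isOfFinOrder_iff_pow_eq_one.mpr ⟨n, hn, unitN_pow q F hn⟩)
  have h1 : unitN q F hn ^ k = 1 := pow_orderOf_eq_one _
  have h2 := congrArg (fun u : (ZMod (resCard q F ^ n - 1))ˣ => (u : ZMod (resCard q F ^ n - 1))) h1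
  simp only [Units.val_pow_eq_pow_val, Units.val_one] at h2
  rw [coe_unitN, ← Nat.cast_pow, ← Nat.cast_one (R := ZMod (resCard q F ^ n - 1)),
    ZMod.natCast_eq_natCast_iff] at h2
  have h3 : 1 ≤ resCard q F ^ k := Nat.one_le_pow _ _ (by omega)
  have h4 : resCard q F ^ n - 1 ∣ resCard q F ^ k - 1 := (Nat.modEq_iff_dvd' h3).mp h2.symm
  have h5 : resCard q F ^ k < resCard q F ^ n := Nat.pow_lt_pow_right (by omega) hlt
  have h6 : resCard q F ^ 1 ≤ resCard q F ^ k := Nat.pow_le_pow_right (by omega) hk0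
  rw [pow_one] at h6
  have h7 : 0 < resCard q F ^ k - 1 := by omega
  have := Nat.le_of_dvd h7 h4
  omega

/-- **Frobenius**: there is an automorphism `τ` of `F(ζ)/F` with `τ ζ = ζ ^ N`. -/
theorem exists_frobenius : ∃ τ : E ≃ₐ[F] E, τ ζ = ζ ^ resCard q F := by
  classical
  haveI : NeZero (resCard q F ^ n - 1) := ⟨(pow_resCard_sub_one_pos q F hn).ne'⟩
  haveI : IsGalois F E := IsCyclotomicExtension.isGalois {resCard q F ^ n - 1} F E
  let g : (E ≃ₐ[F] E) →* Subgroup.zpowers (unitN q F hn) :=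
    (hζ.autToPow F).codRestrict _ (autToPow_mem_zpowers q F E hn hζ)
  have hg : Function.Injective g := by
    intro a b hab
    apply hζ.autToPow_injective F
    exact congrArg Subtype.val hab
  have hcard : Nat.card (E ≃ₐ[F] E) = Nat.card (Subgroup.zpowers (unitN q F hn)) := by
    rw [Nat.card_zpowers, orderOf_unitN q F E hn hζ, IsGalois.card_aut_eq_finrank,
      finrank_eq q F E hn hζ]
  haveI : Finite (Subgroup.zpowers (unitN q F hn)) := inferInstance
  have hbij : Function.Bijective g :=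
    (Nat.bijective_iff_injective_and_card g).mpr ⟨hg, hcard⟩
  obtain ⟨τ, hτ⟩ := hbij.2 ⟨unitN q F hn, Subgroup.mem_zpowers _⟩
  refine ⟨τ, ?_⟩
  have h1 : hζ.autToPow F τ = unitN q F hn := congrArg Subtype.val hτ
  have h2 := hζ.autToPow_spec F τ
  rw [h1, coe_unitN] at h2
  rw [← h2]
  have hfin : IsOfFinOrder ζ :=
    isOfFinOrder_iff_pow_eq_one.mpr ⟨_, pow_resCard_sub_one_pos q F hn, hζ.pow_eq_one⟩
  rw [hfin.pow_eq_pow_iff_modEq, ← hζ.eq_orderOf, ZMod.val_natCast]
  exact Nat.mod_modEq _ _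

end frob

section padic

variable (q : ℕ) [Fact q.Prime]

theorem nrm_padic (x : ℚ_[q]) : nrm q ℚ_[q] x = ‖x‖ := by
  have := nrm_algebraMap_padic q ℚ_[q] x
  simpa using this

/-- The valuation ring of `ℚ_q` is `ℤ_q`. -/
noncomputable def vringPadicEquiv : vring q ℚ_[q] ≃+* ℤ_[q] where
  toFun x := ⟨(x : ℚ_[q]), by rw [← nrm_padic]; exact nrm_le_one q ℚ_[q] x⟩
  invFun x := ⟨(x : ℚ_[q]), by rw [mem_vring, nrm_padic]; exact x.2⟩
  left_inv x := rfl
  right_inv x := rfl
  map_mul' x y := rfl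
  map_add' x y := rfl

/-- The residue field of `ℚ_q` has `q` elements. -/
theorem resCard_padic : resCard q ℚ_[q] = q := by
  classical
  let g : vring q ℚ_[q] →+* ZMod q :=
    (PadicInt.toZMod (p := q)).comp (vringPadicEquiv q).toRingHom
  have hsurj : Function.Surjective g := by
    intro a
    obtain ⟨x, hx⟩ := (ZMod.ringHom_surjective (PadicInt.toZMod (p := q))) a
    exact ⟨(vringPadicEquiv q).symm x, by simp [g, hx]⟩
  have hker : RingHom.ker g = IsLocalRing.maximalIdeal (vring q ℚ_[q]) := by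
    ext x
    rw [RingHom.mem_ker, mem_maximalIdeal_iff]
    change PadicInt.toZMod (vringPadicEquiv q x) = 0 ↔ _
    rw [← RingHom.mem_ker, PadicInt.ker_toZMod, IsLocalRing.mem_maximalIdeal,
      PadicInt.mem_nonunits, nrm_padic]
    rfl
  let e : resF q ℚ_[q] ≃+* ZMod q :=
    (Ideal.quotEquivOfEq hker.symm).trans (RingHom.quotientKerEquivOfSurjective hsurj)
  change Fintype.card (resF q ℚ_[q]) = q
  rw [Fintype.card_congr e.toEquiv, ZMod.card]

end padic

end Fermat.Agent.S55.CFT.LOC.H25
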