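import Fermat.Agent.S55.CFT.Defs_THL
import Fermat.Agent.S55.CFT.H56_ThetaUnits
import Fermat.Agent.S55.CFT.LOC.H41_LTOBase
import Fermat.Agent.S55.CFT.LOC.H41_TotRamNorm
import Fermat.Agent.S55.CFT.LOC.H25_Frob

/-!
# S55 / E4 / CFT, leaf THL-Q (helper41)

`stmt_THL_GenQ : Stmt_THL_GenQ`: for `q ≠ p`, `F/ℚ_q` finite, `E/F` finite, `ζ ∈ E` a primitive
`p^M`-th root of unity, there is `β ∈ Fˣ` (a uniformiser) such that every `σ ∈ Aut(E/F)` maps
`ζ` to `ζ ^ (θ(β) ^ j)`.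

* `exists_pow_of_hom_all` : an endomorphism of a finite field over a subfield with `N` elements
  is a power of `x ↦ x ^ N`.
* `aut_root_eq_pow` : `σ ζ = ζ ^ (#k_F) ^ j` for a root of unity `ζ` of order prime to `q`.
* `exists_unif_norm` : a uniformiser `π` of `F` has `|N_{F/ℚ_q} π| = q ^ (-f)`, `#k_F = q ^ f`.
-/

set_option autoImplicit false
set_option linter.unusedSectionVars false
set_option linter.style.haveILetI false

noncomputable section

namespace Fermat.Agent.S55.CFT.LOC.H41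

open Fermat.Agent.S55.CFT Fermat.Agent.S55.CFT.LOC Polynomial

section finite

variable {K L : Type*} [Field K] [Fintype K] [Field L] [Finite L] (φ : K →+* L)

/-- An endomorphism of the finite field `L` over the subfield `K` with `N` elements is a power
of the Frobenius `x ↦ x ^ N`. -/
theorem exists_pow_of_hom_all (τ : L →+* L) (hτ : τ.comp φ = φ) :
    ∃ j : ℕ, ∀ x : L, τ x = x ^ (Fintype.card K) ^ j := by
  classical
  letI : Fintype L := Fintype.ofFinite L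
  letI : Algebra K L := φ.toAlgebra
  have hN : 2 ≤ Fintype.card K := Fintype.one_lt_card
  have hd : 0 < Module.finrank K L := Module.finrank_pos
  have hcard : Fintype.card L = Fintype.card K ^ Module.finrank K L :=
    Module.card_eq_pow_finrank (K := K) (V := L)
  obtain ⟨g, hg⟩ := IsCyclic.exists_generator (α := Lˣ)
  have hord : orderOf g = Fintype.card K ^ Module.finrank K L - 1 := by
    rw [orderOf_eq_card_of_forall_mem_zpowers hg, Nat.card_eq_fintype_card, Fintype.card_units,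
      hcard]
  have hz : IsPrimitiveRoot (g : L) (Fintype.card K ^ Module.finrank K L - 1) := by
    rw [← hord]
    exact IsPrimitiveRoot.coe_units_iff.mpr (IsPrimitiveRoot.orderOf g)
  obtain ⟨j, -, hj⟩ := H25.exists_pow_of_hom φ hd hz τ hτ
  refine ⟨j, fun x => ?_⟩
  by_cases hx : x = 0
  · rw [hx, map_zero, zero_pow (pow_ne_zero _ (by omega))]
  · have hx1 : x ^ (Fintype.card K ^ Module.finrank K L - 1) = 1 := by
      rw [← hcard]
      exact FiniteField.pow_card_sub_one_eq_one x hx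
    haveI : NeZero (Fintype.card K ^ Module.finrank K L - 1) := ⟨by
      have h2 : Fintype.card K ^ 1 ≤ Fintype.card K ^ Module.finrank K L :=
        Nat.pow_le_pow_right (by omega) hd
      rw [pow_one] at h2
      omega⟩
    obtain ⟨i, -, hi⟩ := hz.eq_pow_of_pow_eq_one hx1
    rw [← hi, map_pow, hj, ← pow_mul, ← pow_mul, mul_comm]

end finite

section tower

variable (q : ℕ) [Fact q.Prime] (F E : Type) [Field F] [Field E] [Algebra ℚ_[q] F]
  [FiniteDimensional ℚ_[q] F] [Algebra ℚ_[q] E] [FiniteDimensional ℚ_[q] E] [Algebra F E]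
  [IsScalarTower ℚ_[q] F E]

/-- An automorphism of `E/F` acts on the roots of unity of order prime to `q` by a power of
`x ↦ x ^ #k_F`. -/
theorem aut_root_eq_pow {m : ℕ} (hm : ¬ q ∣ m) {ζ : E} (hζ : ζ ^ m = 1) (σ : E ≃ₐ[F] E) :
    ∃ j : ℕ, σ ζ = ζ ^ (H25.resCard q F) ^ j := by
  have hm0 : m ≠ 0 := by
    rintro rfl
    exact hm (dvd_zero q)
  have hζ1 : nrm q E ζ = 1 := H25.nrm_of_pow_eq_one q E hm0 hζ
  let ζO : H25.vring q E := ⟨ζ, hζ1.le⟩
  have hζO : ζO ^ m = 1 := by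
    apply Subtype.ext
    change ζ ^ m = 1
    exact hζ
  obtain ⟨j, hj⟩ := exists_pow_of_hom_all (H25.resMap q F E) (H25.resAut q F E σ)
    (H25.resAut_comp_resMap q F E σ)
  refine ⟨j, ?_⟩
  have h1 := hj (H25.res q E ζO)
  rw [H25.resAut_res, ← map_pow] at h1
  have hx : (H25.vringAut q F E σ ζO) ^ m = 1 := by
    rw [← map_pow, hζO, map_one]
  have hy : (ζO ^ Fintype.card (H25.resF q F) ^ j) ^ m = 1 := by
    rw [← pow_mul, mul_comm, pow_mul, hζO, one_pow]
  have h3 := H25.eq_of_res_eq q E hm _ _ hx hy h1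
  exact congrArg Subtype.val h3

end tower

section unif

variable (q : ℕ) [Fact q.Prime] (F : Type) [Field F] [Algebra ℚ_[q] F]
  [FiniteDimensional ℚ_[q] F]

/-- A uniformiser `π` of `F` has `|N_{F/ℚ_q} π| = q ^ (-f)`, where `#k_F = q ^ f`. -/
theorem exists_unif_norm :
    ∃ (π : F) (f : ℕ), π ≠ 0 ∧ 0 < f ∧ H25.resCard q F = q ^ f ∧
      ‖Algebra.norm ℚ_[q] π‖ = ((q : ℝ)⁻¹) ^ f := by
  classical
  have hq : q.Prime := Fact.out
  have hq1 : (1 : ℝ) < q := by exact_mod_cast hq.one_lt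
  have hq0 : (0 : ℝ) < q := by linarith
  haveI : CharZero F := charZero_of_injective_algebraMap (algebraMap ℚ_[q] F).injective
  obtain ⟨f, hf, hNf0⟩ := exists_resCard_eq_pow q ℚ_[q] F
  have hNf : H25.resCard q F = q ^ f := by rw [hNf0, H25.resCard_padic]
  obtain ⟨ξ, hξ0⟩ := exists_primitiveRoot_resCard q F
  have hξ : IsPrimitiveRoot ξ (H25.resCard q ℚ_[q] ^ f - 1) := by
    rw [← hNf0]
    exact hξ0
  -- the unramified subfield
  let F₀ : IntermediateField ℚ_[q] F := IntermediateField.adjoin ℚ_[q] {ξ}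
  haveI hne : NeZero (H25.resCard q ℚ_[q] ^ f - 1) :=
    ⟨(H25.pow_resCard_sub_one_pos q ℚ_[q] hf).ne'⟩
  haveI hcyc : IsCyclotomicExtension {H25.resCard q ℚ_[q] ^ f - 1} ℚ_[q] F₀ :=
    hξ.intermediateField_adjoin_isCyclotomicExtension ℚ_[q]
  haveI hfd : FiniteDimensional ℚ_[q] F₀ :=
    IsCyclotomicExtension.finiteDimensional {H25.resCard q ℚ_[q] ^ f - 1} ℚ_[q] F₀
  let ξE : F₀ := ⟨ξ, IntermediateField.mem_adjoin_simple_self ℚ_[q] ξ⟩
  have hξE : IsPrimitiveRoot ξE (H25.resCard q ℚ_[q] ^ f - 1) := by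
    have h1 : IsPrimitiveRoot (algebraMap F₀ F ξE) (H25.resCard q ℚ_[q] ^ f - 1) := hξ
    exact IsPrimitiveRoot.of_map_of_injective (f := algebraMap F₀ F) h1
      (algebraMap F₀ F).injective
  have hfin0 : Module.finrank ℚ_[q] F₀ = f := H25.finrank_eq q ℚ_[q] F₀ hf hξE
  have hunr : IsUnram q ℚ_[q] F₀ := H25.isUnram q ℚ_[q] F₀ hf hξE
  -- the uniformiser
  obtain ⟨π, hπ0, hπ1, hπ⟩ := H68.stmt_Uniformizer q F
  have hπne : π ≠ 0 := by
    intro h
    rw [h, nrm_zero] at hπ0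
    exact lt_irrefl _ hπ0
  have hres : ∀ y : F, nrm q F y ≤ 1 → ∃ x : F₀, nrm q F (y - algebraMap F₀ F x) < 1 := by
    intro y hy
    by_cases h1 : nrm q F y = 1
    · obtain ⟨i, hi⟩ := H25.exists_pow_congr q F F hξ0 y h1
      exact ⟨ξE ^ i, hi⟩
    · refine ⟨0, ?_⟩
      rw [map_zero, sub_zero]
      exact lt_of_le_of_ne hy h1
  have hTR := stmt_TotRamNorm q F₀ F hres π hπ0 hπ1 hπ
  set ν : F₀ := Algebra.norm F₀ π with hν
  have hν0 : ν ≠ 0 := Algebra.norm_ne_zero_iff.mpr hπne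
  have hFF₀ : FiniteDimensional F₀ F := FiniteDimensional.right ℚ_[q] F₀ F
  have hνnrm : nrm q F₀ ν = nrm q F π ^ Module.finrank F₀ F := H20.stmt_NrmNormGen q F₀ F π
  have hνlt : nrm q F₀ ν < 1 := by
    rw [hνnrm]
    exact pow_lt_one₀ hπ0.le hπ1 Module.finrank_pos.ne'
  obtain ⟨x, hx⟩ := hunr ν
  rw [H25.nrm_padic] at hx
  have hx0 : x ≠ 0 := by
    intro h
    rw [h, norm_zero] at hx
    exact hν0 ((nrm_eq_zero_iff q F₀).mp hx)
  have hxv : ‖x‖ = (q : ℝ) ^ (-x.valuation) := Padic.norm_eq_zpow_neg_valuation hx0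
  have hqF₀ : ((q : ℕ) : F₀) ≠ 0 := by exact_mod_cast hq.ne_zero
  obtain ⟨k, hk⟩ := hTR ((q : ℕ) : F₀) hqF₀
  rw [nrm_natCast_q, hx, hxv, ← zpow_mul, ← zpow_neg_one] at hk
  have hvk : (-1 : ℤ) = -x.valuation * k := zpow_right_injective₀ hq0 hq1.ne' hk
  have hvpos : 0 < x.valuation := by
    by_contra h
    push Not at h
    have h1 : (1 : ℝ) ≤ (q : ℝ) ^ (-x.valuation) := one_le_zpow₀ hq1.le (by omega)
    rw [← hxv, ← hx] at h1
    linarith
  have hv1 : x.valuation = 1 := by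
    have h1 : x.valuation * k = 1 := by linarith
    exact Int.eq_one_of_mul_eq_one_right hvpos.le h1
  have hνq : nrm q F₀ ν = (q : ℝ)⁻¹ := by
    rw [hx, hxv, hv1, zpow_neg_one]
  -- the norm to `ℚ_q`
  have hNN : Algebra.norm ℚ_[q] π = Algebra.norm ℚ_[q] ν :=
    (Algebra.norm_norm (R := ℚ_[q]) (S := F₀) (a := π)).symm
  refine ⟨π, f, hπne, hf, hNf, ?_⟩
  rw [hNN, ← H25.nrm_padic, H20.stmt_NrmNormGen q ℚ_[q] F₀ ν, hνq, hfin0]

end unif

/-- **THL-Q.** -/
theorem stmt_THL_GenQ : Stmt_THL_GenQ := by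
  intro p M q F E _ _ _ _ _ _ hqp ζ hζ
  classical
  haveI := fact_primes q
  haveI := fact_primes p
  letI : Algebra (Qp q) E := ((algebraMap F E).comp (algebraMap (Qp q) F)).toAlgebra
  haveI : IsScalarTower (Qp q) F E := IsScalarTower.of_algebraMap_eq (fun _ => rfl)
  haveI : FiniteDimensional (Qp q) E := Module.Finite.trans F E
  have hq1 : (1 : ℝ) < (q : ℕ) := by exact_mod_cast q.2.one_lt
  have hq0 : (0 : ℝ) < (q : ℕ) := by linarith
  obtain ⟨π, f, hπ0, hf, hNf, hnorm⟩ := exists_unif_norm (q : ℕ) F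
  refine ⟨Units.mk0 π hπ0, fun σ => ?_⟩
  have hm : ¬ (q : ℕ) ∣ (p : ℕ) ^ M := by
    intro h
    have h1 := (Nat.prime_dvd_prime_iff_eq q.2 p.2).mp (q.2.dvd_of_dvd_pow h)
    exact hqp (Subtype.ext h1)
  obtain ⟨j, hj⟩ := aut_root_eq_pow (q : ℕ) F E hm hζ.pow_eq_one σ
  refine ⟨j, ?_⟩
  rw [hj]
  -- the valuation of the norm
  have hN0 : Algebra.norm (Qp q) π ≠ 0 := Algebra.norm_ne_zero_iff.mpr hπ0
  have hval : Padic.valuation (Algebra.norm (Qp q) π) = (f : ℤ) := by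
    have h1 := Padic.norm_eq_zpow_neg_valuation hN0
    rw [hnorm, ← zpow_natCast, ← zpow_neg_one, ← zpow_mul] at h1
    have h2 := zpow_right_injective₀ hq0 hq1.ne' h1
    linarith
  have hθ : thetaAlg p M q F (Units.mk0 π hπ0) = primeUnit p q M hqp ^ f := by
    unfold thetaAlg
    rw [H56.thetaLoc_ne p M q hqp]
    change primeUnit p q M hqp ^ Padic.valuation (Algebra.norm (Qp q) π) = _
    rw [hval, zpow_natCast]
  have hθ' : (((thetaAlg p M q F (Units.mk0 π hπ0)) ^ j : (ZMod ((p : ℕ) ^ M))ˣ) :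
      ZMod ((p : ℕ) ^ M)) = ((H25.resCard (q : ℕ) F ^ j : ℕ) : ZMod ((p : ℕ) ^ M)) := by
    rw [hθ, hNf, Units.val_pow_eq_pow_val, Units.val_pow_eq_pow_val]
    unfold primeUnit
    rw [ZMod.coe_unitOfCoprime]
    push_cast
    rfl
  rw [hθ', ZMod.val_natCast]
  exact pow_eq_pow_mod _ hζ.pow_eq_one

end Fermat.Agent.S55.CFT.LOC.H41
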