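/-
S55/E4, TopQ0 local leaf TQ-L (`Top.Stmt_TQ_Loc`, `Top/Defs_TQ.lean`): sub-leaves.
Sub-coordinator: helper68.  Plan: NOTES/plan/S55_LOC.md, section "TQ-L".

Route of TQ-L (helper68, file `LOC/H68_TQL*.lean`): `Ω = PadicAlgCl p`, `G = Gal(Ω/ℚ_p) = Gl p`,
`ζ ∈ Ω` a primitive `p`-th root of unity, `F₀ = ℚ_p(ζ)`, `Γ₀ = Gal(Ω/F₀) = Γcyc p`,
`κ = H45.kum ζ p` (twisted Kummer cocycle of `p` on `G`), `u` the unramified character of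
degree `p` (TQL-U), `c = κ · u`.  If `c|Γ₀ = d g` then `p` is a norm from the Kummer field
`F₀(a^{1/p})` of `u|Γ₀` (`H68.norm_of_cup_coboundary`), which contains `E₁`: impossible by TQL-V.
-/
import Fermat.Agent.S55.CFT.Defs_LOC

set_option autoImplicit false

noncomputable section

namespace Fermat.Agent.S55.CFT.LOC

/-- **TQL-V** (valuations): `F₀/ℚ_p` finite of degree `< p`, `E₁/ℚ_p` unramified Galois of
degree `p`, `L/F₀` finite containing `E₁`.  Then `p` is not a norm from `L` to `F₀`.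
(Route: `N_{F₀/ℚ_p}(N_{L/F₀} y) = N_{E₁/ℚ_p}(N_{L/E₁} y)` (`Algebra.norm_norm`, twice);
left side `= p^d`, `d = [F₀:ℚ_p]`; `|N_{E₁/ℚ_p} z| = |z|^p` (`H20.stmt_NrmNormGen`) and
`|z| = |x|`, `x ∈ ℚ_p` (`IsUnram`), `|x| = p^m`; so `p^{-d} = p^{p m}`, `p ∣ d`, `0 < d < p`.) -/
def Stmt_TQL_Val : Prop :=
  ∀ (p : ℕ) [Fact p.Prime] (F₀ E₁ : IntermediateField ℚ_[p] (PadicAlgCl p))
    (L : IntermediateField ↥F₀ (PadicAlgCl p)),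
    FiniteDimensional ℚ_[p] ↥F₀ → Module.finrank ℚ_[p] ↥F₀ < p →
    FiniteDimensional ℚ_[p] ↥E₁ → IsGalois ℚ_[p] ↥E₁ → Module.finrank ℚ_[p] ↥E₁ = p →
    IsUnram p ℚ_[p] ↥E₁ → FiniteDimensional ↥F₀ ↥L →
    (∀ x : PadicAlgCl p, x ∈ E₁ → x ∈ L) →
    ∀ y : ↥L, Algebra.norm ↥F₀ y ≠ algebraMap ℚ_[p] ↥F₀ (p : ℚ_[p])

/-- **TQL-U** (the unramified character of degree `p` on `Gal(ℚ̄_p/ℚ_p)`): there are an
unramified Galois extension `E₁/ℚ_p` of degree `p` inside `PadicAlgCl p` and a character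
`u : Gal(Ω/ℚ_p) → ℤ/p` with kernel `Gal(Ω/E₁)`.
(`H25.stmt_UnramExists` with `F = ℚ_p`, `n = p` (`PadicAlgCl p = AlgebraicClosure ℚ_[p]`);
`Gal(E₁/ℚ_p)` is cyclic of order `p`, so `≅ ℤ/p`; compose with `AlgEquiv.restrictNormalHom E₁`,
whose kernel is `E₁.fixingSubgroup`;  cf. `H41.stmt_CharKer` for the finite-level analogue.) -/
def Stmt_TQL_Unr : Prop :=
  ∀ (p : ℕ) [Fact p.Prime],
    ∃ (E₁ : IntermediateField ℚ_[p] (PadicAlgCl p))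
      (u : (PadicAlgCl p ≃ₐ[ℚ_[p]] PadicAlgCl p) →* Multiplicative (ZMod p)),
      FiniteDimensional ℚ_[p] ↥E₁ ∧ IsGalois ℚ_[p] ↥E₁ ∧ Module.finrank ℚ_[p] ↥E₁ = p ∧
      IsUnram p ℚ_[p] ↥E₁ ∧ u.ker = E₁.fixingSubgroup

end Fermat.Agent.S55.CFT.LOC

end
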