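/-
S55/E4, TopQ0 local leaf TQ-L (helper68): `Top.Stmt_TQ_Loc` from the sub-leaves TQL-V, TQL-U
(`LOC/Defs_TQL.lean`).
`c = κ · u` on `G = Gal(ℚ̄_p/ℚ_p)`, `κ = H45.kum ζ p` the twisted Kummer cocycle of `p`,
`u` the unramified character of degree `p`.  On `Γ₀ = Gal(ℚ̄_p/ℚ_p(ζ))`: `c = d g` ⟹
`p ∈ N(F₀(a^{1/p})ˣ)` (`norm_of_cup_coboundary`), `a` a Kummer generator of `u|Γ₀`;
`E₁ ⊆ F₀(a^{1/p})`, so TQL-V gives a contradiction.
-/
import Fermat.Agent.S55.Top.Defs_TQ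
import Fermat.Agent.S55.CFT.LOC.Defs_TQL
import Fermat.Agent.S55.CFT.LOC.H68_CupND
import Fermat.Agent.S55.CFT.LOC.H5_Krasner

set_option autoImplicit false
set_option linter.unusedSectionVars false
set_option linter.style.haveILetI false
set_option linter.unusedVariables false

namespace Fermat.Agent.S55.CFT.LOC.H68

open Fermat.Agent.S55.CFT.LOC Fermat.Agent.S55.CFT Fermat.Agent.S55.Top Fermat.Agent.S55
open groupCohomology ExtCitation

section tw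

variable {k Ω : Type} [Field k] [Field Ω] [Algebra k Ω] [IsAlgClosed Ω]
variable {p : ℕ} [Fact p.Prime]

theorem root_ne_zero_tq {a : Ω} (ha : a ≠ 0) : H45.root p a ≠ 0 := by
  intro h
  apply ha
  rw [← H45.root_pow (p := p) a, h, zero_pow (Fact.out : p.Prime).ne_zero]

/-- `ζ^{kum σ} = σ(α)/α` for the chosen root `α` of `a` (`σ` need not fix `ζ`). -/
theorem ze_kum_tq {ζ : Ω} (hζ : IsPrimitiveRoot ζ p) {a : Ω} (ha : a ≠ 0) (σ : Ω ≃ₐ[k] Ω)
    (hσa : σ a = a) :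
    H45.ze ζ (H45.kum (p := p) ζ a σ) = σ (H45.root p a) / H45.root p a := by
  have h1 : (σ (H45.root p a) / H45.root p a) ^ p = 1 := by
    rw [div_pow, ← map_pow, H45.root_pow, hσa, div_self ha]
  exact Function.invFun_eq (H45.exists_ze_eq hζ h1)

/-- the action on `ζ^j` of an automorphism with `σ ζ = ζ^n` -/
theorem map_ze_tq {ζ : Ω} (hζ : IsPrimitiveRoot ζ p) (σ : Ω ≃ₐ[k] Ω) (n : ZMod p)
    (hσζ : σ ζ = H45.ze ζ n) (j : ZMod p) : σ (H45.ze ζ j) = H45.ze ζ (n * j) := by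
  haveI : NeZero p := ⟨(Fact.out : p.Prime).ne_zero⟩
  have h1 : σ (H45.ze ζ j) = H45.ze ζ n ^ j.val := by
    unfold H45.ze
    rw [map_pow, hσζ]
    rfl
  rw [h1, ze_pow_nat hζ, ZMod.natCast_zmod_val, mul_comm]

/-- the twisted cocycle relation of the Kummer cocycle -/
theorem kum_mul_tq {ζ : Ω} (hζ : IsPrimitiveRoot ζ p) {a : Ω} (ha : a ≠ 0) (σ τ : Ω ≃ₐ[k] Ω)
    (hσa : σ a = a) (hτa : τ a = a) (n : ZMod p) (hσζ : σ ζ = H45.ze ζ n) :
    H45.kum (p := p) ζ a (σ * τ) =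
      H45.kum (p := p) ζ a σ + n * H45.kum (p := p) ζ a τ := by
  apply H45.ze_injective hζ
  have h0 := root_ne_zero_tq (p := p) ha
  have hστ : (σ * τ) a = a := by rw [AlgEquiv.mul_apply, hτa, hσa]
  rw [ze_kum_tq hζ ha (σ * τ) hστ, H45.ze_add hζ, ze_kum_tq hζ ha σ hσa,
    ← map_ze_tq hζ σ n hσζ, ze_kum_tq hζ ha τ hτa, AlgEquiv.mul_apply, map_div₀]
  have h1 : σ (H45.root p a) ≠ 0 := by
    intro h
    exact h0 ((map_eq_zero σ).1 h)
  field_simp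

/-- the Kummer cocycle vanishes on automorphisms fixing the chosen root -/
theorem kum_eq_zero_tq {ζ : Ω} (hζ : IsPrimitiveRoot ζ p) {a : Ω} (ha : a ≠ 0) (σ : Ω ≃ₐ[k] Ω)
    (hσa : σ a = a) (hσ : σ (H45.root p a) = H45.root p a) :
    H45.kum (p := p) ζ a σ = 0 := by
  rw [← H45.ze_eq_one_iff hζ, ze_kum_tq hζ ha σ hσa, hσ, div_self (root_ne_zero_tq ha)]

end tw

section cyc

variable {p : ℕ} [Fact p.Prime]

/-- The defining property of the cyclotomic exponent. -/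
theorem cyc_map_zeta_tq {ζ₀ : AlgebraicClosure ℚ} (hζ : IsPrimitiveRoot ζ₀ p) (σ : GQ) :
    σ ζ₀ = ζ₀ ^ (cycloExp p σ) := by
  haveI : NeZero p := ⟨(Fact.out : p.Prime).ne_zero⟩
  have hu : IsUnit ζ₀ := hζ.isUnit (Fact.out : p.Prime).ne_zero
  obtain ⟨u, hu'⟩ := hu
  have hmem : u ∈ rootsOfUnity p (AlgebraicClosure ℚ) := by
    rw [mem_rootsOfUnity]
    ext
    rw [Units.val_pow_eq_pow_val, hu', Units.val_one]
    exact hζ.pow_eq_one
  have := modularCyclotomicCharacter.spec (AlgebraicClosure ℚ) (card_rootsOfUnity_eq_self p)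
    (σ : AlgebraicClosure ℚ ≃+* AlgebraicClosure ℚ) hmem
  rw [hu'] at this
  exact this

/-- The local action on the image of a primitive root. -/
theorem local_map_zeta_tq {ζ₀ : AlgebraicClosure ℚ} (hζ : IsPrimitiveRoot ζ₀ p)
    (h : PadicAlgCl p ≃ₐ[ℚ_[p]] PadicAlgCl p) :
    h (padicEmbedding p ζ₀) =
      H45.ze (p := p) (padicEmbedding p ζ₀)
        ((cycloChar p (localGaloisToGlobal p h) : (ZMod p)ˣ) : ZMod p) := by
  rw [← padicEmbedding_localGaloisToGlobal, cyc_map_zeta_tq hζ, map_pow]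
  rfl

end cyc

section main

variable {p : ℕ} [Fact p.Prime]

/-- the degree of `ℚ_p(ζ)` is `< p` -/
theorem finrank_adjoin_zeta_lt {ζ : PadicAlgCl p} (hζ : IsPrimitiveRoot ζ p) :
    Module.finrank ℚ_[p] ↥(IntermediateField.adjoin ℚ_[p] {ζ}) < p := by
  have hp : p.Prime := Fact.out
  haveI : NeZero p := ⟨hp.ne_zero⟩
  have hint : IsIntegral ℚ_[p] ζ := Algebra.IsIntegral.isIntegral _
  rw [IntermediateField.adjoin.finrank hint]
  have hdvd : minpoly ℚ_[p] ζ ∣ Polynomial.cyclotomic p ℚ_[p] := by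
    apply minpoly.dvd
    have := (Polynomial.isRoot_cyclotomic_iff (n := p) (R := PadicAlgCl p)).2 hζ
    rw [← Polynomial.map_cyclotomic p (algebraMap ℚ_[p] (PadicAlgCl p)),
      Polynomial.IsRoot.def, Polynomial.eval_map] at this
    exact this
  have hne : Polynomial.cyclotomic p ℚ_[p] ≠ 0 := Polynomial.cyclotomic_ne_zero p _
  have hle := Polynomial.natDegree_le_of_dvd hdvd hne
  rw [Polynomial.natDegree_cyclotomic, Nat.totient_prime hp] at hle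
  have := hp.pos
  omega

/-- **TQ-L** from the sub-leaves TQL-V and TQL-U. -/
theorem stmt_TQ_Loc_of (hV : Stmt_TQL_Val) (hU : Stmt_TQL_Unr) : Top.Stmt_TQ_Loc := by
  intro p _ _
  classical
  have hp : p.Prime := Fact.out
  haveI : NeZero p := ⟨hp.ne_zero⟩
  obtain ⟨E₁, u, hE₁fd, hE₁gal, hE₁deg, hE₁unr, hker⟩ := hU p
  haveI := hE₁fd
  obtain ⟨hKa, hKb⟩ := H5.stmt_L5_Krasner p
  -- the root of unity
  obtain ⟨ζ₀, hζ₀⟩ : ∃ ζ₀ : AlgebraicClosure ℚ, IsPrimitiveRoot ζ₀ p :=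
    HasEnoughRootsOfUnity.exists_primitiveRoot (AlgebraicClosure ℚ) p
  have hζ : IsPrimitiveRoot (padicEmbedding p ζ₀) p :=
    hζ₀.map_of_injective (padicEmbedding p).toRingHom.injective
  -- the cyclotomic character on the local group
  let χl : (PadicAlgCl p ≃ₐ[ℚ_[p]] PadicAlgCl p) → ZMod p := fun h =>
    ((cycloChar p (localGaloisToGlobal p h) : (ZMod p)ˣ) : ZMod p)
  have hχ : ∀ h : PadicAlgCl p ≃ₐ[ℚ_[p]] PadicAlgCl p,
      h (padicEmbedding p ζ₀) = H45.ze (p := p) (padicEmbedding p ζ₀) (χl h) :=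
    fun h => local_map_zeta_tq hζ₀ h
  -- the twisted Kummer cocycle of `p`
  have hpΩ : ((p : ℕ) : PadicAlgCl p) ≠ 0 := Nat.cast_ne_zero.mpr hp.ne_zero
  have hfixp : ∀ h : PadicAlgCl p ≃ₐ[ℚ_[p]] PadicAlgCl p,
      h ((p : ℕ) : PadicAlgCl p) = ((p : ℕ) : PadicAlgCl p) := fun h => map_natCast h p
  let κ : (PadicAlgCl p ≃ₐ[ℚ_[p]] PadicAlgCl p) → ZMod p := fun h =>
    H45.kum (p := p) (padicEmbedding p ζ₀) ((p : ℕ) : PadicAlgCl p) h
  have hκ : ∀ h₁ h₂ : PadicAlgCl p ≃ₐ[ℚ_[p]] PadicAlgCl p,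
      κ (h₁ * h₂) = κ h₁ + χl h₁ * κ h₂ := fun h₁ h₂ =>
    kum_mul_tq hζ hpΩ h₁ h₂ (hfixp h₁) (hfixp h₂) (χl h₁) (hχ h₁)
  -- the unramified character
  let uA : (PadicAlgCl p ≃ₐ[ℚ_[p]] PadicAlgCl p) → ZMod p := fun h => Multiplicative.toAdd (u h)
  have huA : ∀ h₁ h₂ : PadicAlgCl p ≃ₐ[ℚ_[p]] PadicAlgCl p, uA (h₁ * h₂) = uA h₁ + uA h₂ := by
    intro h₁ h₂
    show Multiplicative.toAdd (u (h₁ * h₂)) = _
    rw [map_mul]
    rfl
  have huA0 : ∀ h : PadicAlgCl p ≃ₐ[ℚ_[p]] PadicAlgCl p, uA h = 0 ↔ h ∈ E₁.fixingSubgroup := by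
    intro h
    rw [← hker, MonoidHom.mem_ker]
    exact Iff.rfl
  -- the finite level of `c`
  have hζint : IsIntegral ℚ_[p] (padicEmbedding p ζ₀) := Algebra.IsIntegral.isIntegral _
  have hπint : IsIntegral ℚ_[p] (H45.root p ((p : ℕ) : PadicAlgCl p)) :=
    Algebra.IsIntegral.isIntegral _
  haveI : FiniteDimensional ℚ_[p] ↥(IntermediateField.adjoin ℚ_[p]
      {H45.root p ((p : ℕ) : PadicAlgCl p)}) := IntermediateField.adjoin.finiteDimensional hπint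
  haveI : FiniteDimensional ℚ_[p] ↥(E₁ ⊔ IntermediateField.adjoin ℚ_[p]
      {H45.root p ((p : ℕ) : PadicAlgCl p)}) := IntermediateField.finiteDimensional_sup _ _
  obtain ⟨N, hNfd, hN⟩ := hKa (E₁ ⊔ IntermediateField.adjoin ℚ_[p]
      {H45.root p ((p : ℕ) : PadicAlgCl p)}) inferInstance
  have hκs : ∀ s : PadicAlgCl p ≃ₐ[ℚ_[p]] PadicAlgCl p,
      localGaloisToGlobal p s ∈ N.fixingSubgroup → κ s = 0 := by
    intro s hs
    have h1 := hN s hs
    refine kum_eq_zero_tq hζ hpΩ s (hfixp s) ?_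
    exact (IntermediateField.mem_fixingSubgroup_iff _ _).1 h1 _
      ((le_sup_right : IntermediateField.adjoin ℚ_[p]
        {H45.root p ((p : ℕ) : PadicAlgCl p)} ≤ _) (IntermediateField.mem_adjoin_simple_self _ _))
  have hus : ∀ s : PadicAlgCl p ≃ₐ[ℚ_[p]] PadicAlgCl p,
      localGaloisToGlobal p s ∈ N.fixingSubgroup → uA s = 0 := by
    intro s hs
    rw [huA0]
    exact IntermediateField.fixingSubgroup_antitone le_sup_left (hN s hs)
  have hlev : ∀ g g' s s' : PadicAlgCl p ≃ₐ[ℚ_[p]] PadicAlgCl p,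
      localGaloisToGlobal p s ∈ N.fixingSubgroup → localGaloisToGlobal p s' ∈ N.fixingSubgroup →
      κ (g * s) * uA (g' * s') = κ g * uA g' := by
    intro g g' s s' hs hs'
    rw [hκ, huA, hκs s hs, hus s' hs', mul_zero, add_zero, add_zero]
  have hcoc : ∀ h₁ h₂ h₃ : PadicAlgCl p ≃ₐ[ℚ_[p]] PadicAlgCl p,
      χl h₁ * (κ h₂ * uA h₃) - κ (h₁ * h₂) * uA h₃ + κ h₁ * uA (h₂ * h₃) - κ h₁ * uA h₂ = 0 := by
    intro h₁ h₂ h₃
    rw [hκ, huA]
    ring
  -- the cocycle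
  refine ⟨fun t => κ (show PadicAlgCl p ≃ₐ[ℚ_[p]] PadicAlgCl p from t.1) *
      uA (show PadicAlgCl p ≃ₐ[ℚ_[p]] PadicAlgCl p from t.2), ⟨N, hNfd, ?_⟩, ?_, ?_⟩
  · intro g g' s s' hs hs'
    exact hlev g g' s s' hs hs'
  · funext x
    exact hcoc x.1 x.2.1 x.2.2
  · rintro ⟨g, ⟨Ng, hNgfd, hg⟩, hdg⟩
    haveI : Fact (1 < p) := ⟨hp.one_lt⟩
    -- the field `F₀ = ℚ_p(ζ)`
    let F₀ : IntermediateField ℚ_[p] (PadicAlgCl p) :=
      IntermediateField.adjoin ℚ_[p] {padicEmbedding p ζ₀}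
    have hζF : padicEmbedding p ζ₀ ∈ F₀ := IntermediateField.mem_adjoin_simple_self _ _
    haveI : FiniteDimensional ℚ_[p] ↥F₀ := IntermediateField.adjoin.finiteDimensional hζint
    have hF₀deg : Module.finrank ℚ_[p] ↥F₀ < p := finrank_adjoin_zeta_lt hζ
    -- `Gal(Ω/F₀) ⊆ Γcyc`
    have hmem : ∀ h : PadicAlgCl p ≃ₐ[ℚ_[p]] PadicAlgCl p, h ∈ F₀.fixingSubgroup →
        (show Gl (pPrime p) from h) ∈ Γcyc p := by
      intro h hh
      rw [mem_Γcyc]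
      have h1 : h (padicEmbedding p ζ₀) = padicEmbedding p ζ₀ :=
        (IntermediateField.mem_fixingSubgroup_iff _ _).1 hh _ hζF
      have h2 := hχ h
      rw [h1] at h2
      have h3 : H45.ze (p := p) (padicEmbedding p ζ₀) (χl h) =
          H45.ze (p := p) (padicEmbedding p ζ₀) 1 := by
        rw [← h2]
        unfold H45.ze
        rw [ZMod.val_one, pow_one]
      have h4 : χl h = 1 := H45.ze_injective hζ h3
      exact Units.ext h4
    let g' : ↥F₀.fixingSubgroup → ZMod p := fun σ =>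
      g ⟨(show Gl (pPrime p) from σ.1), hmem σ.1 σ.2⟩
    -- the local level of `g`
    obtain ⟨Ef, hEffd, hEf⟩ := hKb Ng hNgfd
    haveI := hEffd
    have hfloc : ∀ σ s : ↥F₀.fixingSubgroup,
        (s : PadicAlgCl p ≃ₐ[ℚ_[p]] PadicAlgCl p) ∈ Ef.fixingSubgroup → g' (σ * s) = g' σ := by
      intro σ s hs
      exact hg ⟨_, hmem σ.1 σ.2⟩ ⟨_, hmem s.1 s.2⟩ (hEf s.1 hs)
    -- the restriction of `u`
    let u₀ : ↥F₀.fixingSubgroup → ZMod p := fun σ => uA σ.1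
    have hu₀ : tOne u₀ = 0 := by
      funext t
      show uA t.2.1 - uA (t.1.1 * t.2.1) + uA t.1.1 = 0
      rw [huA]
      ring
    have hu₀loc : H45.IsLocA F₀ u₀ := ⟨E₁, hE₁fd, fun σ s hs => by
      show uA (σ.1 * s.1) = uA σ.1
      rw [huA, (huA0 s.1).2 hs, add_zero]⟩
    obtain ⟨a, ha⟩ := H45.exists_kumΓ_eq (k := ℚ_[p]) (Ω := PadicAlgCl p) (F := F₀) hζ hζF
      u₀ hu₀ hu₀loc
    have hane : H45.kumΓ (p := p) F₀ (padicEmbedding p ζ₀) a ≠ 0 := by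
      rw [ha]
      intro h0
      have hle : E₁ ≤ F₀ := by
        have h1 : F₀.fixingSubgroup ≤ E₁.fixingSubgroup := by
          intro σ hσ
          rw [← huA0]
          exact congrFun h0 ⟨σ, hσ⟩
        have h2 := (IntermediateField.le_iff_le _ _).2 h1
        rwa [InfiniteGalois.fixedField_fixingSubgroup] at h2
      have h3 : Module.finrank ℚ_[p] ↥E₁ ≤ Module.finrank ℚ_[p] ↥F₀ :=
        Submodule.finrank_mono (s := E₁.toSubalgebra.toSubmodule)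
          (t := F₀.toSubalgebra.toSubmodule) hle
      omega
    -- `β = p`
    have hpF₀ : ((p : ℕ) : PadicAlgCl p) ∈ F₀ := natCast_mem F₀ p
    let β : (↥F₀)ˣ := Units.mk0 ⟨((p : ℕ) : PadicAlgCl p), hpF₀⟩
      (fun h => hpΩ (congrArg Subtype.val h))
    have hκβ : ∀ σ : ↥F₀.fixingSubgroup,
        H45.kumΓ (p := p) F₀ (padicEmbedding p ζ₀) β σ = κ σ.1 := fun σ => rfl
    haveI : Normal ↥F₀ ↥(kumField (p := p) F₀ a) := kumField_normal F₀ a hζ hζF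
    haveI : Algebra.IsSeparable ↥F₀ ↥(kumField (p := p) F₀ a) :=
      Algebra.isSeparable_tower_bot_of_isSeparable ↥F₀ ↥(kumField (p := p) F₀ a) (PadicAlgCl p)
    haveI : IsGalois ↥F₀ ↥(kumField (p := p) F₀ a) := ⟨⟩
    have hnorm : β ∈ normSubgroup ↥F₀ ↥(kumField (p := p) F₀ a) := by
      refine norm_of_cup_coboundary F₀ hζ hζF a β hane g' Ef hfloc ?_
      intro σ τ
      have h1 := congrFun hdg (⟨_, hmem σ.1 σ.2⟩, ⟨_, hmem τ.1 τ.2⟩)
      rw [hκβ, ha]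
      exact h1
    obtain ⟨y, hy⟩ := hnorm
    -- `E₁ ⊆ F₀(a^{1/p})`
    have hE₁L : ∀ x : PadicAlgCl p, x ∈ E₁ → x ∈ kumField (p := p) F₀ a := by
      intro x hx
      rw [← InfiniteGalois.fixedField_fixingSubgroup (kumField (p := p) F₀ a),
        IntermediateField.mem_fixedField_iff]
      intro τ hτ
      let σ : ↥F₀.fixingSubgroup := (IntermediateField.fixingSubgroupEquiv F₀).symm τ
      have hστ : ∀ z : PadicAlgCl p, (σ : PadicAlgCl p ≃ₐ[ℚ_[p]] PadicAlgCl p) z = τ z :=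
        fun z => rfl
      have h1 : H45.kumΓ (p := p) F₀ (padicEmbedding p ζ₀) a σ = 0 := by
        refine H45.kumΓ_unique hζ hζF a σ (kumRoot_pow F₀ a) ?_
        rw [H45.ze_zero, one_mul, hστ]
        exact (IntermediateField.mem_fixingSubgroup_iff _ _).1 hτ _ (kumRoot_mem F₀ a)
      rw [ha] at h1
      have h2 : σ.1 ∈ E₁.fixingSubgroup := (huA0 σ.1).1 h1
      rw [← hστ]
      exact (IntermediateField.mem_fixingSubgroup_iff _ _).1 h2 x hx
    refine hV p F₀ E₁ (kumField (p := p) F₀ a) inferInstance hF₀deg hE₁fd hE₁gal hE₁deg hE₁unr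
      inferInstance hE₁L (y : ↥(kumField (p := p) F₀ a)) ?_
    have h1 := congrArg Units.val hy
    rw [Units.coe_map] at h1
    rw [h1]
    apply Subtype.ext
    show ((p : ℕ) : PadicAlgCl p) = algebraMap ℚ_[p] (PadicAlgCl p) ((p : ℕ) : ℚ_[p])
    rw [map_natCast]

end main

end Fermat.Agent.S55.CFT.LOC.H68
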