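/-
S55/E4, TopQ0 local leaf TQ-L, sub-leaf TQL-U (`Stmt_TQL_Unr`): the unramified character of
degree `p` on `Gal(ℚ̄_p/ℚ_p)`.  (helper9)
-/
import Fermat.Agent.S55.CFT.LOC.Defs_TQL
import Fermat.Agent.S55.CFT.LOC.H25_UnramExists

set_option autoImplicit false
set_option linter.style.haveILetI false
set_option linter.unusedSectionVars false

noncomputable section

namespace Fermat.Agent.S55.CFT.LOC.H9

open IntermediateField

/-- A cyclic group of prime order `p` is isomorphic to `Multiplicative (ZMod p)`. -/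
theorem exists_mulEquiv_zmod (p : ℕ) [Fact p.Prime] (G : Type) [Group G] [IsCyclic G]
    (h : Nat.card G = p) : Nonempty (G ≃* Multiplicative (ZMod p)) := by
  have h1 : Nat.card (Multiplicative (ZMod p)) = p := by
    rw [Nat.card_eq_fintype_card]
    exact (Fintype.card_multiplicative _).trans (ZMod.card p)
  exact ⟨mulEquivOfCyclicCardEq (h.trans h1.symm)⟩

/-- **TQL-U**. -/
theorem stmt_TQL_Unr : Stmt_TQL_Unr := by
  intro p _
  obtain ⟨E, hfd, hgal, hrank, hcyc, hunr⟩ :=
    H25.stmt_UnramExists p ℚ_[p] p (Fact.out : p.Prime).pos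
  haveI := hfd
  haveI := hgal
  haveI := hcyc
  have hcard : Nat.card (↥E ≃ₐ[ℚ_[p]] ↥E) = p := by
    rw [IsGalois.card_aut_eq_finrank, hrank]
  obtain ⟨e⟩ := exists_mulEquiv_zmod p (↥E ≃ₐ[ℚ_[p]] ↥E) hcard
  refine ⟨E, e.toMonoidHom.comp (AlgEquiv.restrictNormalHom (↥E)), hfd, hgal, hrank, hunr, ?_⟩
  rw [← IntermediateField.restrictNormalHom_ker]
  ext σ
  simp only [MonoidHom.mem_ker, MonoidHom.comp_apply, MulEquiv.toMonoidHom_eq_coe,
    MonoidHom.coe_coe, EmbeddingLike.map_eq_one_iff]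

end Fermat.Agent.S55.CFT.LOC.H9

end
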