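/-
S55/E4, TopQ0 local leaf TQ-L, sub-leaf TQL-V (`Stmt_TQL_Val`): `p` is not a norm from a field
containing the unramified extension of degree `p` to a field of degree `< p`.  (helper9)
-/
import Fermat.Agent.S55.CFT.LOC.Defs_TQL
import Fermat.Agent.S55.CFT.LOC.Basic

set_option autoImplicit false
set_option linter.style.haveILetI false
set_option linter.unusedSectionVars false

noncomputable section

namespace Fermat.Agent.S55.CFT.LOC.H9

open IntermediateField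

/-- The `p`-adic norm of a nonzero `p`-adic number is an integral power of `p`. -/
theorem padic_norm_pow_eq (p : ℕ) [Fact p.Prime] (x : ℚ_[p]) (d : ℕ)
    (h : ‖x‖ ^ p = ((p : ℝ)⁻¹) ^ d) : p ∣ d := by
  have hp : p.Prime := Fact.out
  have hp1 : (1 : ℝ) < p := by exact_mod_cast hp.one_lt
  have hp0 : (0 : ℝ) < p := by positivity
  have hx : x ≠ 0 := by
    rintro rfl
    rw [norm_zero, zero_pow hp.ne_zero] at h
    exact (pow_pos (inv_pos.mpr hp0) d).ne h
  rw [Padic.norm_eq_zpow_neg_valuation hx, ← zpow_natCast, ← zpow_mul, ← zpow_natCast,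
    inv_zpow', ] at h
  have h2 := zpow_right_injective₀ hp0 hp1.ne' h
  have h3 : (d : ℤ) = x.valuation * p := by linarith
  have h4 : (p : ℤ) ∣ (d : ℤ) := ⟨x.valuation, by rw [h3]; ring⟩
  exact_mod_cast h4

/-- Abstract form of TQL-V. -/
theorem not_norm_eq_p (p : ℕ) [Fact p.Prime] (F₀ E₁ L : Type) [Field F₀] [Field E₁] [Field L]
    [Algebra ℚ_[p] F₀] [Algebra ℚ_[p] E₁] [Algebra ℚ_[p] L] [Algebra F₀ L] [Algebra E₁ L]
    [IsScalarTower ℚ_[p] F₀ L] [IsScalarTower ℚ_[p] E₁ L]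
    [FiniteDimensional ℚ_[p] F₀] [FiniteDimensional ℚ_[p] E₁] [IsGalois ℚ_[p] E₁]
    (hd : Module.finrank ℚ_[p] F₀ < p) (hE : Module.finrank ℚ_[p] E₁ = p)
    (hunr : IsUnram p ℚ_[p] E₁) (y : L) :
    Algebra.norm F₀ y ≠ algebraMap ℚ_[p] F₀ (p : ℚ_[p]) := by
  intro hy
  have hp : p.Prime := Fact.out
  set d := Module.finrank ℚ_[p] F₀ with hddef
  have hdpos : 0 < d := Module.finrank_pos
  have h1 : Algebra.norm ℚ_[p] (Algebra.norm F₀ y) = (p : ℚ_[p]) ^ d := by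
    rw [hy, Algebra.norm_algebraMap]
  have h2 : Algebra.norm ℚ_[p] (Algebra.norm F₀ y) = Algebra.norm ℚ_[p] (Algebra.norm E₁ y) := by
    rw [Algebra.norm_norm, Algebra.norm_norm]
  have h3 := nrm_norm p ℚ_[p] E₁ (Algebra.norm E₁ y)
  rw [← h2, h1, hE] at h3
  obtain ⟨x, hx⟩ := hunr (Algebra.norm E₁ y)
  rw [hx] at h3
  have e1 : ∀ a : ℚ_[p], nrm p ℚ_[p] a = ‖a‖ := fun a => nrm_algebraMap_padic p ℚ_[p] a
  rw [e1, e1, norm_pow, Padic.norm_p] at h3
  have := padic_norm_pow_eq p x d h3.symm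
  exact absurd (Nat.le_of_dvd hdpos this) (not_le.mpr hd)

/-- **TQL-V**. -/
theorem stmt_TQL_Val : Stmt_TQL_Val := by
  intro p _ F₀ E₁ L hF₀ hd hE₁ hgal hE hunr hL hEL y
  haveI := hF₀
  haveI := hE₁
  haveI := hgal
  haveI := hL
  letI iEL : Algebra ↥E₁ ↥L :=
    RingHom.toAlgebra
      { toFun := fun x => ⟨x.1, hEL x.1 x.2⟩
        map_one' := rfl
        map_mul' := fun _ _ => rfl
        map_zero' := rfl
        map_add' := fun _ _ => rfl }
  haveI : IsScalarTower ℚ_[p] ↥E₁ ↥L := by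
    refine IsScalarTower.of_algebraMap_eq fun x => ?_
    apply Subtype.ext
    rfl
  exact not_norm_eq_p p ↥F₀ ↥E₁ ↥L hd hE hunr y

end Fermat.Agent.S55.CFT.LOC.H9

end
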