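/-
S55/E4, TopQ0 local leaf TQ-L, UNCONDITIONAL: `Top.Stmt_TQ_Loc`.
Assembly `H68.stmt_TQ_Loc_of` (helper68) + sub-leaves TQL-V, TQL-U (helper9).
-/
import Fermat.Agent.S55.CFT.LOC.H68_TQL
import Fermat.Agent.S55.CFT.LOC.H9_TQLVal
import Fermat.Agent.S55.CFT.LOC.H9_TQLUnr

set_option autoImplicit false

namespace Fermat.Agent.S55.CFT.LOC.H68

/-- **TQ-L**: there is a class in `H²(ℚ_p, μ_p)` with nonzero restriction to `ℚ_p(ζ_p)`. -/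
theorem stmt_TQ_Loc : Fermat.Agent.S55.Top.Stmt_TQ_Loc :=
  stmt_TQ_Loc_of H9.stmt_TQL_Val H9.stmt_TQL_Unr

end Fermat.Agent.S55.CFT.LOC.H68
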