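/-
S55/E4 island LOC (helper25): the unramified extension of `ℚ_q` containing the `m`-th roots of
unity (`m ∣ q ^ f - 1`), with its Frobenius.
-/
import Fermat.Agent.S55.CFT.LOC.H25_Frob

set_option autoImplicit false
set_option linter.unusedSectionVars false
set_option linter.style.haveILetI false

namespace Fermat.Agent.S55.CFT.LOC.H25

open Fermat.Agent.S55.CFT.LOC

/-- For `m ∣ q ^ f - 1`, `f ≥ 1`, there is a finite unramified extension `E` of `ℚ_q` containing a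
primitive `m`-th root of unity, with an automorphism `τ` which raises every `m`-th root of unity
to the `q`-th power. -/
theorem exists_unram_cyc (q : ℕ) [Fact q.Prime] {m f : ℕ} (hf : 0 < f) (hm : m ∣ q ^ f - 1) :
    ∃ (E : IntermediateField ℚ_[q] (AlgebraicClosure ℚ_[q])) (τ : E ≃ₐ[ℚ_[q]] E) (η : E),
      FiniteDimensional ℚ_[q] E ∧ IsUnram q ℚ_[q] E ∧ IsPrimitiveRoot η m ∧
      ∀ x : E, x ^ m = 1 → τ x = x ^ q := by
  classical
  have hres : resCard q ℚ_[q] = q := resCard_padic q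
  have hpos : 0 < resCard q ℚ_[q] ^ f - 1 := pow_resCard_sub_one_pos q ℚ_[q] hf
  haveI hne : NeZero (resCard q ℚ_[q] ^ f - 1) := ⟨hpos.ne'⟩
  haveI : CharZero (AlgebraicClosure ℚ_[q]) :=
    charZero_of_injective_algebraMap (algebraMap ℚ_[q] (AlgebraicClosure ℚ_[q])).injective
  haveI : NeZero ((resCard q ℚ_[q] ^ f - 1 : ℕ) : AlgebraicClosure ℚ_[q]) := NeZero.charZero
  obtain ⟨ζ, hζ⟩ := HasEnoughRootsOfUnity.exists_primitiveRoot (AlgebraicClosure ℚ_[q])
    (resCard q ℚ_[q] ^ f - 1)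
  let E : IntermediateField ℚ_[q] (AlgebraicClosure ℚ_[q]) := IntermediateField.adjoin ℚ_[q] {ζ}
  haveI hcyc : IsCyclotomicExtension {resCard q ℚ_[q] ^ f - 1} ℚ_[q] E :=
    hζ.intermediateField_adjoin_isCyclotomicExtension ℚ_[q]
  haveI hfd : FiniteDimensional ℚ_[q] E :=
    IsCyclotomicExtension.finiteDimensional {resCard q ℚ_[q] ^ f - 1} ℚ_[q] E
  let ζE : E := ⟨ζ, IntermediateField.mem_adjoin_simple_self ℚ_[q] ζ⟩
  have hζE : IsPrimitiveRoot ζE (resCard q ℚ_[q] ^ f - 1) := by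
    have h1 : IsPrimitiveRoot (algebraMap E (AlgebraicClosure ℚ_[q]) ζE)
        (resCard q ℚ_[q] ^ f - 1) := hζ
    exact IsPrimitiveRoot.of_map_of_injective (f := algebraMap E (AlgebraicClosure ℚ_[q])) h1
      (algebraMap E (AlgebraicClosure ℚ_[q])).injective
  obtain ⟨τ, hτ⟩ := exists_frobenius q ℚ_[q] E hf hζE
  rw [hres] at hτ
  obtain ⟨t, ht⟩ := hm
  have hη : IsPrimitiveRoot (ζE ^ t) m := by
    refine hζE.pow hpos ?_
    rw [hres, ht, mul_comm]
  refine ⟨E, τ, ζE ^ t, hfd, isUnram q ℚ_[q] E hf hζE, hη, ?_⟩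
  intro x hx
  have hx' : x ^ (resCard q ℚ_[q] ^ f - 1) = 1 := by
    rw [hres, ht, pow_mul, hx, one_pow]
  obtain ⟨j, -, rfl⟩ := hζE.eq_pow_of_pow_eq_one hx'
  rw [map_pow, hτ, ← pow_mul, ← pow_mul, mul_comm]

end Fermat.Agent.S55.CFT.LOC.H25
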