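/-
S55/E4 island LOC (helper45): trivial inertia ⟹ cyclic and unramified.

For a finite Galois extension `E/F` of finite extensions of `ℚ_q`: if no nontrivial element of
`Gal(E/F)` acts trivially on the residue field of `E`, then `Gal(E/F)` is cyclic (it embeds into
the Galois group of the residue fields) and `E/F` is unramified in the sense of `LOC.IsUnram`
(same value group: for a uniformiser `π` of `E` some `Tr_{E/F}(u π)`, `u` a unit, has the
absolute value of `π`, by Dedekind independence of the residual automorphisms).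
-/
import Fermat.Agent.S55.CFT.LOC.H25_Residue

set_option autoImplicit false
set_option linter.unusedSectionVars false
set_option linter.style.haveILetI false

noncomputable section

namespace Fermat.Agent.S55.CFT.LOC.H45I

open Fermat.Agent.S55.CFT.LOC Fermat.Agent.S55.CFT.LOC.H25

variable (q : ℕ) [Fact q.Prime] (F E : Type) [Field F] [Field E] [Algebra ℚ_[q] F]
  [FiniteDimensional ℚ_[q] F] [Algebra ℚ_[q] E] [FiniteDimensional ℚ_[q] E] [Algebra F E]
  [IsScalarTower ℚ_[q] F E]

/-- The inertia condition: `σ` acts trivially on the residue field. -/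
def IsInert (σ : E ≃ₐ[F] E) : Prop := ∀ x : E, nrm q E x ≤ 1 → nrm q E (σ x - x) < 1

theorem resAut_one (a : resF q E) : resAut q F E 1 a = a := by
  obtain ⟨x, rfl⟩ := res_surjective q E a
  rw [resAut_res]
  congr 1

theorem resAut_mul (σ τ : E ≃ₐ[F] E) (a : resF q E) :
    resAut q F E (σ * τ) a = resAut q F E σ (resAut q F E τ a) := by
  obtain ⟨x, rfl⟩ := res_surjective q E a
  rw [resAut_res, resAut_res, resAut_res]
  congr 1

theorem resAut_eq_iff (σ τ : E ≃ₐ[F] E) :
    resAut q F E σ = resAut q F E τ ↔ ∀ x : E, nrm q E x ≤ 1 → nrm q E (σ x - τ x) < 1 := by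
  constructor
  · intro h x hx
    have h1 := congrArg (fun φ : resF q E →+* resF q E => φ (res q E ⟨x, hx⟩)) h
    simp only [resAut_res] at h1
    rw [res_eq_iff] at h1
    exact h1
  · intro h
    apply RingHom.ext
    intro a
    obtain ⟨x, rfl⟩ := res_surjective q E a
    rw [resAut_res, resAut_res, res_eq_iff]
    exact h x x.2

/-- The residual automorphism as a monoid homomorphism of the residue field. -/
def resMonoidHom (σ : E ≃ₐ[F] E) : resF q E →* resF q E := (resAut q F E σ : resF q E →* resF q E)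

theorem resMonoidHom_injective
    (h : ∀ σ : E ≃ₐ[F] E, IsInert q F E σ → σ = 1) :
    Function.Injective (resMonoidHom q F E) := by
  intro σ τ hστ
  have h1 : resAut q F E σ = resAut q F E τ := by
    apply RingHom.ext
    intro a
    exact congrArg (fun φ : resF q E →* resF q E => φ a) hστ
  have h2 : IsInert q F E (τ⁻¹ * σ) := by
    intro x hx
    have h3 := (resAut_eq_iff q F E σ τ).1 h1 x hx
    have h4 : (τ⁻¹ * σ) x - x = τ⁻¹ (σ x - τ x) := by
      rw [map_sub]
      show τ⁻¹ (σ x) - x = τ⁻¹ (σ x) - τ⁻¹ (τ x)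
      congr 1
      exact (τ.symm_apply_apply x).symm
    rw [h4, nrm_algEquiv]
    exact h3
  have h5 := h _ h2
  exact (inv_mul_eq_one.1 h5).symm

/-! ### Cyclicity -/

section cyc

/-- The residue field of `E` as an algebra over the residue field of `F`. -/
@[reducible] def resAlgebra : Algebra (resF q F) (resF q E) := (H25.resMap q F E).toAlgebra

attribute [local instance] resAlgebra

theorem resAut_bijective (σ : E ≃ₐ[F] E) : Function.Bijective (resAut q F E σ) :=
  Finite.injective_iff_bijective.1 (resAut q F E σ).injective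

/-- The residual automorphism as an automorphism of the residue field extension. -/
def resAlgEquiv (σ : E ≃ₐ[F] E) : resF q E ≃ₐ[resF q F] resF q E :=
  AlgEquiv.ofBijective
    { toRingHom := resAut q F E σ
      commutes' := fun a => resAut_resMap q F E σ a }
    (resAut_bijective q F E σ)

theorem resAlgEquiv_apply (σ : E ≃ₐ[F] E) (a : resF q E) :
    resAlgEquiv q F E σ a = resAut q F E σ a := rfl

/-- `Gal(E/F) → Gal(k_E/k_F)`. -/
def resHom : (E ≃ₐ[F] E) →* (resF q E ≃ₐ[resF q F] resF q E) :=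
  MonoidHom.mk' (resAlgEquiv q F E) (fun σ τ => by
    apply AlgEquiv.ext
    intro a
    show resAut q F E (σ * τ) a = resAut q F E σ (resAut q F E τ a)
    exact resAut_mul q F E σ τ a)

theorem resHom_injective (h : ∀ σ : E ≃ₐ[F] E, IsInert q F E σ → σ = 1) :
    Function.Injective (resHom q F E) := by
  intro σ τ hστ
  apply resMonoidHom_injective q F E h
  apply MonoidHom.ext
  intro a
  exact congrArg (fun φ : resF q E ≃ₐ[resF q F] resF q E => φ a) hστ

theorem isCyclic_of_inertia_trivial (h : ∀ σ : E ≃ₐ[F] E, IsInert q F E σ → σ = 1) :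
    IsCyclic (E ≃ₐ[F] E) :=
  isCyclic_of_injective (resHom q F E) (resHom_injective q F E h)

end cyc

/-! ### Equality of the value groups -/

section unram

variable [FiniteDimensional F E] [IsGalois F E]

/-- Dedekind independence of the residual automorphisms: some unit `u` has
`∑_σ c_σ σ(u)` of absolute value `1`, for units `c_σ`. -/
theorem exists_nrm_sum_eq_one (h : ∀ σ : E ≃ₐ[F] E, IsInert q F E σ → σ = 1)
    (c : (E ≃ₐ[F] E) → E) (hc : ∀ σ, nrm q E (c σ) = 1) :
    ∃ u : E, nrm q E u ≤ 1 ∧ nrm q E (∑ σ : E ≃ₐ[F] E, c σ * σ u) = 1 := by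
  classical
  have hli : LinearIndependent (resF q E)
      (fun σ : E ≃ₐ[F] E => ((resMonoidHom q F E σ : resF q E →* resF q E) : resF q E → resF q E)) :=
    (linearIndependent_monoidHom (resF q E) (resF q E)).comp _ (resMonoidHom_injective q F E h)
  rw [Fintype.linearIndependent_iff] at hli
  let cb : (E ≃ₐ[F] E) → resF q E := fun σ => res q E ⟨c σ, (hc σ).le⟩
  have hcb : cb 1 ≠ 0 := by
    intro h0
    rw [res_eq_zero_iff] at h0
    have := hc 1
    change nrm q E (c 1) < 1 at h0
    linarith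
  have hne : (∑ σ : E ≃ₐ[F] E, cb σ • ((resMonoidHom q F E σ : resF q E →* resF q E) :
      resF q E → resF q E)) ≠ 0 := fun h0 => hcb (hli cb h0 1)
  obtain ⟨a, ha⟩ := Function.ne_iff.1 hne
  obtain ⟨u, rfl⟩ := res_surjective q E a
  refine ⟨u, u.2, ?_⟩
  have hmem : (∑ σ : E ≃ₐ[F] E, c σ * σ (u : E)) ∈ vring q E := by
    refine sum_mem fun σ _ => ?_
    refine mul_mem (hc σ).le ?_
    rw [mem_vring, nrm_algEquiv]
    exact u.2
  have hres : res q E ⟨_, hmem⟩ ≠ 0 := by
    have h1 : res q E ⟨_, hmem⟩ = ∑ σ : E ≃ₐ[F] E, cb σ * resAut q F E σ (res q E u) := by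
      have h2 : (⟨_, hmem⟩ : vring q E) =
          ∑ σ : E ≃ₐ[F] E, (⟨c σ, (hc σ).le⟩ : vring q E) * vringAut q F E σ u := by
        apply Subtype.ext
        rw [AddSubmonoidClass.coe_finsetSum]
        rfl
      rw [h2, map_sum]
      refine Finset.sum_congr rfl fun σ _ => ?_
      rw [map_mul, resAut_res]
    rw [h1]
    intro h0
    apply ha
    rw [Finset.sum_apply, Pi.zero_apply, ← h0]
    rfl
  have hlt : ¬ nrm q E (∑ σ : E ≃ₐ[F] E, c σ * σ (u : E)) < 1 := by
    intro hlt
    exact hres ((res_eq_zero_iff q E ⟨_, hmem⟩).2 hlt)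
  exact le_antisymm hmem (not_lt.1 hlt)

theorem isUnram_of_inertia_trivial (h : ∀ σ : E ≃ₐ[F] E, IsInert q F E σ → σ = 1) :
    IsUnram q F E := by
  classical
  obtain ⟨π, hπ0, hπ1, hπ⟩ := H68.stmt_Uniformizer q E
  have hπne : π ≠ 0 := by
    rintro rfl
    rw [nrm_zero] at hπ0
    exact lt_irrefl _ hπ0
  -- the units `c_σ = σ π / π`
  let c : (E ≃ₐ[F] E) → E := fun σ => σ π / π
  have hc : ∀ σ, nrm q E (c σ) = 1 := by
    intro σ
    show nrm q E (σ π / π) = 1
    rw [nrm_div, nrm_algEquiv, div_self hπ0.ne']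
  obtain ⟨u, hu, hsum⟩ := exists_nrm_sum_eq_one q F E h c hc
  -- the trace of `u π`
  have htr : algebraMap F E (Algebra.trace F E (u * π)) =
      π * ∑ σ : E ≃ₐ[F] E, c σ * σ u := by
    rw [trace_eq_sum_automorphisms, Finset.mul_sum]
    refine Finset.sum_congr rfl fun σ _ => ?_
    show σ (u * π) = π * (σ π / π * σ u)
    rw [map_mul]
    field_simp
  have hx0 : nrm q F (Algebra.trace F E (u * π)) = nrm q E π := by
    rw [← nrm_algebraMap q F E, htr, nrm_mul, hsum, mul_one]
  intro y
  by_cases hy : y = 0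
  · exact ⟨0, by rw [hy, nrm_zero, nrm_zero]⟩
  · obtain ⟨n, hn⟩ := hπ y hy
    refine ⟨Algebra.trace F E (u * π) ^ n, ?_⟩
    rw [nrm_zpow, hx0, hn]

end unram

/-- **Trivial inertia ⟹ cyclic and unramified.** -/
theorem cyclic_unram_of_inertia_trivial [FiniteDimensional F E] [IsGalois F E]
    (h : ∀ σ : E ≃ₐ[F] E, (∀ x : E, nrm q E x ≤ 1 → nrm q E (σ x - x) < 1) → σ = 1) :
    IsCyclic (E ≃ₐ[F] E) ∧ IsUnram q F E :=
  ⟨isCyclic_of_inertia_trivial q F E h, isUnram_of_inertia_trivial q F E h⟩

end Fermat.Agent.S55.CFT.LOC.H45I
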