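/-
S55/E4 island LOC, package LOC-6: the local input at the places above `p`,
`CFT.Stmt_LocalThetaOnto` (`CFT/Defs_BR2.lean`, helper62).
Sub-coordinator: helper68.  Plan: NOTES/plan/S55_LOC.md, section "LOC-6".

Route (elementary, no corestriction): norm groups detect a cyclic extension of degree `p`,
`(P)`: `E₀/F₁` cyclic of degree `p`, `F/F₁` finite, `E₀ ⊄ F`, `M = E₀F`; then
`x ∈ Fˣ`, `N_{F/F₁} x ∈ N_{E₀/F₁} E₀ˣ` ⟹ `x ∈ N_{M/F} Mˣ`.
* T1/T2 (`(P₀)`: `F/F₁` cyclic of degree `p`): Kummer theory + nondegeneracy of the Hilbert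
  symbol (`Stmt_L5_CupND`) + `dim H² = 1` (`Stmt_L5_H2Dim`).
* T3 (`Stmt_NormDetectGrp`, pure group theory): `(P₀)` for all layers ⟹ `(P)`
  (Sylow subgroups, subnormal chains in `p`-groups, transitivity of norms).
* T4 (`Stmt_CycloQp`): cyclotomic fields over `ℚ_p`.
* T5: assembly.
-/
import Fermat.Agent.S55.CFT.Defs_BR2
import Fermat.Agent.S55.CFT.Defs_LOC

set_option autoImplicit false

noncomputable section

namespace Fermat.Agent.S55.CFT.LOC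

section grp

variable {G A : Type} [Group G] [Finite G] [CommGroup A] [MulDistribMulAction G A]

/-- the relative norm `N_V^U x = ∏_{c ∈ U/V} c • x` (meaningful for `V ≤ U` and `x` fixed by
`V`; coset representatives `Quotient.out`). -/
def relNorm (U V : Subgroup G) (x : A) : A :=
  letI := Fintype.ofFinite (↥U ⧸ V.subgroupOf U)
  ∏ c : ↥U ⧸ V.subgroupOf U, ((Quotient.out c : ↥U) : G) • x

/-- `x` is a norm from the `V`-invariants to the `U`-invariants. -/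
def IsNormFrom (V U : Subgroup G) (x : A) : Prop :=
  ∃ y : A, (∀ v ∈ V, v • y = y) ∧ relNorm U V y = x

end grp

/-- **T3** (pure group theory).  Let `A` be a `G`-module (multiplicative), `p` a prime.  Assume
(h1) for every layer `V ⊴ U ≤ G` of index `p` the norm residue group `A^U / N_V^U A^V` has
     order exactly `p` (cyclic, generated by some `x₀`);
(h2) `(P₀)`: for two different normal subgroups `V₁ ≠ V₂` of index `p` of `U ≤ G`:
     `x ∈ A^{V₁}`, `N_{V₁}^U x ∈ N_{V₂}^U A^{V₂}` ⟹ `x ∈ N_{V₁ ∩ V₂}^{V₁} A^{V₁ ∩ V₂}`.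
Then `(P)`: for `N ⊴ G` of index `p` and ANY subgroup `H ⊄ N`:
     `x ∈ A^H`, `N_H^G x ∈ N_N^G A^N` ⟹ `x ∈ N_{H ∩ N}^H A^{H ∩ N}`.
(Route: (a) `H' ≤ H` of index prime to `p`: `(P)` for `H'` ⟹ `(P)` for `H` (`x^{[H:H']}` and
`x^p` are norms); so WLOG `H` is a `p`-group.  (b) `H ≤ P`, `P` a Sylow `p`-subgroup of `G`:
the step `P ≤ G` has index `d` prime to `p`, and `N_P^G : A^P/N_{P∩N}^P → A^G/N_N^G` is injective
because both groups have order `p` (h1) and `N_P^G ∘ incl = (·)^d`.  (c) `H ≤ P` is subnormal: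
chain of layers of index `p`, (h2) for every layer, transitivity of `relNorm`.) -/
def Stmt_NormDetectGrp : Prop :=
  ∀ (p : ℕ) [Fact p.Prime] (G A : Type) [Group G] [Finite G] [CommGroup A]
    [MulDistribMulAction G A],
    (∀ U V : Subgroup G, V ≤ U → (V.subgroupOf U).Normal → (V.subgroupOf U).index = p →
      ∃ x₀ : A, (∀ u ∈ U, u • x₀ = x₀) ∧ ¬ IsNormFrom V U x₀ ∧
        ∀ x : A, (∀ u ∈ U, u • x = x) → ∃ j : ℕ, IsNormFrom V U (x * x₀ ^ j)) →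
    (∀ U V₁ V₂ : Subgroup G, V₁ ≤ U → V₂ ≤ U → (V₁.subgroupOf U).Normal →
      (V₂.subgroupOf U).Normal → (V₁.subgroupOf U).index = p → (V₂.subgroupOf U).index = p →
      V₁ ≠ V₂ → ∀ x : A, (∀ v ∈ V₁, v • x = x) →
        IsNormFrom V₂ U (relNorm U V₁ x) → IsNormFrom (V₁ ⊓ V₂) V₁ x) →
    ∀ N H : Subgroup G, N.Normal → N.index = p → ¬ H ≤ N →
      ∀ x : A, (∀ h ∈ H, h • x = x) →
        IsNormFrom N ⊤ (relNorm ⊤ H x) → IsNormFrom (H ⊓ N) H x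

/-- **T4** (cyclotomic fields over `ℚ_p`, `p` odd).  Let `E = ℚ_p(ζ)`, `ζ` a primitive
`p^(c+1)`-th root of unity, `c ≥ 1`, and `F₁ = ℚ_p(ζ^p) ⊆ E`.  Then
(a) every `x ∈ ℚ_pˣ` whose unit part is `≡ 1 mod p^(c+1)` (`thetaLoc p (c+1) p x = 1`) is a norm
    from `E`  (`p = N(1 - ζ)`; `1 + p^(c+1) ℤ_p = (1 + p ℤ_p)^{[E:ℚ_p]}`);
(b) `N_{F₁/ℚ_p} : F₁ˣ / N_{E/F₁} Eˣ → ℚ_pˣ / N_{E/ℚ_p} Eˣ` is injective
    (counting: LOC-3 for the cyclic extensions `E/ℚ_p`, `F₁/ℚ_p`, `E/F₁`;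
    `[E : ℚ_p] = p^c (p - 1)` from `|1 - ζ|^{φ(p^(c+1))} = |p|`). -/
def Stmt_CycloQp : Prop :=
  ∀ (p : Nat.Primes) (c : ℕ) (E : Type) [Field E] [Algebra (Qp p) E]
    [FiniteDimensional (Qp p) E] (ζ : E),
    (p : ℕ) ≠ 2 → 1 ≤ c → IsPrimitiveRoot ζ ((p : ℕ) ^ (c + 1)) →
    IntermediateField.adjoin (Qp p) {ζ} = ⊤ →
    (∀ x : (Qp p)ˣ, thetaLoc p (c + 1) p x = 1 → x ∈ normSubgroup (Qp p) E) ∧
    (∀ y : (↥(IntermediateField.adjoin (Qp p) {ζ ^ (p : ℕ)}))ˣ,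
      Units.map (Algebra.norm (Qp p) :
        ↥(IntermediateField.adjoin (Qp p) {ζ ^ (p : ℕ)}) →* Qp p) y ∈ normSubgroup (Qp p) E →
      y ∈ normSubgroup ↥(IntermediateField.adjoin (Qp p) {ζ ^ (p : ℕ)}) E)

end Fermat.Agent.S55.CFT.LOC

end
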