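import Fermat.Agent.S55.CFT.LOC.Defs_LTO2
import Mathlib.FieldTheory.Galois.Basic
import Mathlib.GroupTheory.SpecificGroups.Cyclic

/-!
# S55 / E4 / CFT / LOC, leaf LTO-CK (helper41)

`stmt_CharKer : Stmt_CharKer`: for `M/K` finite Galois and `E/K` Galois of degree `p` inside `M`
there is a character `χ : Gal(M/K) → ℤ/p` whose kernel has fixed field `E`.
-/

set_option autoImplicit false
set_option linter.style.haveILetI false

noncomputable section

namespace Fermat.Agent.S55.CFT.LOC.H41

open Fermat.Agent.S55.CFT Fermat.Agent.S55.CFT.LOC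

/-- **LTO-CK.** -/
theorem stmt_CharKer : Stmt_CharKer := by
  intro p hp K M _ _ _ _ _ E hE hdeg
  haveI : IsGalois K E := hE
  haveI : Normal K E := hE.to_normal
  have hcard : Nat.card (E ≃ₐ[K] E) = p := by
    rw [IsGalois.card_aut_eq_finrank, hdeg]
  haveI : IsCyclic (E ≃ₐ[K] E) := isCyclic_of_prime_card hcard
  have hcard' : Nat.card (E ≃ₐ[K] E) = Nat.card (Multiplicative (ZMod p)) := by
    rw [hcard, Nat.card_eq_fintype_card, Fintype.card_multiplicative, ZMod.card]
  let ι : (E ≃ₐ[K] E) ≃* Multiplicative (ZMod p) := mulEquivOfCyclicCardEq hcard'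
  refine ⟨ι.toMonoidHom.comp (AlgEquiv.restrictNormalHom E), ?_⟩
  have hker : (ι.toMonoidHom.comp (AlgEquiv.restrictNormalHom E)).ker = E.fixingSubgroup := by
    rw [← IntermediateField.restrictNormalHom_ker E]
    ext σ
    simp only [MonoidHom.mem_ker, MonoidHom.comp_apply, MulEquiv.coe_toMonoidHom,
      EmbeddingLike.map_eq_one_iff]
  rw [hker]
  exact IsGalois.fixedField_fixingSubgroup E

end Fermat.Agent.S55.CFT.LOC.H41
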