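import Fermat.Agent.S55.CFT.LOC.Defs_LTO2
import Mathlib.FieldTheory.KummerPolynomial
import Mathlib.FieldTheory.IntermediateField.Adjoin.Basic
import Mathlib.RingTheory.RootsOfUnity.PrimitiveRoots

/-!
# S55 / E4 / CFT / LOC, leaf LTO-KD (helper41)

`stmt_KummerDeg : Stmt_KummerDeg`: if `K` contains a primitive `p^c`-th root of unity (`c ≥ 1`)
and no primitive `p^(c+1)`-th root of unity then `[K(ζ) : K] = p` for a primitive `p^(c+1)`-th
root of unity `ζ`.
-/

set_option autoImplicit false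
set_option linter.style.haveILetI false

noncomputable section

namespace Fermat.Agent.S55.CFT.LOC.H41

open Fermat.Agent.S55.CFT Fermat.Agent.S55.CFT.LOC Polynomial

/-- **LTO-KD.** -/
theorem stmt_KummerDeg : Stmt_KummerDeg := by
  intro p hp c K M _ _ _ hc hex hnex ζ hζ
  classical
  have hpp : p.Prime := hp.out
  obtain ⟨ζ₀, hζ₀⟩ := hex
  have hinj : Function.Injective (algebraMap K M) := (algebraMap K M).injective
  -- the image of `ζ₀` is a primitive `p^c`-th root of unity of `M`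
  have hζ₀M : IsPrimitiveRoot (algebraMap K M ζ₀) (p ^ c) := hζ₀.map_of_injective hinj
  -- `ζ^p` is a power of it
  have hζp : (ζ ^ p) ^ (p ^ c) = 1 := by
    rw [← pow_mul, mul_comm, ← pow_succ]
    exact hζ.pow_eq_one
  obtain ⟨j, -, hj⟩ := hζ₀M.eq_pow_of_pow_eq_one hζp
  set a : K := ζ₀ ^ j with ha
  have haM : algebraMap K M a = ζ ^ p := by rw [ha, map_pow, hj]
  -- a primitive `p`-th root of unity of `K`
  obtain ⟨c', rfl⟩ : ∃ c', c = c' + 1 := ⟨c - 1, by omega⟩
  have hω₀ : IsPrimitiveRoot (ζ₀ ^ (p ^ c')) p := by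
    apply hζ₀.pow (pow_pos hpp.pos _)
    rw [pow_succ]
  have hω₀M : IsPrimitiveRoot (algebraMap K M (ζ₀ ^ (p ^ c'))) p := hω₀.map_of_injective hinj
  -- `a` has no `p`-th root in `K`
  have hno : ∀ b : K, b ^ p ≠ a := by
    intro b hb
    have hζ0 : ζ ≠ 0 := hζ.ne_zero (pow_ne_zero _ hpp.ne_zero)
    have hb0 : algebraMap K M b ≠ 0 := by
      intro h0
      have h1 : (algebraMap K M b) ^ p = ζ ^ p := by rw [← map_pow, hb, haM]
      rw [h0, zero_pow hpp.ne_zero] at h1
      exact pow_ne_zero p hζ0 h1.symm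
    have hq : (ζ / algebraMap K M b) ^ p = 1 := by
      rw [div_pow, ← map_pow, hb, haM]
      exact div_self (pow_ne_zero p hζ0)
    obtain ⟨i, -, hi⟩ := hω₀M.eq_pow_of_pow_eq_one hq
    have hζeq : ζ = algebraMap K M ((ζ₀ ^ (p ^ c')) ^ i * b) := by
      rw [map_mul, map_pow, hi, div_mul_cancel₀ _ hb0]
    apply hnex
    refine ⟨(ζ₀ ^ (p ^ c')) ^ i * b, ?_⟩
    rw [hζeq] at hζ
    exact hζ.of_map_of_injective hinj
  have hirr : Irreducible (X ^ p - C a : K[X]) := X_pow_sub_C_irreducible_of_prime hpp hno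
  have hroot : aeval ζ (X ^ p - C a : K[X]) = 0 := by
    rw [map_sub, map_pow, aeval_X, aeval_C, haM, sub_self]
  have hmonic : (X ^ p - C a : K[X]).Monic := monic_X_pow_sub_C a hpp.ne_zero
  have hmin : (X ^ p - C a : K[X]) = minpoly K ζ :=
    minpoly.eq_of_irreducible_of_monic hirr hroot hmonic
  have hint : IsIntegral K ζ := ⟨X ^ p - C a, hmonic, by rw [← aeval_def]; exact hroot⟩
  rw [IntermediateField.adjoin.finrank hint, ← hmin, natDegree_X_pow_sub_C]

end Fermat.Agent.S55.CFT.LOC.H41
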