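/-
S55/E4 island LOC, package LOC-4a: `#H²(Gal(E/F), Eˣ) = [E : F]` for cyclic extensions of local
fields (`stmt_LocalH2Cyclic`); for any finite cyclic Galois extension of fields
`#H²(Gal(E/F), Eˣ) = [Fˣ : N Eˣ]` (`card_H2_cyclic`) (helper68).
-/
import Fermat.Agent.S55.CFT.LOC.H68_NormIndex

set_option autoImplicit false
set_option linter.unusedSectionVars false
set_option linter.style.haveILetI false

namespace Fermat.Agent.S55.CFT.LOC.H68

open Fermat.Agent.S55.CFT.LOC Fermat.Agent.S55.CFT CategoryTheory

section general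

variable (F E : Type) [Field F] [Field E] [Algebra F E] [FiniteDimensional F E] [IsGalois F E]

/-- `[ker (σ - 1) : N Eˣ] = [Fˣ : N Eˣ]` for a generator `σ` of the Galois group. -/
theorem mhIdx_top_eq_normIndex (σ : E ≃ₐ[F] E) (hσ : ∀ τ : E ≃ₐ[F] E, τ ∈ Subgroup.zpowers σ) :
    (nlN F E).range.relIndex (nlD σ).ker = (normSubgroup F E).index := by
  let ι : Fˣ →* Eˣ := Units.map (algebraMap F E : F →* E)
  have hι : Function.Injective ι := by
    intro a b hab
    apply Units.ext
    apply (algebraMap F E).injective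
    have := congrArg (fun u : Eˣ => (u : E)) hab
    simpa [ι] using this
  have hker : (nlD σ).ker = Subgroup.map ι ⊤ := by
    ext x
    simp only [MonoidHom.mem_ker, Subgroup.mem_map, Subgroup.mem_top, true_and]
    constructor
    · intro hx
      have hσx : σ (x : E) = x := by
        have := congrArg (fun u : Eˣ => (u : E)) hx
        simp only [nlD_coe, Units.val_one] at this
        exact (div_eq_one_iff_eq x.ne_zero).mp this
      obtain ⟨a, ha⟩ := fixed_of_gen F E σ hσ hσx
      have ha0 : a ≠ 0 := by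
        rintro rfl
        rw [map_zero] at ha
        exact x.ne_zero ha.symm
      refine ⟨Units.mk0 a ha0, ?_⟩
      apply Units.ext
      simpa [ι] using ha
    · rintro ⟨a, rfl⟩
      apply Units.ext
      rw [nlD_coe]
      simp [ι]
  have hrange : (nlN F E).range = Subgroup.map ι (normSubgroup F E) := by
    ext x
    simp only [MonoidHom.mem_range, Subgroup.mem_map]
    constructor
    · rintro ⟨y, rfl⟩
      refine ⟨Units.map (Algebra.norm F : E →* F) y, ⟨y, rfl⟩, ?_⟩
      apply Units.ext
      rw [nlN_eq_norm]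
      simp [ι]
    · rintro ⟨a, ⟨y, rfl⟩, rfl⟩
      refine ⟨y, ?_⟩
      apply Units.ext
      rw [nlN_eq_norm]
      simp [ι]
  rw [hker, hrange, Subgroup.relIndex_map_map_of_injective _ _ hι, Subgroup.relIndex_top_right]

end general

/-- counting the target of a surjection with known kernel -/
theorem card_eq_relIndex_of_surjective {A H : Type} [AddCommGroup A] [Module ℤ A]
    [AddCommGroup H] [Module ℤ H] (K R : Submodule ℤ A) (π : K →ₗ[ℤ] H) (hsurj : Function.Surjective π)
    (hker : ∀ x : K, π x = 0 ↔ (x : A) ∈ R) :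
    Nat.card H = R.toAddSubgroup.relIndex K.toAddSubgroup := by
  have hkereq : π.toAddMonoidHom.ker = R.toAddSubgroup.addSubgroupOf K.toAddSubgroup := by
    ext x
    rw [AddMonoidHom.mem_ker, AddSubgroup.mem_addSubgroupOf]
    exact hker x
  have e : (K ⧸ π.toAddMonoidHom.ker) ≃+ H :=
    QuotientAddGroup.quotientKerEquivOfSurjective π.toAddMonoidHom hsurj
  rw [AddSubgroup.relIndex, ← hkereq, AddSubgroup.index_eq_card]
  exact (Nat.card_congr e.toEquiv).symm


section h2

open Rep

variable (F E : Type) [Field F] [Field E] [Algebra F E] [FiniteDimensional F E] [IsGalois F E]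

set_option backward.isDefEq.respectTransparency false in
attribute [local instance] IsCyclic.commGroup in
theorem card_H2_cyclic [IsCyclic (E ≃ₐ[F] E)] (σ : E ≃ₐ[F] E)
    (hσ : ∀ τ : E ≃ₐ[F] E, τ ∈ Subgroup.zpowers σ) :
    Nat.card (groupCohomology (Rep.ofAlgebraAutOnUnits F E) 2) =
      (normSubgroup F E).index := by
  classical
  set A := Rep.ofAlgebraAutOnUnits F E with hA
  let π := Rep.FiniteCyclicGroup.groupCohomologyπEven A σ hσ 2 even_two
  have hsurj : Function.Surjective π.hom := by
    rw [← ModuleCat.epi_iff_surjective]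
    infer_instance
  have hker : ∀ x : LinearMap.ker (applyAsHom A σ - 𝟙 A).hom.toLinearMap,
      π.hom x = 0 ↔ (x : A) ∈ LinearMap.range A.norm.hom.toLinearMap := fun x =>
    Rep.FiniteCyclicGroup.groupCohomologyπEven_eq_zero_iff A σ hσ 2 even_two x
  have h1 := card_eq_relIndex_of_surjective
    (LinearMap.ker (applyAsHom A σ - 𝟙 A).hom.toLinearMap)
    (LinearMap.range A.norm.hom.toLinearMap) π.hom hsurj hker
  rw [h1, ← mhIdx_top_eq_normIndex F E σ hσ, ← Subgroup.relIndex_toAddSubgroup]
  congr 1
  ext x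
  have key : ∀ u : Eˣ, Additive.toMul (Rep.toAdditive
      ((Rep.ofAlgebraAutOnUnits F E).norm.hom (Rep.toAdditive.symm (Additive.ofMul u)))) =
      nlN F E u := by
    intro u
    apply Units.ext
    rw [groupCohomology.norm_ofAlgebraAutOnUnits_eq, nlN_eq_norm]
  constructor
  · rintro ⟨y, rfl⟩
    exact ⟨Additive.toMul (Rep.toAdditive y), (key (Additive.toMul (Rep.toAdditive y))).symm⟩
  · rintro ⟨u, hu⟩
    exact ⟨Rep.toAdditive.symm (Additive.ofMul u), Additive.toMul.injective ((key u).trans hu)⟩

end h2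

theorem stmt_LocalH2Cyclic : Stmt_LocalH2Cyclic := by
  intro q _ F E _ _ _ _ _ _ _ hcyc
  haveI := hcyc
  obtain ⟨σ, hσ⟩ := hcyc.exists_generator
  have h := card_H2_cyclic F E σ hσ
  rw [stmt_LocalNormIndexCyclic q F E hcyc] at h
  exact h

end Fermat.Agent.S55.CFT.LOC.H68
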