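import Fermat.Agent.S55.CFT.LOC.H72_FundResAbs
import Fermat.Agent.S55.CFT.LOC.H58_H2Le
import Fermat.Agent.S55.CFT.LOC.Defs_FC
import Fermat.Agent.S55.CFT.LOC.Defs_L5
import Fermat.Agent.S55.CFT.H58_CorRes

/-!
# S55/E4 island LOC, package L5-H2a (helper72): the `p`-torsion of the local Brauer group

`stmt_BrauerPTors_of : Stmt_LocalH2CyclicP → Stmt_BrauerPTors`: for every finite Galois
extension `E/F` of local fields, two `p`-torsion classes of `H²(Gal(E/F), Eˣ)` are linearly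
dependent modulo `p`.

Route: `P` a Sylow `p`-subgroup; `cor ∘ res = [G : P]` (helper58, `H58.stmt_CorRes`) is prime
to `p`, so `res_P` is injective on `p`-torsion; `H²(P, Eˣ) ≅ H²(Gal(E/E^P), Eˣ)` (helper58,
`H58.resIso`) is finite cyclic by LOC-4f'; in a finite cyclic group the elements killed by `p`
form a group of order at most `p`.
-/

set_option autoImplicit false
set_option linter.unusedSectionVars false

noncomputable section

namespace Fermat.Agent.S55.CFT.LOC.H72

open CategoryTheory CategoryTheory.Limits groupCohomology Rep IntermediateField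

/-- In a finite cyclic additive group two elements killed by the prime `p` are linearly
dependent modulo `p`. -/
theorem exists_dep_of_cyclic {X : Type} [AddCommGroup X] [Finite X] (p : ℕ) (hp : p.Prime)
    (hcyc : ∃ γ : X, ∀ x : X, ∃ n : ℤ, x = n • γ) (u v : X) (hu : (p : ℤ) • u = 0)
    (hv : (p : ℤ) • v = 0) :
    ∃ a b : ℤ, (¬ (p : ℤ) ∣ a ∨ ¬ (p : ℤ) ∣ b) ∧ a • u + b • v = 0 := by
  classical
  have hpF : Fact p.Prime := ⟨hp⟩
  have hp1 : ¬ (p : ℤ) ∣ 1 := by
    intro h
    have := Int.natCast_dvd_natCast.1 (by simpa using h : ((p : ℕ) : ℤ) ∣ ((1 : ℕ) : ℤ))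
    exact hp.one_lt.ne' (Nat.dvd_one.1 this)
  by_cases hu0 : u = 0
  · exact ⟨1, 0, Or.inl hp1, by rw [hu0]; simp⟩
  -- the subgroup of elements killed by `p`
  let T : AddSubgroup X :=
    { carrier := {z | p • z = 0}
      zero_mem' := by simp
      add_mem' := fun {a b} ha hb => by
        show p • (a + b) = 0
        rw [smul_add, show p • a = 0 from ha, show p • b = 0 from hb, add_zero]
      neg_mem' := fun {a} ha => by
        show p • (-a) = 0
        rw [smul_neg, show p • a = 0 from ha, neg_zero] }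
  have hT : ∀ z ∈ T, p • z = 0 := fun z hz => hz
  have hcardT : Nat.card T ≤ p := card_le_of_forall_nsmul_eq_zero hcyc T p hp.pos hT
  have hu' : p • u = 0 := by rw [← natCast_zsmul]; exact hu
  have hv' : p • v = 0 := by rw [← natCast_zsmul]; exact hv
  have hord : addOrderOf u = p := addOrderOf_eq_prime hu' hu0
  have hle : AddSubgroup.zmultiples u ≤ T := by
    rw [AddSubgroup.zmultiples_le]
    exact hu'
  have hcardU : Nat.card (AddSubgroup.zmultiples u) = p := by
    rw [Nat.card_zmultiples, hord]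
  have heq : AddSubgroup.zmultiples u = T :=
    AddSubgroup.eq_of_le_of_card_ge hle (by rw [hcardU]; exact hcardT)
  have hvT : v ∈ AddSubgroup.zmultiples u := by
    rw [heq]
    exact hv'
  obtain ⟨k, hk⟩ := AddSubgroup.mem_zmultiples_iff.1 hvT
  refine ⟨k, -1, Or.inr ?_, ?_⟩
  · intro h
    exact hp1 ((Int.dvd_neg).1 h)
  · rw [hk, neg_smul, one_smul, add_neg_cancel]

/-- A class killed by two coprime integers vanishes. -/
theorem eq_zero_of_coprime_smul {X : Type} [AddCommGroup X] (m n : ℕ) (h : Nat.Coprime m n)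
    (x : X) (hm : m • x = 0) (hn : n • x = 0) : x = 0 := by
  have h1 : ((m : ℤ) * Nat.gcdA m n + (n : ℤ) * Nat.gcdB m n) • x = x := by
    rw [← Nat.gcd_eq_gcd_ab, h]
    simp
  rw [← h1, add_smul, mul_comm (m : ℤ), mul_comm (n : ℤ), mul_smul, mul_smul, natCast_zsmul,
    natCast_zsmul, hm, hn, smul_zero, smul_zero, add_zero]

/-- If `x`, `y` are killed by `p` and `a • x + b • y` is killed by `m` prime to `p`, then
`a • x + b • y = 0`. -/
theorem comb_eq_zero_of_coprime {X : Type} [AddCommGroup X] (p m : ℕ) (h : Nat.Coprime m p)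
    (a b : ℤ) (x y : X) (hx : (p : ℤ) • x = 0) (hy : (p : ℤ) • y = 0)
    (h1 : m • (a • x + b • y) = 0) : a • x + b • y = 0 := by
  have h2 : p • (a • x + b • y) = 0 := by
    have h3 : (p : ℤ) • (a • x + b • y) = a • ((p : ℤ) • x) + b • ((p : ℤ) • y) := by
      module
    rw [← natCast_zsmul, h3, hx, hy, smul_zero, smul_zero, add_zero]
  exact eq_zero_of_coprime_smul m p h _ h1 h2

/-- **L5-H2a**: the `p`-torsion of `H²(Gal(E/F), Eˣ)` is cyclic, from LOC-4f'. -/
theorem stmt_BrauerPTors_of (hC : Stmt_LocalH2CyclicP) : Stmt_BrauerPTors := by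
  intro q _ p _ F E _ _ _ _ _ _ _ x y hx hy
  have hp : p.Prime := Fact.out
  -- a Sylow `p`-subgroup
  obtain ⟨P⟩ : Nonempty (Sylow p (E ≃ₐ[F] E)) := inferInstance
  have hPp : IsPGroup p (P : Subgroup (E ≃ₐ[F] E)) := P.isPGroup'
  have hidx : ¬ p ∣ (P : Subgroup (E ≃ₐ[F] E)).index := P.not_dvd_index
  -- the fixed field, as a finite extension of `ℚ_q`
  let algM : Algebra ℚ_[q] (fixedField (P : Subgroup (E ≃ₐ[F] E))) :=
    ((algebraMap F (fixedField (P : Subgroup (E ≃ₐ[F] E)))).comp (algebraMap ℚ_[q] F)).toAlgebra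
  have tower : IsScalarTower ℚ_[q] F (fixedField (P : Subgroup (E ≃ₐ[F] E))) :=
    IsScalarTower.of_algebraMap_eq (fun _ => rfl)
  have fdM : FiniteDimensional ℚ_[q] (fixedField (P : Subgroup (E ≃ₐ[F] E))) :=
    FiniteDimensional.trans ℚ_[q] F _
  have hPM : IsPGroup p (E ≃ₐ[fixedField (P : Subgroup (E ≃ₐ[F] E))] E) :=
    hPp.of_equiv (H58.subgroupEquivGal (P : Subgroup (E ≃ₐ[F] E)))
  obtain ⟨hcard, γ, hγ⟩ := hC q p (fixedField (P : Subgroup (E ≃ₐ[F] E))) E hPM
  have I2 : groupCohomology (resSub (unitsRep F E) (P : Subgroup (E ≃ₐ[F] E))) 2 ≃ₗ[ℤ]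
      groupCohomology (unitsRep (fixedField (P : Subgroup (E ≃ₐ[F] E))) E) 2 :=
    (H58.resIso (P : Subgroup (E ≃ₐ[F] E)) 2).toLinearEquiv
  have hfinM : Finite (groupCohomology (unitsRep (fixedField (P : Subgroup (E ≃ₐ[F] E))) E) 2) :=
    Nat.finite_of_card_ne_zero (by rw [hcard]; exact Module.finrank_pos.ne')
  have hfin : Finite (groupCohomology (resSub (unitsRep F E) (P : Subgroup (E ≃ₐ[F] E))) 2) :=
    Finite.of_equiv _ I2.symm.toEquiv
  have hcyc : ∃ γ' : groupCohomology (resSub (unitsRep F E) (P : Subgroup (E ≃ₐ[F] E))) 2,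
      ∀ z, ∃ n : ℤ, z = n • γ' := by
    refine ⟨I2.symm γ, fun z => ?_⟩
    obtain ⟨n, hn⟩ := hγ (I2 z)
    exact ⟨n, by rw [← map_zsmul, ← hn, LinearEquiv.symm_apply_apply]⟩
  -- corestriction
  obtain ⟨cor, hcor⟩ := Fermat.Agent.S55.CFT.H58.stmt_CorRes (E ≃ₐ[F] E) (unitsRep F E)
    (P : Subgroup (E ≃ₐ[F] E)) 2
  -- dependence of the restrictions
  obtain ⟨a, b, hab, hdep⟩ := exists_dep_of_cyclic p hp hcyc
    (resMap (unitsRep F E) (P : Subgroup (E ≃ₐ[F] E)) 2 x)
    (resMap (unitsRep F E) (P : Subgroup (E ≃ₐ[F] E)) 2 y)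
    (by rw [← map_zsmul, hx, map_zero]) (by rw [← map_zsmul, hy, map_zero])
  refine ⟨a, b, hab, ?_⟩
  have hres : resMap (unitsRep F E) (P : Subgroup (E ≃ₐ[F] E)) 2 (a • x + b • y) = 0 := by
    rw [map_add, map_zsmul, map_zsmul, hdep]
  have h1 : (P : Subgroup (E ≃ₐ[F] E)).index • (a • x + b • y) = 0 := by
    rw [← hcor, hres, map_zero]
  exact comb_eq_zero_of_coprime p _
    (Nat.coprime_comm.1 ((Nat.Prime.coprime_iff_not_dvd hp).2 hidx)) a b x y hx hy h1

end Fermat.Agent.S55.CFT.LOC.H72
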