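import Fermat.Agent.S55.CFT.Defs_LOC

/-!
# S55/E4 island LOC, package L5-H2b (helper72), part A: the finite level

For a finite Galois extension `L/F` with a primitive `p`-th root of unity `ζ ∈ F` and two
2-cocycles `cb`, `cb'` of `G = Gal(L/F)` with values in `𝔽_p` (trivial action): if the `p`-torsion
of `H²(G, Lˣ)` is cyclic (`BrauerProp`), there are `a`, `b ∈ ℤ`, not both divisible by `p`,
`U : G → Lˣ` and `v ∈ Lˣ` with `d U = ζ ^ (a • cb + b • cb')` and `U(g) ^ p = g v / v`.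
-/

set_option autoImplicit false
set_option linter.unusedSectionVars false
set_option linter.style.haveILetI false

noncomputable section

namespace Fermat.Agent.S55.CFT.LOC.H72

open groupCohomology

section finlevel

variable (F L : Type) [Field F] [Field L] [Algebra F L]
variable {p : ℕ} [Fact p.Prime]

/-- The `p`-torsion of `H²(Gal(L/F), Lˣ)` is cyclic. -/
def BrauerProp (p : ℕ) : Prop :=
  ∀ x y : groupCohomology (unitsRep F L) 2, (p : ℤ) • x = 0 → (p : ℤ) • y = 0 →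
    ∃ a b : ℤ, (¬ (p : ℤ) ∣ a ∨ ¬ (p : ℤ) ∣ b) ∧ a • x + b • y = 0

variable {F}

/-- `ζ ^ j` as a unit of `L`. -/
def zU (ζ : F) (hζ0 : ζ ≠ 0) (j : ZMod p) : Lˣ :=
  Units.mk0 (algebraMap F L ζ ^ j.val)
    (pow_ne_zero _ (fun h => hζ0 ((map_eq_zero_iff _ (algebraMap F L).injective).1 h)))

lemma coe_zU (ζ : F) (hζ0 : ζ ≠ 0) (j : ZMod p) :
    ((zU L ζ hζ0 j : Lˣ) : L) = algebraMap F L ζ ^ j.val := rfl

lemma zU_add {ζ : F} (hζ : IsPrimitiveRoot ζ p) (hζ0 : ζ ≠ 0) (i j : ZMod p) :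
    zU L ζ hζ0 (i + j) = zU L ζ hζ0 i * zU L ζ hζ0 j := by
  apply Units.ext
  show algebraMap F L ζ ^ (i + j).val = algebraMap F L ζ ^ i.val * algebraMap F L ζ ^ j.val
  rw [← pow_add, ← map_pow, ← map_pow, ZMod.val_add]
  congr 1
  have h : ζ ^ ((i.val + j.val) % p) = ζ ^ ((i.val + j.val) % orderOf ζ) := by
    rw [← hζ.eq_orderOf]
  rw [h, pow_mod_orderOf]

lemma zU_zero (ζ : F) (hζ0 : ζ ≠ 0) : zU L ζ hζ0 (0 : ZMod p) = 1 := by
  apply Units.ext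
  show algebraMap F L ζ ^ (0 : ZMod p).val = 1
  rw [ZMod.val_zero, pow_zero]

lemma zU_pow {ζ : F} (hζ : IsPrimitiveRoot ζ p) (hζ0 : ζ ≠ 0) (j : ZMod p) :
    zU L ζ hζ0 j ^ p = 1 := by
  apply Units.ext
  show (algebraMap F L ζ ^ j.val) ^ p = 1
  rw [← pow_mul, mul_comm, pow_mul, ← map_pow, hζ.pow_eq_one, map_one, one_pow]

lemma smul_zU (ζ : F) (hζ0 : ζ ≠ 0) (g : L ≃ₐ[F] L) (j : ZMod p) :
    g • zU L ζ hζ0 j = zU L ζ hζ0 j := by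
  apply Units.ext
  show g (algebraMap F L ζ ^ j.val) = algebraMap F L ζ ^ j.val
  rw [map_pow, g.commutes]

/-- `j ↦ ζ ^ j` as an additive map. -/
def zUadd {ζ : F} (hζ : IsPrimitiveRoot ζ p) (hζ0 : ζ ≠ 0) : ZMod p →+ Additive Lˣ where
  toFun j := Additive.ofMul (zU L ζ hζ0 j)
  map_zero' := congrArg Additive.ofMul (zU_zero L ζ hζ0)
  map_add' i j := congrArg Additive.ofMul (zU_add L hζ hζ0 i j)

lemma zU_zsmul {ζ : F} (hζ : IsPrimitiveRoot ζ p) (hζ0 : ζ ≠ 0) (a : ℤ) (j : ZMod p) :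
    zU L ζ hζ0 (a • j) = zU L ζ hζ0 j ^ a :=
  congrArg Additive.toMul (map_zsmul (zUadd L hζ hζ0) a j)

/-- The multiplicative 2-cocycle `ζ ^ cb`. -/
lemma isMulCocycle₂_zU {ζ : F} (hζ : IsPrimitiveRoot ζ p) (hζ0 : ζ ≠ 0)
    (cb : (L ≃ₐ[F] L) × (L ≃ₐ[F] L) → ZMod p)
    (hcb : ∀ g h j : L ≃ₐ[F] L, cb (g * h, j) + cb (g, h) = cb (h, j) + cb (g, h * j)) :
    IsMulCocycle₂ (fun t => zU L ζ hζ0 (cb t)) := by
  intro g h j
  show zU L ζ hζ0 (cb (g * h, j)) * zU L ζ hζ0 (cb (g, h)) =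
    g • zU L ζ hζ0 (cb (h, j)) * zU L ζ hζ0 (cb (g, h * j))
  rw [smul_zU, ← zU_add L hζ, ← zU_add L hζ, hcb]

/-- The additive cocycle `ζ ^ cb` as an element of `Z²(G, Lˣ)`. -/
def zCoc {ζ : F} (hζ0 : ζ ≠ 0) (cb : (L ≃ₐ[F] L) × (L ≃ₐ[F] L) → ZMod p)
    (he : IsMulCocycle₂ (fun t => zU L ζ hζ0 (cb t))) : cocycles₂ (unitsRep F L) :=
  ⟨fun t => Additive.ofMul (zU L ζ hζ0 (cb t)), (cocyclesOfIsMulCocycle₂ he).2⟩

/-- The class of the cocycle `ζ ^ cb` is killed by `p`. -/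
lemma zsmul_H2π_zU {ζ : F} (hζ : IsPrimitiveRoot ζ p) (hζ0 : ζ ≠ 0)
    (cb : (L ≃ₐ[F] L) × (L ≃ₐ[F] L) → ZMod p)
    (he : IsMulCocycle₂ (fun t => zU L ζ hζ0 (cb t))) :
    (p : ℤ) • H2π (unitsRep F L) (zCoc L hζ0 cb he) = 0 := by
  have h0 : (p : ℤ) • zCoc L hζ0 cb he = 0 := by
    apply Subtype.ext
    funext t
    show (p : ℤ) • Additive.ofMul (zU L ζ hζ0 (cb t)) = 0
    rw [← ofMul_zpow, zpow_natCast, zU_pow L hζ hζ0]
    rfl
  have h1 : H2π (unitsRep F L) ((p : ℤ) • zCoc L hζ0 cb he) = 0 := by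
    rw [h0, map_zero]
  rw [map_zsmul] at h1
  exact h1

theorem exists_cochain_of_brauer [FiniteDimensional F L] {ζ : F} (hζ : IsPrimitiveRoot ζ p)
    (hζ0 : ζ ≠ 0) (hB : BrauerProp F L p)
    (cb cb' : (L ≃ₐ[F] L) × (L ≃ₐ[F] L) → ZMod p)
    (hcb : ∀ g h j : L ≃ₐ[F] L, cb (g * h, j) + cb (g, h) = cb (h, j) + cb (g, h * j))
    (hcb' : ∀ g h j : L ≃ₐ[F] L, cb' (g * h, j) + cb' (g, h) = cb' (h, j) + cb' (g, h * j)) :
    ∃ (a b : ℤ) (U : (L ≃ₐ[F] L) → Lˣ) (v : Lˣ), (¬ (p : ℤ) ∣ a ∨ ¬ (p : ℤ) ∣ b) ∧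
      (∀ g h : L ≃ₐ[F] L,
        g • U h / U (g * h) * U g = zU L ζ hζ0 (a • cb (g, h) + b • cb' (g, h))) ∧
      ∀ g : L ≃ₐ[F] L, g • v / v = U g ^ p := by
  classical
  have he := isMulCocycle₂_zU L hζ hζ0 cb hcb
  have he' := isMulCocycle₂_zU L hζ hζ0 cb' hcb'
  obtain ⟨a, b, hab, hxy⟩ := hB _ _ (zsmul_H2π_zU L hζ hζ0 cb he)
    (zsmul_H2π_zU L hζ hζ0 cb' he')
  have h0 : H2π (unitsRep F L) (a • zCoc L hζ0 cb he + b • zCoc L hζ0 cb' he') = 0 := by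
    rw [map_add, map_zsmul, map_zsmul]
    exact hxy
  rw [H2π_eq_zero_iff] at h0
  obtain ⟨u, hu⟩ := h0
  let U : (L ≃ₐ[F] L) → Lˣ := fun g => Additive.toMul (α := Lˣ) (u g)
  have hU : ∀ g h : L ≃ₐ[F] L,
      g • U h / U (g * h) * U g = zU L ζ hζ0 (a • cb (g, h) + b • cb' (g, h)) := by
    intro g h
    have h1 := congrFun hu (g, h)
    have h2 : g • U h / U (g * h) * U g =
        zU L ζ hζ0 (cb (g, h)) ^ a * zU L ζ hζ0 (cb' (g, h)) ^ b :=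
      congrArg (Additive.toMul (α := Lˣ)) h1
    rw [h2, zU_add L hζ, zU_zsmul L hζ, zU_zsmul L hζ]
  -- `U ^ p` is a 1-cocycle
  have hcoc : IsMulCocycle₁ (fun g => U g ^ p) := by
    intro g h
    show U (g * h) ^ p = g • (U h ^ p) * U g ^ p
    have h1 := hU g h
    have h2 : (g • U h / U (g * h) * U g) ^ p = 1 := by
      rw [h1, zU_pow L hζ]
    rw [smul_pow']
    rw [mul_pow, div_pow] at h2
    rw [div_mul_eq_mul_div, div_eq_one] at h2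
    exact h2.symm
  obtain ⟨v, hv⟩ := isMulCoboundary₁_of_isMulCocycle₁_of_aut_to_units _ hcoc
  exact ⟨a, b, U, v, hab, hU, hv⟩

/-- The same, with all identities in the field `L`. -/
theorem exists_cochain_of_brauer' [FiniteDimensional F L] {ζ : F} (hζ : IsPrimitiveRoot ζ p)
    (hζ0 : ζ ≠ 0) (hB : BrauerProp F L p)
    (cb cb' : (L ≃ₐ[F] L) × (L ≃ₐ[F] L) → ZMod p)
    (hcb : ∀ g h j : L ≃ₐ[F] L, cb (g * h, j) + cb (g, h) = cb (h, j) + cb (g, h * j))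
    (hcb' : ∀ g h j : L ≃ₐ[F] L, cb' (g * h, j) + cb' (g, h) = cb' (h, j) + cb' (g, h * j)) :
    ∃ (a b : ℤ) (U : (L ≃ₐ[F] L) → L) (v : L), (¬ (p : ℤ) ∣ a ∨ ¬ (p : ℤ) ∣ b) ∧
      (∀ g, U g ≠ 0) ∧ v ≠ 0 ∧
      (∀ g h : L ≃ₐ[F] L,
        g (U h) / U (g * h) * U g =
          algebraMap F L ζ ^ (a • cb (g, h) + b • cb' (g, h)).val) ∧
      ∀ g : L ≃ₐ[F] L, g v / v = U g ^ p := by
  obtain ⟨a, b, U, v, hab, hU, hv⟩ := exists_cochain_of_brauer L hζ hζ0 hB cb cb' hcb hcb'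
  refine ⟨a, b, fun g => ((U g : Lˣ) : L), (v : L), hab, fun g => (U g).ne_zero, v.ne_zero,
    fun g h => ?_, fun g => ?_⟩
  · have h1 := congrArg Units.val (hU g h)
    rw [coe_zU] at h1
    rw [← h1]
    simp only [Units.val_mul, Units.val_div_eq_div_val]
    rfl
  · have h1 := congrArg Units.val (hv g)
    rw [Units.val_pow_eq_pow_val] at h1
    rw [← h1]
    simp only [Units.val_div_eq_div_val]
    rfl

end finlevel

end Fermat.Agent.S55.CFT.LOC.H72
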