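import Fermat.Agent.S55.CFT.LOC.H72_H2DimA
import Fermat.Agent.S55.CFT.LOC.H45_Kummer
import Fermat.Agent.S55.CFT.LOC.H68_FL
import Fermat.Agent.S55.CFT.LOC.Defs_L5

/-!
# S55/E4 island LOC, package L5-H2b (helper72), part B: from the finite level to `Γ`

`stmt_L5_H2Dim_of : Stmt_BrauerPTors → Stmt_L5_H2Dim`.

Route (helper68's steps, NOTES/plan/S55_LOC.md): two locally level constant 2-cocycles `c`, `c'`
of `Γ = Gal(Ω/F)` with values in `𝔽_p` factor through a finite Galois level `L/F`; part A gives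
`U : Gal(L/F) → Lˣ`, `v ∈ Lˣ` with `d U = ζ ^ (a c̄ + b c̄')`, `U(σ) ^ p = σ v / v`.  With `η ^ p = v`
in `Ω`: `U(res g) = (g η / η) · ζ ^ m(g)`, and `d m = a c + b c'`.
-/

set_option autoImplicit false
set_option linter.unusedSectionVars false
set_option linter.style.haveILetI false

noncomputable section

namespace Fermat.Agent.S55.CFT.LOC.H72

open Fermat.Agent.S55 Fermat.Agent.S55.Top groupCohomology

section abs

variable {k Ω : Type} [Field k] [Field Ω] [Algebra k Ω] [IsGalois k Ω] [IsAlgClosed Ω]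
variable {p : ℕ} [Fact p.Prime] (F : IntermediateField k Ω)

lemma ze_sub_add {ζ : Ω} (hζ : IsPrimitiveRoot ζ p) (i j l : ZMod p) :
    H45.ze ζ (i - j + l) = H45.ze ζ i / H45.ze ζ j * H45.ze ζ l := by
  have h1 : H45.ze ζ (i - j) * H45.ze ζ j = H45.ze ζ i := by
    rw [← H45.ze_add hζ, sub_add_cancel]
  rw [H45.ze_add hζ, ← h1, mul_div_assoc, div_self (H45.ze_ne_zero hζ j), mul_one]

/-- The finite level of a locally level constant 2-cochain, and its cocycle property. -/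
theorem exists_level₂ (c c' : ↥F.fixingSubgroup × ↥F.fixingSubgroup → ZMod p)
    (hc : tTwo c = 0) (hc' : tTwo c' = 0)
    (hloc : ∃ E : IntermediateField k Ω, FiniteDimensional k E ∧
      ∀ g g' s s' : ↥F.fixingSubgroup, (s : Ω ≃ₐ[k] Ω) ∈ E.fixingSubgroup →
        (s' : Ω ≃ₐ[k] Ω) ∈ E.fixingSubgroup → c (g * s, g' * s') = c (g, g'))
    (hloc' : ∃ E : IntermediateField k Ω, FiniteDimensional k E ∧
      ∀ g g' s s' : ↥F.fixingSubgroup, (s : Ω ≃ₐ[k] Ω) ∈ E.fixingSubgroup →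
        (s' : Ω ≃ₐ[k] Ω) ∈ E.fixingSubgroup → c' (g * s, g' * s') = c' (g, g')) :
    ∃ (L : IntermediateField ↥F Ω) (_ : FiniteDimensional ↥F ↥L) (_ : IsGalois ↥F ↥L)
      (cb cb' : (↥L ≃ₐ[↥F] ↥L) × (↥L ≃ₐ[↥F] ↥L) → ZMod p),
      (∀ g h : ↥F.fixingSubgroup, c (g, h) = cb (H68.resΓ F L g, H68.resΓ F L h)) ∧
      (∀ g h : ↥F.fixingSubgroup, c' (g, h) = cb' (H68.resΓ F L g, H68.resΓ F L h)) ∧
      (∀ g h j : ↥L ≃ₐ[↥F] ↥L, cb (g * h, j) + cb (g, h) = cb (h, j) + cb (g, h * j)) ∧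
      (∀ g h j : ↥L ≃ₐ[↥F] ↥L, cb' (g * h, j) + cb' (g, h) = cb' (h, j) + cb' (g, h * j)) := by
  classical
  obtain ⟨E₁, hE₁, h1⟩ := hloc
  obtain ⟨E₂, hE₂, h2⟩ := hloc'
  haveI := hE₁
  haveI := hE₂
  obtain ⟨L, hLfin, hLgal, hEL⟩ := H68.exists_finLevel F (E₁ ⊔ E₂)
  haveI := hLfin
  haveI := hLgal
  obtain ⟨cb, hcb⟩ := H68.exists_factor₂ F L E₁
    (fun x hx => hEL x ((le_sup_left : E₁ ≤ E₁ ⊔ E₂) hx)) c h1
  obtain ⟨cb', hcb'⟩ := H68.exists_factor₂ F L E₂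
    (fun x hx => hEL x ((le_sup_right : E₂ ≤ E₁ ⊔ E₂) hx)) c' h2
  have hres := H68.resΓ_surjective F L
  refine ⟨L, hLfin, hLgal, cb, cb', hcb, hcb', ?_, ?_⟩
  · intro g h j
    obtain ⟨g, rfl⟩ := hres g
    obtain ⟨h, rfl⟩ := hres h
    obtain ⟨j, rfl⟩ := hres j
    have h3 := congrFun hc (g, h, j)
    simp only [tTwo, Pi.zero_apply] at h3
    rw [hcb, hcb, hcb, hcb, map_mul, map_mul] at h3
    linear_combination -h3
  · intro g h j
    obtain ⟨g, rfl⟩ := hres g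
    obtain ⟨h, rfl⟩ := hres h
    obtain ⟨j, rfl⟩ := hres j
    have h3 := congrFun hc' (g, h, j)
    simp only [tTwo, Pi.zero_apply] at h3
    rw [hcb', hcb', hcb', hcb', map_mul, map_mul] at h3
    linear_combination -h3

/-- **L5-H2b, abstract form.** -/
theorem h2dim_abs [FiniteDimensional k ↥F]
    (hB : ∀ (L : IntermediateField ↥F Ω), FiniteDimensional ↥F ↥L → IsGalois ↥F ↥L →
      BrauerProp ↥F ↥L p)
    {ζ : Ω} (hζF : ζ ∈ F) (hζ : IsPrimitiveRoot ζ p)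
    (c c' : ↥F.fixingSubgroup × ↥F.fixingSubgroup → ZMod p)
    (hc : tTwo c = 0) (hc' : tTwo c' = 0)
    (hloc : ∃ E : IntermediateField k Ω, FiniteDimensional k E ∧
      ∀ g g' s s' : ↥F.fixingSubgroup, (s : Ω ≃ₐ[k] Ω) ∈ E.fixingSubgroup →
        (s' : Ω ≃ₐ[k] Ω) ∈ E.fixingSubgroup → c (g * s, g' * s') = c (g, g'))
    (hloc' : ∃ E : IntermediateField k Ω, FiniteDimensional k E ∧
      ∀ g g' s s' : ↥F.fixingSubgroup, (s : Ω ≃ₐ[k] Ω) ∈ E.fixingSubgroup →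
        (s' : Ω ≃ₐ[k] Ω) ∈ E.fixingSubgroup → c' (g * s, g' * s') = c' (g, g')) :
    ∃ α β : ZMod p, (α ≠ 0 ∨ β ≠ 0) ∧
      ∃ f : ↥F.fixingSubgroup → ZMod p,
        (∃ E : IntermediateField k Ω, FiniteDimensional k E ∧
          ∀ g s : ↥F.fixingSubgroup, (s : Ω ≃ₐ[k] Ω) ∈ E.fixingSubgroup → f (g * s) = f g) ∧
        tOne f = α • c + β • c' := by
  classical
  have hp : p.Prime := Fact.out
  obtain ⟨L, hLfin, hLgal, cb, cb', hcb, hcb', hcoc, hcoc'⟩ :=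
    exists_level₂ F c c' hc hc' hloc hloc'
  haveI := hLfin
  haveI := hLgal
  -- `ζ` as an element of `F`
  have hζ0 : ζ ≠ 0 := hζ.ne_zero hp.ne_zero
  have hζF0 : (⟨ζ, hζF⟩ : ↥F) ≠ 0 := fun h => hζ0 (congrArg Subtype.val h)
  have hζF' : IsPrimitiveRoot (⟨ζ, hζF⟩ : ↥F) p :=
    IsPrimitiveRoot.of_map_of_injective (f := algebraMap ↥F Ω) hζ (algebraMap ↥F Ω).injective
  obtain ⟨a, b, U, v, hab, hU0, hv0', hU, hv⟩ := exists_cochain_of_brauer' (F := ↥F) ↥L hζF'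
    hζF0 (hB L hLfin hLgal) cb cb' hcoc hcoc'
  -- the root `η` of `v`
  set η : Ω := H45.root p (v : Ω) with hηdef
  have hη : η ^ p = (v : Ω) := H45.root_pow _
  have hv0 : (v : Ω) ≠ 0 := fun h => hv0' (Subtype.ext h)
  have hη0 : η ≠ 0 := by
    intro h
    rw [h, zero_pow hp.ne_zero] at hη
    exact hv0 hη.symm
  -- the functions on `Γ`
  let Ut : ↥F.fixingSubgroup → Ω := fun γ => ((U (H68.resΓ F L γ) : ↥L) : Ω)
  have hUt0 : ∀ γ, Ut γ ≠ 0 := fun γ h => hU0 (H68.resΓ F L γ) (Subtype.ext h)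
  let w : ↥F.fixingSubgroup → Ω := fun γ => (γ : Ω ≃ₐ[k] Ω) η / η
  have hγη0 : ∀ γ : ↥F.fixingSubgroup, (γ : Ω ≃ₐ[k] Ω) η ≠ 0 := fun γ =>
    (map_ne_zero_iff _ (γ : Ω ≃ₐ[k] Ω).injective).2 hη0
  have hw0 : ∀ γ, w γ ≠ 0 := fun γ => div_ne_zero (hγη0 γ) hη0
  have hwp : ∀ γ, w γ ^ p = Ut γ ^ p := by
    intro γ
    have h1 := congrArg (Subtype.val : ↥L → Ω) (hv (H68.resΓ F L γ))
    have h3 : (((H68.resΓ F L γ) v : ↥L) : Ω) / (v : Ω) = Ut γ ^ p := h1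
    rw [H68.resΓ_apply] at h3
    show ((γ : Ω ≃ₐ[k] Ω) η / η) ^ p = Ut γ ^ p
    rw [div_pow, ← map_pow, hη, h3]
  -- the cochain `m`
  have hex : ∀ γ, ∃ j : ZMod p, H45.ze ζ j = Ut γ / w γ := fun γ =>
    H45.exists_ze_eq hζ (by rw [div_pow, hwp, div_self (pow_ne_zero _ (hUt0 γ))])
  choose m hm using hex
  refine ⟨(a : ZMod p), (b : ZMod p), ?_, m, ?_, ?_⟩
  · rcases hab with h | h
    · exact Or.inl (fun h0 => h ((ZMod.intCast_zmod_eq_zero_iff_dvd a p).1 h0))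
    · exact Or.inr (fun h0 => h ((ZMod.intCast_zmod_eq_zero_iff_dvd b p).1 h0))
  · -- `m` is locally level constant
    have hηint : IsIntegral k η := Algebra.IsIntegral.isIntegral (R := k) η
    haveI : FiniteDimensional k ↥(IntermediateField.adjoin k {η}) :=
      IntermediateField.adjoin.finiteDimensional hηint
    haveI : FiniteDimensional k ↥L := FiniteDimensional.trans k ↥F ↥L
    haveI : FiniteDimensional k ↥(L.restrictScalars k) :=
      inferInstanceAs (FiniteDimensional k ↥L)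
    refine ⟨L.restrictScalars k ⊔ IntermediateField.adjoin k {η}, inferInstance, ?_⟩
    intro γ s hs
    rw [IntermediateField.mem_fixingSubgroup_iff] at hs
    have hsL : ∀ x ∈ L, (s : Ω ≃ₐ[k] Ω) x = x := fun x hx =>
      hs x ((le_sup_left : L.restrictScalars k ≤ _) hx)
    have hsη : (s : Ω ≃ₐ[k] Ω) η = η :=
      hs η ((le_sup_right : IntermediateField.adjoin k {η} ≤ _)
        (IntermediateField.mem_adjoin_simple_self k η))
    apply H45.ze_injective hζ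
    rw [hm, hm]
    have e1 : H68.resΓ F L (γ * s) = H68.resΓ F L γ := by
      rw [H68.resΓ_eq_iff]
      intro x hx
      rw [Subgroup.coe_mul, AlgEquiv.mul_apply, hsL x hx]
    have e2 : Ut (γ * s) = Ut γ := by
      show ((U (H68.resΓ F L (γ * s)) : ↥L) : Ω) = ((U (H68.resΓ F L γ) : ↥L) : Ω)
      rw [e1]
    have e3 : w (γ * s) = w γ := by
      show ((γ * s : ↥F.fixingSubgroup) : Ω ≃ₐ[k] Ω) η / η = (γ : Ω ≃ₐ[k] Ω) η / η
      rw [Subgroup.coe_mul, AlgEquiv.mul_apply, hsη]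
    rw [e2, e3]
  · -- `d m = a c + b c'`
    funext ⟨γ, δ⟩
    apply H45.ze_injective hζ
    have hγζ : (γ : Ω ≃ₐ[k] Ω) ζ = ζ := H45.fix_of_mem F γ hζF
    -- the coboundary of `U`, in `Ω`
    have hU' : (γ : Ω ≃ₐ[k] Ω) (Ut δ) / Ut (γ * δ) * Ut γ =
        H45.ze ζ (a • c (γ, δ) + b • c' (γ, δ)) := by
      have h1 := congrArg (Subtype.val : ↥L → Ω) (hU (H68.resΓ F L γ) (H68.resΓ F L δ))
      have h2 : (((H68.resΓ F L γ) (U (H68.resΓ F L δ)) : ↥L) : Ω) /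
          ((U (H68.resΓ F L γ * H68.resΓ F L δ) : ↥L) : Ω) * ((U (H68.resΓ F L γ) : ↥L) : Ω) =
          ζ ^ (a • cb (H68.resΓ F L γ, H68.resΓ F L δ) +
            b • cb' (H68.resΓ F L γ, H68.resΓ F L δ)).val := h1
      rw [H68.resΓ_apply, ← map_mul, ← hcb, ← hcb'] at h2
      exact h2
    -- the coboundary of `w`
    have hw' : (γ : Ω ≃ₐ[k] Ω) (w δ) * w γ = w (γ * δ) := by
      show (γ : Ω ≃ₐ[k] Ω) ((δ : Ω ≃ₐ[k] Ω) η / η) * ((γ : Ω ≃ₐ[k] Ω) η / η) =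
        ((γ * δ : ↥F.fixingSubgroup) : Ω ≃ₐ[k] Ω) η / η
      rw [Subgroup.coe_mul, AlgEquiv.mul_apply, map_div₀]
      have h8 := hγη0 γ
      field_simp
    have hA : H45.ze ζ (m δ) = (γ : Ω ≃ₐ[k] Ω) (Ut δ) / (γ : Ω ≃ₐ[k] Ω) (w δ) := by
      rw [← map_div₀, ← hm δ, H45.map_ze hγζ]
    have hγw0 : (γ : Ω ≃ₐ[k] Ω) (w δ) ≠ 0 :=
      (map_ne_zero_iff _ (γ : Ω ≃ₐ[k] Ω).injective).2 (hw0 δ)
    have hrhs : (((a : ZMod p) • c + (b : ZMod p) • c') (γ, δ)) =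
        a • c (γ, δ) + b • c' (γ, δ) := by
      simp only [Pi.add_apply, Pi.smul_apply, smul_eq_mul, zsmul_eq_mul]
    rw [hrhs, ← hU']
    show H45.ze ζ (m δ - m (γ * δ) + m γ) = _
    rw [ze_sub_add hζ, hA, hm, hm, ← hw']
    have h5 := hUt0 (γ * δ)
    have h6 := hUt0 γ
    have h7 := hw0 γ
    field_simp


end abs

/-- **L5-H2b**: `dim H²(F, 𝔽_p) ≤ 1` at the local groups, from the cyclicity of the
`p`-torsion of the finite-level Brauer groups. -/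
theorem stmt_L5_H2Dim_of (hB : Stmt_BrauerPTors) : Stmt_L5_H2Dim := by
  intro q _ p _ F hF hζ c c' hc hloc hc' hloc'
  obtain ⟨ζ, hζF, hζ⟩ := hζ
  haveI := hF
  exact h2dim_abs (k := ℚ_[q]) (Ω := PadicAlgCl q) F
    (fun L hLfin hLgal => by
      haveI := hLfin
      haveI := hLgal
      exact hB q p ↥F ↥L)
    hζF hζ c c' hc hc' hloc hloc'

end Fermat.Agent.S55.CFT.LOC.H72
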