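/-
S55/E4 island LOC, package LOC-1a (helper72): `Fˣ / Fˣⁿ` is finite.
`H72.stmt_LocalPowIndexFinite : CFT.Stmt_LocalPowIndexFinite`, from `H72.pow_eq_of_nrm_sub_one_le`
(Hensel), the uniformiser and the finiteness of the residue rings (`H68`).
-/
import Fermat.Agent.S55.CFT.LOC.H72_PowOpen

set_option autoImplicit false
set_option linter.unusedSectionVars false

namespace Fermat.Agent.S55.CFT.LOC.H72

open Fermat.Agent.S55.CFT.LOC

/-- Every nonzero `x` is `π ^ b * t * y ^ n` with `0 ≤ b < n`, `t` in a fixed finite set. -/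
theorem exists_decomposition (q : ℕ) [Fact q.Prime] (F : Type) [Field F] [Algebra ℚ_[q] F]
    [FiniteDimensional ℚ_[q] F] {n : ℕ} (hn : 0 < n) :
    ∃ (π : F) (T : Finset F), π ≠ 0 ∧ ∀ x : F, x ≠ 0 →
      ∃ (b : ℕ) (t y : F), b < n ∧ t ∈ T ∧ t ≠ 0 ∧ y ≠ 0 ∧ x = π ^ b * t * y ^ n := by
  obtain ⟨π, hπ0, hπ1, hπ⟩ := H68.stmt_Uniformizer q F
  have hπne : π ≠ 0 := fun h => by rw [h, nrm_zero] at hπ0; exact lt_irrefl _ hπ0
  set ν := nrm q F (n : F) with hν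
  have hνpos : 0 < ν := nrm_natCast_pos q F hn
  have hν1 : ν ≤ 1 := nrm_natCast_le q F n
  have hrpos : 0 < ν ^ 2 / 2 := by positivity
  have hr1 : ν ^ 2 / 2 < 1 := by
    have : ν ^ 2 ≤ 1 := pow_le_one₀ hνpos.le hν1
    linarith
  obtain ⟨T, -, hT⟩ := H68.stmt_FiniteResidue q F (ν ^ 2 / 2) hrpos
  refine ⟨π, T, hπne, fun x hx => ?_⟩
  obtain ⟨m, hm⟩ := hπ x hx
  set u := x / π ^ m with hu
  have hπm : π ^ m ≠ 0 := zpow_ne_zero m hπne
  have hu1 : nrm q F u = 1 := by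
    rw [hu, nrm_div, nrm_zpow, hm, div_self (zpow_ne_zero m hπ0.ne')]
  obtain ⟨t, htT, ht⟩ := hT u hu1.le
  have ht1 : nrm q F t = 1 := by
    have h1 : nrm q F (t - u) < 1 := by
      rw [nrm_sub_comm]; exact lt_of_le_of_lt ht hr1
    have h2 := nrm_add_eq_max_of_ne q F (x := u) (y := t - u) (by rw [hu1]; exact h1.ne')
    rw [add_sub_cancel, hu1, max_eq_left h1.le] at h2
    exact h2
  have ht0 : t ≠ 0 := fun h => by rw [h, nrm_zero] at ht1; exact zero_ne_one ht1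
  have hut : nrm q F (u / t - 1) ≤ ν ^ 2 / 2 := by
    have e : u / t - 1 = (u - t) / t := by field_simp
    rw [e, nrm_div, ht1, div_one]
    exact ht
  obtain ⟨w, hw1, hw⟩ := pow_eq_of_nrm_sub_one_le q F hn hut
  have hw0 : w ≠ 0 := fun h => by rw [h, nrm_zero] at hw1; exact zero_ne_one hw1
  have hnZ : (0 : ℤ) < n := by exact_mod_cast hn
  refine ⟨(m % n).toNat, t, π ^ (m / n) * w, ?_, htT, ht0,
    mul_ne_zero (zpow_ne_zero _ hπne) hw0, ?_⟩
  · have h1 : m % n < n := Int.emod_lt_of_pos m hnZ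
    have h2 : 0 ≤ m % n := Int.emod_nonneg m hnZ.ne'
    omega
  · have h2 : 0 ≤ m % n := Int.emod_nonneg m hnZ.ne'
    have e1 : π ^ (m % n).toNat = π ^ (m % (n : ℤ)) := by
      rw [← zpow_natCast, Int.toNat_of_nonneg h2]
    have e2 : (π ^ (m / (n : ℤ)) * w) ^ n = π ^ ((n : ℤ) * (m / n)) * (u / t) := by
      rw [mul_pow, hw, ← zpow_natCast (π ^ (m / (n : ℤ))) n, ← zpow_mul, mul_comm (m / (n : ℤ))]
    rw [e1, e2]
    have e3 : π ^ (m % (n : ℤ)) * π ^ ((n : ℤ) * (m / n)) = π ^ m := by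
      rw [← zpow_add₀ hπne, Int.emod_add_mul_ediv]
    calc x = π ^ m * u := by rw [hu]; field_simp
      _ = π ^ (m % (n : ℤ)) * π ^ ((n : ℤ) * (m / n)) * (t * (u / t)) := by
          rw [e3, mul_div_cancel₀ _ ht0]
      _ = π ^ (m % (n : ℤ)) * t * (π ^ ((n : ℤ) * (m / n)) * (u / t)) := by ring

/-- **LOC-1a**: the `n`-th powers have finite index in `Fˣ`. -/
theorem stmt_LocalPowIndexFinite : Stmt_LocalPowIndexFinite := by
  intro q _ F _ _ _ n hn
  classical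
  obtain ⟨π, T, hπ, hdec⟩ := exists_decomposition q F hn
  set H : Subgroup Fˣ := (powMonoidHom n : Fˣ →* Fˣ).range with hH
  let f : Fin n × T → Fˣ ⧸ H := fun bt =>
    if h : (bt.2 : F) = 0 then 1
    else QuotientGroup.mk (Units.mk0 π hπ ^ (bt.1 : ℕ) * Units.mk0 (bt.2 : F) h)
  have hf : Function.Surjective f := by
    intro c
    obtain ⟨x, rfl⟩ := QuotientGroup.mk_surjective c
    obtain ⟨b, t, y, hb, htT, ht0, hy0, hx⟩ := hdec (x : F) x.ne_zero
    refine ⟨(⟨b, hb⟩, ⟨t, htT⟩), ?_⟩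
    show (if h : t = 0 then (1 : Fˣ ⧸ H)
      else QuotientGroup.mk (Units.mk0 π hπ ^ b * Units.mk0 t h)) = _
    rw [dif_neg ht0, QuotientGroup.eq]
    refine ⟨Units.mk0 y hy0, ?_⟩
    apply Units.ext
    rw [powMonoidHom_apply, Units.val_pow_eq_pow_val, Units.val_mk0, Units.val_mul,
      Units.val_inv_eq_inv_val, Units.val_mul, Units.val_pow_eq_pow_val, Units.val_mk0,
      Units.val_mk0, hx]
    have h1 : π ^ b * t ≠ 0 := mul_ne_zero (pow_ne_zero _ hπ) ht0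
    field_simp
  have : NeZero n := ⟨hn.ne'⟩
  have : Finite (Fˣ ⧸ H) := Finite.of_surjective f hf
  exact Subgroup.index_ne_zero_of_finite

end Fermat.Agent.S55.CFT.LOC.H72
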