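import Fermat.Agent.S55.CFT.LOC.Defs_LTO2

/-!
# LTO-KD (Kummer degree), helper78

If `K` contains a primitive `p^c`-th root of unity (`c ≥ 1`) and no primitive `p^(c+1)`-th root
of unity, then `[K(ζ) : K] = p` for every primitive `p^(c+1)`-th root of unity `ζ`.
-/

set_option autoImplicit false
set_option linter.style.haveILetI false

open Polynomial

namespace Fermat.Agent.S55.CFT.LOC.H78

/-- **LTO-KD.** -/
theorem stmt_KummerDeg : Stmt_KummerDeg := by
  intro p hp c K M _ _ _ hc hex hnex ζ hζ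
  have hpp : p.Prime := hp.out
  obtain ⟨ζ₀, hζ₀⟩ := hex
  haveI : NeZero (p ^ c) := ⟨pow_ne_zero _ hpp.ne_zero⟩
  -- `ζ ^ p` is a primitive `p^c`-th root of unity of `M`, so it comes from `K`
  have hζ₀M : IsPrimitiveRoot (algebraMap K M ζ₀) (p ^ c) :=
    hζ₀.map_of_injective (algebraMap K M).injective
  have hζp : (ζ ^ p) ^ (p ^ c) = 1 := by
    rw [← pow_mul, ← pow_succ']
    exact hζ.pow_eq_one
  obtain ⟨i, -, hi⟩ := hζ₀M.eq_pow_of_pow_eq_one hζp
  set a : K := ζ₀ ^ i with ha
  have haM : algebraMap K M a = ζ ^ p := by rw [ha, map_pow, hi]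
  -- `a` is a primitive `p^c`-th root of unity
  have hζpprim : IsPrimitiveRoot (ζ ^ p) (p ^ c) := by
    have := hζ.pow (n := p ^ (c + 1)) (a := p) (b := p ^ c) (pow_pos hpp.pos _)
      (by rw [pow_succ']) 
    exact this
  have haprim : IsPrimitiveRoot a (p ^ c) := by
    have h1 : IsPrimitiveRoot (algebraMap K M a) (p ^ c) := by rw [haM]; exact hζpprim
    exact IsPrimitiveRoot.of_map_of_injective h1 (algebraMap K M).injective
  -- `a` is not a `p`-th power in `K`
  have hnot : ∀ b : K, b ^ p ≠ a := by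
    intro b hb
    apply hnex
    refine ⟨b, ?_⟩
    have h1 : b ^ (p ^ (c + 1)) = 1 := by
      rw [pow_succ', pow_mul, hb]
      exact haprim.pow_eq_one
    have hdvd : orderOf b ∣ p ^ (c + 1) := orderOf_dvd_of_pow_eq_one h1
    obtain ⟨j, hj, hjeq⟩ := (Nat.dvd_prime_pow hpp).mp hdvd
    have hjc : j = c + 1 := by
      by_contra hne
      have hjle : j ≤ c := by omega
      have h2 : b ^ (p ^ c) = 1 := by
        have : orderOf b ∣ p ^ c := by rw [hjeq]; exact pow_dvd_pow p hjle
        exact orderOf_dvd_iff_pow_eq_one.mp this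
      obtain ⟨c', rfl⟩ : ∃ c', c = c' + 1 := ⟨c - 1, by omega⟩
      have h3 : a ^ (p ^ c') = 1 := by
        rw [← hb, ← pow_mul, ← pow_succ']
        exact h2
      have h4 := haprim.pow_ne_one_of_pos_of_lt (pow_pos hpp.pos c').ne'
        (Nat.pow_lt_pow_right hpp.one_lt (Nat.lt_succ_self c'))
      exact h4 h3
    rw [← hjc, ← hjeq]
    exact IsPrimitiveRoot.orderOf b
  have hirr : Irreducible (X ^ p - C a : K[X]) := X_pow_sub_C_irreducible_of_prime hpp hnot
  have hmonic : (X ^ p - C a : K[X]).Monic := monic_X_pow_sub_C a hpp.ne_zero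
  have hroot : Polynomial.aeval ζ (X ^ p - C a : K[X]) = 0 := by
    simp only [map_sub, map_pow, aeval_X, aeval_C]
    rw [haM, sub_self]
  have hmin : (X ^ p - C a : K[X]) = minpoly K ζ :=
    minpoly.eq_of_irreducible_of_monic hirr hroot hmonic
  have hint : IsIntegral K ζ := ⟨_, hmonic, by rwa [← Polynomial.aeval_def]⟩
  rw [IntermediateField.adjoin.finrank hint, ← hmin]
  exact natDegree_X_pow_sub_C

end Fermat.Agent.S55.CFT.LOC.H78
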